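import Fermat.Agent.S53x.Basic

/-!
# S53: strict type-`𝒟` lifts and the data of the construction (shared definitions for M7/M8)
-/

set_option autoImplicit false

namespace Fermat.Agent.S53x

open IsLocalRing

section

variable (𝒪 : Type) [CommRing 𝒪] [IsLocalRing 𝒪]
variable (𝒟 : ∀ ⦃A : Type⦄ [CommRing A] [IsLocalRing A] [Algebra 𝒪 A], GaloisRepAdic A → Prop)
variable (rbar : GQ →* M2 (ResidueField 𝒪))

/-- `r` is an adically continuous matrix representation over the local `𝒪`-algebra `A` which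
reduces EXACTLY to (the image of) `rbar` and is of type `𝒟`. -/
structure IsDLift (A : Type) [CommRing A] [IsLocalRing A] [Algebra 𝒪 A]
    [IsLocalHom (algebraMap 𝒪 A)] (r : GQ →* M2 A) : Prop where
  cont : AdicCont r
  strict : ∀ σ, (r σ).map (residue A) = (rbar σ).map (ResidueField.map (algebraMap 𝒪 A))
  isD : 𝒟 (ofMat r cont)

/-- Finitely many group elements `g i`, lifts `c i ∈ 𝒪` of the residual traces `tr rbar (g i)`,
and a uniformizer `ϖ`. -/
structure GenData where
  n : ℕ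
  g : Fin n → GQ
  c : Fin n → 𝒪
  hc : ∀ i, residue 𝒪 (c i) = (rbar (g i)).trace
  ϖ : 𝒪
  hϖ : maximalIdeal 𝒪 = Ideal.span {ϖ}

end

section

variable {𝒪 : Type} [CommRing 𝒪] [IsLocalRing 𝒪] {rbar : GQ →* M2 (ResidueField 𝒪)}

/-- The power series ring `𝒪⟦X_none, X_0, …, X_{n-1}⟧` attached to a `GenData`. -/
abbrev GenData.S (G : GenData 𝒪 rbar) : Type := MvPowerSeries (Option (Fin G.n)) 𝒪

/-- The ideal `(X)` generated by the variables. -/
noncomputable abbrev GenData.XX (G : GenData 𝒪 rbar) : Ideal G.S :=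
  Ideal.span (Set.range (MvPowerSeries.X : Option (Fin G.n) → G.S))

/-- `θ : S →ₐ[𝒪] A` is the classifying map of the matrix representation `r`:
`X_none ↦ ϖ`, `X_i ↦ tr r(g i) - c i`. -/
def GenData.IsClassifying (G : GenData 𝒪 rbar) {A : Type} [CommRing A] [Algebra 𝒪 A]
    (θ : G.S →ₐ[𝒪] A) (r : GQ →* M2 A) : Prop :=
  θ (MvPowerSeries.X none) = algebraMap 𝒪 A G.ϖ ∧
    ∀ i, θ (MvPowerSeries.X (some i)) = (r (G.g i)).trace - algebraMap 𝒪 A (G.c i)

end

end Fermat.Agent.S53x
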