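import Mathlib
import Fermat.Prelude.Thm_IsLocalRing_isAdicComplete_of_module_finite

set_option autoImplicit false

namespace Fermat.Agent.S53x

open MvPowerSeries IsLocalRing

section Filtration

variable {σ : Type} {R : Type} [CommRing R]

/-- The ideal of power series whose coefficient at `μ` lies in `I ^ (n - deg μ)`. -/
def psr_filt (I : Ideal R) (n : ℕ) : Ideal (MvPowerSeries σ R) where
  carrier := {f | ∀ μ : σ →₀ ℕ, coeff μ f ∈ I ^ (n - Finsupp.degree μ)}
  add_mem' := by
    intro f g hf hg μ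
    rw [map_add]
    exact Ideal.add_mem _ (hf μ) (hg μ)
  zero_mem' := by
    intro μ
    simp
  smul_mem' := by
    classical
    intro g f hf μ
    rw [smul_eq_mul, coeff_mul]
    refine Ideal.sum_mem _ fun p hp => ?_
    refine Ideal.mul_mem_left _ _ ?_
    have hp' : p.1 + p.2 = μ := by simpa using hp
    have hdeg : Finsupp.degree p.2 ≤ Finsupp.degree μ := by
      rw [← hp', map_add]; exact Nat.le_add_left _ _
    exact Ideal.pow_le_pow_right (Nat.sub_le_sub_left hdeg n) (hf p.2)

lemma psr_mem_filt {I : Ideal R} {n : ℕ} {f : MvPowerSeries σ R} :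
    f ∈ psr_filt (σ := σ) I n ↔ ∀ μ : σ →₀ ℕ, coeff μ f ∈ I ^ (n - Finsupp.degree μ) :=
  Iff.rfl

lemma psr_filt_mul_le (I : Ideal R) (a b : ℕ) :
    psr_filt (σ := σ) I a * psr_filt I b ≤ psr_filt I (a + b) := by
  classical
  rw [Ideal.mul_le]
  intro f hf g hg μ
  rw [coeff_mul]
  refine Ideal.sum_mem _ fun p hp => ?_
  have hp' : p.1 + p.2 = μ := by simpa using hp
  have hdeg : Finsupp.degree p.1 + Finsupp.degree p.2 = Finsupp.degree μ := by
    rw [← hp', map_add]
  have h1 := hf p.1
  have h2 := hg p.2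
  have h3 : coeff p.1 f * coeff p.2 g ∈
      I ^ ((a - Finsupp.degree p.1) + (b - Finsupp.degree p.2)) := by
    rw [pow_add]; exact Ideal.mul_mem_mul h1 h2
  refine Ideal.pow_le_pow_right ?_ h3
  omega

lemma psr_filt_zero (I : Ideal R) : psr_filt (σ := σ) I 0 = ⊤ := by
  rw [Ideal.eq_top_iff_one]
  intro μ
  simp

lemma psr_pow_le_filt (I : Ideal R) (J : Ideal (MvPowerSeries σ R))
    (hJ : J ≤ psr_filt I 1) (n : ℕ) : J ^ n ≤ psr_filt I n := by
  induction n with
  | zero => rw [psr_filt_zero]; exact le_top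
  | succ n ih =>
    rw [pow_succ]
    exact (Ideal.mul_mono ih hJ).trans (psr_filt_mul_le I n 1)

/-- membership in `psr_filt I 1` only concerns the constant coefficient -/
lemma psr_mem_filt_one {I : Ideal R} {f : MvPowerSeries σ R} :
    f ∈ psr_filt (σ := σ) I 1 ↔ constantCoeff f ∈ I := by
  constructor
  · intro h
    have := h 0
    simpa using this
  · intro h μ
    by_cases hμ : μ = 0
    · subst hμ
      simpa using h
    · have : Finsupp.degree μ ≠ 0 := fun h0 => hμ ((Finsupp.degree_eq_zero_iff μ).mp h0)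
      have h1 : 1 - Finsupp.degree μ = 0 := by omega
      rw [h1, pow_zero, Ideal.one_eq_top]
      exact Submodule.mem_top (R := R) (M := R)

lemma psr_X_mem_filt_bot (i : σ) : (X i : MvPowerSeries σ R) ∈ psr_filt (σ := σ) (⊥ : Ideal R) 1 := by
  rw [psr_mem_filt_one]
  simp

lemma psr_span_X_pow_le (n : ℕ) :
    (Ideal.span (Set.range (X : σ → MvPowerSeries σ R))) ^ n ≤ psr_filt ⊥ n := by
  apply psr_pow_le_filt
  rw [Ideal.span_le]
  rintro _ ⟨i, rfl⟩
  exact psr_X_mem_filt_bot i

lemma psr_mem_filt_bot {n : ℕ} {f : MvPowerSeries σ R} :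
    f ∈ psr_filt (σ := σ) (⊥ : Ideal R) n ↔ ∀ μ : σ →₀ ℕ, Finsupp.degree μ < n → coeff μ f = 0 := by
  constructor
  · intro h μ hμ
    have := h μ
    have h1 : n - Finsupp.degree μ ≠ 0 := by omega
    rw [Ideal.bot_pow h1] at this
    simpa using this
  · intro h μ
    by_cases hμ : Finsupp.degree μ < n
    · rw [h μ hμ]; exact Ideal.zero_mem _
    · have h1 : n - Finsupp.degree μ = 0 := by omega
      rw [h1, pow_zero, Ideal.one_eq_top]; exact Submodule.mem_top (R := R) (M := R)

end Filtration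

section SpanX

variable {σ : Type} [Finite σ] {R : Type} [CommRing R]

omit [Finite σ] in
lemma psr_coe_mem_span_X_pow (n : ℕ) (p : MvPolynomial σ R)
    (hp : p ∈ MvPolynomial.idealOfVars σ R ^ n) :
    (p : MvPowerSeries σ R) ∈ (Ideal.span (Set.range (X : σ → MvPowerSeries σ R))) ^ n := by
  have h1 : (MvPolynomial.coeToMvPowerSeries.ringHom (σ := σ) (R := R)) p ∈
      Ideal.map (MvPolynomial.coeToMvPowerSeries.ringHom (σ := σ) (R := R))
        (MvPolynomial.idealOfVars σ R ^ n) := Ideal.mem_map_of_mem _ hp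
  rw [Ideal.map_pow, MvPolynomial.idealOfVars, Ideal.map_span, ← Set.range_comp] at h1
  have h2 : (⇑(MvPolynomial.coeToMvPowerSeries.ringHom (σ := σ) (R := R)) ∘ MvPolynomial.X) =
      (X : σ → MvPowerSeries σ R) := by
    funext i
    simp
  rw [h2] at h1
  exact h1

/-- A power series all of whose coefficients in degree `< n` vanish lies in `(X)^n`. -/
lemma psr_mem_span_X_pow (n : ℕ) (f : MvPowerSeries σ R)
    (hf : ∀ μ : σ →₀ ℕ, Finsupp.degree μ < n → coeff μ f = 0) :
    f ∈ (Ideal.span (Set.range (X : σ → MvPowerSeries σ R))) ^ n := by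
  classical
  set I := Ideal.span (Set.range (X : σ → MvPowerSeries σ R)) with hI
  have hprec : IsPrecomplete I (MvPowerSeries σ R) := inferInstance
  -- the truncations form a Cauchy sequence
  let t : ℕ → MvPowerSeries σ R := fun N => ((truncTotal N f : MvPolynomial σ R) : MvPowerSeries σ R)
  have hcauchy : ∀ {m k : ℕ}, m ≤ k → t m ≡ t k [SMOD (I ^ m • ⊤ : Submodule (MvPowerSeries σ R) (MvPowerSeries σ R))] := by
    intro m k hmk
    rw [SModEq.sub_mem, smul_eq_mul, Ideal.mul_top]
    have := truncTotal_sub_truncTotal_mem_pow_idealOfVars (le_refl m) hmk f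
    have h2 := psr_coe_mem_span_X_pow m _ this
    have h3 : ((truncTotal m f - truncTotal k f : MvPolynomial σ R) : MvPowerSeries σ R) =
        t m - t k := by
      simp only [t]
      exact map_sub (MvPolynomial.coeToMvPowerSeries.ringHom (σ := σ) (R := R)) _ _
    rw [h3] at h2
    exact h2
  obtain ⟨L, hL⟩ := hprec.prec hcauchy
  have hLf : L = f := by
    ext μ
    have h1 := hL (Finsupp.degree μ + 1)
    rw [SModEq.sub_mem, smul_eq_mul, Ideal.mul_top] at h1
    have h2 := psr_span_X_pow_le _ h1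
    rw [psr_mem_filt_bot] at h2
    have h3 := h2 μ (Nat.lt_succ_self _)
    rw [map_sub, sub_eq_zero] at h3
    rw [← h3]
    simp only [t]
    rw [MvPolynomial.coeff_coe, coeff_truncTotal _ (Nat.lt_succ_self _)]
  have h1 := hL n
  rw [SModEq.sub_mem, smul_eq_mul, Ideal.mul_top, hLf] at h1
  have h0 : t n = 0 := by
    simp only [t]
    have : (truncTotal n f : MvPolynomial σ R) = 0 := by
      ext μ
      rw [coeff_truncTotal_eq_ite]
      split_ifs with h
      · simpa using hf μ h
      · simp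
    rw [this]; simp
  rw [h0, zero_sub] at h1
  simpa using (I ^ n).neg_mem h1

end SpanX

section MaxIdeal

variable {σ : Type} {R : Type} [CommRing R] [IsLocalRing R]

lemma psr_mem_maximalIdeal_iff (f : MvPowerSeries σ R) :
    f ∈ maximalIdeal (MvPowerSeries σ R) ↔ constantCoeff f ∈ maximalIdeal R := by
  rw [mem_maximalIdeal, mem_maximalIdeal, mem_nonunits_iff, mem_nonunits_iff,
    MvPowerSeries.isUnit_iff_constantCoeff]

lemma psr_maximalIdeal_eq_filt :
    maximalIdeal (MvPowerSeries σ R) = psr_filt (maximalIdeal R) 1 := by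
  ext f
  rw [psr_mem_maximalIdeal_iff, psr_mem_filt_one]

lemma psr_maximalIdeal_pow_le_filt (n : ℕ) :
    maximalIdeal (MvPowerSeries σ R) ^ n ≤ psr_filt (maximalIdeal R) n :=
  psr_pow_le_filt _ _ (le_of_eq psr_maximalIdeal_eq_filt) n

lemma psr_C_mem_maximalIdeal_pow {a : R} {j : ℕ} (ha : a ∈ maximalIdeal R ^ j) :
    (C a : MvPowerSeries σ R) ∈ maximalIdeal (MvPowerSeries σ R) ^ j := by
  have h1 : (C (σ := σ) (R := R)) a ∈ Ideal.map (C (σ := σ) (R := R)) (maximalIdeal R ^ j) :=
    Ideal.mem_map_of_mem _ ha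
  rw [Ideal.map_pow] at h1
  refine Ideal.pow_right_mono ?_ j h1
  rw [Ideal.map_le_iff_le_comap]
  intro x hx
  rw [Ideal.mem_comap, psr_mem_maximalIdeal_iff]
  simpa using hx

lemma psr_span_X_le_maximalIdeal :
    Ideal.span (Set.range (X : σ → MvPowerSeries σ R)) ≤ maximalIdeal (MvPowerSeries σ R) := by
  rw [Ideal.span_le]
  rintro _ ⟨i, rfl⟩
  rw [SetLike.mem_coe, psr_mem_maximalIdeal_iff]
  simp

omit [IsLocalRing R] in
lemma psr_monomial_mem_span_X_pow (μ : σ →₀ ℕ) :
    (monomial μ (1 : R) : MvPowerSeries σ R) ∈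
      Ideal.span (Set.range (X : σ → MvPowerSeries σ R)) ^ (Finsupp.degree μ) := by
  rw [monomial_eq', map_one, one_mul, Finsupp.degree_apply, Finsupp.prod,
    ← Finset.prod_pow_eq_pow_sum]
  refine Ideal.prod_mem_prod fun i _ => ?_
  exact Ideal.pow_mem_pow (Ideal.subset_span (Set.mem_range_self i)) _

lemma psr_filt_le_maximalIdeal_pow [Finite σ] (n : ℕ) :
    psr_filt (maximalIdeal R) n ≤ maximalIdeal (MvPowerSeries σ R) ^ n := by
  classical
  intro f hf
  have hsplit : f = ((truncTotal n f : MvPolynomial σ R) : MvPowerSeries σ R) +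
      (f - ((truncTotal n f : MvPolynomial σ R) : MvPowerSeries σ R)) := by ring
  rw [hsplit]
  refine Ideal.add_mem _ ?_ ?_
  · -- the head: a finite sum of monomials
    rw [MvPolynomial.as_sum (truncTotal n f)]
    have hcoe : ((∑ v ∈ (truncTotal n f).support,
        MvPolynomial.monomial v (MvPolynomial.coeff v (truncTotal n f)) : MvPolynomial σ R) :
          MvPowerSeries σ R) = ∑ v ∈ (truncTotal n f).support,
        ((MvPolynomial.monomial v (MvPolynomial.coeff v (truncTotal n f)) : MvPolynomial σ R) :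
          MvPowerSeries σ R) :=
      map_sum (MvPolynomial.coeToMvPowerSeries.ringHom (σ := σ) (R := R)) _ _
    rw [hcoe]
    refine Ideal.sum_mem _ fun v _ => ?_
    rw [MvPolynomial.coe_monomial]
    by_cases hv : Finsupp.degree v < n
    · rw [coeff_truncTotal _ hv]
      have h1 : (monomial v (coeff v f) : MvPowerSeries σ R) = C (coeff v f) * monomial v 1 := by
        rw [monomial_eq' v (coeff v f), monomial_eq' v (1 : R), map_one, one_mul]
      rw [h1]
      have h2 := psr_C_mem_maximalIdeal_pow (σ := σ) (hf v)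
      have h3 := Ideal.pow_right_mono (psr_span_X_le_maximalIdeal (σ := σ) (R := R)) _
        (psr_monomial_mem_span_X_pow (R := R) v)
      have h4 := Ideal.mul_mem_mul h2 h3
      rw [← pow_add] at h4
      refine Ideal.pow_le_pow_right ?_ h4
      omega
    · rw [coeff_truncTotal_eq_zero _ (not_lt.mp hv)]
      simp
  · -- the tail
    refine Ideal.pow_right_mono (psr_span_X_le_maximalIdeal (σ := σ) (R := R)) n ?_
    apply psr_mem_span_X_pow
    intro μ hμ
    rw [map_sub, MvPolynomial.coeff_coe, coeff_truncTotal _ hμ, sub_self]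

lemma psr_maximalIdeal_pow_eq_filt [Finite σ] (n : ℕ) :
    maximalIdeal (MvPowerSeries σ R) ^ n = psr_filt (maximalIdeal R) n :=
  le_antisymm (psr_maximalIdeal_pow_le_filt n) (psr_filt_le_maximalIdeal_pow n)

lemma psr_mem_maximalIdeal_pow_iff [Finite σ] (n : ℕ) (f : MvPowerSeries σ R) :
    f ∈ maximalIdeal (MvPowerSeries σ R) ^ n ↔
      ∀ μ : σ →₀ ℕ, coeff μ f ∈ maximalIdeal R ^ (n - Finsupp.degree μ) := by
  rw [psr_maximalIdeal_pow_eq_filt]; rfl

end MaxIdeal

section Complete

variable {σ : Type} [Finite σ] {R : Type} [CommRing R] [IsLocalRing R]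

/-- **D1**: the power series ring over a complete local ring is complete with respect to
its maximal ideal. -/
theorem psr_isAdicComplete [IsAdicComplete (maximalIdeal R) R] :
    IsAdicComplete (maximalIdeal (MvPowerSeries σ R)) (MvPowerSeries σ R) := by
  classical
  have hH : IsHausdorff (maximalIdeal R) R := inferInstance
  have hP : IsPrecomplete (maximalIdeal R) R := inferInstance
  refine { toIsHausdorff := ⟨?_⟩, toIsPrecomplete := ⟨?_⟩ }
  · intro f hf
    ext μ
    rw [map_zero]
    apply hH.haus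
    intro j
    have h1 := hf (j + Finsupp.degree μ)
    rw [SModEq.sub_mem, sub_zero, smul_eq_mul, Ideal.mul_top,
      psr_mem_maximalIdeal_pow_iff] at h1
    have h2 := h1 μ
    rw [Nat.add_sub_cancel] at h2
    rw [SModEq.sub_mem, sub_zero, smul_eq_mul, Ideal.mul_top]
    exact h2
  · intro f hf
    -- coefficientwise limits
    have hc : ∀ μ : σ →₀ ℕ, ∃ L : R, ∀ j : ℕ,
        coeff μ (f (j + Finsupp.degree μ)) ≡ L
          [SMOD (maximalIdeal R ^ j • ⊤ : Submodule R R)] := by
      intro μ
      apply hP.prec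
      intro m k hmk
      have h1 := hf (Nat.add_le_add_right hmk (Finsupp.degree μ))
      rw [SModEq.sub_mem, smul_eq_mul, Ideal.mul_top, psr_mem_maximalIdeal_pow_iff] at h1
      have h2 := h1 μ
      rw [Nat.add_sub_cancel, map_sub] at h2
      rw [SModEq.sub_mem, smul_eq_mul, Ideal.mul_top]
      exact h2
    choose L hL using hc
    let Lf : MvPowerSeries σ R := fun μ => L μ
    have hLf : ∀ μ, coeff μ Lf = L μ := fun μ => rfl
    refine ⟨Lf, fun n => ?_⟩
    rw [SModEq.sub_mem, smul_eq_mul, Ideal.mul_top, psr_mem_maximalIdeal_pow_iff]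
    intro μ
    by_cases hμ : Finsupp.degree μ ≤ n
    · have h1 := hL μ (n - Finsupp.degree μ)
      rw [Nat.sub_add_cancel hμ, SModEq.sub_mem, smul_eq_mul, Ideal.mul_top] at h1
      rw [map_sub, hLf]
      exact h1
    · have h1 : n - Finsupp.degree μ = 0 := by omega
      rw [h1, pow_zero, Ideal.one_eq_top]
      exact Submodule.mem_top (R := R) (M := R)

end Complete

end Fermat.Agent.S53x
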