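import Mathlib
import Fermat.Agent.S53x.DLift
import Fermat.Agent.S53x.PsrMaxAdicComplete

/-!
# S53 / M8-A: the classifying map `θ : G.S →ₐ[𝒪] A` of a strict matrix lift over an
Artinian test algebra

Part 1 (`cm_lift`, `cm_algHom_ext`): homs out of `MvPowerSeries σ 𝒪` (σ finite) into an
`𝒪`-algebra in which the targets of the variables generate a nilpotent ideal.
Part 2: (A1)–(A5) of the plan.
-/

set_option autoImplicit false

namespace Fermat.Agent.S53x

open MvPowerSeries IsLocalRing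

section Lift

variable {σ : Type} [Finite σ] {𝒪 : Type} [CommRing 𝒪] {A : Type} [CommRing A] [Algebra 𝒪 A]

omit [Finite σ] in
lemma cm_aeval_mem (a : σ → A) (N : ℕ) (p : MvPolynomial σ 𝒪)
    (hp : p ∈ MvPolynomial.idealOfVars σ 𝒪 ^ N) :
    MvPolynomial.aeval a p ∈ (Ideal.span (Set.range a)) ^ N := by
  have h1 : (MvPolynomial.aeval a : MvPolynomial σ 𝒪 →ₐ[𝒪] A).toRingHom p ∈
      Ideal.map (MvPolynomial.aeval a : MvPolynomial σ 𝒪 →ₐ[𝒪] A).toRingHom
        (MvPolynomial.idealOfVars σ 𝒪 ^ N) := Ideal.mem_map_of_mem _ hp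
  rw [Ideal.map_pow, MvPolynomial.idealOfVars, Ideal.map_span, ← Set.range_comp] at h1
  have h2 : (⇑(MvPolynomial.aeval a : MvPolynomial σ 𝒪 →ₐ[𝒪] A).toRingHom ∘ MvPolynomial.X) = a := by
    funext i
    simp
  rw [h2] at h1
  exact h1

/-- The `𝒪`-algebra hom `𝒪⟦X⟧ → A` sending `X i ↦ a i`, when `(a)^N = 0`. -/
noncomputable def cm_lift (a : σ → A) (N : ℕ) (hN : Ideal.span (Set.range a) ^ N = ⊥) :
    MvPowerSeries σ 𝒪 →ₐ[𝒪] A :=
  (Ideal.Quotient.liftₐ (MvPolynomial.idealOfVars σ 𝒪 ^ N) (MvPolynomial.aeval a)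
    (fun p hp => by
      have := cm_aeval_mem (𝒪 := 𝒪) a N p hp
      rw [hN] at this
      exact this)).comp
    ((truncTotalAlgHom σ 𝒪 N).restrictScalars 𝒪)

lemma cm_lift_coe (a : σ → A) (N : ℕ) (hN : Ideal.span (Set.range a) ^ N = ⊥)
    (p : MvPolynomial σ 𝒪) :
    cm_lift (𝒪 := 𝒪) a N hN (p : MvPowerSeries σ 𝒪) = MvPolynomial.aeval a p := by
  have h1 : (truncTotalAlgHom σ 𝒪 N) (p : MvPowerSeries σ 𝒪) =
      Ideal.Quotient.mk (MvPolynomial.idealOfVars σ 𝒪 ^ N) p :=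
    (truncTotalAlgHom σ 𝒪 N).commutes p
  unfold cm_lift
  rw [AlgHom.comp_apply, AlgHom.restrictScalars_apply, h1]
  rfl

lemma cm_lift_X (a : σ → A) (N : ℕ) (hN : Ideal.span (Set.range a) ^ N = ⊥) (i : σ) :
    cm_lift (𝒪 := 𝒪) a N hN (X i) = a i := by
  have : (X i : MvPowerSeries σ 𝒪) = ((MvPolynomial.X i : MvPolynomial σ 𝒪) : MvPowerSeries σ 𝒪) :=
    (MvPolynomial.coe_X i).symm
  rw [this, cm_lift_coe, MvPolynomial.aeval_X]

omit [Finite σ] in
/-- the value of an `𝒪`-algebra hom on (the image of) a polynomial -/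
lemma cm_algHom_coe (φ : MvPowerSeries σ 𝒪 →ₐ[𝒪] A) (p : MvPolynomial σ 𝒪) :
    φ (p : MvPowerSeries σ 𝒪) = MvPolynomial.aeval (fun i => φ (X i)) p := by
  have h : (φ.comp (MvPolynomial.coeToMvPowerSeries.algHom 𝒪 (σ := σ) (R := 𝒪))) =
      MvPolynomial.aeval (fun i => φ (X i)) := by
    apply MvPolynomial.algHom_ext
    intro i
    simp
  have := congrArg (fun ψ : MvPolynomial σ 𝒪 →ₐ[𝒪] A => ψ p) h
  simpa using this

/-- Two `𝒪`-algebra homs out of `𝒪⟦X⟧` which agree on the variables, whose images generate a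
nilpotent ideal, are equal. -/
theorem cm_algHom_ext (φ φ' : MvPowerSeries σ 𝒪 →ₐ[𝒪] A) (N : ℕ)
    (hN : Ideal.span (Set.range fun i => φ (X i)) ^ N = ⊥) (h : ∀ i, φ (X i) = φ' (X i)) :
    φ = φ' := by
  have hfun : (fun i => φ (X i)) = fun i => φ' (X i) := funext h
  have hkill : ∀ (ψ : MvPowerSeries σ 𝒪 →ₐ[𝒪] A), (fun i => ψ (X i)) = (fun i => φ (X i)) →
      ∀ f ∈ (Ideal.span (Set.range (X : σ → MvPowerSeries σ 𝒪))) ^ N, ψ f = 0 := by
    intro ψ hψ f hf
    have h1 : ψ.toRingHom f ∈ Ideal.map ψ.toRingHom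
        ((Ideal.span (Set.range (X : σ → MvPowerSeries σ 𝒪))) ^ N) := Ideal.mem_map_of_mem _ hf
    rw [Ideal.map_pow, Ideal.map_span, ← Set.range_comp] at h1
    have h2 : (⇑ψ.toRingHom ∘ (X : σ → MvPowerSeries σ 𝒪)) = fun i => φ (X i) := by
      rw [← hψ]; rfl
    rw [h2, hN] at h1
    exact h1
  ext1 f
  have hrem : f - ((truncTotal N f : MvPolynomial σ 𝒪) : MvPowerSeries σ 𝒪) ∈
      (Ideal.span (Set.range (X : σ → MvPowerSeries σ 𝒪))) ^ N := by
    apply psr_mem_span_X_pow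
    intro μ hμ
    rw [map_sub, MvPolynomial.coeff_coe, coeff_truncTotal _ hμ, sub_self]
  have e1 := hkill φ rfl _ hrem
  have e2 := hkill φ' hfun.symm _ hrem
  rw [map_sub, sub_eq_zero] at e1 e2
  rw [e1, e2, cm_algHom_coe, cm_algHom_coe, hfun]

end Lift

section Classifying

variable {𝒪 : Type} [CommRing 𝒪] [IsLocalRing 𝒪] {rbar : GQ →* M2 (ResidueField 𝒪)}
variable (G : GenData 𝒪 rbar)
variable {A : Type} [CommRing A] [IsLocalRing A] [Algebra 𝒪 A]

/-- The targets of the variables under the classifying map. -/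
noncomputable def cm_targets (r : GQ →* M2 A) : Option (Fin G.n) → A
  | none => algebraMap 𝒪 A G.ϖ
  | some i => (r (G.g i)).trace - algebraMap 𝒪 A (G.c i)

lemma cm_varpi_mem : G.ϖ ∈ maximalIdeal 𝒪 := by
  rw [G.hϖ]; exact Ideal.mem_span_singleton_self _

lemma cm_exists_pow_eq_bot_of_isArtinian [IsArtinianRing A] :
    ∃ N : ℕ, maximalIdeal A ^ N = ⊥ := by
  have h := IsArtinianRing.isNilpotent_jacobson_bot (R := A)
  rw [IsLocalRing.jacobson_eq_maximalIdeal ⊥ bot_ne_top] at h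
  obtain ⟨N, hN⟩ := h
  exact ⟨N, by simpa using hN⟩

variable [IsLocalHom (algebraMap 𝒪 A)]

lemma cm_targets_mem (r : GQ →* M2 A)
    (hstrict : ∀ σ, (r σ).map (residue A) = (rbar σ).map (ResidueField.map (algebraMap 𝒪 A)))
    (o : Option (Fin G.n)) : cm_targets G r o ∈ maximalIdeal A := by
  cases o with
  | none => exact map_nonunit (algebraMap 𝒪 A) _ (cm_varpi_mem G)
  | some i =>
    show (r (G.g i)).trace - algebraMap 𝒪 A (G.c i) ∈ maximalIdeal A
    rw [← residue_eq_zero_iff, map_sub, AddMonoidHom.map_trace (residue A) (r (G.g i)),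
      hstrict (G.g i), ← AddMonoidHom.map_trace, ← G.hc i, ResidueField.map_residue, sub_self]

lemma cm_span_targets_pow (r : GQ →* M2 A)
    (hstrict : ∀ σ, (r σ).map (residue A) = (rbar σ).map (ResidueField.map (algebraMap 𝒪 A)))
    {N : ℕ} (hN : maximalIdeal A ^ N = ⊥) :
    Ideal.span (Set.range (cm_targets G r)) ^ N = ⊥ := by
  have hle : Ideal.span (Set.range (cm_targets G r)) ≤ maximalIdeal A := by
    rw [Ideal.span_le]
    rintro _ ⟨o, rfl⟩
    exact cm_targets_mem G r hstrict o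
  exact le_bot_iff.mp (hN ▸ Ideal.pow_right_mono hle N)

lemma cm_isClassifying_iff (θ : G.S →ₐ[𝒪] A) (r : GQ →* M2 A) :
    G.IsClassifying θ r ↔ ∀ o, θ (X o) = cm_targets G r o := by
  constructor
  · rintro ⟨h0, h1⟩ o
    cases o with
    | none => exact h0
    | some i => exact h1 i
  · intro h
    exact ⟨h none, fun i => h (some i)⟩

/-- **(A1)** existence of the classifying map. -/
theorem cm_exists_classifying [IsArtinianRing A] (r : GQ →* M2 A)
    (hstrict : ∀ σ, (r σ).map (residue A) = (rbar σ).map (ResidueField.map (algebraMap 𝒪 A))) :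
    ∃ θ : G.S →ₐ[𝒪] A, G.IsClassifying θ r := by
  obtain ⟨N, hN⟩ := cm_exists_pow_eq_bot_of_isArtinian (A := A)
  refine ⟨cm_lift (𝒪 := 𝒪) (cm_targets G r) N (cm_span_targets_pow G r hstrict hN), ?_⟩
  rw [cm_isClassifying_iff]
  intro o
  exact cm_lift_X _ _ _ o

/-- **(A2)** uniqueness of the classifying map. -/
theorem cm_classifying_unique [IsArtinianRing A] (r : GQ →* M2 A)
    (hstrict : ∀ σ, (r σ).map (residue A) = (rbar σ).map (ResidueField.map (algebraMap 𝒪 A)))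
    {θ θ' : G.S →ₐ[𝒪] A} (h : G.IsClassifying θ r) (h' : G.IsClassifying θ' r) : θ = θ' := by
  rw [cm_isClassifying_iff] at h h'
  obtain ⟨N, hN⟩ := cm_exists_pow_eq_bot_of_isArtinian (A := A)
  apply cm_algHom_ext θ θ' N
  · have : (fun o => θ (X o)) = cm_targets G r := funext h
    rw [this]
    exact cm_span_targets_pow G r hstrict hN
  · intro o
    rw [h o, h' o]

omit [IsLocalRing A] [IsLocalHom (algebraMap 𝒪 A)] in
/-- **(A3)** compatibility with base change. -/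
theorem cm_classifying_comp {B : Type} [CommRing B] [Algebra 𝒪 B] (φ : A →ₐ[𝒪] B)
    {θ : G.S →ₐ[𝒪] A} {r : GQ →* M2 A} (h : G.IsClassifying θ r) :
    G.IsClassifying (φ.comp θ) (mapRep (φ : A →+* B) r) := by
  obtain ⟨h0, h1⟩ := h
  refine ⟨?_, fun i => ?_⟩
  · rw [AlgHom.comp_apply, h0, AlgHom.commutes]
  · rw [AlgHom.comp_apply, h1 i, map_sub, AlgHom.commutes, mapRep_apply]
    congr 1
    exact AddMonoidHom.map_trace (φ : A →+* B) (r (G.g i))

omit [IsLocalRing A] [IsLocalHom (algebraMap 𝒪 A)] in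
/-- **(A4)** the traces `tr r(g i)` lie in the range of the classifying map. -/
theorem cm_adjoin_le_range {θ : G.S →ₐ[𝒪] A} {r : GQ →* M2 A} (h : G.IsClassifying θ r) :
    Algebra.adjoin 𝒪 (Set.range fun i => (r (G.g i)).trace) ≤ θ.range := by
  apply Algebra.adjoin_le
  rintro _ ⟨i, rfl⟩
  refine ⟨X (some i) + algebraMap 𝒪 G.S (G.c i), ?_⟩
  show θ (X (some i) + algebraMap 𝒪 G.S (G.c i)) = _
  rw [map_add, h.2 i, AlgHom.commutes]
  ring

/-! ### (A5) kernel of the classifying map -/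

omit [IsLocalRing A] [IsLocalHom (algebraMap 𝒪 A)] in
lemma cm_map_XX (θ : G.S →ₐ[𝒪] A) :
    Ideal.map θ G.XX = Ideal.span (Set.range fun o => θ (X o)) := by
  unfold GenData.XX
  rw [Ideal.map_span, ← Set.range_comp]
  rfl

lemma cm_map_XX_le [IsArtinianRing A] (r : GQ →* M2 A)
    (hstrict : ∀ σ, (r σ).map (residue A) = (rbar σ).map (ResidueField.map (algebraMap 𝒪 A)))
    {θ : G.S →ₐ[𝒪] A} (h : G.IsClassifying θ r) : Ideal.map θ G.XX ≤ maximalIdeal A := by
  rw [cm_map_XX, Ideal.span_le]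
  rintro _ ⟨o, rfl⟩
  rw [cm_isClassifying_iff] at h
  show θ (X o) ∈ maximalIdeal A
  rw [h o]
  exact cm_targets_mem G r hstrict o

/-- **(A5a)** a power of `(X)` is killed by the classifying map. -/
theorem cm_exists_pow_le_ker [IsArtinianRing A] (r : GQ →* M2 A)
    (hstrict : ∀ σ, (r σ).map (residue A) = (rbar σ).map (ResidueField.map (algebraMap 𝒪 A)))
    {θ : G.S →ₐ[𝒪] A} (h : G.IsClassifying θ r) :
    ∃ N : ℕ, G.XX ^ N ≤ RingHom.ker θ := by
  obtain ⟨N, hN⟩ := cm_exists_pow_eq_bot_of_isArtinian (A := A)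
  refine ⟨N, ?_⟩
  rw [RingHom.ker_eq_comap_bot, ← Ideal.map_le_iff_le_comap, Ideal.map_pow, ← hN]
  exact Ideal.pow_right_mono (cm_map_XX_le G r hstrict h) N

omit [IsLocalRing A] [IsLocalHom (algebraMap 𝒪 A)] in
/-- **(A5b)** `X_none - ϖ` is killed by the classifying map. -/
theorem cm_X_none_sub_C_mem_ker {θ : G.S →ₐ[𝒪] A} {r : GQ →* M2 A} (h : G.IsClassifying θ r) :
    (X none - C G.ϖ : G.S) ∈ RingHom.ker θ := by
  have hC : (C G.ϖ : G.S) = algebraMap 𝒪 G.S G.ϖ := rfl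
  rw [RingHom.mem_ker, map_sub, h.1, hC, AlgHom.commutes, sub_self]

omit [IsLocalRing 𝒪] in
lemma cm_sub_C_constantCoeff_mem {n : ℕ} (f : MvPowerSeries (Option (Fin n)) 𝒪) :
    f - C (constantCoeff f) ∈
      Ideal.span (Set.range (X : Option (Fin n) → MvPowerSeries (Option (Fin n)) 𝒪)) := by
  have := psr_mem_span_X_pow 1 (f - C (constantCoeff f)) (fun μ hμ => by
    have hμ0 : μ = 0 := by
      have : Finsupp.degree μ = 0 := by omega
      exact (Finsupp.degree_eq_zero_iff μ).mp this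
    subst hμ0
    simp)
  simpa using this

/-- **(A5c)** the classifying map is a local homomorphism. -/
theorem cm_isLocalHom [IsArtinianRing A] (r : GQ →* M2 A)
    (hstrict : ∀ σ, (r σ).map (residue A) = (rbar σ).map (ResidueField.map (algebraMap 𝒪 A)))
    {θ : G.S →ₐ[𝒪] A} (h : G.IsClassifying θ r) : IsLocalHom (θ : G.S →+* A) := by
  constructor
  intro f hf
  rw [MvPowerSeries.isUnit_iff_constantCoeff]
  by_contra hc
  have hc' : constantCoeff f ∈ maximalIdeal 𝒪 := (mem_maximalIdeal _).mpr hc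
  have h1 : θ (f - C (constantCoeff f)) ∈ maximalIdeal A :=
    cm_map_XX_le G r hstrict h (Ideal.mem_map_of_mem _ (cm_sub_C_constantCoeff_mem f))
  have h2 : θ (C (constantCoeff f)) ∈ maximalIdeal A := by
    have hC : (C (constantCoeff f) : G.S) = algebraMap 𝒪 G.S (constantCoeff f) := rfl
    rw [hC, AlgHom.commutes]
    exact map_nonunit (algebraMap 𝒪 A) _ hc'
  have h3 : θ f ∈ maximalIdeal A := by
    have : θ f = θ (f - C (constantCoeff f)) + θ (C (constantCoeff f)) := by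
      rw [← map_add, sub_add_cancel]
    rw [this]
    exact Ideal.add_mem _ h1 h2
  exact ((mem_maximalIdeal _).mp h3) hf

end Classifying

section Quot

variable {𝒪 : Type} [CommRing 𝒪] [IsLocalRing 𝒪] {rbar : GQ →* M2 (ResidueField 𝒪)}
variable (G : GenData 𝒪 rbar)

/-- **(A5d-1)** a proper quotient of `G.S` is a local ring. -/
theorem cm_isLocalRing_quot (J : Ideal G.S) (hJ : J ≠ ⊤) : IsLocalRing (G.S ⧸ J) := by
  haveI : Nontrivial (G.S ⧸ J) := Ideal.Quotient.nontrivial_iff.mpr hJ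
  exact IsLocalRing.of_surjective' (Ideal.Quotient.mk J) Ideal.Quotient.mk_surjective

lemma cm_mk_mem_maximalIdeal (J : Ideal G.S) [IsLocalRing (G.S ⧸ J)] {f : G.S}
    (hf : f ∈ maximalIdeal G.S) : Ideal.Quotient.mk J f ∈ maximalIdeal (G.S ⧸ J) := by
  rw [mem_maximalIdeal, mem_nonunits_iff]
  intro hu
  have hJ : J ≠ ⊤ := by
    intro h
    have : Subsingleton (G.S ⧸ J) := Ideal.Quotient.subsingleton_iff.mpr h
    exact not_subsingleton (G.S ⧸ J) this
  have hJle : J ≤ maximalIdeal G.S := le_maximalIdeal hJ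
  obtain ⟨y, hy⟩ := hu.exists_right_inv
  obtain ⟨g, rfl⟩ := Ideal.Quotient.mk_surjective y
  rw [← map_mul, ← map_one (Ideal.Quotient.mk J), Ideal.Quotient.eq] at hy
  have h1 : f * g ∈ maximalIdeal G.S := Ideal.mul_mem_right _ _ hf
  have h2 : (1 : G.S) ∈ maximalIdeal G.S := by
    have : (1 : G.S) = f * g - (f * g - 1) := by ring
    rw [this]
    exact Ideal.sub_mem _ h1 (hJle hy)
  exact (mem_maximalIdeal _).mp h2 isUnit_one

lemma cm_mk_mem_of_not_isUnit (J : Ideal G.S) [IsLocalRing (G.S ⧸ J)] {f : G.S}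
    (hf : Ideal.Quotient.mk J f ∈ maximalIdeal (G.S ⧸ J)) : f ∈ maximalIdeal G.S := by
  rw [mem_maximalIdeal, mem_nonunits_iff]
  intro hu
  exact (mem_maximalIdeal _).mp hf (hu.map _)

lemma cm_XX_le_maximalIdeal : G.XX ≤ maximalIdeal G.S := by
  unfold GenData.XX
  rw [Ideal.span_le]
  rintro _ ⟨o, rfl⟩
  show (X o : G.S) ∈ maximalIdeal G.S
  rw [psr_mem_maximalIdeal_iff]
  have : constantCoeff (X o : MvPowerSeries (Option (Fin G.n)) 𝒪) = 0 := by
    simp
  rw [this]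
  exact Ideal.zero_mem _

lemma cm_algebraMap_quot (J : Ideal G.S) (c : 𝒪) :
    algebraMap 𝒪 (G.S ⧸ J) c = Ideal.Quotient.mk J (C c) := rfl

/-- the maximal ideal of a quotient with `X_none ≡ ϖ` is generated by the images of the
variables -/
lemma cm_maximalIdeal_quot_le (J : Ideal G.S) [IsLocalRing (G.S ⧸ J)]
    (hϖ : (X none - C G.ϖ : G.S) ∈ J) :
    maximalIdeal (G.S ⧸ J) ≤ Ideal.map (Ideal.Quotient.mk J) G.XX := by
  intro x hx
  obtain ⟨f, rfl⟩ := Ideal.Quotient.mk_surjective x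
  have hf : f ∈ maximalIdeal G.S := cm_mk_mem_of_not_isUnit G J hx
  rw [psr_mem_maximalIdeal_iff, G.hϖ, Ideal.mem_span_singleton] at hf
  obtain ⟨u, hu⟩ := hf
  have h1 : f = (f - C (constantCoeff f)) + (X none : G.S) * C u - (X none - C G.ϖ) * C u := by
    have : (C (constantCoeff f) : G.S) = C G.ϖ * C u := by rw [hu, map_mul]
    rw [this]; ring
  rw [h1, map_sub, map_add]
  have h2 : Ideal.Quotient.mk J ((X none - C G.ϖ) * C u) = 0 :=
    Ideal.Quotient.eq_zero_iff_mem.mpr (Ideal.mul_mem_right _ _ hϖ)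
  rw [h2, sub_zero]
  refine Ideal.add_mem _ (Ideal.mem_map_of_mem _ (cm_sub_C_constantCoeff_mem f)) ?_
  refine Ideal.mem_map_of_mem _ (Ideal.mul_mem_right _ _ ?_)
  exact Ideal.subset_span ⟨none, rfl⟩

/-- **(A5d-2)** `G.S ⧸ J` is an Artinian test algebra when `(X)^N ≤ J` and `X_none - ϖ ∈ J`. -/
theorem cm_quot_isArtinianTestAlgebra [IsNoetherianRing 𝒪] (J : Ideal G.S)
    [IsLocalRing (G.S ⧸ J)] {N : ℕ} (hN : G.XX ^ N ≤ J) (hϖ : (X none - C G.ϖ : G.S) ∈ J) :
    GaloisRep.IsArtinianTestAlgebra 𝒪 (G.S ⧸ J) where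
  isLocalHom := by
    constructor
    intro c hc
    by_contra hcu
    have hcm : c ∈ maximalIdeal 𝒪 := (mem_maximalIdeal _).mpr hcu
    have h1 : (C c : G.S) ∈ maximalIdeal G.S := by
      rw [psr_mem_maximalIdeal_iff]
      simpa using hcm
    have h2 := cm_mk_mem_maximalIdeal G J h1
    rw [← cm_algebraMap_quot] at h2
    exact (mem_maximalIdeal _).mp h2 hc
  residue_surjective := by
    intro x
    obtain ⟨y, rfl⟩ := IsLocalRing.residue_surjective x
    obtain ⟨f, rfl⟩ := Ideal.Quotient.mk_surjective y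
    refine ⟨constantCoeff f, ?_⟩
    show residue (G.S ⧸ J) (algebraMap 𝒪 (G.S ⧸ J) (constantCoeff f)) = _
    rw [cm_algebraMap_quot, ← sub_eq_zero, ← map_sub, residue_eq_zero_iff, ← map_sub]
    apply cm_mk_mem_maximalIdeal
    have : C (constantCoeff f) - f = -(f - C (constantCoeff f)) := by ring
    rw [this]
    exact Ideal.neg_mem_iff _ |>.mpr (cm_XX_le_maximalIdeal G (cm_sub_C_constantCoeff_mem f))
  isArtinian := by
    rw [isArtinianRing_iff_isNilpotent_maximalIdeal]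
    refine ⟨N, ?_⟩
    rw [Ideal.zero_eq_bot, eq_bot_iff]
    calc maximalIdeal (G.S ⧸ J) ^ N
        ≤ (Ideal.map (Ideal.Quotient.mk J) G.XX) ^ N :=
          Ideal.pow_right_mono (cm_maximalIdeal_quot_le G J hϖ) N
      _ = Ideal.map (Ideal.Quotient.mk J) (G.XX ^ N) := (Ideal.map_pow _ _ _).symm
      _ ≤ Ideal.map (Ideal.Quotient.mk J) J := Ideal.map_mono hN
      _ = ⊥ := Ideal.map_quotient_self J

end Quot

/-! ### The M8-A statements in the exact shape fixed by the captain's skeleton -/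

section Exact

variable {𝒪 : Type} [CommRing 𝒪] [IsDomain 𝒪] [IsDiscreteValuationRing 𝒪]
  [IsAdicComplete (maximalIdeal 𝒪) 𝒪] [Finite (ResidueField 𝒪)]
variable {rbar : GQ →* M2 (ResidueField 𝒪)} (G : GenData 𝒪 rbar)

theorem exists_classifying {A : Type} [CommRing A] [IsLocalRing A] [Algebra 𝒪 A]
    (hA : GaloisRep.IsArtinianTestAlgebra 𝒪 A) (r : GQ →* M2 A)
    (hstrict : haveI := hA.isLocalHom
      ∀ σ, (r σ).map (residue A) = (rbar σ).map (ResidueField.map (algebraMap 𝒪 A))) :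
    ∃ θ : G.S →ₐ[𝒪] A, G.IsClassifying θ r := by
  haveI := hA.isLocalHom
  haveI := hA.isArtinian
  exact cm_exists_classifying G r hstrict

theorem classifying_unique {A : Type} [CommRing A] [IsLocalRing A] [Algebra 𝒪 A]
    (hA : GaloisRep.IsArtinianTestAlgebra 𝒪 A) (r : GQ →* M2 A) (θ θ' : G.S →ₐ[𝒪] A)
    (hstrict : haveI := hA.isLocalHom
      ∀ σ, (r σ).map (residue A) = (rbar σ).map (ResidueField.map (algebraMap 𝒪 A)))
    (h : G.IsClassifying θ r) (h' : G.IsClassifying θ' r) : θ = θ' := by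
  haveI := hA.isLocalHom
  haveI := hA.isArtinian
  exact cm_classifying_unique G r hstrict h h'

theorem classifying_comp {A B : Type} [CommRing A] [Algebra 𝒪 A] [CommRing B] [Algebra 𝒪 B]
    (φ : A →ₐ[𝒪] B) (r : GQ →* M2 A) (θ : G.S →ₐ[𝒪] A) (h : G.IsClassifying θ r) :
    G.IsClassifying (φ.comp θ) (mapRep (φ : A →+* B) r) :=
  cm_classifying_comp G φ h

theorem adjoin_le_range {A : Type} [CommRing A] [IsLocalRing A] [Algebra 𝒪 A]
    (hA : GaloisRep.IsArtinianTestAlgebra 𝒪 A) (r : GQ →* M2 A) (θ : G.S →ₐ[𝒪] A)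
    (h : G.IsClassifying θ r) :
    Algebra.adjoin 𝒪 (Set.range fun i => (r (G.g i)).trace) ≤ θ.range :=
  cm_adjoin_le_range G h

theorem classifying_ker {A : Type} [CommRing A] [IsLocalRing A] [Algebra 𝒪 A]
    (hA : GaloisRep.IsArtinianTestAlgebra 𝒪 A) (r : GQ →* M2 A) (θ : G.S →ₐ[𝒪] A)
    (hstrict : haveI := hA.isLocalHom
      ∀ σ, (r σ).map (residue A) = (rbar σ).map (ResidueField.map (algebraMap 𝒪 A)))
    (h : G.IsClassifying θ r) :
    RingHom.ker (θ : G.S →+* A) ≠ ⊤ ∧ (∃ N, G.XX ^ N ≤ RingHom.ker (θ : G.S →+* A)) ∧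
      (MvPowerSeries.X none - MvPowerSeries.C G.ϖ : G.S) ∈ RingHom.ker (θ : G.S →+* A) := by
  haveI := hA.isLocalHom
  haveI := hA.isArtinian
  refine ⟨RingHom.ker_ne_top _, ?_, ?_⟩
  · obtain ⟨N, hN⟩ := cm_exists_pow_le_ker G r hstrict h
    exact ⟨N, hN⟩
  · exact cm_X_none_sub_C_mem_ker G h

end Exact

end Fermat.Agent.S53x
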