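import Fermat.Agent.S53x.GramBasis

/-!
# S53 module M1b: equal traces + unit Gram determinant ⇒ conjugate (Carayol T1)

Contains a Skolem–Noether theorem for `M2 A` over a local ring `A`:
every unital multiplicative `A`-linear endomorphism of `M2 A` is conjugation by an invertible matrix.
-/

set_option autoImplicit false

namespace Fermat.Agent.S53x

open Matrix IsLocalRing

section SkolemNoether

variable {A : Type} [CommRing A]

/-- Entries of a triple product lie in an ideal containing all entries of the middle factor. -/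
lemma sn_entry_mem_of_middle (I : Ideal A) (P Q R : M2 A) (hQ : ∀ a b, Q a b ∈ I) (i j : Fin 2) :
    (P * Q * R) i j ∈ I := by
  rw [Matrix.mul_apply]
  refine Ideal.sum_mem _ fun l _ => Ideal.mul_mem_right _ _ ?_
  rw [Matrix.mul_apply]
  exact Ideal.sum_mem _ fun m _ => Ideal.mul_mem_left _ _ (hQ m l)

variable (Θ : M2 A →ₗ[A] M2 A) (hmul : ∀ y z, Θ (y * z) = Θ y * Θ z) (hone : Θ 1 = 1)

/-- Images of the matrix units. -/
noncomputable def snF (i j : Fin 2) : M2 A := Θ (Matrix.single i j (1 : A))

include hmul in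
lemma snF_mul_same (i j k : Fin 2) : snF Θ i j * snF Θ j k = snF Θ i k := by
  unfold snF
  rw [← hmul, Matrix.single_mul_single_same, mul_one]

include hmul in
lemma snF_mul_of_ne (i j k l : Fin 2) (h : j ≠ k) : snF Θ i j * snF Θ k l = 0 := by
  unfold snF
  rw [← hmul, Matrix.single_mul_single_of_ne _ _ _ _ h, map_zero]

include hone in
lemma snF_sum_diag : snF Θ 0 0 + snF Θ 1 1 = 1 := by
  unfold snF
  rw [← map_add, ← hone]
  congr 1
  ext i j
  fin_cases i <;> fin_cases j <;> simp [Matrix.single]

lemma sn_apply_eq_sum (y : M2 A) : Θ y = ∑ j, ∑ k, y j k • snF Θ j k := by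
  conv_lhs => rw [Matrix.matrix_eq_sum_single y]
  rw [map_sum]
  refine Finset.sum_congr rfl fun j _ => ?_
  rw [map_sum]
  refine Finset.sum_congr rfl fun k _ => ?_
  unfold snF
  rw [← map_smul]
  congr 1
  ext a b
  simp [Matrix.single, Matrix.smul_apply]

include hmul hone in
/-- Some entry of `Θ E₀₀` is a unit (over a local ring). -/
lemma sn_exists_unit_entry [IsLocalRing A] : ∃ a b, IsUnit (snF Θ 0 0 a b) := by
  by_contra hcon
  simp only [not_exists] at hcon
  have hQ : ∀ a b, snF Θ 0 0 a b ∈ maximalIdeal A := fun a b =>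
    (IsLocalRing.mem_maximalIdeal _).mpr (hcon a b)
  have h11 : snF Θ 1 1 = snF Θ 1 0 * snF Θ 0 0 * snF Θ 0 1 := by
    rw [snF_mul_same Θ hmul, snF_mul_same Θ hmul]
  have h1 : (1 : M2 A) = snF Θ 0 0 + snF Θ 1 0 * snF Θ 0 0 * snF Θ 0 1 := by
    rw [← h11, snF_sum_diag Θ hone]
  have h2 : (1 : M2 A) 0 0 ∈ maximalIdeal A := by
    rw [h1, Matrix.add_apply]
    exact Ideal.add_mem _ (hQ 0 0) (sn_entry_mem_of_middle _ _ _ _ hQ 0 0)
  rw [Matrix.one_apply_eq] at h2
  exact (IsLocalRing.mem_maximalIdeal _).mp h2 isUnit_one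

/-- The intertwiner attached to a column index `b`. -/
noncomputable def snX (b : Fin 2) : M2 A := ∑ i, snF Θ i 0 * Matrix.single b i (1 : A)

/-- The reverse intertwiner attached to a row index `a`. -/
noncomputable def snY (a : Fin 2) : M2 A := ∑ i, Matrix.single i a (1 : A) * snF Θ 0 i

include hmul in
lemma snX_mul_single (b j k : Fin 2) :
    snX Θ b * Matrix.single j k (1 : A) = snF Θ j k * snX Θ b := by
  unfold snX
  rw [Finset.sum_mul, Finset.mul_sum]
  have hL : ∀ i : Fin 2, snF Θ i 0 * Matrix.single b i (1 : A) * Matrix.single j k (1 : A)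
      = if i = j then snF Θ j 0 * Matrix.single b k (1 : A) else 0 := by
    intro i
    by_cases hij : i = j
    · subst hij
      rw [if_pos rfl, mul_assoc, Matrix.single_mul_single_same, mul_one]
    · rw [if_neg hij, mul_assoc, Matrix.single_mul_single_of_ne _ _ _ _ hij, mul_zero]
  have hR : ∀ i : Fin 2, snF Θ j k * (snF Θ i 0 * Matrix.single b i (1 : A))
      = if i = k then snF Θ j 0 * Matrix.single b k (1 : A) else 0 := by
    intro i
    by_cases hik : i = k
    · subst hik
      rw [if_pos rfl, ← mul_assoc, snF_mul_same Θ hmul]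
    · rw [if_neg hik, ← mul_assoc, snF_mul_of_ne Θ hmul _ _ _ _ (Ne.symm hik), zero_mul]
  simp only [hL, hR, Finset.sum_ite_eq', Finset.mem_univ, if_true]

include hmul in
lemma snX_mul (b : Fin 2) (y : M2 A) : snX Θ b * y = Θ y * snX Θ b := by
  rw [sn_apply_eq_sum Θ y]
  conv_lhs => rw [Matrix.matrix_eq_sum_single y]
  rw [Finset.mul_sum, Finset.sum_mul]
  refine Finset.sum_congr rfl fun j _ => ?_
  rw [Finset.mul_sum, Finset.sum_mul]
  refine Finset.sum_congr rfl fun k _ => ?_
  have : Matrix.single j k (y j k) = y j k • Matrix.single j k (1 : A) := by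
    ext a b
    simp [Matrix.single, Matrix.smul_apply]
  rw [this, Matrix.mul_smul, Matrix.smul_mul, snX_mul_single Θ hmul]

include hmul in
lemma snY_mul_snX (a b : Fin 2) : snY Θ a * snX Θ b = (snF Θ 0 0 a b) • (1 : M2 A) := by
  unfold snY snX
  rw [Finset.sum_mul]
  have h : ∀ i : Fin 2, Matrix.single i a (1 : A) * snF Θ 0 i *
        ∑ l, snF Θ l 0 * Matrix.single b l (1 : A)
      = Matrix.single i i (snF Θ 0 0 a b) := by
    intro i
    rw [Finset.mul_sum]
    have h' : ∀ l : Fin 2, Matrix.single i a (1 : A) * snF Θ 0 i *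
          (snF Θ l 0 * Matrix.single b l (1 : A))
        = if l = i then Matrix.single i i (snF Θ 0 0 a b) else 0 := by
      intro l
      by_cases hli : l = i
      · subst hli
        rw [if_pos rfl, mul_assoc, ← mul_assoc (snF Θ 0 l), snF_mul_same Θ hmul, ← mul_assoc,
          Matrix.single_mul_mul_single, one_mul, mul_one]
      · rw [if_neg hli, mul_assoc, ← mul_assoc (snF Θ 0 i),
          snF_mul_of_ne Θ hmul _ _ _ _ (Ne.symm hli), zero_mul, mul_zero]
    simp only [h', Finset.sum_ite_eq', Finset.mem_univ, if_true]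
  simp only [h]
  ext i j
  fin_cases i <;> fin_cases j <;> simp [Matrix.single, Matrix.sum_apply, Fin.sum_univ_two]

include hmul hone in
/-- **Skolem–Noether** for `M2 A`, `A` local: a unital multiplicative linear endomorphism of
`M2 A` is a conjugation. -/
theorem skolemNoether_M2 [IsLocalRing A] :
    ∃ X : M2 A, IsUnit X.det ∧ ∀ y, X * y = Θ y * X := by
  obtain ⟨a, b, hab⟩ := sn_exists_unit_entry Θ hmul hone
  refine ⟨snX Θ b, ?_, snX_mul Θ hmul b⟩
  have h := congrArg Matrix.det (snY_mul_snX Θ hmul a b)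
  rw [Matrix.det_mul, Matrix.det_smul, Matrix.det_one, mul_one, Fintype.card_fin] at h
  have hu : IsUnit ((snY Θ a).det * (snX Θ b).det) := by
    rw [h]; exact hab.pow 2
  exact isUnit_of_mul_isUnit_right hu

end SkolemNoether

section Carayol

variable {Γ A : Type} [Monoid Γ] [CommRing A]

/-- The linear map sending the basis `r (g i)` to `r' (g i)`. -/
noncomputable def traceTransfer (r r' : Γ →* M2 A) (g : Fin 4 → Γ) : M2 A →ₗ[A] M2 A :=
  (gramComb r' g).comp ((Matrix.mulVecLin (gram r g)⁻¹).comp (gramTr r g))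

lemma traceTransfer_apply (r r' : Γ →* M2 A) (g : Fin 4 → Γ) (y : M2 A) :
    traceTransfer r r' g y
      = ∑ i, ((gram r g)⁻¹.mulVec (fun j => (y * r (g j)).trace)) i • r' (g i) := by
  unfold traceTransfer
  rw [LinearMap.comp_apply, LinearMap.comp_apply, gramComb_apply]
  rfl

lemma gram_eq_of_trace_eq (r r' : Γ →* M2 A) (htr : ∀ γ, (r γ).trace = (r' γ).trace)
    (g : Fin 4 → Γ) : gram r' g = gram r g := by
  ext i j
  simp only [gram, Matrix.of_apply]
  exact (htr _).symm

lemma traceTransfer_rep (r r' : Γ →* M2 A) (htr : ∀ γ, (r γ).trace = (r' γ).trace)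
    (g : Fin 4 → Γ) (hg : IsUnit (gram r g).det) (γ : Γ) :
    traceTransfer r r' g (r γ) = r' γ := by
  have hg' : IsUnit (gram r' g).det := by rw [gram_eq_of_trace_eq r r' htr g]; exact hg
  rw [traceTransfer_apply]
  conv_rhs => rw [gram_span r' g hg' (r' γ)]
  rw [gram_eq_of_trace_eq r r' htr g]
  refine Finset.sum_congr rfl fun i _ => ?_
  congr 2
  funext j
  rw [← map_mul, ← map_mul, htr]

lemma traceTransfer_mul (r r' : Γ →* M2 A) (htr : ∀ γ, (r γ).trace = (r' γ).trace)
    (g : Fin 4 → Γ) (hg : IsUnit (gram r g).det) (y z : M2 A) :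
    traceTransfer r r' g (y * z) = traceTransfer r r' g y * traceTransfer r r' g z := by
  have hy : y ∈ Submodule.span A (Set.range fun i => r (g i)) := by
    rw [gram_span_top r g hg]; trivial
  have hz : z ∈ Submodule.span A (Set.range fun i => r (g i)) := by
    rw [gram_span_top r g hg]; trivial
  induction hy using Submodule.span_induction with
  | mem y hy =>
    obtain ⟨i, rfl⟩ := hy
    induction hz using Submodule.span_induction with
    | mem z hz =>
      obtain ⟨j, rfl⟩ := hz
      rw [← map_mul, traceTransfer_rep r r' htr g hg, traceTransfer_rep r r' htr g hg,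
        traceTransfer_rep r r' htr g hg, map_mul]
    | zero => simp
    | add z₁ z₂ _ _ h₁ h₂ => rw [mul_add, map_add, map_add, mul_add, h₁, h₂]
    | smul a z _ h => rw [Matrix.mul_smul, map_smul, map_smul, Matrix.mul_smul, h]
  | zero => simp
  | add y₁ y₂ _ _ h₁ h₂ => rw [add_mul, map_add, map_add, add_mul, h₁, h₂]
  | smul a y _ h => rw [Matrix.smul_mul, map_smul, map_smul, Matrix.smul_mul, h]

lemma traceTransfer_one (r r' : Γ →* M2 A) (htr : ∀ γ, (r γ).trace = (r' γ).trace)
    (g : Fin 4 → Γ) (hg : IsUnit (gram r g).det) : traceTransfer r r' g 1 = 1 := by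
  have h := traceTransfer_rep r r' htr g hg 1
  rw [map_one r, map_one r'] at h
  exact h

/-- **Carayol T1**: two matrix representations over a local ring with equal traces, one of which
has a unit Gram determinant, are conjugate. -/
theorem exists_conj_of_trace_eq {Γ A : Type} [Monoid Γ] [CommRing A] [IsLocalRing A]
    (r r' : Γ →* M2 A) (htr : ∀ γ, (r γ).trace = (r' γ).trace)
    (g : Fin 4 → Γ) (hg : IsUnit (gram r g).det) :
    ∃ X : M2 A, IsUnit X.det ∧ ∀ γ, X * r γ = r' γ * X := by
  obtain ⟨X, hX, h⟩ := skolemNoether_M2 (traceTransfer r r' g)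
    (traceTransfer_mul r r' htr g hg) (traceTransfer_one r r' htr g hg)
  refine ⟨X, hX, fun γ => ?_⟩
  rw [h, traceTransfer_rep r r' htr g hg]

end Carayol

end Fermat.Agent.S53x
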