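import Fermat.Agent.S53x.FibProdAlg
import Fermat.Agent.S53x.ClassifyingMap
import Fermat.Agent.S53x.TraceConj

/-!
# S53, M8-B (B3): two witnesses of the same admissible ideal are conjugate
-/

set_option autoImplicit false
set_option linter.unusedSectionVars false
set_option linter.unusedVariables false

namespace Fermat.Agent.S53x

open IsLocalRing MvPowerSeries

section

variable {𝒪 : Type} [CommRing 𝒪] [IsLocalRing 𝒪] {rbar : GQ →* M2 (ResidueField 𝒪)}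

/-- A strict lift of a representation with a unit Gram determinant has a unit Gram
determinant. -/
theorem ac_hasUnitGram_of_strict {A : Type} [CommRing A] [IsLocalRing A] [Algebra 𝒪 A]
    [IsLocalHom (algebraMap 𝒪 A)] {r : GQ →* M2 A}
    (hs : ∀ σ, (r σ).map (residue A) = (rbar σ).map (ResidueField.map (algebraMap 𝒪 A)))
    {g : Fin 4 → GQ} (hg : IsUnit (gram rbar g).det) : IsUnit (gram r g).det := by
  have h1 : (gram r g).map (residue A) =
      (gram rbar g).map (ResidueField.map (algebraMap 𝒪 A)) := by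
    ext i j
    simp only [gram, Matrix.map_apply, Matrix.of_apply]
    have e1 : residue A (r (g i * g j)).trace = ((r (g i * g j)).map (residue A)).trace := by
      simp [Matrix.trace, Matrix.diag, map_sum]
    have e2 : ResidueField.map (algebraMap 𝒪 A) (rbar (g i * g j)).trace =
        ((rbar (g i * g j)).map (ResidueField.map (algebraMap 𝒪 A))).trace := by
      simp [Matrix.trace, Matrix.diag, map_sum]
    rw [e1, e2, hs]
  have h2 : residue A (gram r g).det =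
      ResidueField.map (algebraMap 𝒪 A) (gram rbar g).det := by
    rw [RingHom.map_det, RingHom.map_det]
    exact congrArg Matrix.det h1
  have h3 : residue A (gram r g).det ≠ 0 := by
    rw [h2]
    exact (hg.map (ResidueField.map (algebraMap 𝒪 A))).ne_zero
  by_contra hu
  exact h3 ((residue_eq_zero_iff _).mpr ((mem_maximalIdeal _).mpr hu))

/-- The images of the variables lie in the maximal ideal of a local quotient of `S`. -/
theorem GenData.mkₐ_X_mem_maximalIdeal (G : GenData 𝒪 rbar) (J : Ideal G.S)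
    [IsLocalRing (G.S ⧸ J)] (j : Option (Fin G.n)) :
    (Ideal.Quotient.mkₐ 𝒪 J) (MvPowerSeries.X j) ∈ maximalIdeal (G.S ⧸ J) := by
  have hX : (MvPowerSeries.X j : G.S) ∈ maximalIdeal G.S :=
    idealX_le_maximalIdeal (Ideal.subset_span ⟨j, rfl⟩)
  rw [mem_maximalIdeal, mem_nonunits_iff] at hX ⊢
  intro hu
  haveI : IsLocalHom (Ideal.Quotient.mk J) :=
    IsLocalHom.of_surjective _ Ideal.Quotient.mk_surjective
  exact hX (isUnit_of_map_unit (Ideal.Quotient.mk J) _ hu)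

end

section

variable {𝒪 : Type} [CommRing 𝒪] [IsDomain 𝒪] [IsDiscreteValuationRing 𝒪]
  [IsAdicComplete (maximalIdeal 𝒪) 𝒪] [Finite (ResidueField 𝒪)]
variable (𝒟 : ∀ ⦃A : Type⦄ [CommRing A] [IsLocalRing A] [Algebra 𝒪 A], GaloisRepAdic A → Prop)
variable {rbar : GQ →* M2 (ResidueField 𝒪)} (G : GenData 𝒪 rbar)

/-- (B3) two witnesses for the same admissible ideal have the same traces. -/
theorem adm_witness_trace_eq (h𝒟 : GaloisRep.IsDeformationCondition 𝒪 𝒟)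
    (hK1 : G.HasK1 𝒟) {J : Ideal G.S}
    (h1 : IsLocalRing (G.S ⧸ J)) (h2 : IsLocalHom (algebraMap 𝒪 (G.S ⧸ J)))
    (hN : ∃ N, G.XX ^ N ≤ J) (hϖ : (MvPowerSeries.X none - MvPowerSeries.C G.ϖ : G.S) ∈ J)
    (r r' : GQ →* M2 (G.S ⧸ J))
    (hr : IsDLift 𝒪 𝒟 rbar (G.S ⧸ J) r) (hr' : IsDLift 𝒪 𝒟 rbar (G.S ⧸ J) r')
    (hc : G.IsClassifying (Ideal.Quotient.mkₐ 𝒪 J) r)
    (hc' : G.IsClassifying (Ideal.Quotient.mkₐ 𝒪 J) r') (σ : GQ) :
    (r σ).trace = (r' σ).trace := by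
  obtain ⟨N, hN⟩ := hN
  have hA : GaloisRep.IsArtinianTestAlgebra 𝒪 (G.S ⧸ J) :=
    G.isArtinianTestAlgebra_quotient J h2 hN hϖ
  obtain ⟨P, iP1, iP2, iP3, hP, p₁, p₂, hinj, hlift, r₁₂, hr₁₂, e1, e2⟩ :=
    hasFibreLifts (rbar := rbar) h𝒟 (G.S ⧸ J) (G.S ⧸ J) hA hA r r' hr hr'
  haveI : IsArtinianRing P := hP.isArtinian
  obtain ⟨θ, hc₁, hc₂, hθcl, -⟩ := G.exists_classifying_of_jointly_injective p₁ p₂ hinj hlift r₁₂
    (Ideal.Quotient.mkₐ 𝒪 J) (Ideal.Quotient.mkₐ 𝒪 J) (by rw [e1]; exact hc)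
    (by rw [e2]; exact hc') (G.mkₐ_X_mem_maximalIdeal J) (G.mkₐ_X_mem_maximalIdeal J)
  have hk := hK1 P hP r₁₂ hr₁₂ σ
  obtain ⟨f, hf⟩ := adjoin_le_range G hP r₁₂ θ hθcl hk
  have hf' : θ f = (r₁₂ σ).trace := hf
  have ht₁ : p₁ ((r₁₂ σ).trace) = (r σ).trace := by
    rw [← e1]
    simp only [mapRep_apply, Matrix.trace, Matrix.diag, Matrix.map_apply, map_sum]
    rfl
  have ht₂ : p₂ ((r₁₂ σ).trace) = (r' σ).trace := by
    rw [← e2]
    simp only [mapRep_apply, Matrix.trace, Matrix.diag, Matrix.map_apply, map_sum]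
    rfl
  rw [← ht₁, ← ht₂, ← hf']
  have a1 : p₁ (θ f) = (p₁.comp θ) f := rfl
  have a2 : p₂ (θ f) = (p₂.comp θ) f := rfl
  rw [a1, a2, hc₁, hc₂]

/-- (B3) two witnesses for the same admissible ideal are conjugate. -/
theorem adm_witness_conj (h𝒟 : GaloisRep.IsDeformationCondition 𝒪 𝒟) (hgram : HasUnitGram rbar)
    (hK1 : G.HasK1 𝒟) {J : Ideal G.S}
    (h1 : IsLocalRing (G.S ⧸ J)) (h2 : IsLocalHom (algebraMap 𝒪 (G.S ⧸ J)))
    (hN : ∃ N, G.XX ^ N ≤ J) (hϖ : (MvPowerSeries.X none - MvPowerSeries.C G.ϖ : G.S) ∈ J)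
    (r r' : GQ →* M2 (G.S ⧸ J))
    (hr : IsDLift 𝒪 𝒟 rbar (G.S ⧸ J) r) (hr' : IsDLift 𝒪 𝒟 rbar (G.S ⧸ J) r')
    (hc : G.IsClassifying (Ideal.Quotient.mkₐ 𝒪 J) r)
    (hc' : G.IsClassifying (Ideal.Quotient.mkₐ 𝒪 J) r') :
    ∃ X : M2 (G.S ⧸ J), IsUnit X.det ∧ ∀ σ, X * r σ = r' σ * X := by
  obtain ⟨g, hg⟩ := hgram
  exact exists_conj_of_trace_eq r r'
    (adm_witness_trace_eq 𝒟 G h𝒟 hK1 h1 h2 hN hϖ r r' hr hr' hc hc') g
    (ac_hasUnitGram_of_strict hr.strict hg)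

end

end Fermat.Agent.S53x
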