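import Mathlib
import Fermat.Prelude.Def_GaloisRep_DeformationRingData
import Fermat.Prelude.Def_GaloisRep_DeformationCondition

/-!
# S53 (universal deformation ring): shared basic definitions

Architecture: trace-based (Carayol/Mazur).  Everything is done with 2×2 MATRIX representations
`Γ →* Matrix (Fin 2) (Fin 2) A`; `ofMat` turns an adically continuous matrix representation of
`GQ` into a `GaloisRepAdic`.
-/

set_option autoImplicit false

namespace Fermat.Agent.S53x

open IsLocalRing

/-- The absolute Galois group of `ℚ` as used in the frozen definitions. -/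
abbrev GQ : Type := AlgebraicClosure ℚ ≃ₐ[ℚ] AlgebraicClosure ℚ

/-- `2 × 2` matrices. -/
abbrev M2 (A : Type) : Type := Matrix (Fin 2) (Fin 2) A

/-- Gram matrix of the trace form on the four matrices `r (g i)`. -/
def gram {Γ A : Type} [Monoid Γ] [CommRing A] (r : Γ →* M2 A) (g : Fin 4 → Γ) :
    Matrix (Fin 4) (Fin 4) A :=
  Matrix.of fun i j => Matrix.trace (r (g i * g j))

/-- "Absolutely irreducible residually" in the form we use: some Gram determinant is a unit. -/
def HasUnitGram {Γ A : Type} [Monoid Γ] [CommRing A] (r : Γ →* M2 A) : Prop :=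
  ∃ g : Fin 4 → Γ, IsUnit (gram r g).det

/-- Push a matrix representation forward along a ring hom. -/
def mapRep {Γ A B : Type} [Monoid Γ] [CommRing A] [CommRing B] (φ : A →+* B) (r : Γ →* M2 A) :
    Γ →* M2 B :=
  (φ.mapMatrix.toMonoidHom).comp r

@[simp] lemma mapRep_apply {Γ A B : Type} [Monoid Γ] [CommRing A] [CommRing B] (φ : A →+* B)
    (r : Γ →* M2 A) (γ : Γ) : mapRep φ r γ = (r γ).map φ := rfl

/-- `r σ ≡ 1` entrywise modulo the ideal `I` for all `σ` fixing some finite extension `L/ℚ`. -/
def FinLevelMod {A : Type} [CommRing A] (r : GQ →* M2 A) (I : Ideal A) : Prop :=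
  ∃ L : IntermediateField ℚ (AlgebraicClosure ℚ), FiniteDimensional ℚ L ∧
    ∀ σ : GQ, (∀ x ∈ L, σ x = x) → ∀ i j, (r σ - 1) i j ∈ I

/-- Adic continuity of a matrix representation of `GQ`. -/
def AdicCont {A : Type} [CommRing A] [IsLocalRing A] (r : GQ →* M2 A) : Prop :=
  ∀ n : ℕ, FinLevelMod r (maximalIdeal A ^ n)

lemma mem_smul_top_pi {A : Type} [CommRing A] (I : Ideal A) (v : Fin 2 → A) (hv : ∀ i, v i ∈ I) :
    v ∈ I • (⊤ : Submodule A (Fin 2 → A)) := by
  have : v = ∑ i, v i • (Pi.single i (1 : A) : Fin 2 → A) := by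
    ext j; simp [Finset.sum_apply, Pi.single_apply]
  rw [this]
  exact Submodule.sum_mem _ fun i _ => Submodule.smul_mem_smul (hv i) Submodule.mem_top

/-- The `GaloisRepAdic` attached to an adically continuous matrix representation. -/
noncomputable def ofMat {A : Type} [CommRing A] [IsLocalRing A] (r : GQ →* M2 A)
    (hr : AdicCont r) : GaloisRepAdic A where
  V := Fin 2 → A
  finrank_eq := by simp
  ρ := (Matrix.toLinAlgEquiv' (R := A) (n := Fin 2)).toAlgHom.toRingHom.toMonoidHom.comp r
  isAdicContinuous := by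
    intro n
    obtain ⟨L, hL, h⟩ := hr n
    refine ⟨L, hL, fun σ hσ v => ?_⟩
    apply mem_smul_top_pi
    intro i
    have h1 : ((Matrix.toLinAlgEquiv' (R := A) (n := Fin 2)).toAlgHom.toRingHom.toMonoidHom.comp r) σ v
        = (r σ).mulVec v := rfl
    rw [h1]
    have h2 : ((r σ).mulVec v - v) i = ((r σ - 1).mulVec v) i := by
      rw [Matrix.sub_mulVec, Matrix.one_mulVec]
    rw [h2, Matrix.mulVec, dotProduct]
    exact Ideal.sum_mem _ fun j _ => Ideal.mul_mem_right _ _ (h σ hσ i j)

@[simp] lemma ofMat_ρ_apply {A : Type} [CommRing A] [IsLocalRing A] (r : GQ →* M2 A)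
    (hr : AdicCont r) (σ : GQ) (v : Fin 2 → A) : (ofMat r hr).ρ σ v = (r σ).mulVec v := rfl

end Fermat.Agent.S53x
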