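import Fermat.Agent.S53x.Basic

/-!
# S53, module M3: Burnside in dimension 2

An absolutely irreducible 2-dimensional residual representation has a unit Gram determinant
(`HasUnitGram`) in any matrix form.
-/

set_option autoImplicit false

namespace Fermat.Agent.S53x

open Matrix

section PlaneAlgebra

variable {K : Type*} [Field K]

/-- In the plane, two vectors with nonzero "determinant" span everything. -/
lemma bs_exists_comb (v u y : Fin 2 → K) (hD : v 0 * u 1 - v 1 * u 0 ≠ 0) :
    ∃ a b : K, y = a • v + b • u := by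
  refine ⟨(y 0 * u 1 - y 1 * u 0) / (v 0 * u 1 - v 1 * u 0),
    (v 0 * y 1 - v 1 * y 0) / (v 0 * u 1 - v 1 * u 0), ?_⟩
  funext i
  fin_cases i
  · simp only [Fin.zero_eta, Pi.add_apply, Pi.smul_apply, smul_eq_mul]
    rw [div_mul_eq_mul_div, div_mul_eq_mul_div, ← add_div, eq_div_iff hD]
    ring
  · simp only [Fin.mk_one, Pi.add_apply, Pi.smul_apply, smul_eq_mul]
    rw [div_mul_eq_mul_div, div_mul_eq_mul_div, ← add_div, eq_div_iff hD]
    ring

/-- In the plane, if the "determinant" of `v ≠ 0` and `u` vanishes then `u` is a multiple of `v`. -/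
lemma bs_exists_smul_of_det_zero (v u : Fin 2 → K) (hv : v ≠ 0)
    (hD : v 0 * u 1 - v 1 * u 0 = 0) : ∃ c : K, u = c • v := by
  by_cases h0 : v 0 = 0
  · have h1 : v 1 ≠ 0 := by
      intro h1
      apply hv
      funext i
      fin_cases i <;> simp [h0, h1]
    refine ⟨u 1 / v 1, ?_⟩
    have hu0 : u 0 = 0 := by
      have : v 1 * u 0 = 0 := by rw [h0] at hD; linear_combination -hD
      rcases mul_eq_zero.mp this with h | h
      · exact absurd h h1
      · exact h
    funext i
    fin_cases i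
    · simp [h0, hu0]
    · simp only [Fin.mk_one, Pi.smul_apply, smul_eq_mul]
      field_simp
  · refine ⟨u 0 / v 0, ?_⟩
    funext i
    fin_cases i
    · simp only [Fin.zero_eta, Pi.smul_apply, smul_eq_mul]
      field_simp
    · simp only [Fin.mk_one, Pi.smul_apply, smul_eq_mul]
      field_simp
      linear_combination hD

/-- The vector orthogonal to `v` in the plane. -/
def bs_perp (v : Fin 2 → K) : Fin 2 → K := ![v 1, - v 0]

lemma bs_perp_ne_zero (v : Fin 2 → K) (hv : v ≠ 0) : bs_perp v ≠ 0 := by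
  intro h
  apply hv
  have h0 := congrFun h 0
  have h1 := congrFun h 1
  simp [bs_perp] at h0 h1
  funext i
  fin_cases i <;> simp [h0, h1]

lemma bs_perp_dotProduct (v : Fin 2 → K) : bs_perp v ⬝ᵥ v = 0 := by
  simp [bs_perp, dotProduct, Fin.sum_univ_two]
  ring

/-- If `y ⬝ v = 0` with `v ≠ 0` in the plane, then `y` is a multiple of `bs_perp v`. -/
lemma bs_exists_smul_perp (v y : Fin 2 → K) (hv : v ≠ 0) (hy : y ⬝ᵥ v = 0) :
    ∃ c : K, y = c • bs_perp v := by
  apply bs_exists_smul_of_det_zero (bs_perp v) y (bs_perp_ne_zero v hv)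
  simp [bs_perp, dotProduct, Fin.sum_univ_two] at hy ⊢
  linear_combination hy

end PlaneAlgebra

section Burnside

variable {K : Type*} [Field K]

/-- If a subspace `W` of `M₂(K)` contains `1` and some `w₁` moving `v` off its line,
then `W v` is everything. -/
lemma bs_exists_mulVec_eq (W : Submodule K (Matrix (Fin 2) (Fin 2) K)) (h1 : (1 : Matrix (Fin 2) (Fin 2) K) ∈ W)
    (v : Fin 2 → K) (hv : v ≠ 0) (w₁ : Matrix (Fin 2) (Fin 2) K) (hw₁ : w₁ ∈ W)
    (hne : ∀ c : K, w₁ *ᵥ v ≠ c • v) (y : Fin 2 → K) :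
    ∃ w ∈ W, w *ᵥ v = y := by
  have hD : v 0 * (w₁ *ᵥ v) 1 - v 1 * (w₁ *ᵥ v) 0 ≠ 0 := by
    intro hD
    obtain ⟨c, hc⟩ := bs_exists_smul_of_det_zero v (w₁ *ᵥ v) hv hD
    exact hne c hc
  obtain ⟨a, b, hab⟩ := bs_exists_comb v (w₁ *ᵥ v) y hD
  refine ⟨a • 1 + b • w₁, W.add_mem (W.smul_mem a h1) (W.smul_mem b hw₁), ?_⟩
  rw [Matrix.add_mulVec, Matrix.smul_mulVec, Matrix.smul_mulVec, Matrix.one_mulVec, hab]

/-- Row version of `bs_exists_mulVec_eq`. -/
lemma bs_exists_vecMul_eq (W : Submodule K (Matrix (Fin 2) (Fin 2) K)) (h1 : (1 : Matrix (Fin 2) (Fin 2) K) ∈ W)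
    (φ : Fin 2 → K) (hφ : φ ≠ 0) (w₁ : Matrix (Fin 2) (Fin 2) K) (hw₁ : w₁ ∈ W)
    (hne : ∀ c : K, φ ᵥ* w₁ ≠ c • φ) (ψ : Fin 2 → K) :
    ∃ w ∈ W, φ ᵥ* w = ψ := by
  have hD : φ 0 * (φ ᵥ* w₁) 1 - φ 1 * (φ ᵥ* w₁) 0 ≠ 0 := by
    intro hD
    obtain ⟨c, hc⟩ := bs_exists_smul_of_det_zero φ (φ ᵥ* w₁) hφ hD
    exact hne c hc
  obtain ⟨a, b, hab⟩ := bs_exists_comb φ (φ ᵥ* w₁) ψ hD
  refine ⟨a • 1 + b • w₁, W.add_mem (W.smul_mem a h1) (W.smul_mem b hw₁), ?_⟩
  rw [Matrix.vecMul_add, Matrix.vecMul_smul, Matrix.vecMul_smul, Matrix.vecMul_one, hab]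

/-- Every `2 × 2` matrix is a sum of two rank-one matrices `vecMulVec`. -/
lemma bs_eq_sum_vecMulVec (M : Matrix (Fin 2) (Fin 2) K) :
    M = vecMulVec (fun i => M i 0) (Pi.single 0 1) + vecMulVec (fun i => M i 1) (Pi.single 1 1) := by
  ext i j
  fin_cases j <;> simp [vecMulVec_apply]

variable {Γ : Type*} [Monoid Γ]

/-- **Burnside in dimension 2**: a monoid of `2 × 2` matrices over an algebraically closed field
without a common eigenvector spans the full matrix algebra. -/
theorem bs_span_range_eq_top [IsAlgClosed K] (r : Γ →* Matrix (Fin 2) (Fin 2) K)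
    (h : ∀ v : Fin 2 → K, v ≠ 0 → ¬ ∀ γ, ∃ c : K, r γ *ᵥ v = c • v) :
    Submodule.span K (Set.range r) = ⊤ := by
  set W : Submodule K (Matrix (Fin 2) (Fin 2) K) := Submodule.span K (Set.range r) with hW
  have hmemr : ∀ γ, r γ ∈ W := fun γ => Submodule.subset_span ⟨γ, rfl⟩
  have h1 : (1 : Matrix (Fin 2) (Fin 2) K) ∈ W := by
    have := hmemr 1
    rwa [map_one] at this
  -- `W` is closed under multiplication
  have hmul : ∀ x ∈ W, ∀ y ∈ W, x * y ∈ W := by
    intro x hx y hy
    have hxy : x * y ∈ W * W := Submodule.mul_mem_mul hx hy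
    have hle : W * W ≤ W := by
      rw [hW, Submodule.span_mul_span]
      apply Submodule.span_mono
      rintro _ ⟨_, ⟨a, rfl⟩, _, ⟨b, rfl⟩, rfl⟩
      exact ⟨a * b, map_mul r a b⟩
    exact hle hxy
  -- columns: for every `v ≠ 0` some `r γ` moves `v` off its line
  have hcol : ∀ v : Fin 2 → K, v ≠ 0 → ∃ γ, ∀ c : K, r γ *ᵥ v ≠ c • v := by
    intro v hv
    have := h v hv
    push Not at this
    exact this
  -- rows: for every `φ ≠ 0` some `r γ` moves `φ` off its line
  have hrow : ∀ φ : Fin 2 → K, φ ≠ 0 → ∃ γ, ∀ c : K, φ ᵥ* r γ ≠ c • φ := by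
    intro φ hφ
    by_contra hcon
    push Not at hcon
    refine h (bs_perp φ) (bs_perp_ne_zero φ hφ) fun γ => ?_
    obtain ⟨c, hc⟩ := hcon γ
    apply bs_exists_smul_perp φ (r γ *ᵥ bs_perp φ) hφ
    rw [dotProduct_comm, Matrix.dotProduct_mulVec, hc, smul_dotProduct, dotProduct_comm,
      bs_perp_dotProduct, smul_zero]
  -- a non-scalar element and an eigenvector
  have he0 : (Pi.single 0 1 : Fin 2 → K) ≠ 0 := by
    intro h0
    have := congrFun h0 0
    simp at this
  obtain ⟨γ₀, hγ₀⟩ := hcol _ he0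
  obtain ⟨μ, hμ⟩ := Module.End.exists_eigenvalue (Matrix.toLin' (r γ₀))
  obtain ⟨v₀, hv₀⟩ := hμ.exists_hasEigenvector
  have hv₀ne : v₀ ≠ 0 := hv₀.2
  have hv₀eq : r γ₀ *ᵥ v₀ = μ • v₀ := by
    have := hv₀.apply_eq_smul
    rwa [Matrix.toLin'_apply] at this
  set c : Matrix (Fin 2) (Fin 2) K := r γ₀ - μ • 1 with hc
  have hcW : c ∈ W := W.sub_mem (hmemr γ₀) (W.smul_mem μ h1)
  have hcv₀ : c *ᵥ v₀ = 0 := by
    rw [hc, Matrix.sub_mulVec, Matrix.smul_mulVec, Matrix.one_mulVec, hv₀eq, sub_self]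
  have hcne : c ≠ 0 := by
    intro hc0
    apply hγ₀ μ
    have : r γ₀ = μ • 1 := sub_eq_zero.mp (hc ▸ hc0)
    rw [this, Matrix.smul_mulVec, Matrix.one_mulVec]
  -- rank one decomposition `c = vecMulVec u φ`
  set φ : Fin 2 → K := bs_perp v₀ with hφdef
  have hφ : φ ≠ 0 := bs_perp_ne_zero v₀ hv₀ne
  have hrows : ∀ i, ∃ t : K, c i = t • φ := by
    intro i
    apply bs_exists_smul_perp v₀ (c i) hv₀ne
    have := congrFun hcv₀ i
    simpa [Matrix.mulVec] using this
  choose u hu using hrows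
  have hcu : c = vecMulVec u φ := by
    ext i j
    rw [vecMulVec_apply]
    have := congrFun (hu i) j
    simpa using this
  have hune : u ≠ 0 := by
    intro hu0
    apply hcne
    rw [hcu, hu0]
    ext i j
    simp [vecMulVec_apply]
  -- all rank one matrices lie in `W`
  have hrank1 : ∀ a ψ : Fin 2 → K, vecMulVec a ψ ∈ W := by
    intro a ψ
    obtain ⟨γ₁, hγ₁⟩ := hcol u hune
    obtain ⟨γ₂, hγ₂⟩ := hrow φ hφ
    obtain ⟨w, hwW, hw⟩ := bs_exists_mulVec_eq W h1 u hune (r γ₁) (hmemr γ₁) hγ₁ a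
    obtain ⟨w', hw'W, hw'⟩ := bs_exists_vecMul_eq W h1 φ hφ (r γ₂) (hmemr γ₂) hγ₂ ψ
    have : w * c * w' = vecMulVec a ψ := by
      rw [hcu, Matrix.mul_vecMulVec, Matrix.vecMulVec_mul, hw, hw']
    rw [← this]
    exact hmul _ (hmul _ hwW _ hcW) _ hw'W
  rw [eq_top_iff]
  intro M _
  rw [bs_eq_sum_vecMulVec M]
  exact W.add_mem (hrank1 _ _) (hrank1 _ _)

/-- If `tr (X * Y) = 0` for all `Y` then `X = 0`. -/
lemma bs_eq_zero_of_trace_mul_eq_zero (X : Matrix (Fin 2) (Fin 2) K)
    (hX : ∀ Y : Matrix (Fin 2) (Fin 2) K, (X * Y).trace = 0) : X = 0 := by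
  ext i j
  have := hX (Matrix.single j i 1)
  simpa [Matrix.trace_mul_single] using this

end Burnside

section Gram

/-- If the matrices `r γ` span `M₂(K)` then some Gram determinant of `r` is nonzero. -/
theorem bs_exists_gram_det_ne_zero {K Γ : Type} [Field K] [Monoid Γ] (r : Γ →* M2 K)
    (hspan : Submodule.span K (Set.range r) = ⊤) :
    ∃ g : Fin 4 → Γ, (gram r g).det ≠ 0 := by
  classical
  obtain ⟨f, hfmem, hfspan, hfli⟩ :=
    Submodule.exists_fun_fin_finrank_span_eq K (Set.range (r : Γ → M2 K))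
  have hn : Module.finrank K (Submodule.span K (Set.range (r : Γ → M2 K))) = 4 := by
    rw [hspan, finrank_top, Module.finrank_matrix]
    simp
  choose g' hg' using hfmem
  refine ⟨fun i => g' (finCongr hn.symm i), ?_⟩
  set g : Fin 4 → Γ := fun i => g' (finCongr hn.symm i) with hg
  have hβ : ∀ i, r (g i) = f (finCongr hn.symm i) := fun i => hg' _
  have hli : LinearIndependent K (fun i => r (g i)) := by
    have heq : (fun i => r (g i)) = f ∘ (finCongr hn.symm) := funext hβ
    rw [heq]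
    exact hfli.comp (finCongr hn.symm) (finCongr hn.symm).injective
  have hsp : Submodule.span K (Set.range fun i => r (g i)) = ⊤ := by
    rw [← hspan, ← hfspan]
    congr 1
    ext Y
    constructor
    · rintro ⟨i, rfl⟩
      exact ⟨finCongr hn.symm i, (hβ i).symm⟩
    · rintro ⟨j, rfl⟩
      refine ⟨(finCongr hn.symm).symm j, ?_⟩
      simp only [hβ, Equiv.apply_symm_apply]
  intro hdet
  obtain ⟨v, hvne, hv⟩ := Matrix.exists_mulVec_eq_zero_iff.mpr hdet
  set X : M2 K := ∑ j, v j • r (g j) with hX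
  have htr : ∀ Y : M2 K, (Y * X).trace = 0 := by
    intro Y
    have hY : Y ∈ Submodule.span K (Set.range fun i => r (g i)) := by
      rw [hsp]; trivial
    induction hY using Submodule.span_induction with
    | mem Y hY =>
      obtain ⟨i, rfl⟩ := hY
      have := congrFun hv i
      simp only [Matrix.mulVec, dotProduct, gram, Matrix.of_apply, Pi.zero_apply] at this
      rw [hX, Finset.mul_sum, Matrix.trace_sum]
      rw [← this]
      refine Finset.sum_congr rfl fun j _ => ?_
      rw [Matrix.mul_smul, Matrix.trace_smul, smul_eq_mul, map_mul, mul_comm]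
    | zero => simp
    | add Y Z _ _ hY hZ => rw [add_mul, Matrix.trace_add, hY, hZ, add_zero]
    | smul a Y _ hY => rw [Matrix.smul_mul, Matrix.trace_smul, hY, smul_zero]
  have hX0 : X = 0 := by
    apply bs_eq_zero_of_trace_mul_eq_zero
    intro Y
    rw [Matrix.trace_mul_comm]
    exact htr Y
  apply hvne
  funext j
  exact Fintype.linearIndependent_iff.mp hli v hX0 j

/-- The Gram matrix is compatible with pushing forward along a ring hom. -/
lemma bs_gram_mapRep {Γ A B : Type} [Monoid Γ] [CommRing A] [CommRing B] (φ : A →+* B)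
    (r : Γ →* M2 A) (g : Fin 4 → Γ) : gram (mapRep φ r) g = (gram r g).map φ := by
  ext i j
  simp only [gram, Matrix.of_apply, mapRep_apply, Matrix.map_apply]
  rw [Matrix.trace, Matrix.trace, map_sum]
  rfl

lemma bs_det_gram_mapRep {Γ A B : Type} [Monoid Γ] [CommRing A] [CommRing B] (φ : A →+* B)
    (r : Γ →* M2 A) (g : Fin 4 → Γ) : (gram (mapRep φ r) g).det = φ (gram r g).det := by
  rw [bs_gram_mapRep, RingHom.map_det]
  rfl

end Gram

section Residual

open scoped TensorProduct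

/-- Matrix form of a residual representation in a basis. -/
noncomputable def resMat {k : Type} [Field k] (ρ : ResidualGaloisRep k)
    (b : Module.Basis (Fin 2) k ρ.V) : GQ →* M2 k :=
  (LinearMap.toMatrixAlgEquiv b).toAlgHom.toRingHom.toMonoidHom.comp ρ.ρ

lemma resMat_apply {k : Type} [Field k] (ρ : ResidualGaloisRep k)
    (b : Module.Basis (Fin 2) k ρ.V) (σ : GQ) :
    resMat ρ b σ = LinearMap.toMatrix b b (ρ.ρ σ) := rfl

/-- If the base change of `ρ` to `K` is irreducible, then `ρ` has no common eigenvector over `K`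
(in matrix form). -/
lemma bs_no_common_eigenvector {k K : Type} [Field k] [Field K] [Algebra k K]
    (ρ : ResidualGaloisRep k) (hirr : (ρ.baseChange K).IsIrreducible)
    (b : Module.Basis (Fin 2) k ρ.V) (v : Fin 2 → K) (hv : v ≠ 0) :
    ¬ ∀ σ : GQ, ∃ c : K, (mapRep (algebraMap k K) (resMat ρ b)) σ *ᵥ v = c • v := by
  intro hall
  set bK : Module.Basis (Fin 2) K (K ⊗[k] ρ.V) := Algebra.TensorProduct.basis K b with hbK
  set w : K ⊗[k] ρ.V := bK.equivFun.symm v with hw
  have hwne : w ≠ 0 := by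
    intro h0
    apply hv
    have : bK.equivFun w = 0 := by rw [h0, map_zero]
    rwa [hw, LinearEquiv.apply_symm_apply] at this
  have hstab : ∀ σ : GQ, ∃ c : K, (ρ.ρ σ).baseChange K w = c • w := by
    intro σ
    obtain ⟨c, hc⟩ := hall σ
    refine ⟨c, ?_⟩
    apply bK.equivFun.injective
    rw [map_smul, hw, LinearEquiv.apply_symm_apply, ← hc]
    have h1 := LinearMap.toMatrix_mulVec_repr bK bK ((ρ.ρ σ).baseChange K) (bK.equivFun.symm v)
    have h2 : (bK.repr (bK.equivFun.symm v) : Fin 2 → K) = v := by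
      have := LinearEquiv.apply_symm_apply bK.equivFun v
      simpa [Module.Basis.equivFun_apply] using this
    rw [h2, hbK, LinearMap.toMatrix_baseChange] at h1
    rw [mapRep_apply, resMat_apply]
    funext i
    have := congrFun h1 i
    rw [Module.Basis.equivFun_apply]
    exact this.symm
  have hirr' := hirr (Submodule.span K {w}) (by
    intro σ x hx
    obtain ⟨a, rfl⟩ := Submodule.mem_span_singleton.mp hx
    obtain ⟨c, hc⟩ := hstab σ
    change (ρ.ρ σ).baseChange K (a • w) ∈ _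
    rw [map_smul, hc]
    exact Submodule.smul_mem _ _ (Submodule.smul_mem _ _ (Submodule.mem_span_singleton_self w)))
  rcases hirr' with h | h
  · apply hwne
    have : w ∈ Submodule.span K {w} := Submodule.mem_span_singleton_self w
    rw [h] at this
    exact (Submodule.mem_bot K).mp this
  · have h1 : Module.finrank K (Submodule.span K {w}) = 1 := finrank_span_singleton hwne
    rw [h, finrank_top] at h1
    have h2 : Module.finrank K (K ⊗[k] ρ.V) = 2 := by
      rw [Module.finrank_baseChange, ρ.finrank_eq]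
    change Module.finrank K (K ⊗[k] ρ.V) = 1 at h1
    omega

/-- **M3**: an absolutely irreducible residual representation has a unit Gram determinant in
every matrix form. -/
theorem hasUnitGram_of_isAbsolutelyIrreducible {k : Type} [Field k] (ρ : ResidualGaloisRep k)
    (habs : ρ.IsAbsolutelyIrreducible) (b : Module.Basis (Fin 2) k ρ.V) :
    HasUnitGram (resMat ρ b) := by
  have hspan := bs_span_range_eq_top
    (mapRep (algebraMap k (AlgebraicClosure k)) (resMat ρ b))
    (fun v hv => bs_no_common_eigenvector ρ habs b v hv)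
  obtain ⟨g, hg⟩ := bs_exists_gram_det_ne_zero _ hspan
  refine ⟨g, ?_⟩
  rw [bs_det_gram_mapRep] at hg
  rw [isUnit_iff_ne_zero]
  intro h0
  apply hg
  rw [h0, map_zero]

end Residual

end Fermat.Agent.S53x
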