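import Mathlib
import Fermat.Agent.S53x.Basic
import Fermat.Agent.S53x.Burnside

/-!
# S53, module M4: translation layer `GaloisRepAdic` <-> matrix representations
-/

set_option autoImplicit false

namespace Fermat.Agent.S53x

open IsLocalRing
open scoped TensorProduct

/-! ## (e) formal properties of `IsEquiv` -/

section formal

variable {A : Type} [CommRing A] [IsLocalRing A]

theorem mf_isEquiv_refl (ρ : GaloisRepAdic A) : ρ.IsEquiv ρ := ⟨GaloisRepAdic.Equiv.refl ρ⟩

theorem mf_isEquiv_symm {ρ₁ ρ₂ : GaloisRepAdic A} (h : ρ₁.IsEquiv ρ₂) : ρ₂.IsEquiv ρ₁ :=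
  h.elim fun e => ⟨e.symm⟩

theorem mf_isEquiv_trans {ρ₁ ρ₂ ρ₃ : GaloisRepAdic A} (h : ρ₁.IsEquiv ρ₂) (h' : ρ₂.IsEquiv ρ₃) :
    ρ₁.IsEquiv ρ₃ :=
  h.elim fun e => h'.elim fun e' => ⟨e.trans e'⟩

theorem mf_isEquiv_baseChangeAlong {B : Type} [CommRing B] [IsLocalRing B] (φ : A →+* B)
    (hφ : IsLocalHom φ) {ρ₁ ρ₂ : GaloisRepAdic A} (h : ρ₁.IsEquiv ρ₂) :
    (ρ₁.baseChangeAlong φ hφ).IsEquiv (ρ₂.baseChangeAlong φ hφ) :=
  h.elim fun e => ⟨e.baseChangeAlong φ hφ⟩

theorem mf_isEquiv_residual {ρ₁ ρ₂ : GaloisRepAdic A} (h : ρ₁.IsEquiv ρ₂) :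
    ρ₁.residual.IsEquiv ρ₂.residual :=
  h.elim fun e => ⟨e.residual⟩

variable {k : Type} [Field k]

theorem mf_res_isEquiv_refl (ρ : ResidualGaloisRep k) : ρ.IsEquiv ρ :=
  ⟨ResidualGaloisRep.Equiv.refl ρ⟩

theorem mf_res_isEquiv_symm {ρ₁ ρ₂ : ResidualGaloisRep k} (h : ρ₁.IsEquiv ρ₂) : ρ₂.IsEquiv ρ₁ :=
  h.elim fun e => ⟨e.symm⟩

theorem mf_res_isEquiv_trans {ρ₁ ρ₂ ρ₃ : ResidualGaloisRep k} (h : ρ₁.IsEquiv ρ₂)
    (h' : ρ₂.IsEquiv ρ₃) : ρ₁.IsEquiv ρ₃ :=
  h.elim fun e => h'.elim fun e' => ⟨e.trans e'⟩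

theorem mf_res_isEquiv_baseChangeAlong {k' : Type} [Field k'] (ψ : k →+* k')
    {ρ₁ ρ₂ : ResidualGaloisRep k} (h : ρ₁.IsEquiv ρ₂) :
    (ρ₁.baseChangeAlong ψ).IsEquiv (ρ₂.baseChangeAlong ψ) :=
  h.elim fun e => ⟨e.baseChangeAlong ψ⟩

end formal

/-! ## Coordinates of elements of `I • ⊤` -/

section coords

variable {A : Type} [CommRing A]

theorem mf_repr_mem_of_mem_smul_top {V : Type} [AddCommGroup V] [Module A V] {ι : Type*}
    (b : Module.Basis ι A V) (I : Ideal A) {x : V} (hx : x ∈ I • (⊤ : Submodule A V)) (i : ι) :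
    b.repr x i ∈ I := by
  refine Submodule.smul_induction_on hx ?_ ?_
  · intro a ha v _
    rw [map_smul, Finsupp.smul_apply, smul_eq_mul]
    exact Ideal.mul_mem_right _ _ ha
  · intro x y hx hy
    rw [map_add, Finsupp.add_apply]
    exact Ideal.add_mem _ hx hy

end coords

/-! ## (a) every `GaloisRepAdic` is a matrix representation -/

section toMat

variable {A : Type} [CommRing A] [IsLocalRing A]

/-- The matrix representation of `ρ` in the basis `b`. -/
noncomputable def matOf (ρ : GaloisRepAdic A) (b : Module.Basis (Fin 2) A ρ.V) : GQ →* M2 A :=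
  (LinearMap.toMatrixAlgEquiv b).toAlgHom.toRingHom.toMonoidHom.comp ρ.ρ

theorem matOf_apply (ρ : GaloisRepAdic A) (b : Module.Basis (Fin 2) A ρ.V) (σ : GQ) :
    matOf ρ b σ = LinearMap.toMatrix b b (ρ.ρ σ) := rfl

theorem adicCont_matOf (ρ : GaloisRepAdic A) (b : Module.Basis (Fin 2) A ρ.V) :
    AdicCont (matOf ρ b) := by
  intro n
  obtain ⟨L, hL, h⟩ := ρ.isAdicContinuous n
  refine ⟨L, hL, fun σ hσ i j => ?_⟩
  have h1 : (matOf ρ b σ - 1) i j = b.repr (ρ.ρ σ (b j) - b j) i := by
    rw [Matrix.sub_apply, matOf_apply, LinearMap.toMatrix_apply, map_sub, Finsupp.sub_apply,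
      Module.Basis.repr_self, Matrix.one_apply, Finsupp.single_apply]
    congr 1
    by_cases hij : i = j
    · simp [hij]
    · simp [hij, Ne.symm hij]
  rw [h1]
  exact mf_repr_mem_of_mem_smul_top b _ (h σ hσ (b j)) i

/-- `ρ` is equivalent to its matrix form. -/
noncomputable def equivOfMatOf (ρ : GaloisRepAdic A) (b : Module.Basis (Fin 2) A ρ.V) :
    GaloisRepAdic.Equiv ρ (ofMat (matOf ρ b) (adicCont_matOf ρ b)) where
  toLinearEquiv := b.equivFun
  map_apply σ x := by
    show b.equivFun (ρ.ρ σ x) = (matOf ρ b σ).mulVec (b.equivFun x)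
    rw [matOf_apply]
    exact (LinearMap.toMatrix_mulVec_repr b b (ρ.ρ σ) x).symm

theorem isEquiv_ofMat_matOf (ρ : GaloisRepAdic A) (b : Module.Basis (Fin 2) A ρ.V) :
    ρ.IsEquiv (ofMat (matOf ρ b) (adicCont_matOf ρ b)) :=
  ⟨equivOfMatOf ρ b⟩

/-- A basis of the underlying module of a `GaloisRepAdic`. -/
noncomputable def stdBasis (ρ : GaloisRepAdic A) : Module.Basis (Fin 2) A ρ.V :=
  Module.finBasisOfFinrankEq A ρ.V ρ.finrank_eq

/-- (a) Every `GaloisRepAdic` is equivalent to a matrix one. -/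
theorem exists_ofMat_isEquiv (ρ : GaloisRepAdic A) :
    ∃ (r : GQ →* M2 A) (hr : AdicCont r), ρ.IsEquiv (ofMat r hr) :=
  ⟨_, _, isEquiv_ofMat_matOf ρ (stdBasis ρ)⟩

end toMat

/-! ## (b) equivalence of matrix representations is conjugation -/

section conj

variable {A : Type} [CommRing A] [IsLocalRing A]

/-- The equivalence of `ofMat`s attached to a conjugating matrix. -/
noncomputable def equivOfConj {r r' : GQ →* M2 A} (hr : AdicCont r) (hr' : AdicCont r')
    (X : M2 A) (hX : IsUnit X.det) (hconj : ∀ σ, X * r σ = r' σ * X) :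
    GaloisRepAdic.Equiv (ofMat r hr) (ofMat r' hr') where
  toLinearEquiv := Matrix.toLinearEquiv' X ((Matrix.isUnit_iff_isUnit_det X).mpr hX).invertible
  map_apply σ v := by
    have key : ∀ w : Fin 2 → A, X.mulVec ((r σ).mulVec w) = (r' σ).mulVec (X.mulVec w) := by
      intro w
      rw [Matrix.mulVec_mulVec, Matrix.mulVec_mulVec, hconj]
    exact key v

theorem ofMat_isEquiv_of_conj {r r' : GQ →* M2 A} (hr : AdicCont r) (hr' : AdicCont r')
    (X : M2 A) (hX : IsUnit X.det) (hconj : ∀ σ, X * r σ = r' σ * X) :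
    (ofMat r hr).IsEquiv (ofMat r' hr') :=
  ⟨equivOfConj hr hr' X hX hconj⟩

theorem exists_conj_of_ofMat_isEquiv {r r' : GQ →* M2 A} {hr : AdicCont r} {hr' : AdicCont r'}
    (h : (ofMat r hr).IsEquiv (ofMat r' hr')) :
    ∃ X : M2 A, IsUnit X.det ∧ ∀ σ, X * r σ = r' σ * X := by
  obtain ⟨e⟩ := h
  let f : (Fin 2 → A) ≃ₗ[A] (Fin 2 → A) := e.toLinearEquiv
  refine ⟨LinearMap.toMatrix' f.toLinearMap, ?_, fun σ => ?_⟩
  · have h1 : LinearMap.toMatrix' f.toLinearMap * LinearMap.toMatrix' f.symm.toLinearMap = 1 := by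
      rw [← LinearMap.toMatrix'_comp, LinearEquiv.comp_symm, LinearMap.toMatrix'_id]
    exact Matrix.isUnit_det_of_right_inverse h1
  · apply Matrix.toLin'.injective
    apply LinearMap.ext
    intro v
    rw [Matrix.toLin'_mul, Matrix.toLin'_mul, Matrix.toLin'_toMatrix', LinearMap.comp_apply,
      LinearMap.comp_apply, Matrix.toLin'_apply, Matrix.toLin'_apply]
    exact e.map_apply σ v

/-- (b) Two matrix representations give equivalent `GaloisRepAdic`s iff they are conjugate. -/
theorem ofMat_isEquiv_iff {r r' : GQ →* M2 A} {hr : AdicCont r} {hr' : AdicCont r'} :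
    (ofMat r hr).IsEquiv (ofMat r' hr') ↔ ∃ X : M2 A, IsUnit X.det ∧ ∀ σ, X * r σ = r' σ * X :=
  ⟨exists_conj_of_ofMat_isEquiv, fun ⟨X, hX, hc⟩ => ofMat_isEquiv_of_conj hr hr' X hX hc⟩

end conj

/-! ## (c) base change of matrix representations -/

section baseChange

variable {A B : Type} [CommRing A] [IsLocalRing A] [CommRing B] [IsLocalRing B]

theorem mf_map_maximalIdeal_pow_le (φ : A →+* B) (hφ : IsLocalHom φ) (n : ℕ) :
    (maximalIdeal A ^ n).map φ ≤ maximalIdeal B ^ n := by
  rw [Ideal.map_pow]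
  exact Ideal.pow_right_mono (Ideal.map_le_iff_le_comap.mpr fun a ha =>
    Ideal.mem_comap.mpr (haveI := hφ; map_nonunit φ a ha)) n

theorem finLevelMod_mapRep {A B : Type} [CommRing A] [CommRing B] (φ : A →+* B) {r : GQ →* M2 A}
    {I : Ideal A} {J : Ideal B} (hIJ : I.map φ ≤ J) (h : FinLevelMod r I) :
    FinLevelMod (mapRep φ r) J := by
  obtain ⟨L, hL, h⟩ := h
  refine ⟨L, hL, fun σ hσ i j => ?_⟩
  have h1 : (mapRep φ r σ - 1) i j = φ ((r σ - 1) i j) := by
    rw [mapRep_apply, Matrix.sub_apply, Matrix.sub_apply, map_sub, Matrix.map_apply,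
      Matrix.one_apply, Matrix.one_apply]
    split_ifs <;> simp
  rw [h1]
  exact hIJ (Ideal.mem_map_of_mem φ (h σ hσ i j))

/-- (c) adic continuity is preserved by local homomorphisms. -/
theorem adicCont_mapRep (φ : A →+* B) (hφ : IsLocalHom φ) {r : GQ →* M2 A} (hr : AdicCont r) :
    AdicCont (mapRep φ r) :=
  fun n => finLevelMod_mapRep φ (mf_map_maximalIdeal_pow_le φ hφ n) (hr n)

/-- The comparison equivalence between the base change of `ofMat r` and `ofMat (mapRep φ r)`. -/
noncomputable def equivBaseChangeOfMat (φ : A →+* B) (hφ : IsLocalHom φ) (r : GQ →* M2 A)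
    (hr : AdicCont r) :
    GaloisRepAdic.Equiv ((ofMat r hr).baseChangeAlong φ hφ)
      (ofMat (mapRep φ r) (adicCont_mapRep φ hφ hr)) :=
  letI : Algebra A B := φ.toAlgebra
  { toLinearEquiv := TensorProduct.piScalarRight A B B (Fin 2)
    map_apply := fun σ x => by
      have key : ∀ y : B ⊗[A] (Fin 2 → A),
          TensorProduct.piScalarRight A B B (Fin 2)
            ((Matrix.toLin' (r σ)).baseChange B y) =
          ((r σ).map φ).mulVec (TensorProduct.piScalarRight A B B (Fin 2) y) := by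
        intro y
        induction y using TensorProduct.induction_on with
        | zero => simp
        | tmul b v =>
          rw [LinearMap.baseChange_tmul, TensorProduct.piScalarRight_apply,
            TensorProduct.piScalarRightHom_tmul, TensorProduct.piScalarRight_apply,
            TensorProduct.piScalarRightHom_tmul]
          ext i
          simp only [Matrix.toLin'_apply, Matrix.mulVec, dotProduct, Matrix.map_apply,
            Algebra.smul_def, RingHom.algebraMap_toAlgebra, map_sum, map_mul, Finset.sum_mul]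
          refine Finset.sum_congr rfl fun j _ => ?_
          ring
        | add y z hy hz => rw [map_add, map_add, map_add, Matrix.mulVec_add, hy, hz]
      exact key x }

theorem baseChangeAlong_ofMat (φ : A →+* B) (hφ : IsLocalHom φ) (r : GQ →* M2 A)
    (hr : AdicCont r) :
    ((ofMat r hr).baseChangeAlong φ hφ).IsEquiv (ofMat (mapRep φ r) (adicCont_mapRep φ hφ hr)) :=
  ⟨equivBaseChangeOfMat φ hφ r hr⟩

end baseChange

/-! ## (d) residual matrix representations -/

section residual

variable {k : Type} [Field k]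

theorem mf_eq_one_of_finLevelMod_bot {A : Type} [CommRing A] {r : GQ →* M2 A} {σ : GQ}
    (h : ∀ i j, (r σ - 1) i j ∈ (⊥ : Ideal A)) : r σ = 1 := by
  ext i j
  have := h i j
  rw [Ideal.mem_bot, Matrix.sub_apply, sub_eq_zero] at this
  exact this

/-- The `ResidualGaloisRep` attached to a matrix representation factoring through finite level. -/
noncomputable def resOfMat (r : GQ →* M2 k) (hr : FinLevelMod r ⊥) : ResidualGaloisRep k where
  V := Fin 2 → k
  finrank_eq := by simp
  ρ := (Matrix.toLinAlgEquiv' (R := k) (n := Fin 2)).toAlgHom.toRingHom.toMonoidHom.comp r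
  factorsThroughFiniteLevel := by
    obtain ⟨L, hL, h⟩ := hr
    refine ⟨L, hL, fun σ hσ => ?_⟩
    rw [MonoidHom.comp_apply, mf_eq_one_of_finLevelMod_bot (h σ hσ), map_one]

@[simp] lemma resOfMat_ρ_apply (r : GQ →* M2 k) (hr : FinLevelMod r ⊥) (σ : GQ) (v : Fin 2 → k) :
    (resOfMat r hr).ρ σ v = (r σ).mulVec v := rfl

-- `resMat ρ b` (the matrix of a residual representation in a basis) and `resMat_apply` are
-- defined in `Fermat.Agent.S53x.Burnside`.

theorem finLevelMod_resMat (ρ : ResidualGaloisRep k) (b : Module.Basis (Fin 2) k ρ.V) :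
    FinLevelMod (resMat ρ b) ⊥ := by
  obtain ⟨L, hL, h⟩ := ρ.factorsThroughFiniteLevel
  refine ⟨L, hL, fun σ hσ i j => ?_⟩
  rw [resMat_apply, h σ hσ, Ideal.mem_bot]
  have : LinearMap.toMatrix b b (1 : Module.End k ρ.V) = 1 := LinearMap.toMatrix_one b
  rw [this, sub_self, Matrix.zero_apply]

/-- A basis of the space of a residual representation. -/
noncomputable def resStdBasis (ρ : ResidualGaloisRep k) : Module.Basis (Fin 2) k ρ.V :=
  Module.finBasisOfFinrankEq k ρ.V ρ.finrank_eq

/-- Every residual representation is equivalent to its matrix form. -/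
noncomputable def resEquivOfMat (ρ : ResidualGaloisRep k) (b : Module.Basis (Fin 2) k ρ.V) :
    ResidualGaloisRep.Equiv ρ (resOfMat (resMat ρ b) (finLevelMod_resMat ρ b)) where
  toLinearEquiv := b.equivFun
  map_apply σ x := by
    show b.equivFun (ρ.ρ σ x) = (resMat ρ b σ).mulVec (b.equivFun x)
    rw [resMat_apply]
    exact (LinearMap.toMatrix_mulVec_repr b b (ρ.ρ σ) x).symm

theorem isEquiv_resOfMat_resMat (ρ : ResidualGaloisRep k) (b : Module.Basis (Fin 2) k ρ.V) :
    ρ.IsEquiv (resOfMat (resMat ρ b) (finLevelMod_resMat ρ b)) :=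
  ⟨resEquivOfMat ρ b⟩

/-- Conjugate residual matrix representations are equivalent. -/
theorem resOfMat_isEquiv_of_conj {r r' : GQ →* M2 k} (hr : FinLevelMod r ⊥)
    (hr' : FinLevelMod r' ⊥) (X : M2 k) (hX : IsUnit X.det) (hconj : ∀ σ, X * r σ = r' σ * X) :
    (resOfMat r hr).IsEquiv (resOfMat r' hr') :=
  ⟨{ toLinearEquiv :=
      Matrix.toLinearEquiv' X ((Matrix.isUnit_iff_isUnit_det X).mpr hX).invertible
     map_apply := fun σ v => by
      have key : ∀ w : Fin 2 → k, X.mulVec ((r σ).mulVec w) = (r' σ).mulVec (X.mulVec w) := by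
        intro w
        rw [Matrix.mulVec_mulVec, Matrix.mulVec_mulVec, hconj]
      exact key v }⟩

theorem exists_conj_of_resOfMat_isEquiv {r r' : GQ →* M2 k} {hr : FinLevelMod r ⊥}
    {hr' : FinLevelMod r' ⊥} (h : (resOfMat r hr).IsEquiv (resOfMat r' hr')) :
    ∃ X : M2 k, IsUnit X.det ∧ ∀ σ, X * r σ = r' σ * X := by
  obtain ⟨e⟩ := h
  let f : (Fin 2 → k) ≃ₗ[k] (Fin 2 → k) := e.toLinearEquiv
  refine ⟨LinearMap.toMatrix' f.toLinearMap, ?_, fun σ => ?_⟩
  · have h1 : LinearMap.toMatrix' f.toLinearMap * LinearMap.toMatrix' f.symm.toLinearMap = 1 := by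
      rw [← LinearMap.toMatrix'_comp, LinearEquiv.comp_symm, LinearMap.toMatrix'_id]
    exact Matrix.isUnit_det_of_right_inverse h1
  · apply Matrix.toLin'.injective
    apply LinearMap.ext
    intro v
    rw [Matrix.toLin'_mul, Matrix.toLin'_mul, Matrix.toLin'_toMatrix', LinearMap.comp_apply,
      LinearMap.comp_apply, Matrix.toLin'_apply, Matrix.toLin'_apply]
    exact e.map_apply σ v

theorem resOfMat_isEquiv_iff {r r' : GQ →* M2 k} {hr : FinLevelMod r ⊥} {hr' : FinLevelMod r' ⊥} :
    (resOfMat r hr).IsEquiv (resOfMat r' hr') ↔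
      ∃ X : M2 k, IsUnit X.det ∧ ∀ σ, X * r σ = r' σ * X :=
  ⟨exists_conj_of_resOfMat_isEquiv, fun ⟨X, hX, hc⟩ => resOfMat_isEquiv_of_conj hr hr' X hX hc⟩

/-- `resOfMat` only depends on the underlying function. -/
theorem resOfMat_isEquiv_of_eq {r r' : GQ →* M2 k} (hr : FinLevelMod r ⊥) (hr' : FinLevelMod r' ⊥)
    (h : ∀ σ, r σ = r' σ) : (resOfMat r hr).IsEquiv (resOfMat r' hr') :=
  resOfMat_isEquiv_of_conj hr hr' 1 (by simp) (fun σ => by rw [one_mul, mul_one, h])

/-- Base change of a residual matrix representation along a field homomorphism. -/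
theorem baseChangeAlong_resOfMat {k' : Type} [Field k'] (ι : k →+* k') (r : GQ →* M2 k)
    (hr : FinLevelMod r ⊥) :
    ((resOfMat r hr).baseChangeAlong ι).IsEquiv
      (resOfMat (mapRep ι r) (finLevelMod_mapRep ι (by simp) hr)) :=
  letI : Algebra k k' := ι.toAlgebra
  ⟨{ toLinearEquiv := TensorProduct.piScalarRight k k' k' (Fin 2)
     map_apply := fun σ x => by
      have key : ∀ y : k' ⊗[k] (Fin 2 → k),
          TensorProduct.piScalarRight k k' k' (Fin 2)
            ((Matrix.toLin' (r σ)).baseChange k' y) =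
          ((r σ).map ι).mulVec (TensorProduct.piScalarRight k k' k' (Fin 2) y) := by
        intro y
        induction y using TensorProduct.induction_on with
        | zero => simp
        | tmul b v =>
          rw [LinearMap.baseChange_tmul, TensorProduct.piScalarRight_apply,
            TensorProduct.piScalarRightHom_tmul, TensorProduct.piScalarRight_apply,
            TensorProduct.piScalarRightHom_tmul]
          ext i
          simp only [Matrix.toLin'_apply, Matrix.mulVec, dotProduct, Matrix.map_apply,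
            Algebra.smul_def, RingHom.algebraMap_toAlgebra, map_sum, map_mul, Finset.sum_mul]
          refine Finset.sum_congr rfl fun j _ => ?_
          ring
        | add y z hy hz => rw [map_add, map_add, map_add, Matrix.mulVec_add, hy, hz]
      exact key x }⟩

end residual

section residualOfMat

variable {A : Type} [CommRing A] [IsLocalRing A]

theorem finLevelMod_bot_mapRep_residue {r : GQ →* M2 A} (hr : AdicCont r) :
    FinLevelMod (mapRep (IsLocalRing.residue A) r) ⊥ := by
  refine finLevelMod_mapRep (IsLocalRing.residue A) ?_ (hr 1)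
  rw [pow_one, Ideal.map_le_iff_le_comap]
  intro a ha
  rw [Ideal.mem_comap, Ideal.mem_bot]
  exact (IsLocalRing.residue_eq_zero_iff a).mpr ha

/-- The residual representation of `ofMat r` is the reduction of `r`. -/
theorem residual_ofMat (r : GQ →* M2 A) (hr : AdicCont r) :
    (ofMat r hr).residual.IsEquiv
      (resOfMat (mapRep (IsLocalRing.residue A) r) (finLevelMod_bot_mapRep_residue hr)) :=
  ⟨{ toLinearEquiv := TensorProduct.piScalarRight A (ResidueField A) (ResidueField A) (Fin 2)
     map_apply := fun σ x => by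
      have key : ∀ y : ResidueField A ⊗[A] (Fin 2 → A),
          TensorProduct.piScalarRight A (ResidueField A) (ResidueField A) (Fin 2)
            ((Matrix.toLin' (r σ)).baseChange (ResidueField A) y) =
          ((r σ).map (IsLocalRing.residue A)).mulVec
            (TensorProduct.piScalarRight A (ResidueField A) (ResidueField A) (Fin 2) y) := by
        intro y
        induction y using TensorProduct.induction_on with
        | zero => simp
        | tmul b v =>
          rw [LinearMap.baseChange_tmul, TensorProduct.piScalarRight_apply,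
            TensorProduct.piScalarRightHom_tmul, TensorProduct.piScalarRight_apply,
            TensorProduct.piScalarRightHom_tmul]
          ext i
          simp only [Matrix.toLin'_apply, Matrix.mulVec, dotProduct, Matrix.map_apply,
            Algebra.smul_def, IsLocalRing.ResidueField.algebraMap_eq, map_sum, map_mul,
            Finset.sum_mul]
          refine Finset.sum_congr rfl fun j _ => ?_
          ring
        | add y z hy hz => rw [map_add, map_add, map_add, Matrix.mulVec_add, hy, hz]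
      exact key x }⟩

end residualOfMat

/-! ## (e) transitivity of base change -/

section transitivity

variable {A B C : Type} [CommRing A] [IsLocalRing A] [CommRing B] [IsLocalRing B]
  [CommRing C] [IsLocalRing C]

/-- `ofMat` only depends on the underlying function. -/
theorem ofMat_isEquiv_of_eq {r r' : GQ →* M2 A} (hr : AdicCont r) (hr' : AdicCont r')
    (h : ∀ σ, r σ = r' σ) : (ofMat r hr).IsEquiv (ofMat r' hr') :=
  ofMat_isEquiv_of_conj hr hr' 1 (by simp) (fun σ => by rw [one_mul, mul_one, h])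

theorem mapRep_mapRep {Γ : Type} [Monoid Γ] {A B C : Type} [CommRing A] [CommRing B] [CommRing C]
    (φ : A →+* B) (ψ : B →+* C) (r : Γ →* M2 A) (γ : Γ) :
    mapRep ψ (mapRep φ r) γ = mapRep (ψ.comp φ) r γ := by
  rw [mapRep_apply, mapRep_apply, mapRep_apply, Matrix.map_map]
  rfl

/-- (e) Base change is transitive up to equivalence. -/
theorem baseChangeAlong_baseChangeAlong (φ : A →+* B) (hφ : IsLocalHom φ) (ψ : B →+* C)
    (hψ : IsLocalHom ψ) (hψφ : IsLocalHom (ψ.comp φ)) (ρ : GaloisRepAdic A) :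
    ((ρ.baseChangeAlong φ hφ).baseChangeAlong ψ hψ).IsEquiv
      (ρ.baseChangeAlong (ψ.comp φ) hψφ) := by
  obtain ⟨r, hr, he⟩ := exists_ofMat_isEquiv ρ
  have h1 : ((ρ.baseChangeAlong φ hφ).baseChangeAlong ψ hψ).IsEquiv
      (ofMat (mapRep ψ (mapRep φ r)) (adicCont_mapRep ψ hψ (adicCont_mapRep φ hφ hr))) :=
    mf_isEquiv_trans
      (mf_isEquiv_baseChangeAlong ψ hψ
        (mf_isEquiv_trans (mf_isEquiv_baseChangeAlong φ hφ he) (baseChangeAlong_ofMat φ hφ r hr)))
      (baseChangeAlong_ofMat ψ hψ _ _)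
  have h2 : (ρ.baseChangeAlong (ψ.comp φ) hψφ).IsEquiv
      (ofMat (mapRep (ψ.comp φ) r) (adicCont_mapRep (ψ.comp φ) hψφ hr)) :=
    mf_isEquiv_trans (mf_isEquiv_baseChangeAlong (ψ.comp φ) hψφ he)
      (baseChangeAlong_ofMat (ψ.comp φ) hψφ r hr)
  exact mf_isEquiv_trans h1
    (mf_isEquiv_trans (ofMat_isEquiv_of_eq _ _ (mapRep_mapRep φ ψ r)) (mf_isEquiv_symm h2))

end transitivity

/-! ## (g) strict normal form -/

section strict

variable {A : Type} [CommRing A] [IsLocalRing A]

theorem mf_mul_mul_mem {A : Type} [CommRing A] (I : Ideal A) (P M Q : M2 A)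
    (hM : ∀ i j, M i j ∈ I) (i j : Fin 2) : (P * M * Q) i j ∈ I := by
  rw [Matrix.mul_apply]
  refine Ideal.sum_mem _ fun l _ => Ideal.mul_mem_right _ _ ?_
  rw [Matrix.mul_apply]
  exact Ideal.sum_mem _ fun l' _ => Ideal.mul_mem_left _ _ (hM l' l)

/-- Conjugating a matrix representation by an invertible matrix. -/
def conjRep {Γ : Type} [Monoid Γ] {A : Type} [CommRing A] (X Y : M2 A) (hXY : X * Y = 1)
    (hYX : Y * X = 1) (r : Γ →* M2 A) : Γ →* M2 A where
  toFun γ := X * r γ * Y
  map_one' := by rw [map_one, mul_one, hXY]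
  map_mul' a b := by
    rw [map_mul]
    calc X * (r a * r b) * Y = X * r a * 1 * (r b * Y) := by simp [mul_assoc]
      _ = X * r a * (Y * X) * (r b * Y) := by rw [hYX]
      _ = X * r a * Y * (X * r b * Y) := by simp [mul_assoc]

@[simp] lemma conjRep_apply {Γ : Type} [Monoid Γ] {A : Type} [CommRing A] (X Y : M2 A)
    (hXY : X * Y = 1) (hYX : Y * X = 1) (r : Γ →* M2 A) (γ : Γ) :
    conjRep X Y hXY hYX r γ = X * r γ * Y := rfl

theorem conjRep_mul {Γ : Type} [Monoid Γ] {A : Type} [CommRing A] (X Y : M2 A)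
    (hXY : X * Y = 1) (hYX : Y * X = 1) (r : Γ →* M2 A) (γ : Γ) :
    X * r γ = conjRep X Y hXY hYX r γ * X := by
  rw [conjRep_apply, mul_assoc, hYX, mul_one]

theorem finLevelMod_conjRep {A : Type} [CommRing A] (X Y : M2 A) (hXY : X * Y = 1)
    (hYX : Y * X = 1) {r : GQ →* M2 A} {I : Ideal A} (h : FinLevelMod r I) :
    FinLevelMod (conjRep X Y hXY hYX r) I := by
  obtain ⟨L, hL, h⟩ := h
  refine ⟨L, hL, fun σ hσ i j => ?_⟩
  have h1 : conjRep X Y hXY hYX r σ - 1 = X * (r σ - 1) * Y := by
    rw [conjRep_apply, mul_sub, sub_mul, mul_one, hXY]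
  rw [h1]
  exact mf_mul_mul_mem I X _ Y (h σ hσ) i j

theorem adicCont_conjRep (X Y : M2 A) (hXY : X * Y = 1) (hYX : Y * X = 1) {r : GQ →* M2 A}
    (hr : AdicCont r) : AdicCont (conjRep X Y hXY hYX r) :=
  fun n => finLevelMod_conjRep X Y hXY hYX (hr n)

theorem ofMat_isEquiv_conjRep (X Y : M2 A) (hXY : X * Y = 1) (hYX : Y * X = 1) {r : GQ →* M2 A}
    (hr : AdicCont r) :
    (ofMat r hr).IsEquiv (ofMat (conjRep X Y hXY hYX r) (adicCont_conjRep X Y hXY hYX hr)) :=
  ofMat_isEquiv_of_conj _ _ X (Matrix.isUnit_det_of_right_inverse hXY)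
    (conjRep_mul X Y hXY hYX r)

/-- Entrywise lift of a matrix along the residue map. -/
theorem exists_map_residue_eq (Xbar : M2 (ResidueField A)) :
    ∃ X : M2 A, X.map (IsLocalRing.residue A) = Xbar := by
  choose f hf using fun i j => IsLocalRing.residue_surjective (Xbar i j)
  exact ⟨Matrix.of f, by ext i j; simp [hf]⟩

theorem isUnit_det_of_map_residue {X : M2 A}
    (h : IsUnit (X.map (IsLocalRing.residue A)).det) : IsUnit X.det := by
  have h1 : (X.map (IsLocalRing.residue A)).det = IsLocalRing.residue A X.det :=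
    (RingHom.map_det (IsLocalRing.residue A) X).symm
  rw [h1] at h
  by_contra hX
  have : IsLocalRing.residue A X.det = 0 := (IsLocalRing.residue_eq_zero_iff _).mpr hX
  rw [this] at h
  exact not_isUnit_zero h

/-- (g) **Strict normal form.**  If the residual representation of `ρA` is equivalent to the
base change along `ι` of the matrix representation `rbar`, then `ρA` is equivalent to a matrix
representation reducing *exactly* to `rbar` (pushed along `ι`). -/
theorem exists_strict_ofMat {k₀ : Type} [Field k₀] (ι : k₀ →+* ResidueField A)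
    (rbar : GQ →* M2 k₀) (hrbar : FinLevelMod rbar ⊥) (ρA : GaloisRepAdic A)
    (h : ρA.residual.IsEquiv ((resOfMat rbar hrbar).baseChangeAlong ι)) :
    ∃ (r : GQ →* M2 A) (hr : AdicCont r), ρA.IsEquiv (ofMat r hr) ∧
      ∀ σ, (r σ).map (IsLocalRing.residue A) = (rbar σ).map ι := by
  obtain ⟨r0, hr0, he0⟩ := exists_ofMat_isEquiv ρA
  have h1 : (resOfMat (mapRep (IsLocalRing.residue A) r0)
      (finLevelMod_bot_mapRep_residue hr0)).IsEquiv
      (resOfMat (mapRep ι rbar) (finLevelMod_mapRep ι (by simp) hrbar)) :=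
    mf_res_isEquiv_trans (mf_res_isEquiv_symm (residual_ofMat r0 hr0))
      (mf_res_isEquiv_trans (mf_res_isEquiv_symm (mf_isEquiv_residual he0))
        (mf_res_isEquiv_trans h (baseChangeAlong_resOfMat ι rbar hrbar)))
  obtain ⟨Xbar, hXbar, hconj⟩ := exists_conj_of_resOfMat_isEquiv h1
  obtain ⟨X, rfl⟩ := exists_map_residue_eq Xbar
  have hX : IsUnit X.det := isUnit_det_of_map_residue hXbar
  have hXY : X * X⁻¹ = 1 := Matrix.mul_nonsing_inv X hX
  have hYX : X⁻¹ * X = 1 := Matrix.nonsing_inv_mul X hX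
  refine ⟨conjRep X X⁻¹ hXY hYX r0, adicCont_conjRep X X⁻¹ hXY hYX hr0,
    mf_isEquiv_trans he0 (ofMat_isEquiv_conjRep X X⁻¹ hXY hYX hr0), fun σ => ?_⟩
  -- cancel the invertible matrix `X.map residue` on the right
  have h2 : (conjRep X X⁻¹ hXY hYX r0 σ).map (IsLocalRing.residue A) *
      X.map (IsLocalRing.residue A) = (rbar σ).map ι * X.map (IsLocalRing.residue A) := by
    rw [← Matrix.map_mul, ← conjRep_mul, Matrix.map_mul]
    exact hconj σ
  have hinv : X.map (IsLocalRing.residue A) * (X.map (IsLocalRing.residue A))⁻¹ = 1 :=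
    Matrix.mul_nonsing_inv _ hXbar
  calc (conjRep X X⁻¹ hXY hYX r0 σ).map (IsLocalRing.residue A)
      = (conjRep X X⁻¹ hXY hYX r0 σ).map (IsLocalRing.residue A) *
          (X.map (IsLocalRing.residue A) * (X.map (IsLocalRing.residue A))⁻¹) := by
        rw [hinv, mul_one]
    _ = (rbar σ).map ι * X.map (IsLocalRing.residue A) *
          (X.map (IsLocalRing.residue A))⁻¹ := by rw [← mul_assoc, h2]
    _ = (rbar σ).map ι := by rw [mul_assoc, hinv, mul_one]

/-- Converse of (g): a strict lift has the expected residual representation. -/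
theorem residual_isEquiv_of_strict {k₀ : Type} [Field k₀] (ι : k₀ →+* ResidueField A)
    (rbar : GQ →* M2 k₀) (hrbar : FinLevelMod rbar ⊥) (r : GQ →* M2 A) (hr : AdicCont r)
    (hstrict : ∀ σ, (r σ).map (IsLocalRing.residue A) = (rbar σ).map ι) :
    (ofMat r hr).residual.IsEquiv ((resOfMat rbar hrbar).baseChangeAlong ι) :=
  mf_res_isEquiv_trans (residual_ofMat r hr)
    (mf_res_isEquiv_trans
      (resOfMat_isEquiv_of_eq _ (finLevelMod_mapRep ι (by simp) hrbar) hstrict)
      (mf_res_isEquiv_symm (baseChangeAlong_resOfMat ι rbar hrbar)))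

end strict

/-! ## Convenience corollaries -/

section corollaries

variable {A : Type} [CommRing A] [IsLocalRing A]

theorem FinLevelMod.mono {A : Type} [CommRing A] {r : GQ →* M2 A} {I J : Ideal A} (hIJ : I ≤ J)
    (h : FinLevelMod r I) : FinLevelMod r J := by
  obtain ⟨L, hL, h⟩ := h
  exact ⟨L, hL, fun σ hσ i j => hIJ (h σ hσ i j)⟩

theorem adicCont_of_finLevelMod_bot {r : GQ →* M2 A} (hr : FinLevelMod r ⊥) : AdicCont r :=
  fun _ => hr.mono bot_le

/-- If the maximal ideal is nilpotent, adic continuity is the same as finite level. -/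
theorem finLevelMod_bot_of_adicCont {r : GQ →* M2 A} {n : ℕ} (hn : maximalIdeal A ^ n = ⊥)
    (hr : AdicCont r) : FinLevelMod r ⊥ := hn ▸ hr n

variable {k₀ : Type} [Field k₀]

/-- (g'), phrased with an abstract residual representation `ρbar` and a basis of it. -/
theorem exists_strict_ofMat_of_residual (ρbar : ResidualGaloisRep k₀)
    (b : Module.Basis (Fin 2) k₀ ρbar.V) (ι : k₀ →+* ResidueField A) (ρA : GaloisRepAdic A)
    (h : ρA.residual.IsEquiv (ρbar.baseChangeAlong ι)) :
    ∃ (r : GQ →* M2 A) (hr : AdicCont r), ρA.IsEquiv (ofMat r hr) ∧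
      ∀ σ, (r σ).map (IsLocalRing.residue A) = (resMat ρbar b σ).map ι :=
  exists_strict_ofMat ι (resMat ρbar b) (finLevelMod_resMat ρbar b) ρA
    (mf_res_isEquiv_trans h (mf_res_isEquiv_baseChangeAlong ι (isEquiv_resOfMat_resMat ρbar b)))

/-- Converse of (g'). -/
theorem residual_isEquiv_of_strict_of_residual (ρbar : ResidualGaloisRep k₀)
    (b : Module.Basis (Fin 2) k₀ ρbar.V) (ι : k₀ →+* ResidueField A) (r : GQ →* M2 A)
    (hr : AdicCont r)
    (hstrict : ∀ σ, (r σ).map (IsLocalRing.residue A) = (resMat ρbar b σ).map ι) :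
    (ofMat r hr).residual.IsEquiv (ρbar.baseChangeAlong ι) :=
  mf_res_isEquiv_trans
    (residual_isEquiv_of_strict ι (resMat ρbar b) (finLevelMod_resMat ρbar b) r hr hstrict)
    (mf_res_isEquiv_symm
      (mf_res_isEquiv_baseChangeAlong ι (isEquiv_resOfMat_resMat ρbar b)))

/-- The `GaloisRepAdic` over a field attached to a residual representation is its matrix form. -/
theorem ofResidualGaloisRep_isEquiv_ofMat (ρbar : ResidualGaloisRep k₀)
    (b : Module.Basis (Fin 2) k₀ ρbar.V) :
    (GaloisRepAdic.ofResidualGaloisRep ρbar).IsEquiv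
      (ofMat (resMat ρbar b) (adicCont_of_finLevelMod_bot (finLevelMod_resMat ρbar b))) :=
  ⟨{ toLinearEquiv := b.equivFun
     map_apply := fun σ x => by
      show b.equivFun (ρbar.ρ σ x) = (resMat ρbar b σ).mulVec (b.equivFun x)
      rw [resMat_apply]
      exact (LinearMap.toMatrix_mulVec_repr b b (ρbar.ρ σ) x).symm }⟩

end corollaries

end Fermat.Agent.S53x
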