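import Mathlib
import Fermat.Prelude.Thm_IsAdicComplete_of_module_finite

/-!
# S53, module M6: commutative algebra of `S = MvPowerSeries σ 𝒪` (`σ` finite)

Notation: `idealX σ 𝒪 = Ideal.span (Set.range X)`, the ideal generated by the variables.

## (a) Lifting
* `evalNilp a hN : MvPowerSeries σ R →ₐ[R] A` with `evalNilp_X`, `evalNilp_coe`
* `exists_algHom_X_eq` : existence for nilpotent `a i`
* `algHom_ext_of_isNilpotent` : uniqueness
* `sub_truncTotal_mem_idealX_pow` : `f - trunc_N f ∈ (X)^N`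
## (b) Quotients `S ⧸ J`
* `isLocalRing_quotient`, `isLocalHom_algebraMap_quotient`,
  `residue_comp_algebraMap_quotient_surjective`, `maximalIdeal_quotient_eq_map`,
  `isArtinianRing_quotient`
## (c) Mittag-Leffler: `mittagLeffler_sup_pow`
## (d) Completeness of the quotient: `isAdicComplete_quotient`
## (e) Limits: `exists_unique_limit`
-/

set_option autoImplicit false
set_option linter.unusedSectionVars false

namespace Fermat.Agent.S53x

open IsLocalRing MvPowerSeries

/-- The ideal of `MvPowerSeries σ R` generated by the variables. -/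
noncomputable abbrev idealX (σ R : Type*) [CommRing R] : Ideal (MvPowerSeries σ R) :=
  Ideal.span (Set.range (MvPowerSeries.X (σ := σ) (R := R)))

section Lift

variable {σ R A : Type*} [Finite σ] [CommRing R] [CommRing A] [Algebra R A]

/-- The span of finitely many nilpotent elements is a nilpotent ideal. -/
lemma exists_span_range_pow_eq_bot (a : σ → A) (ha : ∀ i, IsNilpotent (a i)) :
    ∃ N : ℕ, Ideal.span (Set.range a) ^ N = ⊥ := by
  have hfg : (Ideal.span (Set.range a)).FG := ⟨(Set.finite_range a).toFinset, by simp⟩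
  have : IsNilpotent (Ideal.span (Set.range a)) := by
    rw [hfg.isNilpotent_iff_le_nilradical, Ideal.span_le]
    rintro _ ⟨i, rfl⟩
    exact ha i
  obtain ⟨N, hN⟩ := this
  exact ⟨N, by simpa using hN⟩

/-- `MvPolynomial.aeval a` kills `idealOfVars ^ N` when `(span (range a)) ^ N = ⊥`. -/
lemma aeval_eq_zero_of_mem_pow (a : σ → A) {N : ℕ} (hN : Ideal.span (Set.range a) ^ N = ⊥)
    (p : MvPolynomial σ R) (hp : p ∈ MvPolynomial.idealOfVars σ R ^ N) :
    MvPolynomial.aeval a p = 0 := by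
  have h1 : (MvPolynomial.idealOfVars σ R).map (MvPolynomial.aeval (R := R) a).toRingHom
      ≤ Ideal.span (Set.range a) := by
    rw [Ideal.map_span, Ideal.span_le]
    rintro _ ⟨_, ⟨i, rfl⟩, rfl⟩
    exact Ideal.subset_span ⟨i, by simp⟩
  have h2 : (MvPolynomial.aeval (R := R) a).toRingHom p ∈
      ((MvPolynomial.idealOfVars σ R) ^ N).map (MvPolynomial.aeval (R := R) a).toRingHom :=
    Ideal.mem_map_of_mem _ hp
  rw [Ideal.map_pow] at h2
  have h3 := Ideal.pow_right_mono h1 N h2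
  rw [hN] at h3
  simpa using h3

/-- Evaluation of power series at a family of elements generating a nilpotent ideal. -/
noncomputable def evalNilp (a : σ → A) {N : ℕ} (hN : Ideal.span (Set.range a) ^ N = ⊥) :
    MvPowerSeries σ R →ₐ[R] A :=
  (Ideal.Quotient.liftₐ (MvPolynomial.idealOfVars σ R ^ N) (MvPolynomial.aeval (R := R) a)
    (aeval_eq_zero_of_mem_pow a hN)).comp
    ((truncTotalAlgHom σ R N).restrictScalars R)

lemma evalNilp_coe (a : σ → A) {N : ℕ} (hN : Ideal.span (Set.range a) ^ N = ⊥)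
    (p : MvPolynomial σ R) :
    evalNilp a hN (p : MvPowerSeries σ R) = MvPolynomial.aeval a p := by
  have : (truncTotalAlgHom σ R N) (p : MvPowerSeries σ R) =
      Ideal.Quotient.mk (MvPolynomial.idealOfVars σ R ^ N) p := by
    exact (truncTotalAlgHom σ R N).commutes p
  simp only [evalNilp, AlgHom.comp_apply, AlgHom.restrictScalars_apply, this]
  exact Ideal.Quotient.liftₐ_apply _ _ _ _

@[simp] lemma evalNilp_X (a : σ → A) {N : ℕ} (hN : Ideal.span (Set.range a) ^ N = ⊥) (i : σ) :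
    evalNilp (R := R) a hN (MvPowerSeries.X i) = a i := by
  rw [← MvPolynomial.coe_X, evalNilp_coe, MvPolynomial.aeval_X]

lemma coe_mem_idealX_pow {N : ℕ} {p : MvPolynomial σ R}
    (hp : p ∈ MvPolynomial.idealOfVars σ R ^ N) :
    (p : MvPowerSeries σ R) ∈ idealX σ R ^ N := by
  have h1 : (MvPolynomial.idealOfVars σ R).map
      (MvPolynomial.coeToMvPowerSeries.ringHom (σ := σ) (R := R)) ≤ idealX σ R := by
    rw [Ideal.map_span, Ideal.span_le]
    rintro _ ⟨_, ⟨i, rfl⟩, rfl⟩
    exact Ideal.subset_span ⟨i, by simp⟩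
  have h2 : MvPolynomial.coeToMvPowerSeries.ringHom (σ := σ) (R := R) p ∈
      ((MvPolynomial.idealOfVars σ R) ^ N).map MvPolynomial.coeToMvPowerSeries.ringHom :=
    Ideal.mem_map_of_mem _ hp
  rw [Ideal.map_pow] at h2
  exact Ideal.pow_right_mono h1 N h2

/-- A power series differs from its truncation by an element of `(X)^N`. -/
theorem sub_truncTotal_mem_idealX_pow (f : MvPowerSeries σ R) (N : ℕ) :
    f - ((truncTotal N f : MvPolynomial σ R) : MvPowerSeries σ R) ∈ idealX σ R ^ N := by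
  have hker : toAdicCompletionAlgEquiv σ R
      (f - ((truncTotal N f : MvPolynomial σ R) : MvPowerSeries σ R)) ∈
      ((MvPolynomial.idealOfVars σ R) ^ N • ⊤ : Submodule (MvPolynomial σ R)
        (AdicCompletion (MvPolynomial.idealOfVars σ R) (MvPolynomial σ R))) := by
    rw [AdicCompletion.pow_smul_top_eq_ker_eval (MvPolynomial.idealOfVars_fg σ R),
      LinearMap.mem_ker, map_sub, map_sub, sub_eq_zero,
      toAdicCompletionAlgEquiv_apply, toAdicCompletionAlgEquiv_apply, toAdicCompletion_coe,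
      AdicCompletion.eval_apply, AdicCompletion.eval_of, toAdicCompletion_apply_eq_mk_truncTotal]
    rfl
  -- transport back
  have key : ∀ y ∈ ((MvPolynomial.idealOfVars σ R) ^ N • ⊤ : Submodule (MvPolynomial σ R)
        (AdicCompletion (MvPolynomial.idealOfVars σ R) (MvPolynomial σ R))),
      (toAdicCompletionAlgEquiv σ R).symm y ∈ idealX σ R ^ N := by
    intro y hy
    refine Submodule.smul_induction_on hy ?_ ?_
    · intro p hp z _
      rw [map_smul, Algebra.smul_def]
      exact Ideal.mul_mem_right _ _ (coe_mem_idealX_pow hp)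
    · intro x y hx hy
      rw [map_add]; exact Ideal.add_mem _ hx hy
  have := key _ hker
  rwa [AlgEquiv.symm_apply_apply] at this

lemma truncTotal_one_eq_C (f : MvPowerSeries σ R) :
    truncTotal 1 f = MvPolynomial.C (MvPowerSeries.constantCoeff f) := by
  classical
  ext x
  rw [coeff_truncTotal_eq_ite, MvPolynomial.coeff_C]
  by_cases hx : x = 0
  · subst hx; simp
  · have : ¬ (Finsupp.degree x < 1) := by
      rw [Nat.lt_one_iff, Finsupp.degree_eq_zero_iff]; exact hx
    rw [if_neg this, if_neg (Ne.symm hx)]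

/-- `f - C (constantCoeff f) ∈ (X)`. -/
lemma sub_C_constantCoeff_mem_idealX (f : MvPowerSeries σ R) :
    f - MvPowerSeries.C (MvPowerSeries.constantCoeff f) ∈ idealX σ R := by
  have h := sub_truncTotal_mem_idealX_pow f 1
  rw [pow_one, truncTotal_one_eq_C, MvPolynomial.coe_C] at h
  exact h
/-- An algebra hom out of the power series ring kills `(X)^N` if the images of the variables
generate an ideal whose `N`-th power vanishes. -/
lemma algHom_eq_zero_of_mem_idealX_pow (φ : MvPowerSeries σ R →ₐ[R] A) {N : ℕ}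
    (hN : Ideal.span (Set.range fun i => φ (MvPowerSeries.X i)) ^ N = ⊥)
    (f : MvPowerSeries σ R) (hf : f ∈ idealX σ R ^ N) : φ f = 0 := by
  have h1 : (idealX σ R).map φ.toRingHom ≤
      Ideal.span (Set.range fun i => φ (MvPowerSeries.X i)) := by
    rw [Ideal.map_span, Ideal.span_le]
    rintro _ ⟨_, ⟨i, rfl⟩, rfl⟩
    exact Ideal.subset_span ⟨i, rfl⟩
  have h2 : φ.toRingHom f ∈ ((idealX σ R) ^ N).map φ.toRingHom := Ideal.mem_map_of_mem _ hf
  rw [Ideal.map_pow] at h2
  have h3 := Ideal.pow_right_mono h1 N h2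
  rw [hN] at h3
  simpa using h3

/-- Two `R`-algebra homs out of `MvPowerSeries σ R` (`σ` finite) that agree on the variables, and
send them to nilpotent elements, are equal. -/
theorem algHom_ext_of_isNilpotent {φ ψ : MvPowerSeries σ R →ₐ[R] A}
    (hnil : ∀ i, IsNilpotent (φ (MvPowerSeries.X i)))
    (h : ∀ i, φ (MvPowerSeries.X i) = ψ (MvPowerSeries.X i)) : φ = ψ := by
  obtain ⟨N, hN⟩ := exists_span_range_pow_eq_bot (fun i => φ (MvPowerSeries.X i)) hnil
  have hN' : Ideal.span (Set.range fun i => ψ (MvPowerSeries.X i)) ^ N = ⊥ := by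
    have : (fun i => ψ (MvPowerSeries.X i)) = fun i => φ (MvPowerSeries.X i) := by
      funext i; exact (h i).symm
    rw [this]; exact hN
  -- agreement on polynomials
  have hpoly : ∀ p : MvPolynomial σ R, φ (p : MvPowerSeries σ R) = ψ (p : MvPowerSeries σ R) := by
    have : φ.comp (MvPolynomial.coeToMvPowerSeries.algHom (σ := σ) (R := R) R) =
        ψ.comp (MvPolynomial.coeToMvPowerSeries.algHom (σ := σ) (R := R) R) := by
      apply MvPolynomial.algHom_ext
      intro i
      simpa using h i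
    intro p
    exact DFunLike.congr_fun this p
  ext f
  have hf := sub_truncTotal_mem_idealX_pow f N
  have e1 := algHom_eq_zero_of_mem_idealX_pow φ hN _ hf
  have e2 := algHom_eq_zero_of_mem_idealX_pow ψ hN' _ hf
  rw [map_sub, sub_eq_zero] at e1 e2
  rw [e1, e2, hpoly]


/-- Existence of the lift: for nilpotent `a i` there is an `R`-algebra hom `X i ↦ a i`. -/
theorem exists_algHom_X_eq (a : σ → A) (ha : ∀ i, IsNilpotent (a i)) :
    ∃ φ : MvPowerSeries σ R →ₐ[R] A, ∀ i, φ (MvPowerSeries.X i) = a i := by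
  obtain ⟨N, hN⟩ := exists_span_range_pow_eq_bot a ha
  exact ⟨evalNilp a hN, fun i => evalNilp_X a hN i⟩

/-- Existence and uniqueness of the lift. -/
theorem existsUnique_algHom_X_eq (a : σ → A) (ha : ∀ i, IsNilpotent (a i)) :
    ∃! φ : MvPowerSeries σ R →ₐ[R] A, ∀ i, φ (MvPowerSeries.X i) = a i := by
  obtain ⟨φ, hφ⟩ := exists_algHom_X_eq (R := R) a ha
  refine ⟨φ, hφ, fun ψ hψ => ?_⟩
  refine algHom_ext_of_isNilpotent (fun i => by rw [hψ i]; exact ha i) fun i => ?_
  rw [hψ i, hφ i]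

end Lift

section Quot

variable {σ 𝒪 : Type*} [Finite σ] [CommRing 𝒪] [IsLocalRing 𝒪]

lemma idealX_le_maximalIdeal : idealX σ 𝒪 ≤ maximalIdeal (MvPowerSeries σ 𝒪) := by
  rw [Ideal.span_le]
  rintro _ ⟨i, rfl⟩
  rw [SetLike.mem_coe, mem_maximalIdeal, mem_nonunits_iff, MvPowerSeries.isUnit_iff_constantCoeff]
  simp

lemma C_mem_maximalIdeal_iff (c : 𝒪) :
    MvPowerSeries.C c ∈ maximalIdeal (MvPowerSeries σ 𝒪) ↔ c ∈ maximalIdeal 𝒪 := by
  rw [mem_maximalIdeal, mem_nonunits_iff, MvPowerSeries.isUnit_iff_constantCoeff, mem_maximalIdeal,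
    mem_nonunits_iff]
  simp

variable (J : Ideal (MvPowerSeries σ 𝒪))

/-- A proper quotient of the power series ring over a local ring is local. -/
theorem isLocalRing_quotient (hJ : J ≠ ⊤) : IsLocalRing (MvPowerSeries σ 𝒪 ⧸ J) := by
  have : Nontrivial (MvPowerSeries σ 𝒪 ⧸ J) := Ideal.Quotient.nontrivial_iff.mpr hJ
  exact IsLocalRing.of_surjective' (Ideal.Quotient.mk J) Ideal.Quotient.mk_surjective

/-- The structure map `𝒪 → S ⧸ J` is a local homomorphism. -/
theorem isLocalHom_algebraMap_quotient (hJ : J ≠ ⊤) :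
    IsLocalHom (algebraMap 𝒪 (MvPowerSeries σ 𝒪 ⧸ J)) := by
  have : Nontrivial (MvPowerSeries σ 𝒪 ⧸ J) := Ideal.Quotient.nontrivial_iff.mpr hJ
  have := isLocalRing_quotient J hJ
  have : IsLocalHom (Ideal.Quotient.mk J) :=
    IsLocalHom.of_surjective _ Ideal.Quotient.mk_surjective
  constructor
  intro c hc
  by_contra hcu
  have h1 : MvPowerSeries.C c ∈ maximalIdeal (MvPowerSeries σ 𝒪) :=
    (C_mem_maximalIdeal_iff c).mpr ((mem_maximalIdeal c).mpr hcu)
  have h2 : IsUnit (Ideal.Quotient.mk J (MvPowerSeries.C c)) := by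
    have : algebraMap 𝒪 (MvPowerSeries σ 𝒪 ⧸ J) c = Ideal.Quotient.mk J (MvPowerSeries.C c) := rfl
    rwa [this] at hc
  exact (mem_maximalIdeal _).mp h1 (isUnit_of_map_unit (Ideal.Quotient.mk J) _ h2)

/-- Every element of `S ⧸ J` is congruent to a constant modulo the image of `(X)`. -/
lemma exists_sub_algebraMap_mem_map (x : MvPowerSeries σ 𝒪 ⧸ J) :
    ∃ c : 𝒪, x - algebraMap 𝒪 (MvPowerSeries σ 𝒪 ⧸ J) c ∈
      (idealX σ 𝒪).map (Ideal.Quotient.mk J) := by
  obtain ⟨f, rfl⟩ := Ideal.Quotient.mk_surjective x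
  refine ⟨MvPowerSeries.constantCoeff f, ?_⟩
  have : algebraMap 𝒪 (MvPowerSeries σ 𝒪 ⧸ J) (MvPowerSeries.constantCoeff f) =
      Ideal.Quotient.mk J (MvPowerSeries.C (MvPowerSeries.constantCoeff f)) := rfl
  rw [this, ← map_sub]
  exact Ideal.mem_map_of_mem _ (sub_C_constantCoeff_mem_idealX f)

/-- The residue field of `S ⧸ J` is a quotient of `𝒪`. -/
theorem residue_comp_algebraMap_quotient_surjective [IsLocalRing (MvPowerSeries σ 𝒪 ⧸ J)] :
    Function.Surjective (IsLocalRing.residue (MvPowerSeries σ 𝒪 ⧸ J) ∘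
      algebraMap 𝒪 (MvPowerSeries σ 𝒪 ⧸ J)) := by
  intro y
  obtain ⟨x, rfl⟩ := IsLocalRing.residue_surjective y
  obtain ⟨c, hc⟩ := exists_sub_algebraMap_mem_map J x
  refine ⟨c, ?_⟩
  have hle : (idealX σ 𝒪).map (Ideal.Quotient.mk J) ≤ maximalIdeal (MvPowerSeries σ 𝒪 ⧸ J) := by
    rw [← map_maximalIdeal_of_surjective (Ideal.Quotient.mk J) Ideal.Quotient.mk_surjective]
    exact Ideal.map_mono idealX_le_maximalIdeal
  have := hle hc
  rw [← Ideal.Quotient.eq] at this
  exact this.symm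

/-- If `X i₀ - C ϖ ∈ J` with `ϖ` a generator of the maximal ideal of `𝒪`, the maximal ideal of
`S ⧸ J` is the image of `(X)`. -/
theorem maximalIdeal_quotient_eq_map [IsLocalRing (MvPowerSeries σ 𝒪 ⧸ J)] {ϖ : 𝒪}
    (hϖ : maximalIdeal 𝒪 = Ideal.span {ϖ}) {i₀ : σ}
    (hi₀ : MvPowerSeries.X i₀ - MvPowerSeries.C ϖ ∈ J) :
    maximalIdeal (MvPowerSeries σ 𝒪 ⧸ J) = (idealX σ 𝒪).map (Ideal.Quotient.mk J) := by
  apply le_antisymm
  · rw [← map_maximalIdeal_of_surjective (Ideal.Quotient.mk J) Ideal.Quotient.mk_surjective,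
      Ideal.map_le_iff_le_comap]
    intro f hf
    rw [Ideal.mem_comap]
    -- `f = (f - C f₀) + C f₀`, `f₀ ∈ (ϖ)`, `C ϖ ≡ X i₀`
    have hf0 : MvPowerSeries.constantCoeff f ∈ maximalIdeal 𝒪 := by
      rw [mem_maximalIdeal, mem_nonunits_iff]
      intro hu
      exact (mem_maximalIdeal _).mp hf (MvPowerSeries.isUnit_iff_constantCoeff.mpr hu)
    rw [hϖ, Ideal.mem_span_singleton] at hf0
    obtain ⟨d, hd⟩ := hf0
    have e1 : f = (f - MvPowerSeries.C (MvPowerSeries.constantCoeff f)) +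
        MvPowerSeries.C d * MvPowerSeries.X i₀ -
        MvPowerSeries.C d * (MvPowerSeries.X i₀ - MvPowerSeries.C ϖ) := by
      rw [hd, map_mul]; ring
    rw [e1, map_sub, map_add]
    have h3 : Ideal.Quotient.mk J (MvPowerSeries.C d * (MvPowerSeries.X i₀ - MvPowerSeries.C ϖ))
        = 0 := Ideal.Quotient.eq_zero_iff_mem.mpr (Ideal.mul_mem_left _ _ hi₀)
    rw [h3, sub_zero]
    refine Ideal.add_mem _ (Ideal.mem_map_of_mem _ (sub_C_constantCoeff_mem_idealX f)) ?_
    exact Ideal.mem_map_of_mem _ (Ideal.mul_mem_left _ _ (Ideal.subset_span ⟨i₀, rfl⟩))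
  · rw [← map_maximalIdeal_of_surjective (Ideal.Quotient.mk J) Ideal.Quotient.mk_surjective]
    exact Ideal.map_mono idealX_le_maximalIdeal

/-- If moreover `(X)^n ≤ J` the quotient is Artinian. -/
theorem isArtinianRing_quotient [IsNoetherianRing 𝒪] [IsLocalRing (MvPowerSeries σ 𝒪 ⧸ J)] {ϖ : 𝒪}
    (hϖ : maximalIdeal 𝒪 = Ideal.span {ϖ}) {i₀ : σ}
    (hi₀ : MvPowerSeries.X i₀ - MvPowerSeries.C ϖ ∈ J) {n : ℕ} (hn : idealX σ 𝒪 ^ n ≤ J) :
    IsArtinianRing (MvPowerSeries σ 𝒪 ⧸ J) := by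
  rw [isArtinianRing_iff_isNilpotent_maximalIdeal, maximalIdeal_quotient_eq_map J hϖ hi₀]
  refine ⟨n, ?_⟩
  rw [← Ideal.map_pow, Ideal.zero_eq_bot, Ideal.map_eq_bot_iff_le_ker, Ideal.mk_ker]
  exact hn

/-- `S ⧸ J` is complete for its maximal ideal as soon as `X i₀ - C ϖ ∈ J`. -/
theorem isAdicComplete_quotient [IsNoetherianRing 𝒪] [IsLocalRing (MvPowerSeries σ 𝒪 ⧸ J)] {ϖ : 𝒪}
    (hϖ : maximalIdeal 𝒪 = Ideal.span {ϖ}) {i₀ : σ}
    (hi₀ : MvPowerSeries.X i₀ - MvPowerSeries.C ϖ ∈ J) :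
    IsAdicComplete (maximalIdeal (MvPowerSeries σ 𝒪 ⧸ J)) (MvPowerSeries σ 𝒪 ⧸ J) := by
  rw [maximalIdeal_quotient_eq_map J hϖ hi₀]
  have h1 : IsAdicComplete (idealX σ 𝒪) (MvPowerSeries σ 𝒪 ⧸ J) :=
    IsAdicComplete.of_module_finite (idealX σ 𝒪) (MvPowerSeries σ 𝒪 ⧸ J)
  exact (IsAdicComplete.map_algebraMap_iff (R := MvPowerSeries σ 𝒪)
    (S := MvPowerSeries σ 𝒪 ⧸ J) (I := idealX σ 𝒪) (M := MvPowerSeries σ 𝒪 ⧸ J)).mpr h1

end Quot

section MittagLeffler

variable {S : Type*} [CommRing S] (I : Ideal S)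

/-- If `Jn n = Jn (n+1) ⊔ I^n` for all `n` then `Jn` is antitone. -/
lemma antitone_of_eq_succ_sup_pow (Jn : ℕ → Ideal S)
    (hstep : ∀ n, Jn n = Jn (n + 1) ⊔ I ^ n) : Antitone Jn :=
  antitone_nat_of_succ_le fun n => by rw [hstep n]; exact le_sup_left

/-- Key approximation step: an element of `Jn n` can be corrected modulo `I^n` to an element of
`⨅ m, Jn m`, provided `S` is `I`-adically precomplete. -/
lemma exists_mem_iInf_sub_mem_pow [IsPrecomplete I S] (Jn : ℕ → Ideal S)
    (hpow : ∀ n, I ^ n ≤ Jn n) (hstep : ∀ n, Jn n = Jn (n + 1) ⊔ I ^ n)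
    (n : ℕ) (x : S) (hx : x ∈ Jn n) :
    ∃ y ∈ ⨅ m, Jn m, x - y ∈ I ^ n := by
  classical
  have hanti := antitone_of_eq_succ_sup_pow I Jn hstep
  -- one step: from an element of `Jn m` produce one of `Jn (m+1)` congruent mod `I^m`
  have step : ∀ m (z : S), z ∈ Jn m → ∃ z' ∈ Jn (m + 1), z - z' ∈ I ^ m := by
    intro m z hz
    rw [hstep m] at hz
    obtain ⟨z', hz', e, he, rfl⟩ := Submodule.mem_sup.mp hz
    exact ⟨z', hz', by simpa using he⟩
  choose! nxt hnxt_mem hnxt_sub using step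
  -- the sequence `u k ∈ Jn (n + k)`
  let u : ℕ → S := fun k => Nat.rec x (fun k z => nxt (n + k) z) k
  have hu0 : u 0 = x := rfl
  have husucc : ∀ k, u (k + 1) = nxt (n + k) (u k) := fun k => rfl
  have hu_mem : ∀ k, u k ∈ Jn (n + k) := by
    intro k
    induction k with
    | zero => simpa [hu0] using hx
    | succ k ih => rw [husucc]; exact hnxt_mem _ _ ih
  have hu_sub : ∀ k, u k - u (k + 1) ∈ I ^ (n + k) := by
    intro k; rw [husucc]; exact hnxt_sub _ _ (hu_mem k)
  -- differences: `u k - u (k + j) ∈ I ^ (n + k)`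
  have hu_sub' : ∀ k j, u k - u (k + j) ∈ I ^ (n + k) := by
    intro k j
    induction j with
    | zero => simp
    | succ j ih =>
      have h1 : u (k + j) - u (k + j + 1) ∈ I ^ (n + k) :=
        Ideal.pow_le_pow_right (by omega) (hu_sub (k + j))
      have : u k - u (k + (j + 1)) = (u k - u (k + j)) + (u (k + j) - u (k + j + 1)) := by
        rw [← add_assoc]; ring
      rw [this]; exact Ideal.add_mem _ ih h1
  -- Cauchy sequence indexed from 0: `f m = u (m - n)` (constant `x` for `m ≤ n`)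
  let f : ℕ → S := fun m => u (m - n)
  have hf : ∀ {a b}, a ≤ b → f a ≡ f b [SMOD (I ^ a • ⊤ : Submodule S S)] := by
    intro a b hab
    rw [SModEq.sub_mem, smul_eq_mul, Ideal.mul_top]
    by_cases ha : a ≤ n
    · -- then `I^a ⊇ I^n`
      have h1 : f a = u 0 := by simp [f, Nat.sub_eq_zero_of_le ha]
      have h2 := hu_sub' 0 (b - n)
      rw [h1]
      simp only [zero_add, add_zero] at h2
      exact Ideal.pow_le_pow_right ha h2
    · have ha : n < a := not_le.mp ha
      have h2 := hu_sub' (a - n) (b - a)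
      have e1 : a - n + (b - a) = b - n := by omega
      have e2 : n + (a - n) = a := by omega
      rw [e1, e2] at h2
      exact h2
  obtain ⟨L, hL⟩ := IsPrecomplete.prec' (I := I) f hf
  have hL' : ∀ m, f m - L ∈ I ^ m := by
    intro m
    have := hL m
    rwa [SModEq.sub_mem, smul_eq_mul, Ideal.mul_top] at this
  refine ⟨L, ?_, ?_⟩
  · rw [Ideal.mem_iInf]
    intro m
    -- `L ∈ Jn (max m n)`, and `Jn` is antitone
    have hM : L ∈ Jn (max m n) := by
      set M := max m n with hMdef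
      have h1 : f M ∈ Jn M := by
        have := hu_mem (M - n)
        have e : n + (M - n) = M := by omega
        rwa [e] at this
      have h2 : f M - L ∈ Jn M := hpow M (hL' M)
      have : L = f M - (f M - L) := by ring
      rw [this]; exact Ideal.sub_mem _ h1 h2
    exact hanti (le_max_left m n) hM
  · have h := hL' n
    have h1 : f n = x := by simp [f, hu0]
    rwa [h1] at h

/-- **Mittag-Leffler** for ideals: if `I^n ≤ Jn n` and `Jn n = Jn (n+1) ⊔ I^n` in an `I`-adically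
precomplete ring, then `(⨅ m, Jn m) ⊔ I^n = Jn n`. -/
theorem mittagLeffler_sup_pow [IsPrecomplete I S] (Jn : ℕ → Ideal S)
    (hpow : ∀ n, I ^ n ≤ Jn n) (hstep : ∀ n, Jn n = Jn (n + 1) ⊔ I ^ n) (n : ℕ) :
    (⨅ m, Jn m) ⊔ I ^ n = Jn n := by
  apply le_antisymm
  · exact sup_le (iInf_le _ n) (hpow n)
  · intro x hx
    obtain ⟨y, hy, hxy⟩ := exists_mem_iInf_sub_mem_pow I Jn hpow hstep n x hx
    have : x = y + (x - y) := by ring
    rw [this]
    exact Ideal.add_mem _ (Ideal.mem_sup_left hy) (Ideal.mem_sup_right hxy)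

/-- **Limits**: a compatible family `a n ∈ S ⧸ Jn n` comes from a unique element of
`S ⧸ ⨅ n, Jn n`. Compatibility is expressed with arbitrary lifts. -/
theorem exists_unique_limit [IsPrecomplete I S] (Jn : ℕ → Ideal S)
    (hpow : ∀ n, I ^ n ≤ Jn n) (hstep : ∀ n, Jn n = Jn (n + 1) ⊔ I ^ n)
    (a : ∀ n, S ⧸ Jn n)
    (hcompat : ∀ n, Ideal.Quotient.factor
      (antitone_of_eq_succ_sup_pow I Jn hstep (Nat.le_succ n)) (a (n + 1)) = a n) :
    ∃! b : S ⧸ (⨅ m, Jn m), ∀ n, Ideal.Quotient.factor (iInf_le Jn n) b = a n := by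
  classical
  have hanti := antitone_of_eq_succ_sup_pow I Jn hstep
  -- choose lifts
  choose s hs using fun n => Ideal.Quotient.mk_surjective (a n)
  have hs_succ : ∀ n, s (n + 1) - s n ∈ Jn n := by
    intro n
    have := hcompat n
    rw [← hs (n + 1), ← hs n, Ideal.Quotient.factor_mk, Ideal.Quotient.eq] at this
    exact this
  -- build `t n ≡ s n mod Jn n` with `t (n+1) - t n ∈ I^n`
  have step : ∀ n (z : S), z - s n ∈ Jn n → ∃ z', z' - s (n + 1) ∈ Jn (n + 1) ∧ z' - z ∈ I ^ n := by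
    intro n z hz
    have h1 : s (n + 1) - z ∈ Jn n := by
      have : s (n + 1) - z = (s (n + 1) - s n) - (z - s n) := by ring
      rw [this]; exact Ideal.sub_mem _ (hs_succ n) hz
    rw [hstep n] at h1
    obtain ⟨j, hj, e, he, hje⟩ := Submodule.mem_sup.mp h1
    refine ⟨s (n + 1) - j, ?_, ?_⟩
    · have : s (n + 1) - j - s (n + 1) = -j := by ring
      rw [this]; exact Ideal.neg_mem_iff _ |>.mpr hj
    · have : s (n + 1) - j - z = e := by
        have h2 : s (n + 1) - z = j + e := hje.symm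
        linear_combination h2
      rw [this]; exact he
  choose! nxt hnxt1 hnxt2 using step
  let t : ℕ → S := fun k => Nat.rec (s 0) (fun k z => nxt k z) k
  have ht0 : t 0 = s 0 := rfl
  have htsucc : ∀ k, t (k + 1) = nxt k (t k) := fun k => rfl
  have ht_mem : ∀ k, t k - s k ∈ Jn k := by
    intro k
    induction k with
    | zero => simp [ht0]
    | succ k ih => rw [htsucc]; exact hnxt1 k _ ih
  have ht_sub : ∀ k, t (k + 1) - t k ∈ I ^ k := by
    intro k; rw [htsucc]; exact hnxt2 k _ (ht_mem k)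
  have ht_sub' : ∀ k j, t k - t (k + j) ∈ I ^ k := by
    intro k j
    induction j with
    | zero => simp
    | succ j ih =>
      have h1 : t (k + j + 1) - t (k + j) ∈ I ^ k :=
        Ideal.pow_le_pow_right (by omega) (ht_sub (k + j))
      have : t k - t (k + (j + 1)) = (t k - t (k + j)) - (t (k + j + 1) - t (k + j)) := by
        rw [← add_assoc]; ring
      rw [this]; exact Ideal.sub_mem _ ih h1
  have hf : ∀ {a b}, a ≤ b → t a ≡ t b [SMOD (I ^ a • ⊤ : Submodule S S)] := by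
    intro a b hab
    rw [SModEq.sub_mem, smul_eq_mul, Ideal.mul_top]
    have := ht_sub' a (b - a)
    rwa [Nat.add_sub_cancel' hab] at this
  obtain ⟨L, hL⟩ := IsPrecomplete.prec' (I := I) t hf
  have hL' : ∀ m, t m - L ∈ I ^ m := by
    intro m
    have := hL m
    rwa [SModEq.sub_mem, smul_eq_mul, Ideal.mul_top] at this
  refine ⟨Ideal.Quotient.mk _ L, ?_, ?_⟩
  · intro n
    rw [Ideal.Quotient.factor_mk, ← hs n, Ideal.Quotient.eq]
    have : L - s n = (t n - s n) - (t n - L) := by ring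
    rw [this]
    exact Ideal.sub_mem _ (ht_mem n) (hpow n (hL' n))
  · intro b hb
    obtain ⟨b', rfl⟩ := Ideal.Quotient.mk_surjective b
    rw [Ideal.Quotient.eq, Ideal.mem_iInf]
    intro n
    have h1 := hb n
    rw [Ideal.Quotient.factor_mk, ← hs n, Ideal.Quotient.eq] at h1
    have : b' - L = (b' - s n) - ((t n - s n) - (t n - L)) := by ring
    rw [this]
    exact Ideal.sub_mem _ h1 (Ideal.sub_mem _ (ht_mem n) (hpow n (hL' n)))

end MittagLeffler

end Fermat.Agent.S53x
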