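import Fermat.Agent.S53x.GramBasis

/-!
# S53 module M2: Carayol descent (T2)

If the traces of a matrix representation `r : Γ →* M2 A` over a local ring `A` lie in the image of
an injective local homomorphism `j : B →+* A` from a local ring `B` with nilpotent maximal ideal and
the same residue field, and some Gram determinant of `r` is a unit, then `r` is conjugate, by a
matrix `X ≡ 1` modulo the maximal ideal, to a representation with entries in `B`.
-/

set_option autoImplicit false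
set_option linter.unusedSectionVars false
set_option linter.unusedSimpArgs false

namespace Fermat.Agent.S53x

open Matrix IsLocalRing

section TraceDescent

variable {Γ A B : Type} [Monoid Γ] [CommRing A] [CommRing B]

/-- The set of `j(I)`-linear combinations of the four matrices `r (g i)`. -/
def tdSpan (j : B →+* A) (r : Γ →* M2 A) (g : Fin 4 → Γ) (I : Ideal B) : Set (M2 A) :=
  {y | ∃ b : Fin 4 → B, (∀ i, b i ∈ I) ∧ y = ∑ i, j (b i) • r (g i)}

lemma tdSpan_mono (j : B →+* A) (r : Γ →* M2 A) (g : Fin 4 → Γ) {I I' : Ideal B} (h : I ≤ I') :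
    tdSpan j r g I ⊆ tdSpan j r g I' := by
  rintro y ⟨b, hb, rfl⟩
  exact ⟨b, fun i => h (hb i), rfl⟩

lemma tdSpan_zero_mem (j : B →+* A) (r : Γ →* M2 A) (g : Fin 4 → Γ) (I : Ideal B) :
    (0 : M2 A) ∈ tdSpan j r g I :=
  ⟨fun _ => 0, fun _ => I.zero_mem, by simp⟩

lemma tdSpan_add_mem (j : B →+* A) (r : Γ →* M2 A) (g : Fin 4 → Γ) (I : Ideal B) {y z : M2 A}
    (hy : y ∈ tdSpan j r g I) (hz : z ∈ tdSpan j r g I) : y + z ∈ tdSpan j r g I := by
  obtain ⟨b, hb, rfl⟩ := hy
  obtain ⟨c, hc, rfl⟩ := hz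
  refine ⟨fun i => b i + c i, fun i => I.add_mem (hb i) (hc i), ?_⟩
  rw [← Finset.sum_add_distrib]
  refine Finset.sum_congr rfl fun i _ => ?_
  rw [map_add, add_smul]

lemma tdSpan_neg_mem (j : B →+* A) (r : Γ →* M2 A) (g : Fin 4 → Γ) (I : Ideal B) {y : M2 A}
    (hy : y ∈ tdSpan j r g I) : -y ∈ tdSpan j r g I := by
  obtain ⟨b, hb, rfl⟩ := hy
  refine ⟨fun i => -b i, fun i => I.neg_mem (hb i), ?_⟩
  rw [← Finset.sum_neg_distrib]
  refine Finset.sum_congr rfl fun i _ => ?_
  rw [map_neg, neg_smul]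

lemma tdSpan_sub_mem (j : B →+* A) (r : Γ →* M2 A) (g : Fin 4 → Γ) (I : Ideal B) {y z : M2 A}
    (hy : y ∈ tdSpan j r g I) (hz : z ∈ tdSpan j r g I) : y - z ∈ tdSpan j r g I := by
  rw [sub_eq_add_neg]
  exact tdSpan_add_mem j r g I hy (tdSpan_neg_mem j r g I hz)

lemma tdSpan_sum_mem (j : B →+* A) (r : Γ →* M2 A) (g : Fin 4 → Γ) (I : Ideal B) {ι : Type}
    (s : Finset ι) (y : ι → M2 A) (hy : ∀ i ∈ s, y i ∈ tdSpan j r g I) :
    ∑ i ∈ s, y i ∈ tdSpan j r g I := by
  classical
  induction s using Finset.induction_on with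
  | empty => simpa using tdSpan_zero_mem j r g I
  | insert a s ha ih =>
    rw [Finset.sum_insert ha]
    exact tdSpan_add_mem j r g I (hy a (Finset.mem_insert_self a s))
      (ih fun i hi => hy i (Finset.mem_insert_of_mem hi))

/-- Scalar multiplication by `j c` with `c ∈ I` maps `tdSpan I'` into `tdSpan (I * I')`. -/
lemma tdSpan_smul_mem (j : B →+* A) (r : Γ →* M2 A) (g : Fin 4 → Γ) {I I' : Ideal B} {c : B}
    (hc : c ∈ I) {y : M2 A} (hy : y ∈ tdSpan j r g I') : j c • y ∈ tdSpan j r g (I * I') := by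
  obtain ⟨b, hb, rfl⟩ := hy
  refine ⟨fun i => c * b i, fun i => Ideal.mul_mem_mul hc (hb i), ?_⟩
  rw [Finset.smul_sum]
  refine Finset.sum_congr rfl fun i _ => ?_
  rw [map_mul, mul_smul]

lemma tdSpan_smul_mem_top (j : B →+* A) (r : Γ →* M2 A) (g : Fin 4 → Γ) (c : B) {y : M2 A}
    (hy : y ∈ tdSpan j r g ⊤) : j c • y ∈ tdSpan j r g ⊤ := by
  have := tdSpan_smul_mem j r g (I := ⊤) (I' := ⊤) (c := c) Submodule.mem_top hy
  exact tdSpan_mono j r g le_top this

lemma tdSpan_bot (j : B →+* A) (r : Γ →* M2 A) (g : Fin 4 → Γ) {y : M2 A}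
    (hy : y ∈ tdSpan j r g ⊥) : y = 0 := by
  obtain ⟨b, hb, rfl⟩ := hy
  refine Finset.sum_eq_zero fun i _ => ?_
  rw [(Ideal.mem_bot.mp (hb i)), map_zero, zero_smul]

/-- Entries of elements of `tdSpan I` lie in `I.map j`. -/
lemma tdSpan_entry_mem (j : B →+* A) (r : Γ →* M2 A) (g : Fin 4 → Γ) (I : Ideal B) {y : M2 A}
    (hy : y ∈ tdSpan j r g I) (a b : Fin 2) : y a b ∈ I.map j := by
  obtain ⟨c, hc, rfl⟩ := hy
  rw [Matrix.sum_apply]
  refine Ideal.sum_mem _ fun i _ => ?_
  rw [Matrix.smul_apply, smul_eq_mul]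
  exact Ideal.mul_mem_right _ _ (Ideal.mem_map_of_mem j (hc i))


section Coordinates

variable [IsLocalRing A] [IsLocalRing B]

/-- The inverse Gram matrix has entries in `j(B)`. -/
lemma td_exists_gramInv (j : B →+* A) (hloc : IsLocalHom j) (r : Γ →* M2 A)
    (htr : ∀ γ, (r γ).trace ∈ j.range) (g : Fin 4 → Γ) (hg : IsUnit (gram r g).det) :
    ∃ H : Matrix (Fin 4) (Fin 4) B, H.map j = (gram r g)⁻¹ := by
  have h1 : ∀ i l, ∃ c : B, j c = gram r g i l := fun i l => htr (g i * g l)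
  choose G hG using h1
  have hGmap : (Matrix.of G).map j = gram r g := by
    ext i l
    simp [hG]
  have hdet : IsUnit (Matrix.of G).det := by
    have hdj : j (Matrix.of G).det = (gram r g).det := by
      rw [RingHom.map_det, RingHom.mapMatrix_apply, hGmap]
    exact hloc.map_nonunit _ (hdj ▸ hg)
  refine ⟨(Matrix.of G)⁻¹, ?_⟩
  symm
  apply Matrix.inv_eq_left_inv
  rw [← hGmap, ← Matrix.map_mul, Matrix.nonsing_inv_mul _ hdet, Matrix.map_one _ (map_zero j) (map_one j)]

/-- Membership criterion: a matrix whose traces against the `r (g l)` lie in `j(B)` is a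
`j(B)`-combination of the `r (g i)`. -/
lemma td_mem_of_trace (j : B →+* A) (hloc : IsLocalHom j) (r : Γ →* M2 A)
    (htr : ∀ γ, (r γ).trace ∈ j.range) (g : Fin 4 → Γ) (hg : IsUnit (gram r g).det)
    (y : M2 A) (hy : ∀ l, (y * r (g l)).trace ∈ j.range) : y ∈ tdSpan j r g ⊤ := by
  obtain ⟨H, hH⟩ := td_exists_gramInv j hloc r htr g hg
  choose t ht using hy
  refine ⟨H.mulVec t, fun _ => Submodule.mem_top, ?_⟩
  conv_lhs => rw [gram_span r g hg y]
  refine Finset.sum_congr rfl fun i _ => ?_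
  congr 1
  rw [← hH, RingHom.map_mulVec]
  congr 1
  funext l
  exact (ht l).symm

/-- `r γ` is a `j(B)`-combination of the `r (g i)`. -/
lemma td_rep_mem (j : B →+* A) (hloc : IsLocalHom j) (r : Γ →* M2 A)
    (htr : ∀ γ, (r γ).trace ∈ j.range) (g : Fin 4 → Γ) (hg : IsUnit (gram r g).det) (γ : Γ) :
    r γ ∈ tdSpan j r g ⊤ := by
  apply td_mem_of_trace j hloc r htr g hg
  intro l
  rw [← map_mul]
  exact htr _

/-- Products: `tdSpan I * tdSpan I' ⊆ tdSpan (I * I')`. -/
lemma td_mul_mem (j : B →+* A) (hloc : IsLocalHom j) (r : Γ →* M2 A)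
    (htr : ∀ γ, (r γ).trace ∈ j.range) (g : Fin 4 → Γ) (hg : IsUnit (gram r g).det)
    {I I' : Ideal B} {y z : M2 A} (hy : y ∈ tdSpan j r g I) (hz : z ∈ tdSpan j r g I') :
    y * z ∈ tdSpan j r g (I * I') := by
  obtain ⟨b, hb, rfl⟩ := hy
  obtain ⟨c, hc, rfl⟩ := hz
  rw [Finset.sum_mul]
  refine tdSpan_sum_mem j r g _ _ _ fun i _ => ?_
  rw [Finset.mul_sum]
  refine tdSpan_sum_mem j r g _ _ _ fun l _ => ?_
  rw [Matrix.smul_mul, Matrix.mul_smul, ← map_mul, smul_smul, ← map_mul]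
  have h1 : j (b i * c l) • r (g i * g l) ∈ tdSpan j r g (I * I' * ⊤) :=
    tdSpan_smul_mem j r g (Ideal.mul_mem_mul (hb i) (hc l)) (td_rep_mem j hloc r htr g hg _)
  rwa [Ideal.mul_top] at h1

/-- An element of the `j(B)`-span all of whose entries are in the maximal ideal of `A` has
coefficients in the maximal ideal of `B`. -/
lemma td_mem_maximal (j : B →+* A) (r : Γ →* M2 A)
    (g : Fin 4 → Γ) (hg : IsUnit (gram r g).det)
    {y : M2 A} (hy : y ∈ tdSpan j r g ⊤) (hym : ∀ a b, y a b ∈ maximalIdeal A) :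
    y ∈ tdSpan j r g (maximalIdeal B) := by
  obtain ⟨b, -, rfl⟩ := hy
  refine ⟨b, fun i => ?_, rfl⟩
  set y : M2 A := ∑ i, j (b i) • r (g i) with hy
  have hy' : y = gramComb r g (fun i => j (b i)) := by rw [gramComb_apply]
  -- traces of `y` against `r (g l)` are in the maximal ideal
  have htm : ∀ l, gramTr r g y l ∈ maximalIdeal A := by
    intro l
    rw [gramTr_apply, Matrix.trace]
    refine Ideal.sum_mem _ fun a _ => ?_
    rw [Matrix.diag_apply, Matrix.mul_apply]
    exact Ideal.sum_mem _ fun c _ => Ideal.mul_mem_right _ _ (hym a c)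
  have hcoord : (fun i => j (b i)) = (gram r g)⁻¹.mulVec (gramTr r g y) := by
    rw [hy', gramTr_gramComb, Matrix.mulVec_mulVec, Matrix.nonsing_inv_mul _ hg, Matrix.one_mulVec]
  have hjm : j (b i) ∈ maximalIdeal A := by
    have := congrFun hcoord i
    rw [this, Matrix.mulVec, dotProduct]
    exact Ideal.sum_mem _ fun c _ => Ideal.mul_mem_left _ _ (htm c)
  rw [mem_maximalIdeal, mem_nonunits_iff] at hjm ⊢
  exact fun hu => hjm (hu.map j)

/-- Every matrix is congruent modulo the maximal ideal to an element of the `j(B)`-span. -/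
lemma td_exists_approx (j : B →+* A)
    (hres : ∀ a : A, ∃ b : B, a - j b ∈ maximalIdeal A) (r : Γ →* M2 A)
    (g : Fin 4 → Γ) (hg : IsUnit (gram r g).det) (Y : M2 A) :
    ∃ y ∈ tdSpan j r g ⊤, ∀ a b, (Y - y) a b ∈ maximalIdeal A := by
  set c : Fin 4 → A := (gram r g)⁻¹.mulVec (fun l => (Y * r (g l)).trace) with hc
  have hY : Y = ∑ i, c i • r (g i) := gram_span r g hg Y
  choose b hb using fun i => hres (c i)
  refine ⟨∑ i, j (b i) • r (g i), ⟨b, fun _ => Submodule.mem_top, rfl⟩, fun a d => ?_⟩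
  have hsub : Y - ∑ i, j (b i) • r (g i) = ∑ i, (c i - j (b i)) • r (g i) := by
    conv_lhs => rw [hY]
    rw [← Finset.sum_sub_distrib]
    exact Finset.sum_congr rfl fun i _ => (sub_smul _ _ _).symm
  rw [hsub, Matrix.sum_apply]
  refine Ideal.sum_mem _ fun i _ => ?_
  rw [Matrix.smul_apply, smul_eq_mul]
  exact Ideal.mul_mem_right _ _ (hb i)

end Coordinates


section Main

variable [IsLocalRing A] [IsLocalRing B]

/-- Powers: `y ∈ tdSpan I → y ^ n ∈ tdSpan (I ^ n)`. -/
lemma td_pow_mem (j : B →+* A) (hloc : IsLocalHom j) (r : Γ →* M2 A)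
    (htr : ∀ γ, (r γ).trace ∈ j.range) (g : Fin 4 → Γ) (hg : IsUnit (gram r g).det)
    {I : Ideal B} {y : M2 A} (hy : y ∈ tdSpan j r g I) (n : ℕ) :
    y ^ n ∈ tdSpan j r g (I ^ n) := by
  induction n with
  | zero =>
    rw [pow_zero, pow_zero, Ideal.one_eq_top]
    have := td_rep_mem j hloc r htr g hg 1
    rwa [map_one] at this
  | succ n ih =>
    rw [pow_succ, pow_succ]
    exact td_mul_mem j hloc r htr g hg ih hy

/-- The `j(B)`-span of `r(Γ)` as a subring of `M2 A`. -/
def tdRing (j : B →+* A) (hloc : IsLocalHom j) (r : Γ →* M2 A)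
    (htr : ∀ γ, (r γ).trace ∈ j.range) (g : Fin 4 → Γ) (hg : IsUnit (gram r g).det) :
    Subring (M2 A) where
  carrier := tdSpan j r g ⊤
  mul_mem' hy hz := tdSpan_mono j r g le_top (td_mul_mem j hloc r htr g hg hy hz)
  one_mem' := by
    have := td_rep_mem j hloc r htr g hg 1
    rwa [map_one] at this
  add_mem' hy hz := tdSpan_add_mem j r g ⊤ hy hz
  zero_mem' := tdSpan_zero_mem j r g ⊤
  neg_mem' hy := tdSpan_neg_mem j r g ⊤ hy

lemma td_residue_eq {a b : A} (h : a - b ∈ maximalIdeal A) : residue A a = residue A b := by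
  rw [← sub_eq_zero, ← map_sub, residue_eq_zero_iff]
  exact h

lemma td_entry_mem_of_map_eq_zero {z : M2 A} (hz : z.map (residue A) = 0) (a b : Fin 2) :
    z a b ∈ maximalIdeal A := by
  have := congrFun (congrFun hz a) b
  rw [Matrix.map_apply, Matrix.zero_apply, residue_eq_zero_iff] at this
  exact this

/-- One step of the nilpotent Nakayama argument. -/
lemma td_step (j : B →+* A) (hloc : IsLocalHom j)
    (hres : ∀ a : A, ∃ b : B, a - j b ∈ maximalIdeal A)
    (r : Γ →* M2 A) (htr : ∀ γ, (r γ).trace ∈ j.range) (g : Fin 4 → Γ)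
    (hg : IsUnit (gram r g).det)
    (e f : M2 A) (heE : e ∈ tdSpan j r g ⊤) (hfE : f ∈ tdSpan j r g ⊤)
    (hRe : e.map (residue A) = Matrix.single 0 0 1) (hRf : f.map (residue A) = Matrix.single 1 0 1)
    (w₁ : Fin 2 → A) (hew : e.mulVec w₁ = w₁)
    (y : M2 A) (hy : y ∈ tdSpan j r g ⊤) :
    ∃ (α β : B) (z : M2 A), z ∈ tdSpan j r g (maximalIdeal B) ∧
      y.mulVec w₁ = j α • w₁ + j β • f.mulVec w₁ + z.mulVec w₁ := by
  obtain ⟨α, hα⟩ := hres (y 0 0)
  obtain ⟨β, hβ⟩ := hres (y 1 0)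
  have hmul : ∀ {u v : M2 A}, u ∈ tdSpan j r g ⊤ → v ∈ tdSpan j r g ⊤ → u * v ∈ tdSpan j r g ⊤ :=
    fun hu hv => tdSpan_mono j r g le_top (td_mul_mem j hloc r htr g hg hu hv)
  set z : M2 A := y * e - j α • e - j β • (f * e) with hz
  have hzE : z ∈ tdSpan j r g ⊤ :=
    tdSpan_sub_mem j r g ⊤ (tdSpan_sub_mem j r g ⊤ (hmul hy heE) (tdSpan_smul_mem_top j r g α heE))
      (tdSpan_smul_mem_top j r g β (hmul hfE heE))
  have hzR : z.map (residue A) = 0 := by
    have h1 : z.map (residue A) = y.map (residue A) * e.map (residue A)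
        - residue A (j α) • e.map (residue A)
        - residue A (j β) • (f.map (residue A) * e.map (residue A)) := by
      rw [hz]
      ext a b
      simp only [Matrix.map_apply, Matrix.sub_apply, Matrix.smul_apply, Matrix.mul_apply,
        smul_eq_mul, map_sub, map_mul, map_sum]
    rw [h1, hRe, hRf, ← td_residue_eq hα, ← td_residue_eq hβ]
    ext a b
    fin_cases a <;> fin_cases b <;>
      simp [Matrix.mul_apply, Matrix.single_apply]
  refine ⟨α, β, z, td_mem_maximal j r g hg hzE (td_entry_mem_of_map_eq_zero hzR), ?_⟩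
  have h2 : z.mulVec w₁ = y.mulVec w₁ - j α • w₁ - j β • f.mulVec w₁ := by
    rw [hz, Matrix.sub_mulVec, Matrix.sub_mulVec, Matrix.smul_mulVec, Matrix.smul_mulVec,
      ← Matrix.mulVec_mulVec, ← Matrix.mulVec_mulVec, hew]
  rw [h2]
  abel

/-- Iterating `td_step`. -/
lemma td_iter (j : B →+* A) (hloc : IsLocalHom j)
    (hres : ∀ a : A, ∃ b : B, a - j b ∈ maximalIdeal A)
    (r : Γ →* M2 A) (htr : ∀ γ, (r γ).trace ∈ j.range) (g : Fin 4 → Γ)
    (hg : IsUnit (gram r g).det)
    (e f : M2 A) (heE : e ∈ tdSpan j r g ⊤) (hfE : f ∈ tdSpan j r g ⊤)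
    (hRe : e.map (residue A) = Matrix.single 0 0 1) (hRf : f.map (residue A) = Matrix.single 1 0 1)
    (w₁ : Fin 2 → A) (hew : e.mulVec w₁ = w₁) (n : ℕ) :
    ∀ y ∈ tdSpan j r g ⊤, ∃ (α β : B) (z : M2 A), z ∈ tdSpan j r g (maximalIdeal B ^ n) ∧
      y.mulVec w₁ = j α • w₁ + j β • f.mulVec w₁ + z.mulVec w₁ := by
  induction n with
  | zero =>
    intro y hy
    refine ⟨0, 0, y, ?_, ?_⟩
    · rwa [pow_zero, Ideal.one_eq_top]
    · simp
  | succ n ih =>
    intro y hy
    obtain ⟨α, β, z, ⟨b, hb, hzb⟩, hyz⟩ := ih y hy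
    have hstep := fun i : Fin 4 => td_step j hloc hres r htr g hg e f heE hfE hRe hRf w₁ hew
      (r (g i)) (td_rep_mem j hloc r htr g hg (g i))
    choose αi βi zi hzi hi using hstep
    refine ⟨α + ∑ i, b i * αi i, β + ∑ i, b i * βi i, ∑ i, j (b i) • zi i, ?_, ?_⟩
    · refine tdSpan_sum_mem j r g _ _ _ fun i _ => ?_
      rw [pow_succ]
      exact tdSpan_smul_mem j r g (hb i) (hzi i)
    · rw [hyz, hzb, Matrix.sum_mulVec, Matrix.sum_mulVec]
      have h3 : ∀ i, (j (b i) • r (g i)).mulVec w₁ =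
          j (b i * αi i) • w₁ + j (b i * βi i) • f.mulVec w₁ + (j (b i) • zi i).mulVec w₁ := by
        intro i
        rw [Matrix.smul_mulVec, Matrix.smul_mulVec, hi i, map_mul, map_mul, smul_add, smul_add,
          smul_smul, smul_smul]
      rw [Finset.sum_congr rfl fun i _ => h3 i, Finset.sum_add_distrib, Finset.sum_add_distrib,
        ← Finset.sum_smul, ← Finset.sum_smul, map_add, map_add, map_sum, map_sum, add_smul,
        add_smul]
      abel

end Main


section Final

variable [IsLocalRing A] [IsLocalRing B]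

lemma td_map_eq_single {y : M2 A} (a0 b0 : Fin 2)
    (h : ∀ a b, (Matrix.single a0 b0 (1 : A) - y) a b ∈ maximalIdeal A) :
    y.map (residue A) = Matrix.single a0 b0 1 := by
  ext a b
  have h1 := td_residue_eq (a := (Matrix.single a0 b0 (1 : A)) a b) (b := y a b)
    (by have := h a b; rwa [Matrix.sub_apply] at this)
  rw [Matrix.map_apply, ← h1, Matrix.single_apply, Matrix.single_apply]
  split_ifs <;> simp

/-- **Carayol descent (T2).** -/
theorem exists_descent {Γ A B : Type} [Monoid Γ] [CommRing A] [IsLocalRing A] [CommRing B]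
    [IsLocalRing B]
    (j : B →+* A) (hj : Function.Injective j) (hloc : IsLocalHom j)
    (hnil : IsNilpotent (IsLocalRing.maximalIdeal B))
    (hres : ∀ a : A, ∃ b : B, a - j b ∈ IsLocalRing.maximalIdeal A)
    (r : Γ →* M2 A) (htr : ∀ γ, (r γ).trace ∈ j.range)
    (g : Fin 4 → Γ) (hg : IsUnit (gram r g).det) :
    ∃ (r₀ : Γ →* M2 B) (X : M2 A), IsUnit X.det ∧
      (∀ i l, (X - 1) i l ∈ IsLocalRing.maximalIdeal A) ∧
      ∀ γ, X * (r₀ γ).map j = r γ * X := by
  classical
  -- the subring and the reduction map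
  let E : Subring (M2 A) := tdRing j hloc r htr g hg
  let φ : E →+* M2 (ResidueField A) := (residue A).mapMatrix.comp E.subtype
  have hφ : ∀ x : E, φ x = (x : M2 A).map (residue A) := fun x => rfl
  obtain ⟨N, hN⟩ := hnil
  -- the kernel of the reduction map is nil
  have hker : ∀ x ∈ RingHom.ker φ, IsNilpotent x := by
    intro x hx
    rw [RingHom.mem_ker, hφ] at hx
    have h1 : (x : M2 A) ∈ tdSpan j r g (maximalIdeal B) :=
      td_mem_maximal j r g hg x.2 (td_entry_mem_of_map_eq_zero hx)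
    have h2 := td_pow_mem j hloc r htr g hg h1 N
    rw [hN, Ideal.zero_eq_bot] at h2
    refine ⟨N, Subtype.ext ?_⟩
    rw [SubmonoidClass.coe_pow]
    exact tdSpan_bot j r g h2
  -- lift the idempotent `E₁₁`
  obtain ⟨y11, hy11E, hy11⟩ := td_exists_approx j hres r g hg (Matrix.single 0 0 1)
  have hrange : (Matrix.single 0 0 1 : M2 (ResidueField A)) ∈ φ.range :=
    ⟨⟨y11, hy11E⟩, by rw [hφ]; exact td_map_eq_single 0 0 hy11⟩
  have hidem : IsIdempotentElem (Matrix.single 0 0 1 : M2 (ResidueField A)) := by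
    rw [IsIdempotentElem, Matrix.single_mul_single_same, mul_one]
  obtain ⟨e, he_idem, he⟩ := exists_isIdempotentElem_eq_of_ker_isNilpotent φ hker _ hrange hidem
  -- an element lifting `E₂₁`
  obtain ⟨f, hfE, hf⟩ := td_exists_approx j hres r g hg (Matrix.single 1 0 1)
  have hRf : f.map (residue A) = Matrix.single 1 0 1 := td_map_eq_single 1 0 hf
  have hRe : (e : M2 A).map (residue A) = Matrix.single 0 0 1 := by rw [← hφ]; exact he
  have hee : (e : M2 A) * (e : M2 A) = (e : M2 A) := congrArg Subtype.val he_idem.eq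
  have heE : (e : M2 A) ∈ tdSpan j r g ⊤ := e.2
  generalize (e : M2 A) = eM at hRe hee heE
  let w₁ : Fin 2 → A := fun i => eM i 0
  have hew : eM.mulVec w₁ = w₁ := by
    funext i
    have := congrFun (congrFun hee i) 0
    rw [Matrix.mul_apply] at this
    exact this
  let w₂ : Fin 2 → A := f.mulVec w₁
  have hmulE : ∀ {u v : M2 A}, u ∈ tdSpan j r g ⊤ → v ∈ tdSpan j r g ⊤ →
      u * v ∈ tdSpan j r g ⊤ :=
    fun hu hv => tdSpan_mono j r g le_top (td_mul_mem j hloc r htr g hg hu hv)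
  -- the key consequence of the Nakayama iteration
  have hkey : ∀ y ∈ tdSpan j r g ⊤, ∃ α β : B, y.mulVec w₁ = j α • w₁ + j β • w₂ := by
    intro y hy
    obtain ⟨α, β, z, hz, hyz⟩ :=
      td_iter j hloc hres r htr g hg eM f heE hfE hRe hRf w₁ hew N y hy
    rw [hN, Ideal.zero_eq_bot] at hz
    rw [tdSpan_bot j r g hz, Matrix.zero_mulVec, add_zero] at hyz
    exact ⟨α, β, hyz⟩
  -- the conjugating matrix
  let X : M2 A := Matrix.of fun i l => if l = 0 then w₁ i else w₂ i
  have hX0 : ∀ i, X i 0 = w₁ i := fun i => rfl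
  have hX1 : ∀ i, X i 1 = w₂ i := fun i => rfl
  have hRe' : ∀ a b, residue A (eM a b) = (Matrix.single 0 0 1 : M2 (ResidueField A)) a b :=
    fun a b => by rw [← hRe]; rfl
  have hRf' : ∀ a b, residue A (f a b) = (Matrix.single 1 0 1 : M2 (ResidueField A)) a b :=
    fun a b => by rw [← hRf]; rfl
  have hXmap : X.map (residue A) = 1 := by
    ext i l
    fin_cases i <;> fin_cases l <;>
      simp [X, w₁, w₂, Matrix.mulVec, dotProduct, Fin.sum_univ_two, hRe', hRf',
        Matrix.single_apply]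
  have hXm : ∀ i l, (X - 1) i l ∈ maximalIdeal A := by
    apply td_entry_mem_of_map_eq_zero
    rw [Matrix.map_sub (f := residue A) (fun _ _ => map_sub _ _ _), hXmap,
      Matrix.map_one _ (map_zero _) (map_one _), sub_self]
  have hXdet : IsUnit X.det := by
    have h1 : residue A X.det = 1 := by
      rw [RingHom.map_det, RingHom.mapMatrix_apply, hXmap, Matrix.det_one]
    rw [← IsLocalRing.residue_ne_zero_iff_isUnit, h1]
    exact one_ne_zero
  have hc0 : ∀ (M : M2 A) i, (M * X) i 0 = (M.mulVec w₁) i := fun M i => by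
    rw [Matrix.mul_apply]; rfl
  have hc1 : ∀ (M : M2 A) i, (M * X) i 1 = (M.mulVec w₂) i := fun M i => by
    rw [Matrix.mul_apply]; rfl
  -- every `r γ` is conjugated into `M2 (j B)`
  have hY : ∀ γ, ∃ Y : M2 B, r γ * X = X * Y.map j := by
    intro γ
    have hγ := td_rep_mem j hloc r htr g hg γ
    obtain ⟨α, β, h1⟩ := hkey _ hγ
    obtain ⟨γ', δ, h2⟩ := hkey _ (hmulE hγ hfE)
    rw [← Matrix.mulVec_mulVec] at h2
    refine ⟨!![α, γ'; β, δ], ?_⟩
    ext i l
    fin_cases l
    · have := congrFun h1 i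
      simp only [Fin.zero_eta, Fin.isValue]
      rw [hc0, this, Matrix.mul_apply, Fin.sum_univ_two, hX0, hX1]
      simp [mul_comm]
    · have := congrFun h2 i
      simp only [Fin.mk_one, Fin.isValue]
      rw [hc1, this, Matrix.mul_apply, Fin.sum_univ_two, hX0, hX1]
      simp [mul_comm]
  have hXinj : ∀ Y Y' : M2 B, X * Y.map j = X * Y'.map j → Y = Y' := by
    intro Y Y' h
    have hXu : IsUnit X := (Matrix.isUnit_iff_isUnit_det X).mpr hXdet
    exact Matrix.map_injective hj (hXu.mul_left_cancel h)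
  choose Y hYs using hY
  refine ⟨{ toFun := Y
            map_one' := hXinj _ _ (by
              rw [← hYs 1, map_one, one_mul, Matrix.map_one _ (map_zero j) (map_one j), mul_one])
            map_mul' := fun γ γ' => hXinj _ _ (by
              rw [← hYs, map_mul, Matrix.map_mul, mul_assoc (r γ), hYs γ', ← mul_assoc, hYs γ,
                mul_assoc]) }, X, hXdet, hXm, fun γ => (hYs γ).symm⟩

end Final

end TraceDescent

end Fermat.Agent.S53x
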