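import Fermat.Agent.S53x.Admissible
import Fermat.Agent.S53x.MatrixForm
import Fermat.Agent.S53x.TraceConj
import Fermat.Agent.S53x.TraceDescent
import Fermat.Agent.S53x.PowerSeriesRing
import Fermat.Agent.S53x.ClassifyingMap

/-!
# S53, module M8-B (parts B3, B4, B5): witnesses of admissible ideals
-/

set_option autoImplicit false

namespace Fermat.Agent.S53x

open IsLocalRing GaloisRep

/-! ## General lemmas on Gram matrices and strict lifts -/

section general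

variable {Γ : Type} [Monoid Γ]

lemma adm_gram_mapRep {A B : Type} [CommRing A] [CommRing B] (φ : A →+* B) (r : Γ →* M2 A)
    (g : Fin 4 → Γ) : gram (mapRep φ r) g = (gram r g).map φ := by
  ext i j
  simp only [gram, Matrix.of_apply, Matrix.map_apply, mapRep_apply]
  rw [Matrix.trace, Matrix.trace, map_sum]
  rfl

lemma adm_gram_congr {A : Type} [CommRing A] {r r' : Γ →* M2 A} (h : ∀ γ, r γ = r' γ)
    (g : Fin 4 → Γ) : gram r g = gram r' g := by
  ext i j
  simp only [gram, Matrix.of_apply, h]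

/-- A lift of a representation with unit Gram determinant has unit Gram determinant. -/
lemma adm_isUnit_gram_of_strict {A : Type} [CommRing A] [IsLocalRing A] {k₀ : Type} [Field k₀]
    (ι : k₀ →+* ResidueField A) (rbar : Γ →* M2 k₀) (r : Γ →* M2 A)
    (hstrict : ∀ σ, (r σ).map (residue A) = (rbar σ).map ι) (g : Fin 4 → Γ)
    (hg : IsUnit (gram rbar g).det) : IsUnit (gram r g).det := by
  have h1 : gram (mapRep (residue A) r) g = gram (mapRep ι rbar) g :=
    adm_gram_congr (fun γ => by rw [mapRep_apply, mapRep_apply, hstrict]) g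
  rw [adm_gram_mapRep, adm_gram_mapRep] at h1
  have h2 : residue A (gram r g).det = ι (gram rbar g).det := by
    rw [RingHom.map_det, RingHom.map_det]
    exact congrArg Matrix.det h1
  by_contra hnu
  have h3 : residue A (gram r g).det = 0 := (residue_eq_zero_iff _).mpr hnu
  rw [h2] at h3
  exact (hg.map ι).ne_zero h3

lemma adm_trace_eq_of_conj {A : Type} [CommRing A] (X Y Z : M2 A) (hX : IsUnit X.det)
    (h : X * Y = Z * X) : Y.trace = Z.trace := by
  have h1 : Y = X⁻¹ * (Z * X) := by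
    rw [← h, ← mul_assoc, Matrix.nonsing_inv_mul X hX, one_mul]
  rw [h1, Matrix.trace_mul_comm, mul_assoc, Matrix.mul_nonsing_inv X hX, mul_one]

lemma adm_eq_of_conj_one {A : Type} [CommRing A] (X Y : M2 A) (hX : IsUnit X.det)
    (h : X * Y = X) : Y = 1 := by
  have h1 : Y = X⁻¹ * (X * Y) := by
    rw [← mul_assoc, Matrix.nonsing_inv_mul X hX, one_mul]
  rw [h1, h, Matrix.nonsing_inv_mul X hX]

lemma adm_map_residue_eq_one {A : Type} [CommRing A] [IsLocalRing A] (X : M2 A)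
    (hX1 : ∀ i l, (X - 1) i l ∈ maximalIdeal A) : X.map (residue A) = 1 := by
  ext i l
  have h := (residue_eq_zero_iff _).mpr (hX1 i l)
  rw [Matrix.sub_apply, map_sub, sub_eq_zero] at h
  rw [Matrix.map_apply, h, Matrix.one_apply, Matrix.one_apply]
  split_ifs <;> simp

end general

/-! ## Generalities on Artinian test algebras -/

section testalg

variable {𝒪 : Type} [CommRing 𝒪] [IsLocalRing 𝒪]

lemma adm_exists_maximalIdeal_pow_eq_bot {A : Type} [CommRing A] [IsLocalRing A]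
    [IsArtinianRing A] : ∃ N : ℕ, maximalIdeal A ^ N = ⊥ := by
  have h := IsArtinianRing.isNilpotent_jacobson_bot (R := A)
  rw [IsLocalRing.jacobson_eq_maximalIdeal ⊥ bot_ne_top] at h
  obtain ⟨N, hN⟩ := h
  exact ⟨N, by simpa using hN⟩

lemma adm_isNilpotent_of_mem_maximalIdeal {A : Type} [CommRing A] [IsLocalRing A]
    [IsArtinianRing A] {a : A} (ha : a ∈ maximalIdeal A) : IsNilpotent a := by
  obtain ⟨N, hN⟩ := adm_exists_maximalIdeal_pow_eq_bot (A := A)
  refine ⟨N, ?_⟩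
  have := Ideal.pow_mem_pow ha N
  rwa [hN, Ideal.mem_bot] at this

/-- An injective ring hom out of an Artinian local ring into a nontrivial ring is local. -/
lemma adm_isLocalHom_of_injective {B A : Type} [CommRing B] [IsLocalRing B] [IsArtinianRing B]
    [CommRing A] [Nontrivial A] (j : B →+* A) : IsLocalHom j := by
  constructor
  intro b hb
  by_contra hnu
  have hnil : IsNilpotent b := adm_isNilpotent_of_mem_maximalIdeal ((mem_maximalIdeal b).mpr hnu)
  have : IsNilpotent (j b) := hnil.map j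
  exact this.not_isUnit hb

/-- The trace of a strict lift at `g` is congruent to any lift of the residual trace. -/
lemma adm_trace_sub_mem_maximalIdeal {A : Type} [CommRing A] [IsLocalRing A] [Algebra 𝒪 A]
    [IsLocalHom (algebraMap 𝒪 A)] {Γ : Type} [Monoid Γ] (rbar : Γ →* M2 (ResidueField 𝒪))
    (r : Γ →* M2 A)
    (hstrict : ∀ σ, (r σ).map (residue A) = (rbar σ).map (ResidueField.map (algebraMap 𝒪 A)))
    (γ : Γ) (c : 𝒪) (hc : residue 𝒪 c = (rbar γ).trace) :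
    (r γ).trace - algebraMap 𝒪 A c ∈ maximalIdeal A := by
  rw [← residue_eq_zero_iff, map_sub, sub_eq_zero]
  have h1 : residue A (r γ).trace = ((r γ).map (residue A)).trace := by
    rw [Matrix.trace, Matrix.trace, map_sum]; rfl
  have h2 : ((rbar γ).map (ResidueField.map (algebraMap 𝒪 A))).trace =
      ResidueField.map (algebraMap 𝒪 A) (rbar γ).trace := by
    rw [Matrix.trace, Matrix.trace, map_sum]; rfl
  rw [h1, hstrict, h2, ← hc, ResidueField.map_residue]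

end testalg

/-! ## Quotients of `G.S` and the core of (B4) -/

section quot

variable {𝒪 : Type} [CommRing 𝒪] [IsLocalRing 𝒪] [IsNoetherianRing 𝒪]
  {rbar : GQ →* M2 (ResidueField 𝒪)} {G : GenData 𝒪 rbar}
  {𝒟 : ∀ ⦃A : Type⦄ [CommRing A] [IsLocalRing A] [Algebra 𝒪 A], GaloisRepAdic A → Prop}

omit [IsNoetherianRing 𝒪] in
/-- The classifying map of a strict lift over an Artinian test algebra sends the variables into
the maximal ideal. -/
lemma GenData.IsClassifying.X_mem_maximalIdeal {A : Type} [CommRing A] [IsLocalRing A]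
    [Algebra 𝒪 A] [IsLocalHom (algebraMap 𝒪 A)] {r : GQ →* M2 A}
    (hstrict : ∀ σ, (r σ).map (residue A) = (rbar σ).map (ResidueField.map (algebraMap 𝒪 A)))
    {θ : G.S →ₐ[𝒪] A} (hθ : G.IsClassifying θ r) (i : Option (Fin G.n)) :
    θ (MvPowerSeries.X i) ∈ maximalIdeal A := by
  cases i with
  | none =>
    rw [hθ.1]
    have hmem : G.ϖ ∈ maximalIdeal 𝒪 := by
      rw [G.hϖ]; exact Ideal.mem_span_singleton_self _
    exact map_nonunit (algebraMap 𝒪 A) G.ϖ hmem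
  | some i =>
    rw [hθ.2 i]
    exact adm_trace_sub_mem_maximalIdeal rbar r hstrict (G.g i) (G.c i) (G.hc i)

omit [IsNoetherianRing 𝒪] in
/-- `(X)^N` is killed by the classifying map for `N` large. -/
lemma GenData.IsClassifying.exists_pow_le_ker {A : Type} [CommRing A] [IsLocalRing A]
    [Algebra 𝒪 A] [IsLocalHom (algebraMap 𝒪 A)] [IsArtinianRing A] {r : GQ →* M2 A}
    (hstrict : ∀ σ, (r σ).map (residue A) = (rbar σ).map (ResidueField.map (algebraMap 𝒪 A)))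
    {θ : G.S →ₐ[𝒪] A} (hθ : G.IsClassifying θ r) :
    ∃ N : ℕ, G.XX ^ N ≤ RingHom.ker θ := by
  obtain ⟨N, hN⟩ := adm_exists_maximalIdeal_pow_eq_bot (A := A)
  refine ⟨N, fun f hf => ?_⟩
  have hle : Ideal.span (Set.range fun i => θ (MvPowerSeries.X i)) ≤ maximalIdeal A := by
    rw [Ideal.span_le]
    rintro _ ⟨i, rfl⟩
    exact hθ.X_mem_maximalIdeal hstrict i
  have hN' : Ideal.span (Set.range fun i => θ (MvPowerSeries.X i)) ^ N = ⊥ := by
    rw [eq_bot_iff, ← hN]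
    exact Ideal.pow_right_mono hle N
  exact algHom_eq_zero_of_mem_idealX_pow θ hN' f hf

omit [IsNoetherianRing 𝒪] in
lemma GenData.IsClassifying.X_none_sub_mem_ker {A : Type} [CommRing A]
    [Algebra 𝒪 A] {r : GQ →* M2 A} {θ : G.S →ₐ[𝒪] A} (hθ : G.IsClassifying θ r) :
    (MvPowerSeries.X none - MvPowerSeries.C G.ϖ : G.S) ∈ RingHom.ker θ := by
  rw [RingHom.mem_ker, map_sub, hθ.1, sub_eq_zero]
  have : (MvPowerSeries.C G.ϖ : G.S) = algebraMap 𝒪 G.S G.ϖ := rfl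
  rw [this, AlgHom.commutes]

end quot

/-! ## Core of (B4): a descended representation over `S ⧸ J` is a witness of admissibility -/

section core

variable {𝒪 : Type} [CommRing 𝒪] [IsLocalRing 𝒪]
  {rbar : GQ →* M2 (ResidueField 𝒪)} {G : GenData 𝒪 rbar}
  {𝒟 : ∀ ⦃A : Type⦄ [CommRing A] [IsLocalRing A] [Algebra 𝒪 A], GaloisRepAdic A → Prop}

/-- Core of (B4).  Let `r` be a strict type-`𝒟` lift over the Artinian test algebra `A` with
classifying map `θ`, let `j : S ⧸ J → A` be an injective `𝒪`-algebra hom with `j ∘ mk = θ`, and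
let `r₀` be a representation over `S ⧸ J` whose push-forward to `A` is conjugate to `r` by a
matrix `X ≡ 1` modulo the maximal ideal.  Then `r₀` is a strict type-`𝒟` lift with classifying map
the quotient map. -/
theorem GenData.isDLift_of_descent (h𝒟 : IsDeformationCondition 𝒪 𝒟)
    {A : Type} [CommRing A] [IsLocalRing A] [Algebra 𝒪 A] (hA : IsArtinianTestAlgebra 𝒪 A)
    (r : GQ →* M2 A) (hr : @IsDLift 𝒪 _ _ 𝒟 rbar A _ _ _ hA.isLocalHom r)
    (θ : G.S →ₐ[𝒪] A) (hθ : G.IsClassifying θ r)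
    (J : Ideal G.S) [IsLocalRing (G.S ⧸ J)] (hB : IsArtinianTestAlgebra 𝒪 (G.S ⧸ J))
    (hϖ : (MvPowerSeries.X none - MvPowerSeries.C G.ϖ : G.S) ∈ J)
    (j : G.S ⧸ J →ₐ[𝒪] A) (hjinj : Function.Injective j)
    (hjθ : ∀ f, j (Ideal.Quotient.mk J f) = θ f)
    (r₀ : GQ →* M2 (G.S ⧸ J)) (X : M2 A) (hX : IsUnit X.det)
    (hX1 : ∀ i l, (X - 1) i l ∈ maximalIdeal A)
    (hconj : ∀ σ, X * (r₀ σ).map j = r σ * X) :
    @IsDLift 𝒪 _ _ 𝒟 rbar (G.S ⧸ J) _ _ _ hB.isLocalHom r₀ ∧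
      G.IsClassifying (Ideal.Quotient.mkₐ 𝒪 J) r₀ := by
  have := hA.isLocalHom
  have := hA.isArtinian
  have := hB.isLocalHom
  have := hB.isArtinian
  refine ⟨?_, ?_⟩
  · -- the descended representation is a strict type-`𝒟` lift
    have hjloc : IsLocalHom (j : G.S ⧸ J →+* A) := adm_isLocalHom_of_injective _
    -- continuity
    have hcont : AdicCont r₀ := by
      apply adicCont_of_finLevelMod_bot
      obtain ⟨M, hM⟩ := adm_exists_maximalIdeal_pow_eq_bot (A := A)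
      obtain ⟨L, hL, h⟩ := finLevelMod_bot_of_adicCont hM hr.cont
      refine ⟨L, hL, fun σ hσ i l => ?_⟩
      have e1 : r σ = 1 := mf_eq_one_of_finLevelMod_bot (h σ hσ)
      have e2 : (r₀ σ).map j = 1 := by
        apply adm_eq_of_conj_one X _ hX
        rw [hconj σ, e1, one_mul]
      have e3 : r₀ σ i l = (1 : M2 (G.S ⧸ J)) i l := by
        apply hjinj
        have := congrFun (congrFun e2 i) l
        rw [Matrix.map_apply] at this
        rw [this, Matrix.one_apply, Matrix.one_apply]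
        split_ifs <;> simp
      rw [Matrix.sub_apply, e3, sub_self]
      exact Ideal.zero_mem _
    refine ⟨hcont, fun σ => ?_, ?_⟩
    · -- strictness
      have hXres : X.map (residue A) = 1 := adm_map_residue_eq_one X hX1
      have e1 : ((r₀ σ).map j).map (residue A) = (r σ).map (residue A) := by
        have := congrArg (fun M : M2 A => M.map (residue A)) (hconj σ)
        simp only [Matrix.map_mul, hXres, one_mul, mul_one] at this
        exact this
      rw [hr.strict σ] at e1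
      ext i l
      have hinj : Function.Injective (ResidueField.map (j : G.S ⧸ J →+* A)) :=
        RingHom.injective _
      apply hinj
      have e2 := congrFun (congrFun e1 i) l
      simp only [Matrix.map_apply] at e2 ⊢
      rw [ResidueField.map_residue]
      refine e2.trans ?_
      obtain ⟨c, hc⟩ := residue_surjective (rbar σ i l)
      rw [← hc, ResidueField.map_residue, ResidueField.map_residue, ResidueField.map_residue]
      congr 1
      exact (j.commutes c).symm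
    · -- type `𝒟`
      refine h𝒟.of_baseChangeAlong_injective hB hA j hjloc hjinj ?_
      refine h𝒟.of_isEquiv hA ?_ hr.isD
      refine mf_isEquiv_symm (mf_isEquiv_trans (baseChangeAlong_ofMat _ hjloc r₀ hcont) ?_)
      exact ofMat_isEquiv_of_conj _ _ X hX (fun σ => hconj σ)
  · -- the classifying map is the quotient map
    refine ⟨?_, fun i => ?_⟩
    · have e : (MvPowerSeries.C G.ϖ : G.S) = algebraMap 𝒪 G.S G.ϖ := rfl
      have := Ideal.Quotient.eq.mpr hϖ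
      rw [e] at this
      exact this
    · apply hjinj
      have e1 : j (Ideal.Quotient.mkₐ 𝒪 J (MvPowerSeries.X (some i))) =
          θ (MvPowerSeries.X (some i)) := hjθ _
      rw [e1, hθ.2 i, map_sub, AlgHom.commutes]
      congr 1
      have e2 : j (r₀ (G.g i)).trace = ((r₀ (G.g i)).map j).trace := by
        rw [Matrix.trace, Matrix.trace, map_sum]; rfl
      rw [e2]
      exact (adm_trace_eq_of_conj X _ _ hX (hconj (G.g i))).symm

end core

/-! ## The injection `S ⧸ ker θ → A` as an `𝒪`-algebra hom -/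

section kerlift

variable {𝒪 : Type} [CommRing 𝒪] [IsLocalRing 𝒪]
  {rbar : GQ →* M2 (ResidueField 𝒪)} (G : GenData 𝒪 rbar)

/-- The `𝒪`-algebra hom `S ⧸ ker θ → A` induced by `θ`. -/
noncomputable def GenData.kerLiftₐ {A : Type} [CommRing A] [Algebra 𝒪 A] (θ : G.S →ₐ[𝒪] A) :
    G.S ⧸ RingHom.ker (θ : G.S →+* A) →ₐ[𝒪] A :=
  Ideal.Quotient.liftₐ (RingHom.ker (θ : G.S →+* A)) θ (fun _ ha => ha)

lemma GenData.kerLiftₐ_apply {A : Type} [CommRing A] [Algebra 𝒪 A] (θ : G.S →ₐ[𝒪] A)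
    (x : G.S ⧸ RingHom.ker (θ : G.S →+* A)) :
    G.kerLiftₐ θ x = RingHom.kerLift (θ : G.S →+* A) x := by
  obtain ⟨f, rfl⟩ := Ideal.Quotient.mk_surjective x
  rfl

lemma GenData.kerLiftₐ_coe {A : Type} [CommRing A] [Algebra 𝒪 A] (θ : G.S →ₐ[𝒪] A) :
    (⇑(G.kerLiftₐ θ) : G.S ⧸ RingHom.ker (θ : G.S →+* A) → A) =
      ⇑(RingHom.kerLift (θ : G.S →+* A)) :=
  funext (G.kerLiftₐ_apply θ)

end kerlift

/-! ## (B4), (B5), (B3) -/

section main

variable {𝒪 : Type} [CommRing 𝒪] [IsLocalRing 𝒪] [IsNoetherianRing 𝒪]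
  {rbar : GQ →* M2 (ResidueField 𝒪)} (G : GenData 𝒪 rbar)
  {𝒟 : ∀ ⦃A : Type⦄ [CommRing A] [IsLocalRing A] [Algebra 𝒪 A], GaloisRepAdic A → Prop}

/-- **(B4)** Every strict type-`𝒟` lift `r` over an Artinian test algebra is, up to conjugation,
pulled back from a witness of admissibility of `ker θ`, `θ` the classifying map of `r`. -/
theorem GenData.adm_of_dlift_aux (h𝒟 : IsDeformationCondition 𝒪 𝒟) (hgram : HasUnitGram rbar)
    (hK1 : G.HasK1 𝒟) {A : Type} [CommRing A] [IsLocalRing A] [Algebra 𝒪 A]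
    (hA : IsArtinianTestAlgebra 𝒪 A) (r : GQ →* M2 A)
    (hr : @IsDLift 𝒪 _ _ 𝒟 rbar A _ _ _ hA.isLocalHom r)
    (θ : G.S →ₐ[𝒪] A) (hθ : G.IsClassifying θ r) :
    ∃ (h1 : IsLocalRing (G.S ⧸ RingHom.ker (θ : G.S →+* A)))
      (h2 : IsLocalHom (algebraMap 𝒪 (G.S ⧸ RingHom.ker (θ : G.S →+* A))))
      (r' : GQ →* M2 (G.S ⧸ RingHom.ker (θ : G.S →+* A))),
      @IsDLift 𝒪 _ _ 𝒟 rbar (G.S ⧸ RingHom.ker (θ : G.S →+* A)) _ h1 _ h2 r' ∧
      G.IsClassifying (Ideal.Quotient.mkₐ 𝒪 (RingHom.ker (θ : G.S →+* A))) r' ∧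
      ∃ X : M2 A, IsUnit X.det ∧
        ∀ σ, X * (r' σ).map (RingHom.kerLift (θ : G.S →+* A)) = r σ * X := by
  have := hA.isLocalHom
  have := hA.isArtinian
  obtain ⟨g, hg⟩ := hgram
  have hgA : IsUnit (gram r g).det := adm_isUnit_gram_of_strict _ rbar r hr.strict g hg
  have hJ : RingHom.ker (θ : G.S →+* A) ≠ ⊤ := RingHom.ker_ne_top _
  have h1 : IsLocalRing (G.S ⧸ RingHom.ker (θ : G.S →+* A)) := isLocalRing_quotient _ hJ
  have h2 : IsLocalHom (algebraMap 𝒪 (G.S ⧸ RingHom.ker (θ : G.S →+* A))) :=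
    isLocalHom_algebraMap_quotient _ hJ
  obtain ⟨N, hN⟩ := hθ.exists_pow_le_ker hr.strict
  have hϖ := hθ.X_none_sub_mem_ker
  have hB : IsArtinianTestAlgebra 𝒪 (G.S ⧸ RingHom.ker (θ : G.S →+* A)) :=
    cm_quot_isArtinianTestAlgebra G _ hN hϖ
  have := hB.isArtinian
  -- hypotheses of the descent theorem
  have hj : Function.Injective (RingHom.kerLift (θ : G.S →+* A)) := RingHom.kerLift_injective _
  have hloc : IsLocalHom (RingHom.kerLift (θ : G.S →+* A)) := adm_isLocalHom_of_injective _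
  have hnil : IsNilpotent (maximalIdeal (G.S ⧸ RingHom.ker (θ : G.S →+* A))) := by
    obtain ⟨M, hM⟩ := adm_exists_maximalIdeal_pow_eq_bot
      (A := G.S ⧸ RingHom.ker (θ : G.S →+* A))
    exact ⟨M, by rw [hM, Ideal.zero_eq_bot]⟩
  have hres : ∀ a : A, ∃ b : G.S ⧸ RingHom.ker (θ : G.S →+* A),
      a - RingHom.kerLift (θ : G.S →+* A) b ∈ maximalIdeal A := by
    intro a
    obtain ⟨c, hc⟩ := hA.residue_surjective (residue A a)
    refine ⟨algebraMap 𝒪 _ c, ?_⟩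
    have e : RingHom.kerLift (θ : G.S →+* A)
        (algebraMap 𝒪 (G.S ⧸ RingHom.ker (θ : G.S →+* A)) c) = algebraMap 𝒪 A c := by
      rw [← G.kerLiftₐ_apply θ, AlgHom.commutes]
    rw [e, ← residue_eq_zero_iff, map_sub, sub_eq_zero]
    exact hc.symm
  have htr : ∀ γ, (r γ).trace ∈ (RingHom.kerLift (θ : G.S →+* A)).range := by
    intro γ
    have h3 := cm_adjoin_le_range G hθ (hK1 A hA r hr γ)
    obtain ⟨f, hf⟩ := h3
    exact ⟨Ideal.Quotient.mk _ f, hf⟩
  obtain ⟨r₀, X, hX, hX1, hconj⟩ := exists_descent _ hj hloc hnil hres r htr g hgA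
  have hconj' : ∀ σ, X * (r₀ σ).map (G.kerLiftₐ θ) = r σ * X := by
    intro σ
    rw [G.kerLiftₐ_coe θ]
    exact hconj σ
  have hjinj : Function.Injective (G.kerLiftₐ θ) := by
    rw [G.kerLiftₐ_coe θ]; exact hj
  obtain ⟨hD, hcl⟩ := GenData.isDLift_of_descent h𝒟 hA r hr θ hθ _ hB hϖ (G.kerLiftₐ θ) hjinj
    (fun _ => rfl) r₀ X hX hX1 hconj'
  exact ⟨h1, h2, r₀, hD, hcl, X, hX, hconj⟩

end main

/-! ## (B5): the residual representation gives an admissible ideal containing `(X)` -/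

section residual

variable {𝒪 : Type} [CommRing 𝒪] [IsLocalRing 𝒪] [IsNoetherianRing 𝒪]
  {rbar : GQ →* M2 (ResidueField 𝒪)} (G : GenData 𝒪 rbar)
  {𝒟 : ∀ ⦃A : Type⦄ [CommRing A] [IsLocalRing A] [Algebra 𝒪 A], GaloisRepAdic A → Prop}

omit [IsNoetherianRing 𝒪] in
/-- The residue field is an Artinian test algebra. -/
theorem adm_isArtinianTestAlgebra_residueField : IsArtinianTestAlgebra 𝒪 (ResidueField 𝒪) where
  isLocalHom := by
    have : algebraMap 𝒪 (ResidueField 𝒪) = residue 𝒪 := rfl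
    rw [this]; infer_instance
  residue_surjective := by
    intro x
    obtain ⟨y, rfl⟩ := residue_surjective x
    obtain ⟨c, rfl⟩ := residue_surjective y
    exact ⟨c, rfl⟩
  isArtinian := inferInstance

omit [IsNoetherianRing 𝒪] in
/-- `rbar` is a strict lift of itself. -/
lemma adm_strict_rbar [IsLocalHom (algebraMap 𝒪 (ResidueField 𝒪))] (σ : GQ) :
    (rbar σ).map (residue (ResidueField 𝒪)) =
      (rbar σ).map (ResidueField.map (algebraMap 𝒪 (ResidueField 𝒪))) := by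
  ext i l
  simp only [Matrix.map_apply]
  obtain ⟨c, hc⟩ := residue_surjective (rbar σ i l)
  rw [← hc, ResidueField.map_residue]
  rfl

/-- **(B5)** Nonemptiness: if `rbar` itself is of type `𝒟`, the kernel of its classifying map is an
admissible ideal containing `(X)`. -/
theorem GenData.adm_residual_aux (h𝒟 : IsDeformationCondition 𝒪 𝒟) (hrbar : FinLevelMod rbar ⊥)
    (hbar : 𝒟 (ofMat rbar (adicCont_of_finLevelMod_bot hrbar))) :
    ∃ J : Ideal G.S, G.IsAdm 𝒟 J ∧ G.XX ≤ J := by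
  have hk : IsArtinianTestAlgebra 𝒪 (ResidueField 𝒪) := adm_isArtinianTestAlgebra_residueField
  have := hk.isLocalHom
  have := hk.isArtinian
  have hr : IsDLift 𝒪 𝒟 rbar (ResidueField 𝒪) rbar :=
    ⟨adicCont_of_finLevelMod_bot hrbar, adm_strict_rbar, hbar⟩
  obtain ⟨θ, hθ⟩ := cm_exists_classifying G rbar adm_strict_rbar
  have hJ : RingHom.ker (θ : G.S →+* ResidueField 𝒪) ≠ ⊤ := RingHom.ker_ne_top _
  have h1 : IsLocalRing (G.S ⧸ RingHom.ker (θ : G.S →+* ResidueField 𝒪)) :=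
    isLocalRing_quotient _ hJ
  have h2 : IsLocalHom (algebraMap 𝒪 (G.S ⧸ RingHom.ker (θ : G.S →+* ResidueField 𝒪))) :=
    isLocalHom_algebraMap_quotient _ hJ
  obtain ⟨N, hN⟩ := hθ.exists_pow_le_ker hr.strict
  have hϖ := hθ.X_none_sub_mem_ker
  have hB : IsArtinianTestAlgebra 𝒪 (G.S ⧸ RingHom.ker (θ : G.S →+* ResidueField 𝒪)) :=
    cm_quot_isArtinianTestAlgebra G _ hN hϖ
  -- `kerLift θ` is bijective
  have hjinj : Function.Injective (G.kerLiftₐ θ) := by
    rw [G.kerLiftₐ_coe θ]; exact RingHom.kerLift_injective _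
  have hjsurj : Function.Surjective (G.kerLiftₐ θ) := by
    intro x
    obtain ⟨c, rfl⟩ := residue_surjective x
    exact ⟨algebraMap 𝒪 _ c, (G.kerLiftₐ θ).commutes c⟩
  let e : G.S ⧸ RingHom.ker (θ : G.S →+* ResidueField 𝒪) ≃+* ResidueField 𝒪 :=
    RingEquiv.ofBijective (G.kerLiftₐ θ) ⟨hjinj, hjsurj⟩
  have he : ∀ x, G.kerLiftₐ θ (e.symm x) = x := fun x => e.apply_symm_apply x
  have hconj : ∀ σ, (1 : M2 (ResidueField 𝒪)) *
      (mapRep (e.symm : ResidueField 𝒪 →+* _) rbar σ).map (G.kerLiftₐ θ) = rbar σ * 1 := by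
    intro σ
    rw [one_mul, mul_one]
    ext i l
    simp only [mapRep_apply, Matrix.map_apply]
    exact he _
  have hjθ : ∀ f, G.kerLiftₐ θ (Ideal.Quotient.mk _ f) = θ f := fun _ => rfl
  have hu : IsUnit (1 : M2 (ResidueField 𝒪)).det := by simp
  have hu1 : ∀ i l, ((1 : M2 (ResidueField 𝒪)) - 1) i l ∈ maximalIdeal (ResidueField 𝒪) := by
    intro i l; simp
  have t1 := GenData.isDLift_of_descent h𝒟 hk rbar hr θ hθ
  have t2 := t1 (RingHom.ker (θ : G.S →+* ResidueField 𝒪)) hB hϖ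
  have t3 := t2 (G.kerLiftₐ θ) hjinj hjθ
  have t4 := t3 (mapRep (e.symm : ResidueField 𝒪 →+* _) rbar) 1 hu hu1
  obtain ⟨hD, hcl⟩ := t4 hconj
  refine ⟨RingHom.ker (θ : G.S →+* ResidueField 𝒪), ⟨h1, h2, N, hN, hϖ, _, hD, hcl⟩, ?_⟩
  -- `(X) ≤ ker θ` since the maximal ideal of a field is zero
  unfold GenData.XX
  rw [Ideal.span_le]
  rintro _ ⟨o, rfl⟩
  have := hθ.X_mem_maximalIdeal hr.strict o
  rw [IsLocalRing.maximalIdeal_eq_bot, Ideal.mem_bot] at this
  exact this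

end residual

/-! ## (B3): two witnesses of admissibility of the same ideal are conjugate -/

section conj

variable {𝒪 : Type} [CommRing 𝒪] [IsLocalRing 𝒪]

/-- Hypothesis-shape of the output of M5 (fibre products): two strict type-`𝒟` lifts over Artinian
test algebras are simultaneously pulled back from a strict type-`𝒟` lift over a third one. -/
def HasProdLift (𝒪 : Type) [CommRing 𝒪] [IsLocalRing 𝒪]
    (𝒟 : ∀ ⦃A : Type⦄ [CommRing A] [IsLocalRing A] [Algebra 𝒪 A], GaloisRepAdic A → Prop)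
    (rbar : GQ →* M2 (ResidueField 𝒪)) : Prop :=
  ∀ (A₁ A₂ : Type) [CommRing A₁] [IsLocalRing A₁] [Algebra 𝒪 A₁] [CommRing A₂] [IsLocalRing A₂]
    [Algebra 𝒪 A₂] (hA₁ : IsArtinianTestAlgebra 𝒪 A₁) (hA₂ : IsArtinianTestAlgebra 𝒪 A₂)
    (r₁ : GQ →* M2 A₁) (r₂ : GQ →* M2 A₂),
    @IsDLift 𝒪 _ _ 𝒟 rbar A₁ _ _ _ hA₁.isLocalHom r₁ →
    @IsDLift 𝒪 _ _ 𝒟 rbar A₂ _ _ _ hA₂.isLocalHom r₂ →
    ∃ (P : Type) (_ : CommRing P) (_ : IsLocalRing P) (_ : Algebra 𝒪 P)
      (hP : IsArtinianTestAlgebra 𝒪 P) (p₁ : P →ₐ[𝒪] A₁) (p₂ : P →ₐ[𝒪] A₂) (ρ : GQ →* M2 P),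
      @IsDLift 𝒪 _ _ 𝒟 rbar P _ _ _ hP.isLocalHom ρ ∧ (∀ σ, (ρ σ).map p₁ = r₁ σ) ∧
        (∀ σ, (ρ σ).map p₂ = r₂ σ)

variable [IsNoetherianRing 𝒪]
  {rbar : GQ →* M2 (ResidueField 𝒪)} (G : GenData 𝒪 rbar)
  {𝒟 : ∀ ⦃A : Type⦄ [CommRing A] [IsLocalRing A] [Algebra 𝒪 A], GaloisRepAdic A → Prop}

/-- **(B3)** Two witnesses of admissibility of the same ideal have the same traces. -/
theorem GenData.adm_witness_trace_eq (hK1 : G.HasK1 𝒟) (hprod : HasProdLift 𝒪 𝒟 rbar)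
    {J : Ideal G.S} (h1 : IsLocalRing (G.S ⧸ J)) (h2 : IsLocalHom (algebraMap 𝒪 (G.S ⧸ J)))
    (hN : ∃ N, G.XX ^ N ≤ J) (hϖ : (MvPowerSeries.X none - MvPowerSeries.C G.ϖ : G.S) ∈ J)
    (r r' : GQ →* M2 (G.S ⧸ J))
    (hr : IsDLift 𝒪 𝒟 rbar (G.S ⧸ J) r) (hr' : IsDLift 𝒪 𝒟 rbar (G.S ⧸ J) r')
    (hc : G.IsClassifying (Ideal.Quotient.mkₐ 𝒪 J) r)
    (hc' : G.IsClassifying (Ideal.Quotient.mkₐ 𝒪 J) r') (σ : GQ) :
    (r σ).trace = (r' σ).trace := by
  obtain ⟨N, hN⟩ := hN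
  have hB : IsArtinianTestAlgebra 𝒪 (G.S ⧸ J) := cm_quot_isArtinianTestAlgebra G J hN hϖ
  obtain ⟨P, _, _, _, hP, p₁, p₂, ρ, hρ, hρ1, hρ2⟩ := hprod (G.S ⧸ J) (G.S ⧸ J) hB hB r r' hr hr'
  have hmem := hK1 P hP ρ hρ σ
  have htr1 : ∀ γ, p₁ (ρ γ).trace = (r γ).trace := by
    intro γ
    rw [← hρ1 γ, Matrix.trace, Matrix.trace, map_sum]; rfl
  have htr2 : ∀ γ, p₂ (ρ γ).trace = (r' γ).trace := by
    intro γ
    rw [← hρ2 γ, Matrix.trace, Matrix.trace, map_sum]; rfl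
  have key : ∀ z ∈ Algebra.adjoin 𝒪 (Set.range fun i => (ρ (G.g i)).trace), p₁ z = p₂ z := by
    intro z hz
    induction hz using Algebra.adjoin_induction with
    | mem x hx =>
      obtain ⟨i, rfl⟩ := hx
      rw [htr1, htr2]
      have e1 := hc.2 i
      have e2 := hc'.2 i
      rw [e1] at e2
      exact sub_left_injective e2
    | algebraMap c => rw [p₁.commutes, p₂.commutes]
    | add x y _ _ hx hy => rw [map_add, map_add, hx, hy]
    | mul x y _ _ hx hy => rw [map_mul, map_mul, hx, hy]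
  rw [← htr1, ← htr2]
  exact key _ hmem

/-- **(B3)** Two witnesses of admissibility of the same ideal are conjugate. -/
theorem GenData.adm_witness_conj_aux (hgram : HasUnitGram rbar) (hK1 : G.HasK1 𝒟)
    (hprod : HasProdLift 𝒪 𝒟 rbar)
    {J : Ideal G.S} (h1 : IsLocalRing (G.S ⧸ J)) (h2 : IsLocalHom (algebraMap 𝒪 (G.S ⧸ J)))
    (hN : ∃ N, G.XX ^ N ≤ J) (hϖ : (MvPowerSeries.X none - MvPowerSeries.C G.ϖ : G.S) ∈ J)
    (r r' : GQ →* M2 (G.S ⧸ J))
    (hr : IsDLift 𝒪 𝒟 rbar (G.S ⧸ J) r) (hr' : IsDLift 𝒪 𝒟 rbar (G.S ⧸ J) r')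
    (hc : G.IsClassifying (Ideal.Quotient.mkₐ 𝒪 J) r)
    (hc' : G.IsClassifying (Ideal.Quotient.mkₐ 𝒪 J) r') :
    ∃ X : M2 (G.S ⧸ J), IsUnit X.det ∧ ∀ σ, X * r σ = r' σ * X := by
  obtain ⟨g, hg⟩ := hgram
  have hgA : IsUnit (gram r g).det := adm_isUnit_gram_of_strict _ rbar r hr.strict g hg
  exact exists_conj_of_trace_eq r r'
    (G.adm_witness_trace_eq hK1 hprod h1 h2 hN hϖ r r' hr hr' hc hc') g hgA

end conj

/-! ## The M8-B statements (B3), (B4), (B5) in the exact shape fixed by the captain's skeleton -/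

section Exact

variable {𝒪 : Type} [CommRing 𝒪] [IsDomain 𝒪] [IsDiscreteValuationRing 𝒪]
  [IsAdicComplete (maximalIdeal 𝒪) 𝒪] [Finite (ResidueField 𝒪)]
variable (𝒟 : ∀ ⦃A : Type⦄ [CommRing A] [IsLocalRing A] [Algebra 𝒪 A], GaloisRepAdic A → Prop)
variable {rbar : GQ →* M2 (ResidueField 𝒪)} (G : GenData 𝒪 rbar)

/-- two witnesses for the same admissible ideal are conjugate (with the M5 product lift as an
explicit hypothesis) -/
theorem adm_witness_conj_of_prodLift (hgram : HasUnitGram rbar)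
    (hK1 : G.HasK1 𝒟) (hprod : HasProdLift 𝒪 𝒟 rbar) {J : Ideal G.S}
    (h1 : IsLocalRing (G.S ⧸ J)) (h2 : IsLocalHom (algebraMap 𝒪 (G.S ⧸ J)))
    (hN : ∃ N, G.XX ^ N ≤ J) (hϖ : (MvPowerSeries.X none - MvPowerSeries.C G.ϖ : G.S) ∈ J)
    (r r' : GQ →* M2 (G.S ⧸ J))
    (hr : IsDLift 𝒪 𝒟 rbar (G.S ⧸ J) r) (hr' : IsDLift 𝒪 𝒟 rbar (G.S ⧸ J) r')
    (hc : G.IsClassifying (Ideal.Quotient.mkₐ 𝒪 J) r)
    (hc' : G.IsClassifying (Ideal.Quotient.mkₐ 𝒪 J) r') :
    ∃ X : M2 (G.S ⧸ J), IsUnit X.det ∧ ∀ σ, X * r σ = r' σ * X :=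
  G.adm_witness_conj_aux hgram hK1 hprod h1 h2 hN hϖ r r' hr hr' hc hc'

/-- every strict type-`𝒟` lift over an Artinian test algebra is (up to conjugation) pulled back
from a witness over `S ⧸ ker θ` -/
theorem adm_of_dlift (h𝒟 : GaloisRep.IsDeformationCondition 𝒪 𝒟) (hgram : HasUnitGram rbar)
    (hK1 : G.HasK1 𝒟) {A : Type} [CommRing A] [IsLocalRing A] [Algebra 𝒪 A]
    (hA : GaloisRep.IsArtinianTestAlgebra 𝒪 A) (r : GQ →* M2 A)
    (hr : haveI := hA.isLocalHom; IsDLift 𝒪 𝒟 rbar A r)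
    (θ : G.S →ₐ[𝒪] A) (hθ : G.IsClassifying θ r) :
    ∃ (h1 : IsLocalRing (G.S ⧸ RingHom.ker (θ : G.S →+* A)))
      (h2 : IsLocalHom (algebraMap 𝒪 (G.S ⧸ RingHom.ker (θ : G.S →+* A))))
      (r' : GQ →* M2 (G.S ⧸ RingHom.ker (θ : G.S →+* A))),
      IsDLift 𝒪 𝒟 rbar (G.S ⧸ RingHom.ker (θ : G.S →+* A)) r' ∧
      G.IsClassifying (Ideal.Quotient.mkₐ 𝒪 (RingHom.ker (θ : G.S →+* A))) r' ∧
      ∃ X : M2 A, IsUnit X.det ∧
        ∀ σ, X * (r' σ).map (RingHom.kerLift (θ : G.S →+* A)) = r σ * X :=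
  G.adm_of_dlift_aux h𝒟 hgram hK1 hA r hr θ hθ

-- (B5) in the exact skeleton shape is `adm_residual` in `AdmissibleRes.lean`; the general version
-- here is `GenData.adm_residual_aux`.

end Exact

end Fermat.Agent.S53x
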