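import Mathlib
import Fermat.Agent.S53x.Basic
import Fermat.Agent.S53x.DLift
import Fermat.Agent.S53x.MatrixForm
import Fermat.Agent.S53x.TraceConj

/-!
# S53 (module M9): from the Artinian universal property to the complete Noetherian one

Main result: `cnl_universal`.  Input: a matrix representation `runiv : GQ →* M2 R` (adically
continuous) which has the universal property, in MATRIX language, with respect to strict
type-`𝒟` lifts over Artinian test algebras (hypothesis `UA`, exactly the shape of row M8-EF of the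
plan).  Output: `ofMat runiv` has the universal property with respect to all complete Noetherian
local `𝒪`-algebras, in exactly the shape of the field `GaloisRep.DeformationRingData.universal`.

Proof: reduce `ρA` modulo `m_A^(n+1)` (Artinian test algebras, type `𝒟` by
`iff_forall_surjective`), get the unique `φ n : R → A ⧸ m^(n+1)`, glue them by
`IsAdicComplete.liftAlgHom`; the glued map works because the traces agree modulo every power of
`m_A` (Hausdorff) and Carayol's theorem `exists_conj_of_trace_eq` applies over the local ring `A`.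
-/

set_option autoImplicit false

namespace Fermat.Agent.S53x

open IsLocalRing

/-! ### Automatic locality -/

/-- An `𝒪`-algebra homomorphism into a local `𝒪`-algebra whose residue field is
surjected onto by `𝒪` is automatically a local homomorphism. -/
theorem cnl_isLocalHom_of_residue_surjective {𝒪 R A : Type} [CommRing 𝒪] [CommRing R]
    [IsLocalRing R] [CommRing A] [IsLocalRing A] [Algebra 𝒪 R] [Algebra 𝒪 A]
    (hA : Function.Surjective (IsLocalRing.residue A ∘ algebraMap 𝒪 A))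
    (φ : R →ₐ[𝒪] A) : IsLocalHom (φ : R →+* A) := by
  refine ⟨fun a ha => ?_⟩
  by_contra hna
  have ham : a ∈ maximalIdeal R := hna
  have hne : residue A (φ a) ≠ 0 := by
    intro h0
    exact (residue_eq_zero_iff _).1 h0 ha
  obtain ⟨c, hc⟩ := hA (-(residue A (φ a))⁻¹)
  have hu : IsUnit (1 + a * algebraMap 𝒪 R c) := by
    by_contra hnu
    have h1 : 1 + a * algebraMap 𝒪 R c ∈ maximalIdeal R := hnu
    have h2 : a * algebraMap 𝒪 R c ∈ maximalIdeal R := Ideal.mul_mem_right _ _ ham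
    have h3 : (1 : R) ∈ maximalIdeal R := by
      have := Ideal.sub_mem _ h1 h2
      simp at this
    exact (Ideal.ne_top_iff_one _).1 (maximalIdeal.isMaximal R).ne_top h3
  have hu' : IsUnit (φ (1 + a * algebraMap 𝒪 R c)) := hu.map φ
  have hz : residue A (φ (1 + a * algebraMap 𝒪 R c)) = 0 := by
    simp only [map_add, map_one, map_mul, AlgHom.commutes]
    have : residue A (algebraMap 𝒪 A c) = -(residue A (φ a))⁻¹ := hc
    rw [this]
    field_simp
    ring
  exact (residue_eq_zero_iff _).1 hz hu'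

/-! ### Quotients by powers of the maximal ideal -/

section Quot

variable {A : Type} [CommRing A] [IsLocalRing A]

theorem cnl_pow_succ_ne_top (n : ℕ) : maximalIdeal A ^ (n + 1) ≠ ⊤ := by
  intro h
  have h1 : maximalIdeal A ^ (n + 1) ≤ maximalIdeal A := Ideal.pow_le_self (Nat.succ_ne_zero n)
  rw [h] at h1
  exact (maximalIdeal.isMaximal A).ne_top (top_le_iff.1 h1)

theorem cnl_quot_nontrivial (n : ℕ) : Nontrivial (A ⧸ maximalIdeal A ^ (n + 1)) :=
  Ideal.Quotient.nontrivial_iff.2 (cnl_pow_succ_ne_top n)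

theorem cnl_quot_isLocalRing (n : ℕ) : IsLocalRing (A ⧸ maximalIdeal A ^ (n + 1)) :=
  haveI := cnl_quot_nontrivial (A := A) n
  IsLocalRing.of_surjective' (Ideal.Quotient.mk _) Ideal.Quotient.mk_surjective

attribute [local instance] cnl_quot_isLocalRing

theorem cnl_mk_isLocalHom (n : ℕ) : IsLocalHom (Ideal.Quotient.mk (maximalIdeal A ^ (n + 1))) :=
  haveI := cnl_quot_nontrivial (A := A) n
  IsLocalHom.of_surjective _ Ideal.Quotient.mk_surjective

theorem cnl_quot_maximalIdeal_pow (n : ℕ) :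
    maximalIdeal (A ⧸ maximalIdeal A ^ (n + 1)) ^ (n + 1) = ⊥ := by
  have := cnl_mk_isLocalHom (A := A) n
  have h1 : maximalIdeal (A ⧸ maximalIdeal A ^ (n + 1)) =
      (maximalIdeal A).map (Ideal.Quotient.mk (maximalIdeal A ^ (n + 1))) := by
    apply le_antisymm
    · intro x hx
      obtain ⟨a, rfl⟩ := Ideal.Quotient.mk_surjective x
      refine Ideal.mem_map_of_mem _ ?_
      by_contra ha
      have : IsUnit a := by
        by_contra hu
        exact ha hu
      exact hx (this.map _)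
    · exact IsLocalRing.map_maximalIdeal_le _
  rw [h1, ← Ideal.map_pow]
  exact Ideal.map_quotient_self _

theorem cnl_quot_isArtinianRing [IsNoetherianRing A] (n : ℕ) :
    IsArtinianRing (A ⧸ maximalIdeal A ^ (n + 1)) := by
  rw [isArtinianRing_iff_isNilpotent_maximalIdeal]
  exact ⟨n + 1, cnl_quot_maximalIdeal_pow n⟩

variable {𝒪 : Type} [CommRing 𝒪] [Algebra 𝒪 A]

theorem cnl_quot_algebraMap_isLocalHom [IsLocalHom (algebraMap 𝒪 A)] (n : ℕ) :
    IsLocalHom (algebraMap 𝒪 (A ⧸ maximalIdeal A ^ (n + 1))) := by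
  have := cnl_mk_isLocalHom (A := A) n
  have : algebraMap 𝒪 (A ⧸ maximalIdeal A ^ (n + 1)) =
      (Ideal.Quotient.mk (maximalIdeal A ^ (n + 1))).comp (algebraMap 𝒪 A) := rfl
  rw [this]
  infer_instance

theorem cnl_quot_residue_surjective
    (hsurj : Function.Surjective (residue A ∘ algebraMap 𝒪 A)) (n : ℕ) :
    Function.Surjective (residue (A ⧸ maximalIdeal A ^ (n + 1)) ∘
      algebraMap 𝒪 (A ⧸ maximalIdeal A ^ (n + 1))) := by
  intro y
  obtain ⟨x, rfl⟩ := residue_surjective y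
  obtain ⟨a, rfl⟩ := Ideal.Quotient.mk_surjective x
  obtain ⟨c, hc⟩ := hsurj (residue A a)
  refine ⟨c, ?_⟩
  have := cnl_mk_isLocalHom (A := A) n
  have h1 : residue A (algebraMap 𝒪 A c - a) = 0 := by
    rw [map_sub, sub_eq_zero]; exact hc
  have h2 : algebraMap 𝒪 A c - a ∈ maximalIdeal A := (residue_eq_zero_iff _).1 h1
  have h3 := map_nonunit (Ideal.Quotient.mk (maximalIdeal A ^ (n + 1))) _ h2
  have h4 : residue (A ⧸ maximalIdeal A ^ (n + 1))
      ((Ideal.Quotient.mk (maximalIdeal A ^ (n + 1))) (algebraMap 𝒪 A c - a)) = 0 :=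
    (residue_eq_zero_iff _).2 h3
  rw [map_sub, map_sub, sub_eq_zero] at h4
  exact h4

end Quot

attribute [local instance] cnl_quot_isLocalRing

/-! ### Small matrix lemmas -/

theorem cnl_trace_eq_of_conj {A : Type} [CommRing A] {X a b : M2 A} (hX : IsUnit X.det)
    (h : X * a = b * X) : a.trace = b.trace := by
  have hXinv : X * X⁻¹ = 1 := Matrix.mul_nonsing_inv X hX
  have hb : b = X * a * X⁻¹ := by rw [h, mul_assoc, hXinv, mul_one]
  rw [hb, Matrix.trace_mul_cycle, Matrix.nonsing_inv_mul X hX, one_mul]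

theorem cnl_map_conj {A B : Type} [CommRing A] [CommRing B] (f : A →+* B) {X a b : M2 A}
    (h : X * a = b * X) : X.map f * a.map f = b.map f * X.map f := by
  rw [← Matrix.map_mul, ← Matrix.map_mul, h]

theorem cnl_isUnit_det_map {A B : Type} [CommRing A] [CommRing B] (f : A →+* B) {X : M2 A}
    (hX : IsUnit X.det) : IsUnit (X.map f).det := by
  have h1 : (X.map f).det = f X.det := (RingHom.map_det f X).symm
  rw [h1]
  exact hX.map f

theorem cnl_trace_map {A B : Type} [CommRing A] [CommRing B] (f : A →+* B) (a : M2 A) :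
    (a.map f).trace = f a.trace := by
  rw [Matrix.trace, Matrix.trace, map_sum]
  rfl

/-! ### Hausdorff / completeness helpers -/

theorem cnl_eq_of_forall_mk_eq {A : Type} [CommRing A] (I : Ideal A) [IsHausdorff I A] {x y : A}
    (h : ∀ n : ℕ, Ideal.Quotient.mk (I ^ (n + 1)) x = Ideal.Quotient.mk (I ^ (n + 1)) y) :
    x = y := by
  rw [← sub_eq_zero]
  apply IsHausdorff.haus (I := I) ‹_›
  intro n
  rw [SModEq.zero]
  have h1 : x - y ∈ I ^ (n + 1) := (Ideal.Quotient.eq).1 (h n)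
  have h2 : x - y ∈ I ^ n := Ideal.pow_le_pow_right (Nat.le_succ n) h1
  simpa using h2

theorem cnl_algHom_ext {𝒪 R A : Type} [CommRing 𝒪] [CommRing R] [Algebra 𝒪 R] [CommRing A]
    [Algebra 𝒪 A] (I : Ideal A) [IsHausdorff I A] {f g : R →ₐ[𝒪] A}
    (H : ∀ n : ℕ, (Ideal.Quotient.mkₐ 𝒪 (I ^ (n + 1))).comp f =
      (Ideal.Quotient.mkₐ 𝒪 (I ^ (n + 1))).comp g) : f = g := by
  apply AlgHom.ext
  intro x
  apply cnl_eq_of_forall_mk_eq I
  intro n
  exact congrArg (fun h => h x) (H n)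

theorem cnl_exists_lift {𝒪 R A : Type} [CommRing 𝒪] [CommRing R] [Algebra 𝒪 R] [CommRing A]
    [Algebra 𝒪 A] (I : Ideal A) [IsAdicComplete I A]
    (φ : ∀ n : ℕ, R →ₐ[𝒪] A ⧸ I ^ (n + 1))
    (hφ : ∀ {m n : ℕ} (h : m ≤ n),
      (Ideal.Quotient.factorₐ 𝒪 (Ideal.pow_le_pow_right (Nat.succ_le_succ h))).comp (φ n) = φ m) :
    ∃ Φ : R →ₐ[𝒪] A, ∀ n, (Ideal.Quotient.mkₐ 𝒪 (I ^ (n + 1))).comp Φ = φ n := by
  let f : ∀ n : ℕ, R →ₐ[𝒪] A ⧸ I ^ n := fun n =>
    (Ideal.Quotient.factorₐ 𝒪 (Ideal.pow_le_pow_right (Nat.le_succ n))).comp (φ n)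
  have hf : ∀ {m n : ℕ} (hle : m ≤ n),
      (Ideal.Quotient.factorₐ 𝒪 (Ideal.pow_le_pow_right hle)).comp (f n) = f m := by
    intro m n hle
    show (Ideal.Quotient.factorₐ 𝒪 (Ideal.pow_le_pow_right hle)).comp
        ((Ideal.Quotient.factorₐ 𝒪 (Ideal.pow_le_pow_right (Nat.le_succ n))).comp (φ n)) =
      (Ideal.Quotient.factorₐ 𝒪 (Ideal.pow_le_pow_right (Nat.le_succ m))).comp (φ m)
    rw [← hφ hle, ← AlgHom.comp_assoc, ← AlgHom.comp_assoc, Ideal.Quotient.factorₐ_comp,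
      Ideal.Quotient.factorₐ_comp]
  refine ⟨IsAdicComplete.liftAlgHom I f hf, fun n => ?_⟩
  rw [IsAdicComplete.mkₐ_comp_liftAlgHom]
  show (Ideal.Quotient.factorₐ 𝒪 _).comp (φ (n + 1)) = φ n
  exact hφ (Nat.le_succ n)

section Main

variable {𝒪 : Type} [CommRing 𝒪] [IsLocalRing 𝒪]
  {𝒟 : ∀ ⦃A : Type⦄ [CommRing A] [IsLocalRing A] [Algebra 𝒪 A], GaloisRepAdic A → Prop}
  {rbar : GQ →* M2 (ResidueField 𝒪)}

section level

variable {A : Type} [CommRing A] [IsLocalRing A] [Algebra 𝒪 A]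

omit [IsLocalRing 𝒪] in
/-- `A ⧸ m^(n+1)` is an Artinian test algebra. -/
theorem cnl_quot_isArtinianTestAlgebra [IsNoetherianRing A] [IsLocalHom (algebraMap 𝒪 A)]
    (hsurj : Function.Surjective (residue A ∘ algebraMap 𝒪 A)) (n : ℕ) :
    GaloisRep.IsArtinianTestAlgebra 𝒪 (A ⧸ maximalIdeal A ^ (n + 1)) :=
  ⟨cnl_quot_algebraMap_isLocalHom n, cnl_quot_residue_surjective hsurj n,
    cnl_quot_isArtinianRing n⟩

/-- The quotient map `A → A ⧸ m^(n+1)` as an algebra homomorphism. -/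
noncomputable abbrev cnlQ (𝒪 : Type) [CommRing 𝒪] (A : Type) [CommRing A] [IsLocalRing A]
    [Algebra 𝒪 A] (n : ℕ) : A →ₐ[𝒪] A ⧸ maximalIdeal A ^ (n + 1) :=
  Ideal.Quotient.mkₐ 𝒪 (maximalIdeal A ^ (n + 1))

omit [IsLocalRing 𝒪] in
theorem cnlQ_isLocalHom (n : ℕ) :
    IsLocalHom ((cnlQ 𝒪 A n : A →ₐ[𝒪] _) : A →+* A ⧸ maximalIdeal A ^ (n + 1)) :=
  cnl_mk_isLocalHom n

omit [IsLocalRing 𝒪] in
theorem cnlQ_surjective (n : ℕ) : Function.Surjective (cnlQ 𝒪 A n) :=
  Ideal.Quotient.mk_surjective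

/-- Strictness passes to the quotients `A ⧸ m^(n+1)`. -/
theorem cnl_strict_quot [IsLocalHom (algebraMap 𝒪 A)] (r : GQ →* M2 A)
    (hstrict : ∀ σ, (r σ).map (residue A) = (rbar σ).map (ResidueField.map (algebraMap 𝒪 A)))
    (n : ℕ) (σ : GQ) :
    haveI := cnl_quot_algebraMap_isLocalHom (𝒪 := 𝒪) (A := A) n
    (mapRep ((cnlQ 𝒪 A n : A →ₐ[𝒪] _) : A →+* A ⧸ maximalIdeal A ^ (n + 1)) r σ).map
        (residue (A ⧸ maximalIdeal A ^ (n + 1))) =
      (rbar σ).map (ResidueField.map (algebraMap 𝒪 (A ⧸ maximalIdeal A ^ (n + 1)))) := by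
  have := cnl_quot_algebraMap_isLocalHom (𝒪 := 𝒪) (A := A) n
  have := cnl_mk_isLocalHom (A := A) n
  have h2 : ResidueField.map (algebraMap 𝒪 (A ⧸ maximalIdeal A ^ (n + 1))) =
      (ResidueField.map (Ideal.Quotient.mk (maximalIdeal A ^ (n + 1)))).comp
        (ResidueField.map (algebraMap 𝒪 A)) := by
    rw [← ResidueField.map_comp]
    rfl
  rw [h2, mapRep_apply]
  have h3 : ((r σ).map ((cnlQ 𝒪 A n : A →ₐ[𝒪] _) : A →+* A ⧸ maximalIdeal A ^ (n + 1))).map
      (residue (A ⧸ maximalIdeal A ^ (n + 1))) =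
      ((r σ).map (residue A)).map
        (ResidueField.map (Ideal.Quotient.mk (maximalIdeal A ^ (n + 1)))) := by
    rw [Matrix.map_map, Matrix.map_map]
    rfl
  rw [h3, hstrict, Matrix.map_map]
  rfl

end level

/-- A strict matrix form of a type-`𝒟` deformation over a complete Noetherian local `A` gives
strict type-`𝒟` lifts over all `A ⧸ m^(n+1)`. -/
theorem cnl_isDLift_quot (h𝒟 : GaloisRep.IsDeformationCondition 𝒪 𝒟)
    {A : Type} [CommRing A] [IsLocalRing A] [IsNoetherianRing A]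
    [IsAdicComplete (maximalIdeal A) A] [Algebra 𝒪 A] [IsLocalHom (algebraMap 𝒪 A)]
    (hsurj : Function.Surjective (residue A ∘ algebraMap 𝒪 A))
    (ρA : GaloisRepAdic A) (hD : 𝒟 ρA) (r : GQ →* M2 A) (hr : AdicCont r)
    (he : ρA.IsEquiv (ofMat r hr))
    (hstrict : ∀ σ, (r σ).map (residue A) = (rbar σ).map (ResidueField.map (algebraMap 𝒪 A)))
    (n : ℕ) :
    @IsDLift 𝒪 _ _ 𝒟 rbar (A ⧸ maximalIdeal A ^ (n + 1)) _ _ _
      (cnl_quot_algebraMap_isLocalHom n)
      (mapRep ((cnlQ 𝒪 A n : A →ₐ[𝒪] _) : A →+* A ⧸ maximalIdeal A ^ (n + 1)) r) := by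
  have hq := cnlQ_isLocalHom (𝒪 := 𝒪) (A := A) n
  have hT := cnl_quot_isArtinianTestAlgebra (𝒪 := 𝒪) (A := A) hsurj n
  have hcont := adicCont_mapRep _ hq hr
  refine @IsDLift.mk 𝒪 _ _ 𝒟 rbar (A ⧸ maximalIdeal A ^ (n + 1)) _ _ _
      (cnl_quot_algebraMap_isLocalHom n) _ hcont (cnl_strict_quot r hstrict n) ?_
  have h1 := (h𝒟.iff_forall_surjective ‹_› hsurj ρA).1 hD hT (cnlQ 𝒪 A n) hq
    (cnlQ_surjective n)
  exact h𝒟.of_isEquiv hT
    (mf_isEquiv_trans (mf_isEquiv_baseChangeAlong _ hq he) (baseChangeAlong_ofMat _ hq r hr)) h1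

/-- **From Artinian to complete Noetherian coefficient rings.**  If the matrix representation
`runiv` over `R` has the universal property for strict type-`𝒟` lifts over Artinian test algebras
(matrix language), then `ofMat runiv` has the universal property of
`GaloisRep.DeformationRingData.universal` for all complete Noetherian local `𝒪`-algebras. -/
theorem cnl_universal (h𝒟 : GaloisRep.IsDeformationCondition 𝒪 𝒟)
    (hrbar : FinLevelMod rbar ⊥) (hgram : HasUnitGram rbar)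
    (ρbar : ResidualGaloisRep (ResidueField 𝒪)) (hρbar : ρbar.IsEquiv (resOfMat rbar hrbar))
    {R : Type} [CommRing R] [IsLocalRing R] [Algebra 𝒪 R]
    (runiv : GQ →* M2 R) (hruniv : AdicCont runiv)
    (UA : ∀ (B : Type) [CommRing B] [IsLocalRing B] [Algebra 𝒪 B]
        (hB : GaloisRep.IsArtinianTestAlgebra 𝒪 B),
        haveI := hB.isLocalHom
        ∀ r : GQ →* M2 B, IsDLift 𝒪 𝒟 rbar B r →
          ∃! φ : R →ₐ[𝒪] B, IsLocalHom (φ : R →+* B) ∧
            ∃ X : M2 B, IsUnit X.det ∧ ∀ σ, X * (runiv σ).map φ = r σ * X)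
    (A : Type) [CommRing A] [IsLocalRing A] [IsNoetherianRing A]
    [IsAdicComplete (maximalIdeal A) A] [Algebra 𝒪 A] [IsLocalHom (algebraMap 𝒪 A)]
    (hsurj : Function.Surjective (residue A ∘ algebraMap 𝒪 A))
    (ρA : GaloisRepAdic A) (hD : 𝒟 ρA)
    (hres : ρA.residual.IsEquiv (ρbar.baseChangeAlong (ResidueField.map (algebraMap 𝒪 A)))) :
    ∃! φ : R →ₐ[𝒪] A, ∃ hφ : IsLocalHom (φ : R →+* A),
      ((ofMat runiv hruniv).baseChangeAlong (φ : R →+* A) hφ).IsEquiv ρA := by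
  -- strict matrix form of `ρA`
  have hres' := mf_res_isEquiv_trans hres
    (mf_res_isEquiv_baseChangeAlong (ResidueField.map (algebraMap 𝒪 A)) hρbar)
  obtain ⟨r, hr, he, hstrict⟩ := exists_strict_ofMat _ rbar hrbar ρA hres'
  -- unit Gram determinant for `r`
  obtain ⟨g, hg⟩ := hgram
  have hgr : IsUnit (gram r g).det := by
    have h1 : mapRep (residue A) r = mapRep (ResidueField.map (algebraMap 𝒪 A)) rbar :=
      MonoidHom.ext hstrict
    have h2 := bs_det_gram_mapRep (residue A) r g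
    rw [h1, bs_det_gram_mapRep] at h2
    have h3 : IsUnit (residue A (gram r g).det) := h2 ▸ hg.map _
    exact isUnit_of_map_unit (residue A) _ h3
  -- the levels
  have hT := fun n => cnl_quot_isArtinianTestAlgebra (𝒪 := 𝒪) (A := A) hsurj n
  have hL := fun n => cnl_isDLift_quot h𝒟 hsurj ρA hD r hr he hstrict n
  have hUA := fun n => UA _ (hT n) _ (hL n)
  choose φ hφ using fun n => (hUA n).exists
  have huniq : ∀ n (ψ : R →ₐ[𝒪] A ⧸ maximalIdeal A ^ (n + 1)),
      (∃ X : M2 (A ⧸ maximalIdeal A ^ (n + 1)), IsUnit X.det ∧ ∀ σ, X * (runiv σ).map ψ =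
        mapRep ((cnlQ 𝒪 A n : A →ₐ[𝒪] _) : A →+* A ⧸ maximalIdeal A ^ (n + 1)) r σ * X) →
      ψ = φ n := by
    intro n ψ hψ
    exact (hUA n).unique
      ⟨cnl_isLocalHom_of_residue_surjective (hT n).residue_surjective ψ, hψ⟩ (hφ n)
  -- compatibility of the `φ n`
  have hcompat : ∀ {m n : ℕ} (h : m ≤ n),
      (Ideal.Quotient.factorₐ 𝒪 (Ideal.pow_le_pow_right (Nat.succ_le_succ h))).comp (φ n) =
        φ m := by
    intro m n h
    apply huniq m
    obtain ⟨X, hX, hXc⟩ := (hφ n).2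
    have hle : maximalIdeal A ^ (n + 1) ≤ maximalIdeal A ^ (m + 1) :=
      Ideal.pow_le_pow_right (Nat.succ_le_succ h)
    refine ⟨X.map (Ideal.Quotient.factor hle), cnl_isUnit_det_map _ hX, fun σ => ?_⟩
    have h1 := cnl_map_conj (Ideal.Quotient.factor hle) (hXc σ)
    have e1 : (runiv σ).map ((Ideal.Quotient.factorₐ 𝒪 hle).comp (φ n)) =
        ((runiv σ).map (φ n)).map (Ideal.Quotient.factor hle) := by
      rw [Matrix.map_map]; rfl
    have e2 : mapRep ((cnlQ 𝒪 A m : A →ₐ[𝒪] _) : A →+* A ⧸ maximalIdeal A ^ (m + 1)) r σ =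
        (mapRep ((cnlQ 𝒪 A n : A →ₐ[𝒪] _) : A →+* A ⧸ maximalIdeal A ^ (n + 1)) r σ).map
          (Ideal.Quotient.factor hle) := by
      rw [mapRep_apply, mapRep_apply, Matrix.map_map]; rfl
    rw [e1, e2]
    exact h1
  -- the limit homomorphism
  obtain ⟨Φ, hΦ⟩ := cnl_exists_lift (maximalIdeal A) φ hcompat
  have hΦloc : IsLocalHom (Φ : R →+* A) := cnl_isLocalHom_of_residue_surjective hsurj Φ
  -- equality of traces
  have htr : ∀ σ, (r σ).trace = (mapRep (Φ : R →+* A) runiv σ).trace := by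
    intro σ
    apply cnl_eq_of_forall_mk_eq (maximalIdeal A)
    intro n
    obtain ⟨X, hX, hXc⟩ := (hφ n).2
    have h1 := cnl_trace_eq_of_conj hX (hXc σ)
    have e1 : (runiv σ).map (φ n) =
        ((runiv σ).map (Φ : R →+* A)).map (Ideal.Quotient.mk (maximalIdeal A ^ (n + 1))) := by
      rw [← hΦ n, Matrix.map_map]; rfl
    have e2 : mapRep ((cnlQ 𝒪 A n : A →ₐ[𝒪] _) : A →+* A ⧸ maximalIdeal A ^ (n + 1)) r σ =
        (r σ).map (Ideal.Quotient.mk (maximalIdeal A ^ (n + 1))) := rfl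
    rw [e1, e2, cnl_trace_map (Ideal.Quotient.mk (maximalIdeal A ^ (n + 1))) (r σ),
      cnl_trace_map (Ideal.Quotient.mk (maximalIdeal A ^ (n + 1)))
        ((runiv σ).map (Φ : R →+* A))] at h1
    exact h1.symm
  obtain ⟨X, hX, hXc⟩ := exists_conj_of_trace_eq r (mapRep (Φ : R →+* A) runiv) htr g hgr
  have hex : ((ofMat runiv hruniv).baseChangeAlong (Φ : R →+* A) hΦloc).IsEquiv ρA :=
    mf_isEquiv_trans (baseChangeAlong_ofMat _ hΦloc runiv hruniv)
      (mf_isEquiv_trans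
        (mf_isEquiv_symm (ofMat_isEquiv_of_conj hr (adicCont_mapRep _ hΦloc hruniv) X hX hXc))
        (mf_isEquiv_symm he))
  refine ⟨Φ, ⟨hΦloc, hex⟩, ?_⟩
  -- uniqueness
  rintro Φ' ⟨hΦ'loc, hex'⟩
  apply cnl_algHom_ext (maximalIdeal A)
  intro n
  rw [hΦ n]
  apply huniq n
  have h1 : (ofMat (mapRep (Φ' : R →+* A) runiv) (adicCont_mapRep _ hΦ'loc hruniv)).IsEquiv
      (ofMat r hr) :=
    mf_isEquiv_trans (mf_isEquiv_symm (baseChangeAlong_ofMat _ hΦ'loc runiv hruniv))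
      (mf_isEquiv_trans hex' he)
  obtain ⟨Y, hY, hYc⟩ := exists_conj_of_ofMat_isEquiv h1
  refine ⟨Y.map (Ideal.Quotient.mk (maximalIdeal A ^ (n + 1))), cnl_isUnit_det_map _ hY,
    fun σ => ?_⟩
  have h2 := cnl_map_conj (Ideal.Quotient.mk (maximalIdeal A ^ (n + 1))) (hYc σ)
  have e1 : (runiv σ).map ((Ideal.Quotient.mkₐ 𝒪 (maximalIdeal A ^ (n + 1))).comp Φ') =
      (mapRep (Φ' : R →+* A) runiv σ).map (Ideal.Quotient.mk (maximalIdeal A ^ (n + 1))) := by
    rw [mapRep_apply, Matrix.map_map]; rfl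
  have e2 : mapRep ((cnlQ 𝒪 A n : A →ₐ[𝒪] _) : A →+* A ⧸ maximalIdeal A ^ (n + 1)) r σ =
      (r σ).map (Ideal.Quotient.mk (maximalIdeal A ^ (n + 1))) := rfl
  rw [e1, e2]
  exact h2

end Main

end Fermat.Agent.S53x
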