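import Fermat.Agent.S53x.DLift

/-!
# S53, module M8-B: admissible ideals of the power series ring `G.S`

An ideal `J` of `S = 𝒪⟦X_none, X_0, …⟧` is *admissible* if `S ⧸ J` is a local `𝒪`-algebra with
`(X)^N ≤ J`, `X_none - ϖ ∈ J`, carrying a strict type-`𝒟` lift whose classifying map is the
quotient map.
-/

set_option autoImplicit false

namespace Fermat.Agent.S53x

open IsLocalRing

section

variable {𝒪 : Type} [CommRing 𝒪] [IsLocalRing 𝒪] {rbar : GQ →* M2 (ResidueField 𝒪)}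

/-- Admissible ideals of `G.S`. -/
def GenData.IsAdm (G : GenData 𝒪 rbar)
    (𝒟 : ∀ ⦃A : Type⦄ [CommRing A] [IsLocalRing A] [Algebra 𝒪 A], GaloisRepAdic A → Prop)
    (J : Ideal G.S) : Prop :=
  ∃ (h1 : IsLocalRing (G.S ⧸ J)) (h2 : IsLocalHom (algebraMap 𝒪 (G.S ⧸ J))) (N : ℕ),
    G.XX ^ N ≤ J ∧ (MvPowerSeries.X none - MvPowerSeries.C G.ϖ : G.S) ∈ J ∧
      ∃ r : GQ →* M2 (G.S ⧸ J), @IsDLift 𝒪 _ _ 𝒟 rbar (G.S ⧸ J) _ h1 _ h2 r ∧
        G.IsClassifying (Ideal.Quotient.mkₐ 𝒪 J) r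

/-- **K1** (output of M7a) as a hypothesis-shape: all traces of a strict type-`𝒟` lift over an
Artinian test algebra lie in the subalgebra generated by the traces at the `G.g i`. -/
def GenData.HasK1 (G : GenData 𝒪 rbar)
    (𝒟 : ∀ ⦃A : Type⦄ [CommRing A] [IsLocalRing A] [Algebra 𝒪 A], GaloisRepAdic A → Prop) : Prop :=
  ∀ (A : Type) [CommRing A] [IsLocalRing A] [Algebra 𝒪 A]
    (hA : GaloisRep.IsArtinianTestAlgebra 𝒪 A),
    haveI := hA.isLocalHom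
    ∀ r : GQ →* M2 A, IsDLift 𝒪 𝒟 rbar A r →
      ∀ σ, (r σ).trace ∈ Algebra.adjoin 𝒪 (Set.range fun i => (r (G.g i)).trace)

end

end Fermat.Agent.S53x
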