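import Mathlib

/-!
# S53 helper: an algebra hom to the dual numbers detecting a proper subalgebra

Let `C` be a local `𝒪`-algebra with nilpotent maximal ideal and residue field `k = 𝒪 / 𝔪_𝒪`,
and `B` a proper `𝒪`-subalgebra.  Then there is an `𝒪`-algebra hom `π : C → k[ε]`
whose `ε`-part vanishes on `B` but not on all of `C`.  (Algebra core of the generation lemma K1.)
-/

set_option autoImplicit false

namespace Fermat.Agent.S53x

open IsLocalRing

/-- The `𝒪`-algebra structure on the dual numbers over the residue field, exactly as in the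
frozen definition `GaloisRep.TangentFinite`. -/
noncomputable abbrev dualNumberAlgebra (𝒪 : Type) [CommRing 𝒪] [IsLocalRing 𝒪] :
    Algebra 𝒪 (DualNumber (ResidueField 𝒪)) :=
  ((algebraMap (ResidueField 𝒪) (DualNumber (ResidueField 𝒪))).comp
    (algebraMap 𝒪 (ResidueField 𝒪))).toAlgebra

section

variable {𝒪 C : Type} [CommRing 𝒪] [IsLocalRing 𝒪] [CommRing C] [IsLocalRing C] [Algebra 𝒪 C]

/-- `(B ∩ 𝔪) + 𝔪 ^ j` as an `𝒪`-submodule. -/
def dnT (B : Subalgebra 𝒪 C) (j : ℕ) : Submodule 𝒪 C :=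
  (Subalgebra.toSubmodule B ⊓ (maximalIdeal C).restrictScalars 𝒪) ⊔
    ((maximalIdeal C) ^ j).restrictScalars 𝒪

/-- `B + 𝔪 ^ 2` as an `𝒪`-submodule. -/
def dnU (B : Subalgebra 𝒪 C) : Submodule 𝒪 C :=
  Subalgebra.toSubmodule B ⊔ ((maximalIdeal C) ^ 2).restrictScalars 𝒪

lemma mem_dnT {B : Subalgebra 𝒪 C} {j : ℕ} {x : C} :
    x ∈ dnT B j ↔ ∃ β : C, β ∈ B ∧ β ∈ maximalIdeal C ∧ x - β ∈ (maximalIdeal C) ^ j := by
  unfold dnT
  rw [Submodule.mem_sup]
  constructor
  · rintro ⟨β, hβ, z, hz, rfl⟩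
    refine ⟨β, hβ.1, hβ.2, ?_⟩
    simpa using hz
  · rintro ⟨β, hβB, hβm, hz⟩
    exact ⟨β, ⟨hβB, hβm⟩, x - β, hz, by ring⟩

lemma mem_dnU {B : Subalgebra 𝒪 C} {x : C} :
    x ∈ dnU B ↔ ∃ b : C, b ∈ B ∧ x - b ∈ (maximalIdeal C) ^ 2 := by
  unfold dnU
  rw [Submodule.mem_sup]
  constructor
  · rintro ⟨b, hb, z, hz, rfl⟩
    exact ⟨b, hb, by simpa using hz⟩
  · rintro ⟨b, hb, hz⟩
    exact ⟨b, hb, x - b, hz, by ring⟩

lemma dnT_step {B : Subalgebra 𝒪 C} {j : ℕ}
    (h : ∀ x ∈ maximalIdeal C, x ∈ dnT B j) :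
    ∀ y ∈ (maximalIdeal C) ^ 2, y ∈ dnT B (j + 1) := by
  intro y hy
  rw [pow_two] at hy
  refine Submodule.mul_induction_on hy ?_ ?_
  · intro x hx x' hx'
    obtain ⟨β, hβB, hβm, hz⟩ := mem_dnT.mp (h x hx)
    obtain ⟨β', hβ'B, hβ'm, hz'⟩ := mem_dnT.mp (h x' hx')
    refine mem_dnT.mpr ⟨β * β', B.mul_mem hβB hβ'B, Ideal.mul_mem_right _ _ hβm, ?_⟩
    have e : x * x' - β * β' = β * (x' - β') + (x - β) * x' := by ring
    rw [e, pow_succ']
    refine Ideal.add_mem _ (Ideal.mul_mem_mul hβm hz') ?_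
    have e2 : (x - β) * x' = x' * (x - β) := mul_comm _ _
    rw [e2]
    exact Ideal.mul_mem_mul hx' hz
  · intro a b ha hb
    exact Submodule.add_mem _ ha hb

lemma dnT_all {B : Subalgebra 𝒪 C} (hU : dnU B = ⊤) :
    ∀ j : ℕ, 1 ≤ j → ∀ x ∈ maximalIdeal C, x ∈ dnT B j := by
  intro j hj
  induction j, hj using Nat.le_induction with
  | base =>
    intro x hx
    exact mem_dnT.mpr ⟨0, B.zero_mem, Ideal.zero_mem _, by simpa using hx⟩
  | succ j hj ih =>
    intro x hx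
    have hxU : x ∈ dnU B := by rw [hU]; trivial
    obtain ⟨b, hbB, hy⟩ := mem_dnU.mp hxU
    have hbm : b ∈ maximalIdeal C := by
      have h2 : x - b ∈ maximalIdeal C := Ideal.pow_le_self two_ne_zero hy
      have : b = x - (x - b) := by ring
      rw [this]
      exact Ideal.sub_mem _ hx h2
    obtain ⟨β, hβB, hβm, hz⟩ := mem_dnT.mp (dnT_step ih _ hy)
    refine mem_dnT.mpr ⟨b + β, B.add_mem hbB hβB, Ideal.add_mem _ hbm hβm, ?_⟩
    have : x - (b + β) = x - b - β := by ring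
    rw [this]
    exact hz

/-- Nilpotent Nakayama: if `B + 𝔪² = C` and `𝔪` is nilpotent, then `𝔪 ⊆ B`. -/
lemma maximalIdeal_le_of_dnU_eq_top {B : Subalgebra 𝒪 C} (hU : dnU B = ⊤)
    (hnil : IsNilpotent (maximalIdeal C)) : ∀ x ∈ maximalIdeal C, x ∈ B := by
  obtain ⟨n, hn⟩ := hnil
  intro x hx
  obtain ⟨β, hβB, -, hz⟩ := mem_dnT.mp (dnT_all hU (n + 1) (Nat.succ_le_succ (Nat.zero_le n)) x hx)
  rw [pow_succ, hn, Ideal.zero_eq_bot, Ideal.bot_mul, Ideal.mem_bot, sub_eq_zero] at hz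
  rw [hz]; exact hβB

end

section Main

variable {𝒪 C : Type} [CommRing 𝒪] [IsLocalRing 𝒪] [CommRing C] [IsLocalRing C] [Algebra 𝒪 C]
  [IsLocalHom (algebraMap 𝒪 C)]

lemma exists_sub_algebraMap_mem
    (hres : Function.Surjective (IsLocalRing.residue C ∘ algebraMap 𝒪 C)) (c : C) :
    ∃ o : 𝒪, c - algebraMap 𝒪 C o ∈ maximalIdeal C := by
  obtain ⟨o, ho⟩ := hres (residue C c)
  refine ⟨o, ?_⟩
  rw [← residue_eq_zero_iff, map_sub, sub_eq_zero]
  exact ho.symm

lemma dnU_ne_top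
    (hres : Function.Surjective (IsLocalRing.residue C ∘ algebraMap 𝒪 C))
    (hnil : IsNilpotent (maximalIdeal C)) (B : Subalgebra 𝒪 C) (hB : B ≠ ⊤) :
    dnU B ≠ ⊤ := by
  intro hU
  apply hB
  rw [eq_top_iff]
  intro c _
  obtain ⟨o, ho⟩ := exists_sub_algebraMap_mem hres c
  have h1 : c - algebraMap 𝒪 C o ∈ B := maximalIdeal_le_of_dnU_eq_top hU hnil _ ho
  have : c = algebraMap 𝒪 C o + (c - algebraMap 𝒪 C o) := by ring
  rw [this]
  exact B.add_mem (B.algebraMap_mem o) h1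

lemma smul_mem_dnU
    (hres : Function.Surjective (IsLocalRing.residue C ∘ algebraMap 𝒪 C))
    (B : Subalgebra 𝒪 C) {o : 𝒪} (ho : o ∈ maximalIdeal 𝒪) (c : C) : o • c ∈ dnU B := by
  obtain ⟨o', ho'⟩ := exists_sub_algebraMap_mem hres c
  have hom : algebraMap 𝒪 C o ∈ maximalIdeal C := by
    rw [mem_maximalIdeal, mem_nonunits_iff] at ho ⊢
    exact fun h => ho (isUnit_of_map_unit (algebraMap 𝒪 C) o h)
  refine mem_dnU.mpr ⟨algebraMap 𝒪 C (o * o'), B.algebraMap_mem _, ?_⟩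
  have e : o • c - algebraMap 𝒪 C (o * o') = algebraMap 𝒪 C o * (c - algebraMap 𝒪 C o') := by
    rw [Algebra.smul_def, map_mul]; ring
  rw [e, pow_two]
  exact Ideal.mul_mem_mul hom ho'

/-- A nonzero `𝒪`-linear "derivation-like" functional `d : C → k` killing `B + 𝔪²`. -/
lemma exists_functional
    (hres : Function.Surjective (IsLocalRing.residue C ∘ algebraMap 𝒪 C))
    (hnil : IsNilpotent (maximalIdeal C)) (B : Subalgebra 𝒪 C) (hB : B ≠ ⊤) :
    ∃ d : C →+ ResidueField 𝒪, (∀ x ∈ dnU B, d x = 0) ∧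
      (∀ (o : 𝒪) (c : C), d (o • c) = residue 𝒪 o * d c) ∧ (∃ c, d c = 1) := by
  classical
  have hU := dnU_ne_top hres hnil B hB
  have htors : Module.IsTorsionBySet 𝒪 (C ⧸ dnU B) (maximalIdeal 𝒪 : Set 𝒪) := by
    intro v a
    obtain ⟨c, rfl⟩ := Submodule.Quotient.mk_surjective _ v
    rw [← Submodule.Quotient.mk_smul, Submodule.Quotient.mk_eq_zero]
    exact smul_mem_dnU hres B a.2 c
  letI instM : Module (ResidueField 𝒪) (C ⧸ dnU B) := htors.module
  haveI : Nontrivial (C ⧸ dnU B) := Submodule.Quotient.nontrivial_iff.mpr hU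
  obtain ⟨f, hf0, -⟩ := Submodule.exists_le_ker_of_lt_top (⊥ : Submodule (ResidueField 𝒪) (C ⧸ dnU B))
    bot_lt_top
  have hsm : ∀ (o : 𝒪) (v : C ⧸ dnU B), (residue 𝒪 o : ResidueField 𝒪) • v = o • v :=
    fun o v => Module.IsTorsionBySet.mk_smul htors o v
  -- f is nonzero, so it takes the value 1 somewhere
  obtain ⟨v, hv⟩ : ∃ v, f v ≠ 0 := by
    by_contra h
    exact hf0 (LinearMap.ext fun v => by
      by_contra hv
      exact h ⟨v, hv⟩)
  let d : C →+ ResidueField 𝒪 :=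
    (f.toAddMonoidHom).comp ((dnU B).mkQ.toAddMonoidHom)
  refine ⟨d, ?_, ?_, ?_⟩
  · intro x hx
    show f ((dnU B).mkQ x) = 0
    rw [Submodule.mkQ_apply, (Submodule.Quotient.mk_eq_zero _).mpr hx, map_zero]
  · intro o c
    show f ((dnU B).mkQ (o • c)) = residue 𝒪 o * f ((dnU B).mkQ c)
    rw [map_smul, ← hsm, map_smul, smul_eq_mul]
  · obtain ⟨c, hc⟩ := Submodule.Quotient.mk_surjective _ ((f v)⁻¹ • v)
    refine ⟨c, ?_⟩
    show f ((dnU B).mkQ c) = 1
    rw [Submodule.mkQ_apply, hc, map_smul, smul_eq_mul, inv_mul_cancel₀ hv]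

/-- **Algebra core of the generation lemma.**  For a local `𝒪`-algebra `C` with nilpotent maximal
ideal and residue field `k = 𝒪/𝔪`, and a proper `𝒪`-subalgebra `B`, there is a surjective
`𝒪`-algebra hom `π : C → k[ε]` (for the `𝒪`-algebra structure of `TangentFinite`) whose
`ε`-component vanishes on `B` but not on `C`. -/
theorem exists_algHom_dualNumber_of_ne_top
    (hres : Function.Surjective (IsLocalRing.residue C ∘ algebraMap 𝒪 C))
    (hnil : IsNilpotent (maximalIdeal C))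
    (B : Subalgebra 𝒪 C) (hB : B ≠ ⊤) :
    letI := dualNumberAlgebra 𝒪
    ∃ π : C →ₐ[𝒪] DualNumber (ResidueField 𝒪),
      (∀ b ∈ B, (π b).snd = 0) ∧ (∃ c, (π c).snd ≠ 0) ∧ Function.Surjective π ∧
      (∀ c, ResidueField.map (algebraMap 𝒪 C) (π c).fst = residue C c) := by
  classical
  obtain ⟨d, hdU, hdsmul, c₁, hc₁⟩ := exists_functional hres hnil B hB
  have hsurj : Function.Surjective (ResidueField.map (algebraMap 𝒪 C)) := by
    intro y
    obtain ⟨c, rfl⟩ := residue_surjective y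
    obtain ⟨o, ho⟩ := hres (residue C c)
    exact ⟨residue 𝒪 o, by rw [ResidueField.map_residue]; exact ho⟩
  have hbij : Function.Bijective (ResidueField.map (algebraMap 𝒪 C)) :=
    ⟨(ResidueField.map (algebraMap 𝒪 C)).injective, hsurj⟩
  let e : ResidueField 𝒪 ≃+* ResidueField C := RingEquiv.ofBijective _ hbij
  let f₀ : C →+* ResidueField 𝒪 := (e.symm : ResidueField C →+* ResidueField 𝒪).comp (residue C)
  have he : ∀ x, e x = ResidueField.map (algebraMap 𝒪 C) x := fun x => rfl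
  have hf₀e : ∀ c, ResidueField.map (algebraMap 𝒪 C) (f₀ c) = residue C c := by
    intro c
    rw [← he]
    exact e.apply_symm_apply _
  have hf₀a : ∀ o, f₀ (algebraMap 𝒪 C o) = residue 𝒪 o := by
    intro o
    apply hbij.1
    rw [hf₀e, ResidueField.map_residue]
  have hf₀m : ∀ x ∈ maximalIdeal C, f₀ x = 0 := by
    intro x hx
    apply hbij.1
    rw [hf₀e, map_zero]
    exact (residue_eq_zero_iff x).mpr hx
  have hB_U : ∀ b ∈ B, b ∈ dnU B := fun b hb => mem_dnU.mpr ⟨b, hb, by simp⟩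
  have hd_alg : ∀ o, d (algebraMap 𝒪 C o) = 0 := fun o => hdU _ (hB_U _ (B.algebraMap_mem o))
  have hd_mm : ∀ x ∈ maximalIdeal C, ∀ y ∈ maximalIdeal C, d (x * y) = 0 := by
    intro x hx y hy
    apply hdU
    refine mem_dnU.mpr ⟨0, B.zero_mem, ?_⟩
    rw [sub_zero, pow_two]
    exact Ideal.mul_mem_mul hx hy
  have hleib : ∀ c c', d (c * c') = f₀ c * d c' + d c * f₀ c' := by
    intro c c'
    obtain ⟨o, ho⟩ := exists_sub_algebraMap_mem hres c
    obtain ⟨o', ho'⟩ := exists_sub_algebraMap_mem hres c'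
    have hfc : f₀ c = residue 𝒪 o := by
      have : c = algebraMap 𝒪 C o + (c - algebraMap 𝒪 C o) := by ring
      rw [this, map_add, hf₀a, hf₀m _ ho, add_zero]
    have hfc' : f₀ c' = residue 𝒪 o' := by
      have : c' = algebraMap 𝒪 C o' + (c' - algebraMap 𝒪 C o') := by ring
      rw [this, map_add, hf₀a, hf₀m _ ho', add_zero]
    have hdc : d (c - algebraMap 𝒪 C o) = d c := by rw [map_sub, hd_alg, sub_zero]
    have hdc' : d (c' - algebraMap 𝒪 C o') = d c' := by rw [map_sub, hd_alg, sub_zero]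
    have e1 : c * c' = algebraMap 𝒪 C (o * o') + o • (c' - algebraMap 𝒪 C o')
        + o' • (c - algebraMap 𝒪 C o) + (c - algebraMap 𝒪 C o) * (c' - algebraMap 𝒪 C o') := by
      rw [Algebra.smul_def, Algebra.smul_def, map_mul]; ring
    rw [e1, map_add, map_add, map_add, hd_alg, hdsmul, hdsmul, hd_mm _ ho _ ho', hdc, hdc', hfc, hfc']
    ring
  let π₀ : C →+* DualNumber (ResidueField 𝒪) :=
    { toFun := fun c => TrivSqZeroExt.inl (f₀ c) + TrivSqZeroExt.inr (d c)
      map_one' := by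
        have h1 : d 1 = 0 := by
          have := hd_alg 1
          rwa [map_one] at this
        rw [map_one, h1, TrivSqZeroExt.inr_zero, add_zero, TrivSqZeroExt.inl_one]
      map_mul' := by
        intro c c'
        apply TrivSqZeroExt.ext
        · simp
        · rw [DualNumber.snd_mul]
          simp [hleib]
      map_zero' := by simp
      map_add' := by
        intro c c'
        apply TrivSqZeroExt.ext <;> simp }
  have hπfst : ∀ c, (π₀ c).fst = f₀ c := fun c => by simp [π₀]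
  have hπsnd : ∀ c, (π₀ c).snd = d c := fun c => by simp [π₀]
  letI := dualNumberAlgebra 𝒪
  let π : C →ₐ[𝒪] DualNumber (ResidueField 𝒪) :=
    { π₀ with
      commutes' := by
        intro o
        show π₀ (algebraMap 𝒪 C o) = _
        apply TrivSqZeroExt.ext
        · rw [hπfst, hf₀a]; rfl
        · rw [hπsnd, hd_alg]; rfl }
  refine ⟨π, ?_, ⟨c₁, ?_⟩, ?_, ?_⟩
  · intro b hb
    show (π₀ b).snd = 0
    rw [hπsnd]
    exact hdU _ (hB_U b hb)
  · show (π₀ c₁).snd ≠ 0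
    rw [hπsnd, hc₁]
    exact one_ne_zero
  · intro z
    obtain ⟨o, ho⟩ := residue_surjective (z.fst)
    obtain ⟨o₁, ho₁⟩ := residue_surjective (z.snd)
    refine ⟨algebraMap 𝒪 C o + o₁ • (c₁ - algebraMap 𝒪 C (Classical.choose (exists_sub_algebraMap_mem hres c₁))), ?_⟩
    have hm := Classical.choose_spec (exists_sub_algebraMap_mem hres c₁)
    show π₀ _ = z
    apply TrivSqZeroExt.ext
    · rw [hπfst, map_add, hf₀a, Algebra.smul_def, map_mul, hf₀m _ hm, mul_zero, add_zero, ho]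
    · rw [hπsnd, map_add, hd_alg, zero_add, hdsmul, map_sub, hd_alg, sub_zero, hc₁, mul_one, ho₁]
  · intro c
    show ResidueField.map (algebraMap 𝒪 C) (π₀ c).fst = residue C c
    rw [hπfst, hf₀e]

end Main

end Fermat.Agent.S53x
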