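import Mathlib
import Fermat.Prelude.Def_GaloisRep_DeformationCondition
import Fermat.Agent.S53x.DualNumberHom

/-!
# S53 helper: the dual numbers `k[ε]` as an Artinian test algebra over `𝒪`

`k = 𝒪/𝔪`, with exactly the `𝒪`-algebra structure used in `GaloisRep.TangentFinite`
(`dualNumberAlgebra 𝒪`).
-/

set_option autoImplicit false

namespace Fermat.Agent.S53x

open IsLocalRing

section

variable (𝒪 : Type) [CommRing 𝒪] [IsLocalRing 𝒪]

lemma dualNumber_algebraMap_apply (o : 𝒪) :
    letI := dualNumberAlgebra 𝒪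
    algebraMap 𝒪 (DualNumber (ResidueField 𝒪)) o = TrivSqZeroExt.inl (residue 𝒪 o) := rfl

lemma dualNumber_isUnit_iff {K : Type} [Field K] (x : DualNumber K) : IsUnit x ↔ x.fst ≠ 0 := by
  constructor
  · intro h hx
    have h2 : IsUnit x.fst := h.map (TrivSqZeroExt.fstHom K K K)
    rw [hx] at h2
    exact not_isUnit_zero h2
  · intro h
    rcases TrivSqZeroExt.isUnit_or_isNilpotent x with hu | hn
    · exact hu
    · exfalso
      rw [TrivSqZeroExt.isNilpotent_iff_isNilpotent_fst] at hn
      exact h (hn.eq_zero)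

lemma dualNumber_mem_maximalIdeal_iff {K : Type} [Field K] (x : DualNumber K) :
    x ∈ maximalIdeal (DualNumber K) ↔ x.fst = 0 := by
  rw [mem_maximalIdeal, mem_nonunits_iff, dualNumber_isUnit_iff, not_not]

/-- `k[ε]` is an Artinian test algebra over `𝒪`. -/
lemma isArtinianTestAlgebra_dualNumber :
    letI := dualNumberAlgebra 𝒪
    GaloisRep.IsArtinianTestAlgebra 𝒪 (DualNumber (ResidueField 𝒪)) := by
  letI := dualNumberAlgebra 𝒪
  refine ⟨⟨?_⟩, ?_, ?_⟩
  · intro o ho
    rw [dualNumber_algebraMap_apply, dualNumber_isUnit_iff, TrivSqZeroExt.fst_inl] at ho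
    by_contra hno
    exact ho ((residue_eq_zero_iff o).mpr hno)
  · intro y
    obtain ⟨x, rfl⟩ := residue_surjective y
    obtain ⟨o, ho⟩ := residue_surjective (x.fst)
    refine ⟨o, ?_⟩
    show residue _ (algebraMap 𝒪 (DualNumber (ResidueField 𝒪)) o) = residue _ x
    rw [← sub_eq_zero, ← map_sub, residue_eq_zero_iff, dualNumber_mem_maximalIdeal_iff,
      dualNumber_algebraMap_apply, TrivSqZeroExt.fst_sub, TrivSqZeroExt.fst_inl, ho, sub_self]
  · haveI : Module.Finite (ResidueField 𝒪) (DualNumber (ResidueField 𝒪)) :=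
      inferInstanceAs (Module.Finite (ResidueField 𝒪) (ResidueField 𝒪 × ResidueField 𝒪))
    exact IsArtinianRing.of_finite (ResidueField 𝒪) _

end

section

variable {𝒪 C : Type} [CommRing 𝒪] [IsLocalRing 𝒪] [CommRing C] [IsLocalRing C] [Algebra 𝒪 C]
  [IsLocalHom (algebraMap 𝒪 C)]

/-- A ring hom `π : C → k[ε]` whose first component induces the residue map is local. -/
lemma isLocalHom_of_fst (π : C →+* DualNumber (ResidueField 𝒪))
    (h : ∀ c, ResidueField.map (algebraMap 𝒪 C) (π c).fst = residue C c) : IsLocalHom π := by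
  refine ⟨fun c hc => ?_⟩
  rw [dualNumber_isUnit_iff] at hc
  by_contra hnu
  have h0 : residue C c = 0 := (residue_eq_zero_iff c).mpr hnu
  rw [← h c] at h0
  exact hc ((map_eq_zero _).mp h0)

end

end Fermat.Agent.S53x
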