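import Mathlib
import Fermat.Prelude.Def_GaloisRep_DeformationCondition

/-!
# S53 helper: rings injecting into an Artinian test algebra are Artinian test algebras

Let `A` be an Artinian test algebra over the local ring `𝒪` (residue field of `A` is reached from `𝒪`)
and let `j : B →ₐ[𝒪] A` be an injective `𝒪`-algebra map from an arbitrary commutative ring `B`
(for instance the inclusion of a subalgebra).  Then `B` is local, `j` and `algebraMap 𝒪 B` are local
homomorphisms, the maximal ideal of `B` is nilpotent, the residue field of `B` is reached from `𝒪`,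
and (if the residue field of `𝒪` is finite) `B` is finite, hence again an Artinian test algebra.

All declarations carry the prefix `sta_`.
-/

set_option autoImplicit false
set_option linter.unusedSectionVars false
set_option linter.style.haveILetI false

namespace Fermat.Agent.S53x

open IsLocalRing

section General

variable {𝒪 : Type} [CommRing 𝒪] [IsLocalRing 𝒪]
variable {A : Type} [CommRing A] [IsLocalRing A] [Algebra 𝒪 A]

/-- The maximal ideal of an Artinian local ring is nilpotent. -/
theorem sta_isNilpotent_maximalIdeal_of_isArtinianRing (A : Type) [CommRing A] [IsLocalRing A]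
    [IsArtinianRing A] : IsNilpotent (maximalIdeal A) := by
  have h := IsArtinianRing.isNilpotent_jacobson_bot (R := A)
  rwa [jacobson_eq_maximalIdeal _ bot_ne_top] at h

/-- Elements of the maximal ideal of an Artinian local ring are nilpotent. -/
theorem sta_isNilpotent_of_mem_maximalIdeal {A : Type} [CommRing A] [IsLocalRing A]
    [IsArtinianRing A] {x : A} (hx : x ∈ maximalIdeal A) : IsNilpotent x := by
  obtain ⟨n, hn⟩ := sta_isNilpotent_maximalIdeal_of_isArtinianRing A
  refine ⟨n, ?_⟩
  have : x ^ n ∈ maximalIdeal A ^ n := Ideal.pow_mem_pow hx n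
  rw [hn] at this
  simpa using this

/-- In a test algebra every element is congruent to a scalar modulo the maximal ideal. -/
theorem sta_exists_sub_algebraMap_mem (hA : GaloisRep.IsArtinianTestAlgebra 𝒪 A) (a : A) :
    ∃ c : 𝒪, a - algebraMap 𝒪 A c ∈ maximalIdeal A := by
  obtain ⟨c, hc⟩ := hA.residue_surjective (residue A a)
  refine ⟨c, ?_⟩
  rw [← Ideal.Quotient.eq_zero_iff_mem]
  have h1 : residue A (algebraMap 𝒪 A c) = residue A a := hc
  have : residue A (a - algebraMap 𝒪 A c) = 0 := by rw [map_sub, h1, sub_self]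
  exact this

/-- Test algebras over a ring with finite residue field are finite. -/
theorem sta_finite_of_isArtinianTestAlgebra [Finite (ResidueField 𝒪)]
    (hA : GaloisRep.IsArtinianTestAlgebra 𝒪 A) : Finite A := by
  haveI := hA.isLocalHom
  haveI := hA.isArtinian
  haveI : Finite (ResidueField A) := by
    refine Finite.of_surjective (ResidueField.map (algebraMap 𝒪 A)) ?_
    intro y
    obtain ⟨c, hc⟩ := hA.residue_surjective y
    exact ⟨residue 𝒪 c, by simpa [ResidueField.map_residue] using hc⟩
  obtain ⟨n, hn⟩ := sta_isNilpotent_maximalIdeal_of_isArtinianRing A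
  have hfin : Finite (A ⧸ (⊥ : Ideal A)) :=
    (IsLocalRing.finite_quotient_iff (R := A) (I := ⊥)).mpr ⟨n, hn.le⟩
  exact Finite.of_equiv _ (RingEquiv.quotientBot A).toEquiv

end General

section Injective

variable {𝒪 : Type} [CommRing 𝒪] [IsLocalRing 𝒪]
variable {A : Type} [CommRing A] [IsLocalRing A] [Algebra 𝒪 A]
variable {B : Type} [CommRing B] [Algebra 𝒪 B]

/-- Unit reflection: along an injective `𝒪`-algebra map into a test algebra, units are reflected. -/
theorem sta_isUnit_of_isUnit_map (hA : GaloisRep.IsArtinianTestAlgebra 𝒪 A)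
    (j : B →ₐ[𝒪] A) (hj : Function.Injective j) {x : B} (hx : IsUnit (j x)) : IsUnit x := by
  haveI := hA.isLocalHom
  haveI := hA.isArtinian
  obtain ⟨c, hc⟩ := sta_exists_sub_algebraMap_mem hA (j x)
  -- `algebraMap c` is a unit of `A`, so `c` is a unit of `𝒪`
  have hcu : IsUnit (algebraMap 𝒪 A c) := by
    by_contra hnu
    have h1 : algebraMap 𝒪 A c ∈ maximalIdeal A := (mem_maximalIdeal _).mpr hnu
    have h2 : j x ∈ maximalIdeal A := by
      have := Ideal.add_mem _ hc h1
      simpa using this
    exact (mem_maximalIdeal _).mp h2 hx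
  have hc' : IsUnit c := isUnit_of_map_unit (algebraMap 𝒪 A) c hcu
  -- the difference is nilpotent in `B`
  have hnil : IsNilpotent (x - algebraMap 𝒪 B c) := by
    obtain ⟨n, hn⟩ := sta_isNilpotent_of_mem_maximalIdeal hc
    refine ⟨n, hj ?_⟩
    rw [map_pow, map_sub, AlgHom.commutes, hn, map_zero]
  have hu : IsUnit (algebraMap 𝒪 B c) := hc'.map (algebraMap 𝒪 B)
  have := hnil.isUnit_add_left_of_commute hu (Commute.all _ _)
  simpa using this

theorem sta_nontrivial_of_algHom (j : B →ₐ[𝒪] A) : Nontrivial B := by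
  refine ⟨⟨0, 1, fun h => ?_⟩⟩
  have : j 0 = j 1 := by rw [h]
  rw [map_zero, map_one] at this
  exact zero_ne_one this

/-- A ring injecting (as an `𝒪`-algebra) into a test algebra is local. -/
theorem sta_isLocalRing_of_injective (hA : GaloisRep.IsArtinianTestAlgebra 𝒪 A)
    (j : B →ₐ[𝒪] A) (hj : Function.Injective j) : IsLocalRing B := by
  haveI := sta_nontrivial_of_algHom j
  refine IsLocalRing.of_isUnit_or_isUnit_one_sub_self fun a => ?_
  rcases IsLocalRing.isUnit_or_isUnit_one_sub_self (j a) with h | h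
  · exact Or.inl (sta_isUnit_of_isUnit_map hA j hj h)
  · refine Or.inr (sta_isUnit_of_isUnit_map hA j hj ?_)
    rwa [map_sub, map_one]

/-- The injection is a local homomorphism. -/
theorem sta_isLocalHom_of_injective (hA : GaloisRep.IsArtinianTestAlgebra 𝒪 A)
    (j : B →ₐ[𝒪] A) (hj : Function.Injective j) : IsLocalHom (j : B →+* A) :=
  ⟨fun _ hx => sta_isUnit_of_isUnit_map hA j hj hx⟩

/-- The structure map of the smaller ring is a local homomorphism. -/
theorem sta_isLocalHom_algebraMap_of_injective (hA : GaloisRep.IsArtinianTestAlgebra 𝒪 A)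
    (j : B →ₐ[𝒪] A) : IsLocalHom (algebraMap 𝒪 B) := by
  haveI := hA.isLocalHom
  refine ⟨fun c hc => ?_⟩
  have h1 : IsUnit (j (algebraMap 𝒪 B c)) := hc.map j
  rw [AlgHom.commutes] at h1
  exact isUnit_of_map_unit (algebraMap 𝒪 A) c h1

/-- Membership in the maximal ideal can be tested after the injection. -/
theorem sta_mem_maximalIdeal_iff [IsLocalRing B] (hA : GaloisRep.IsArtinianTestAlgebra 𝒪 A)
    (j : B →ₐ[𝒪] A) (hj : Function.Injective j) (x : B) :
    x ∈ maximalIdeal B ↔ j x ∈ maximalIdeal A := by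
  rw [mem_maximalIdeal, mem_maximalIdeal, mem_nonunits_iff, mem_nonunits_iff, not_iff_not]
  exact ⟨fun h => h.map j, fun h => sta_isUnit_of_isUnit_map hA j hj h⟩

/-- The maximal ideal of the smaller ring is nilpotent. -/
theorem sta_isNilpotent_maximalIdeal_of_injective [IsLocalRing B]
    (hA : GaloisRep.IsArtinianTestAlgebra 𝒪 A)
    (j : B →ₐ[𝒪] A) (hj : Function.Injective j) : IsNilpotent (maximalIdeal B) := by
  haveI := hA.isArtinian
  obtain ⟨n, hn⟩ := sta_isNilpotent_maximalIdeal_of_isArtinianRing A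
  refine ⟨n, ?_⟩
  rw [Ideal.zero_eq_bot, eq_bot_iff]
  intro x hx
  have h1 : (maximalIdeal B).map (j : B →+* A) ≤ maximalIdeal A := by
    rw [Ideal.map_le_iff_le_comap]
    intro y hy
    exact (sta_mem_maximalIdeal_iff hA j hj y).mp hy
  have h2 : (j : B →+* A) x ∈ ((maximalIdeal B).map (j : B →+* A)) ^ n := by
    rw [← Ideal.map_pow]
    exact Ideal.mem_map_of_mem _ hx
  have h3 : (j : B →+* A) x ∈ maximalIdeal A ^ n := Ideal.pow_right_mono h1 n h2
  rw [hn] at h3
  have h4 : j x = 0 := by simpa using h3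
  rw [Ideal.mem_bot]
  exact hj (by rw [h4, map_zero])

/-- The residue field of the smaller ring is reached from `𝒪`. -/
theorem sta_residue_surjective_of_injective [IsLocalRing B]
    (hA : GaloisRep.IsArtinianTestAlgebra 𝒪 A)
    (j : B →ₐ[𝒪] A) (hj : Function.Injective j) :
    Function.Surjective (residue B ∘ algebraMap 𝒪 B) := by
  intro y
  obtain ⟨x, rfl⟩ := residue_surjective y
  obtain ⟨c, hc⟩ := sta_exists_sub_algebraMap_mem hA (j x)
  refine ⟨c, ?_⟩
  have h1 : x - algebraMap 𝒪 B c ∈ maximalIdeal B := by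
    rw [sta_mem_maximalIdeal_iff hA j hj, map_sub, AlgHom.commutes]
    exact hc
  have h2 : residue B (x - algebraMap 𝒪 B c) = 0 := (residue_eq_zero_iff _).mpr h1
  rw [map_sub, sub_eq_zero] at h2
  exact h2.symm

/-- Every element of the smaller ring is a scalar plus an element of the maximal ideal. -/
theorem sta_exists_sub_algebraMap_mem_of_injective [IsLocalRing B]
    (hA : GaloisRep.IsArtinianTestAlgebra 𝒪 A)
    (j : B →ₐ[𝒪] A) (hj : Function.Injective j) (x : B) :
    ∃ c : 𝒪, x - algebraMap 𝒪 B c ∈ maximalIdeal B := by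
  obtain ⟨c, hc⟩ := sta_exists_sub_algebraMap_mem hA (j x)
  refine ⟨c, ?_⟩
  rw [sta_mem_maximalIdeal_iff hA j hj, map_sub, AlgHom.commutes]
  exact hc

/-- A ring injecting into a test algebra is finite when the residue field of `𝒪` is. -/
theorem sta_finite_of_injective [Finite (ResidueField 𝒪)]
    (hA : GaloisRep.IsArtinianTestAlgebra 𝒪 A)
    (j : B →ₐ[𝒪] A) (hj : Function.Injective j) : Finite B := by
  haveI := sta_finite_of_isArtinianTestAlgebra hA
  exact Finite.of_injective j hj

/-- **Main statement**: a ring injecting (as an `𝒪`-algebra) into an Artinian test algebra is again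
an Artinian test algebra (residue field of `𝒪` finite). -/
theorem sta_isArtinianTestAlgebra_of_injective [Finite (ResidueField 𝒪)] [IsLocalRing B]
    (hA : GaloisRep.IsArtinianTestAlgebra 𝒪 A)
    (j : B →ₐ[𝒪] A) (hj : Function.Injective j) : GaloisRep.IsArtinianTestAlgebra 𝒪 B where
  isLocalHom := sta_isLocalHom_algebraMap_of_injective hA j
  residue_surjective := sta_residue_surjective_of_injective hA j hj
  isArtinian := by
    haveI := sta_finite_of_injective hA j hj
    infer_instance

end Injective

section Subalgebra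

variable {𝒪 : Type} [CommRing 𝒪] [IsLocalRing 𝒪]
variable {A : Type} [CommRing A] [IsLocalRing A] [Algebra 𝒪 A]

/-- Subalgebras of a test algebra are local. -/
theorem sta_isLocalRing_subalgebra (hA : GaloisRep.IsArtinianTestAlgebra 𝒪 A)
    (T : Subalgebra 𝒪 A) : IsLocalRing T :=
  sta_isLocalRing_of_injective hA T.val Subtype.val_injective

theorem sta_isLocalHom_subalgebra_val (hA : GaloisRep.IsArtinianTestAlgebra 𝒪 A)
    (T : Subalgebra 𝒪 A) : IsLocalHom (T.val : T →+* A) :=
  sta_isLocalHom_of_injective hA T.val Subtype.val_injective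

theorem sta_isLocalHom_algebraMap_subalgebra (hA : GaloisRep.IsArtinianTestAlgebra 𝒪 A)
    (T : Subalgebra 𝒪 A) : IsLocalHom (algebraMap 𝒪 T) :=
  sta_isLocalHom_algebraMap_of_injective hA T.val

theorem sta_mem_maximalIdeal_subalgebra_iff (hA : GaloisRep.IsArtinianTestAlgebra 𝒪 A)
    (T : Subalgebra 𝒪 A) [IsLocalRing T] (x : T) :
    x ∈ maximalIdeal T ↔ (x : A) ∈ maximalIdeal A :=
  sta_mem_maximalIdeal_iff hA T.val Subtype.val_injective x

theorem sta_isNilpotent_maximalIdeal_subalgebra (hA : GaloisRep.IsArtinianTestAlgebra 𝒪 A)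
    (T : Subalgebra 𝒪 A) [IsLocalRing T] : IsNilpotent (maximalIdeal T) :=
  sta_isNilpotent_maximalIdeal_of_injective hA T.val Subtype.val_injective

theorem sta_residue_surjective_subalgebra (hA : GaloisRep.IsArtinianTestAlgebra 𝒪 A)
    (T : Subalgebra 𝒪 A) [IsLocalRing T] :
    Function.Surjective (residue T ∘ algebraMap 𝒪 T) :=
  sta_residue_surjective_of_injective hA T.val Subtype.val_injective

theorem sta_isArtinianTestAlgebra_subalgebra [Finite (ResidueField 𝒪)]
    (hA : GaloisRep.IsArtinianTestAlgebra 𝒪 A) (T : Subalgebra 𝒪 A) [IsLocalRing T] :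
    GaloisRep.IsArtinianTestAlgebra 𝒪 T :=
  sta_isArtinianTestAlgebra_of_injective hA T.val Subtype.val_injective

/-- If `T₁ ≤ T₂` are subalgebras of a test algebra, the inclusion is an injective local
`𝒪`-algebra map. -/
theorem sta_isLocalHom_inclusion (hA : GaloisRep.IsArtinianTestAlgebra 𝒪 A)
    {T₁ T₂ : Subalgebra 𝒪 A} (h : T₁ ≤ T₂) :
    IsLocalHom ((Subalgebra.inclusion h : T₁ →ₐ[𝒪] T₂) : T₁ →+* T₂) := by
  refine ⟨fun x hx => ?_⟩
  have h1 : IsUnit (T₂.val (Subalgebra.inclusion h x)) := hx.map T₂.val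
  exact sta_isUnit_of_isUnit_map hA T₁.val Subtype.val_injective h1

/-- Packaged form (existential over the `IsLocalRing` instance, which is not a global instance). -/
theorem sta_subalgebra_test [Finite (ResidueField 𝒪)]
    (hA : GaloisRep.IsArtinianTestAlgebra 𝒪 A) (T : Subalgebra 𝒪 A) :
    ∃ _ : IsLocalRing T, IsLocalHom (T.val : T →+* A) ∧ GaloisRep.IsArtinianTestAlgebra 𝒪 T := by
  haveI := sta_isLocalRing_subalgebra hA T
  exact ⟨inferInstance, sta_isLocalHom_subalgebra_val hA T,
    sta_isArtinianTestAlgebra_subalgebra hA T⟩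

/-- Packaged form for an injective `𝒪`-algebra map from an arbitrary commutative ring. -/
theorem sta_injective_test [Finite (ResidueField 𝒪)] {B : Type} [CommRing B] [Algebra 𝒪 B]
    (hA : GaloisRep.IsArtinianTestAlgebra 𝒪 A) (j : B →ₐ[𝒪] A) (hj : Function.Injective j) :
    ∃ _ : IsLocalRing B, IsLocalHom (j : B →+* A) ∧ GaloisRep.IsArtinianTestAlgebra 𝒪 B := by
  haveI := sta_isLocalRing_of_injective hA j hj
  exact ⟨inferInstance, sta_isLocalHom_of_injective hA j hj,
    sta_isArtinianTestAlgebra_of_injective hA j hj⟩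

end Subalgebra

end Fermat.Agent.S53x
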