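import Fermat.Agent.S53x.MatrixForm
import Fermat.Agent.S53x.DualNumberTest
import Fermat.Agent.S53x.TraceDescent
import Fermat.Agent.S53x.SubTestAlg
import Fermat.Agent.S53x.Admissible

/-!
# S53 / M7: the generation lemma K1

Finitely many fixed group elements `g ∈ s` such that for every Artinian test algebra `A` and every
strict type-`𝒟` lift `r` of `rbar`, all traces `tr r σ` lie in the `𝒪`-subalgebra generated by the
`tr r g`, `g ∈ s`.
-/

set_option autoImplicit false

namespace Fermat.Agent.S53x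

open IsLocalRing GaloisRep

section traces

variable {A : Type} [CommRing A] [IsLocalRing A]

/-- Equivalent representations have the same trace function. -/
theorem tan_trace_eq_of_isEquiv {ρ₁ ρ₂ : GaloisRepAdic A} (h : ρ₁.IsEquiv ρ₂) (σ : GQ) :
    LinearMap.trace A ρ₁.V (ρ₁.ρ σ) = LinearMap.trace A ρ₂.V (ρ₂.ρ σ) := by
  obtain ⟨e⟩ := h
  have h1 : ρ₂.ρ σ = e.toLinearEquiv.conj (ρ₁.ρ σ) := by
    apply LinearMap.ext
    intro y
    rw [LinearEquiv.conj_apply_apply, e.map_apply, LinearEquiv.apply_symm_apply]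
  rw [h1, LinearMap.trace_conj']

theorem tan_trace_ofMat (r : GQ →* M2 A) (hr : AdicCont r) (σ : GQ) :
    LinearMap.trace A (ofMat r hr).V ((ofMat r hr).ρ σ) = (r σ).trace := by
  show LinearMap.trace A (Fin 2 → A) (Matrix.toLin' (r σ)) = (r σ).trace
  exact Matrix.trace_toLin'_eq (r σ)

end traces

theorem tan_finite_range_of_finite_quotient {α β : Type*} (s : Setoid α) (hs : Finite (Quotient s))
    (f : α → β) (hf : ∀ a b, s.r a b → f a = f b) : (Set.range f).Finite :=
  (Set.finite_range (Quotient.lift f hf)).subset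
    (by rintro _ ⟨a, rfl⟩; exact ⟨Quotient.mk s a, rfl⟩)

section tangent

variable (𝒪 : Type) [CommRing 𝒪] [IsLocalRing 𝒪]
  (𝒟 : ∀ ⦃A : Type⦄ [CommRing A] [IsLocalRing A] [Algebra 𝒪 A], GaloisRepAdic A → Prop)

/-- The structure map `k → ResidueField k[ε]` used in `GaloisRep.TangentFinite`. -/
noncomputable abbrev tanDualResidueMap :
    ResidueField 𝒪 →+* ResidueField (DualNumber (ResidueField 𝒪)) :=
  (IsLocalRing.residue (DualNumber (ResidueField 𝒪))).comp
    (algebraMap (ResidueField 𝒪) (DualNumber (ResidueField 𝒪)))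

/-- The set of trace functions of strict type-`𝒟` lifts of `rbar` to the dual numbers. -/
def tangentTraces (rbar : GQ →* M2 (ResidueField 𝒪)) :
    Set (GQ → DualNumber (ResidueField 𝒪)) :=
  letI := dualNumberAlgebra 𝒪
  {τ | ∃ (r : GQ →* M2 (DualNumber (ResidueField 𝒪))) (hr : AdicCont r),
      (∀ σ, (r σ).map (IsLocalRing.residue _) = (rbar σ).map (tanDualResidueMap 𝒪)) ∧
      𝒟 (ofMat r hr) ∧ ∀ σ, τ σ = (r σ).trace}

/-- `TangentFinite` implies that there are only finitely many tangent trace functions. -/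
theorem finite_tangentTraces (ρbar : ResidualGaloisRep (ResidueField 𝒪))
    (b : Module.Basis (Fin 2) (ResidueField 𝒪) ρbar.V) (hfin : TangentFinite 𝒪 ρbar 𝒟) :
    (tangentTraces 𝒪 𝒟 (resMat ρbar b)).Finite := by
  letI := dualNumberAlgebra 𝒪
  unfold TangentFinite at hfin
  -- the trace function on the subtype of tangent deformations
  let S := {ρ : GaloisRepAdic (DualNumber (ResidueField 𝒪)) //
      𝒟 ρ ∧ ρ.residual.IsEquiv (ρbar.baseChangeAlong (tanDualResidueMap 𝒪))}
  let f : S → (GQ → DualNumber (ResidueField 𝒪)) :=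
    fun x σ => LinearMap.trace _ x.1.V (x.1.ρ σ)
  refine Set.Finite.subset (s := Set.range f) ?_ ?_
  · exact tan_finite_range_of_finite_quotient _ hfin f
      (fun a b hab => funext fun σ => tan_trace_eq_of_isEquiv hab σ)
  · rintro τ ⟨r, hr, hstrict, hD, hτ⟩
    refine ⟨⟨ofMat r hr, hD,
      residual_isEquiv_of_strict_of_residual ρbar b (tanDualResidueMap 𝒪) r hr hstrict⟩, ?_⟩
    funext σ
    rw [hτ σ]
    exact tan_trace_ofMat r hr σ

end tangent

section aux

variable {Γ A B : Type} [Monoid Γ] [CommRing A] [CommRing B]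

lemma tan_gram_mapRep (φ : A →+* B) (r : Γ →* M2 A) (g : Fin 4 → Γ) :
    gram (mapRep φ r) g = (gram r g).map φ := by
  ext i j
  simp only [gram, Matrix.of_apply, mapRep_apply, Matrix.map_apply]
  rw [Matrix.trace, Matrix.trace, map_sum]
  rfl

lemma tan_det_gram_mapRep (φ : A →+* B) (r : Γ →* M2 A) (g : Fin 4 → Γ) :
    (gram (mapRep φ r) g).det = φ (gram r g).det := by
  rw [tan_gram_mapRep, RingHom.map_det]
  rfl

/-- Conjugate matrices have the same trace. -/
lemma tan_trace_eq_of_conj {X R₀ R : M2 A} (hX : IsUnit X.det) (h : X * R₀ = R * X) :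
    R₀.trace = R.trace := by
  have h1 : R₀ = X⁻¹ * (R * X) := by
    rw [← h, ← mul_assoc, Matrix.nonsing_inv_mul X hX, one_mul]
  rw [h1, Matrix.trace_mul_comm, mul_assoc, Matrix.mul_nonsing_inv X hX, mul_one]

/-- If `X ≡ 1` modulo an ideal killed by `φ`, then `X.map φ = 1`. -/
lemma tan_map_eq_one (φ : A →+* B) {X : M2 A} (h : ∀ i l, φ ((X - 1) i l) = 0) :
    X.map φ = 1 := by
  ext i l
  have := h i l
  rw [Matrix.sub_apply, map_sub, sub_eq_zero] at this
  rw [Matrix.map_apply, this]
  by_cases hil : i = l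
  · subst hil; simp
  · simp [Matrix.one_apply_ne hil]

end aux

section main

variable {𝒪 : Type} [CommRing 𝒪] [IsLocalRing 𝒪] [Finite (ResidueField 𝒪)]
  {𝒟 : ∀ ⦃A : Type⦄ [CommRing A] [IsLocalRing A] [Algebra 𝒪 A], GaloisRepAdic A → Prop}

open Classical in
/-- A choice of a group element on which the `ε`-part of a trace function does not vanish
(junk value `1` if there is none). -/
noncomputable def tanWitness (τ : GQ → DualNumber (ResidueField 𝒪)) : GQ :=
  if h : ∃ σ, (τ σ).snd ≠ 0 then h.choose else 1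

omit [Finite (ResidueField 𝒪)] in
lemma tanWitness_spec (τ : GQ → DualNumber (ResidueField 𝒪)) (h : ∃ σ, (τ σ).snd ≠ 0) :
    (τ (tanWitness τ)).snd ≠ 0 := by
  unfold tanWitness
  rw [dif_pos h]
  exact h.choose_spec

/-- **Generation lemma K1.**  There is a finite set `s` of group elements such that for every
Artinian test algebra `A` and every strict lift `r` of `rbar` of type `𝒟`, every trace `tr r σ`
lies in the `𝒪`-subalgebra of `A` generated by the traces `tr r g`, `g ∈ s`. -/
theorem exists_trace_generators (rbar : GQ →* M2 (ResidueField 𝒪))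
    (hgram : HasUnitGram rbar) (h𝒟 : IsDeformationCondition 𝒪 𝒟)
    (hTan : (tangentTraces 𝒪 𝒟 rbar).Finite) :
    ∃ s : Finset GQ, ∀ (A : Type) [CommRing A] [IsLocalRing A] [Algebra 𝒪 A]
      [IsLocalHom (algebraMap 𝒪 A)], IsArtinianTestAlgebra 𝒪 A →
      ∀ (r : GQ →* M2 A) (hr : AdicCont r),
        (∀ σ, (r σ).map (IsLocalRing.residue A) =
          (rbar σ).map (ResidueField.map (algebraMap 𝒪 A))) →
        𝒟 (ofMat r hr) →
        ∀ σ, (r σ).trace ∈ Algebra.adjoin 𝒪 ((fun g => (r g).trace) '' (s : Set GQ)) := by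
  classical
  refine ⟨hTan.toFinset.image tanWitness, ?_⟩
  intro A _ _ _ _ hA r hr hstrict hD
  -- the subalgebra generated by all traces
  set T : Subalgebra 𝒪 A := Algebra.adjoin 𝒪 (Set.range fun σ => (r σ).trace) with hTdef
  obtain ⟨hTloc, hjloc, hT⟩ := sta_subalgebra_test hA T
  haveI := hTloc
  haveI : IsLocalHom (algebraMap 𝒪 T) := hT.isLocalHom
  let j : T →+* A := (T.val : T →+* A)
  have hjinj : Function.Injective j := Subtype.val_injective
  have hTnil : IsNilpotent (maximalIdeal T) := by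
    haveI := hT.isArtinian
    rw [← IsLocalRing.jacobson_eq_maximalIdeal ⊥ bot_ne_top]
    exact IsArtinianRing.isNilpotent_jacobson_bot
  have hresA : ∀ a : A, ∃ b : T, a - j b ∈ maximalIdeal A := by
    intro a
    obtain ⟨o, ho⟩ := exists_sub_algebraMap_mem hA.residue_surjective a
    exact ⟨algebraMap 𝒪 T o, ho⟩
  have htr : ∀ γ, (r γ).trace ∈ j.range := by
    intro γ
    exact ⟨⟨(r γ).trace, Algebra.subset_adjoin ⟨γ, rfl⟩⟩, rfl⟩
  obtain ⟨g₀, hg₀⟩ := hgram
  have hg : IsUnit (gram r g₀).det := by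
    have h1 : mapRep (IsLocalRing.residue A) r =
        mapRep (ResidueField.map (algebraMap 𝒪 A)) rbar := MonoidHom.ext hstrict
    have h2 : IsLocalRing.residue A (gram r g₀).det =
        ResidueField.map (algebraMap 𝒪 A) (gram rbar g₀).det := by
      rw [← tan_det_gram_mapRep, h1, tan_det_gram_mapRep]
    have h3 : IsLocalRing.residue A (gram r g₀).det ≠ 0 := by
      rw [h2]
      exact (hg₀.map (ResidueField.map (algebraMap 𝒪 A))).ne_zero
    rw [← IsLocalRing.notMem_maximalIdeal, ← IsLocalRing.residue_eq_zero_iff]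
    exact h3
  obtain ⟨r₀, X, hX, hX1, hconj⟩ := exists_descent j hjinj hjloc hTnil hresA r htr g₀ hg
  -- traces of `r₀`
  have htr₀ : ∀ γ, j (r₀ γ).trace = (r γ).trace := by
    intro γ
    have := tan_trace_eq_of_conj hX (hconj γ)
    rw [← this]
    exact AddMonoidHom.map_trace j (r₀ γ)
  -- `r₀` has finite level, hence is adically continuous
  have hr₀fin : FinLevelMod r₀ ⊥ := by
    haveI := hA.isArtinian
    obtain ⟨n, hn⟩ : IsNilpotent (maximalIdeal A) := by
      rw [← IsLocalRing.jacobson_eq_maximalIdeal ⊥ bot_ne_top]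
      exact IsArtinianRing.isNilpotent_jacobson_bot
    obtain ⟨L, hL, h⟩ := finLevelMod_bot_of_adicCont (n := n) hn hr
    refine ⟨L, hL, fun σ hσ => ?_⟩
    have hrσ : r σ = 1 := mf_eq_one_of_finLevelMod_bot (h σ hσ)
    have h4 : X * (r₀ σ).map j = X * 1 := by rw [hconj σ, hrσ, one_mul, mul_one]
    have h5 : (r₀ σ).map j = 1 := by
      have := congrArg (fun M => X⁻¹ * M) h4
      simpa [← mul_assoc, Matrix.nonsing_inv_mul X hX] using this
    have h6 : r₀ σ = 1 := by
      refine Matrix.ext fun a b => hjinj ?_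
      have := congrFun (congrFun h5 a) b
      rw [Matrix.map_apply] at this
      rw [this]
      by_cases hab : a = b
      · subst hab; simp
      · simp [Matrix.one_apply_ne hab]
    intro a b
    rw [h6, sub_self]
    exact Ideal.zero_mem _
  have hr₀ : AdicCont r₀ := adicCont_of_finLevelMod_bot hr₀fin
  -- `r₀` is of type `𝒟`
  have hconj' : ∀ σ, X * mapRep j r₀ σ = r σ * X := fun σ => hconj σ
  have hD₀ : 𝒟 (ofMat r₀ hr₀) := by
    refine h𝒟.of_baseChangeAlong_injective hT hA T.val hjloc hjinj ?_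
    refine h𝒟.of_isEquiv hA ?_ hD
    exact mf_isEquiv_symm (mf_isEquiv_trans (baseChangeAlong_ofMat j hjloc r₀ hr₀)
      (ofMat_isEquiv_of_conj _ hr X hX hconj'))
  -- `r₀` is a strict lift
  have hXres : X.map (IsLocalRing.residue A) = 1 :=
    tan_map_eq_one _ fun i l => (IsLocalRing.residue_eq_zero_iff _).mpr (hX1 i l)
  have hres₀ : ∀ σ, ((r₀ σ).map j).map (IsLocalRing.residue A) =
      (r σ).map (IsLocalRing.residue A) := by
    intro σ
    have := congrArg (fun M : M2 A => M.map (IsLocalRing.residue A)) (hconj σ)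
    simp only [Matrix.map_mul, hXres, one_mul, mul_one] at this
    exact this
  have hmemT : ∀ x : T, j x ∈ maximalIdeal A → x ∈ maximalIdeal T := by
    intro x hx
    by_contra hx'
    rw [IsLocalRing.notMem_maximalIdeal] at hx'
    exact (IsLocalRing.mem_maximalIdeal _).mp hx (hx'.map j)
  have hstrict₀ : ∀ σ, (r₀ σ).map (IsLocalRing.residue T) =
      (rbar σ).map (ResidueField.map (algebraMap 𝒪 T)) := by
    intro σ
    ext a b
    rw [Matrix.map_apply, Matrix.map_apply]
    obtain ⟨o, ho⟩ := IsLocalRing.residue_surjective (rbar σ a b)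
    rw [← ho, ResidueField.map_residue, ← sub_eq_zero, ← map_sub,
      IsLocalRing.residue_eq_zero_iff]
    apply hmemT
    rw [← IsLocalRing.residue_eq_zero_iff, map_sub, map_sub, sub_eq_zero]
    have h1 := congrFun (congrFun (hres₀ σ) a) b
    have h2 := congrFun (congrFun (hstrict σ) a) b
    simp only [Matrix.map_apply] at h1 h2
    rw [h1, h2, ← ho, ResidueField.map_residue]
    rfl
  -- all of `T` is generated by the traces of `r₀`
  have himage : ∀ S : Set GQ, (T.val : T →ₐ[𝒪] A) '' ((fun g => (r₀ g).trace) '' S) =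
      (fun g => (r g).trace) '' S := by
    intro S
    rw [Set.image_image]
    exact Set.image_congr fun g _ => htr₀ g
  have htop : Algebra.adjoin 𝒪 (Set.range fun σ => (r₀ σ).trace) = (⊤ : Subalgebra 𝒪 T) := by
    apply Subalgebra.map_injective (f := T.val) Subtype.val_injective
    rw [AlgHom.map_adjoin, Algebra.map_top, Subalgebra.range_val, ← Set.image_univ,
      himage Set.univ, Set.image_univ]
  -- the subalgebra of `T` generated by the chosen traces
  set s : Finset GQ := hTan.toFinset.image tanWitness with hs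
  set B : Subalgebra 𝒪 T :=
    Algebra.adjoin 𝒪 ((fun g => (r₀ g).trace) '' (s : Set GQ)) with hBdef
  have hBtop : B = ⊤ := by
    by_contra hB
    letI := dualNumberAlgebra 𝒪
    obtain ⟨π, hπB, ⟨c, hc⟩, -, hπres⟩ :=
      exists_algHom_dualNumber_of_ne_top hT.residue_surjective hTnil B hB
    have hπloc : IsLocalHom (π : T →+* DualNumber (ResidueField 𝒪)) :=
      isLocalHom_of_fst _ hπres
    have hDual := isArtinianTestAlgebra_dualNumber 𝒪
    -- the pushed-forward representation
    let rπ : GQ →* M2 (DualNumber (ResidueField 𝒪)) :=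
      mapRep (π : T →+* DualNumber (ResidueField 𝒪)) r₀
    have hrπ : AdicCont rπ := adicCont_mapRep _ hπloc hr₀
    have hDπ : 𝒟 (ofMat rπ hrπ) :=
      h𝒟.of_isEquiv hDual (baseChangeAlong_ofMat _ hπloc r₀ hr₀)
        (h𝒟.baseChangeAlong hT hDual π hπloc hD₀)
    have hstrictπ : ∀ σ, (rπ σ).map (IsLocalRing.residue _) =
        (rbar σ).map (tanDualResidueMap 𝒪) := by
      intro σ
      ext a b
      rw [Matrix.map_apply, Matrix.map_apply]
      have h1 : (π (r₀ σ a b)).fst = rbar σ a b := by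
        apply (ResidueField.map (algebraMap 𝒪 T)).injective
        rw [hπres]
        have := congrFun (congrFun (hstrict₀ σ) a) b
        simpa only [Matrix.map_apply] using this
      show IsLocalRing.residue _ (π (r₀ σ a b)) =
        IsLocalRing.residue _ (TrivSqZeroExt.inl (rbar σ a b))
      rw [← sub_eq_zero, ← map_sub, IsLocalRing.residue_eq_zero_iff,
        dualNumber_mem_maximalIdeal_iff, TrivSqZeroExt.fst_sub, TrivSqZeroExt.fst_inl, h1,
        sub_self]
    -- the trace function
    let τ : GQ → DualNumber (ResidueField 𝒪) := fun σ => (rπ σ).trace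
    have hτ : τ ∈ tangentTraces 𝒪 𝒟 rbar := ⟨rπ, hrπ, hstrictπ, hDπ, fun σ => rfl⟩
    have hτσ : ∀ σ, τ σ = π (r₀ σ).trace :=
      fun σ => (AddMonoidHom.map_trace π (r₀ σ)).symm
    -- some trace has nonzero `ε`-part
    have hex : ∃ σ, (τ σ).snd ≠ 0 := by
      by_contra hno
      have hno : ∀ σ, (τ σ).snd = 0 := fun σ => by
        by_contra h; exact hno ⟨σ, h⟩
      have hall : ∀ x : T, (π x).snd = 0 := by
        intro x
        have hx : x ∈ Algebra.adjoin 𝒪 (Set.range fun σ => (r₀ σ).trace) := by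
          rw [htop]; exact Algebra.mem_top
        induction hx using Algebra.adjoin_induction with
        | mem x hx =>
          obtain ⟨σ, rfl⟩ := hx
          rw [← hτσ]; exact hno σ
        | algebraMap o =>
          rw [AlgHom.commutes, dualNumber_algebraMap_apply, TrivSqZeroExt.snd_inl]
        | add x y _ _ hx hy => rw [map_add, TrivSqZeroExt.snd_add, hx, hy, add_zero]
        | mul x y _ _ hx hy => rw [map_mul, TrivSqZeroExt.snd_mul, hx, hy]; simp
      exact hc (hall c)
    -- contradiction with the choice of the witnesses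
    have hw := tanWitness_spec τ hex
    have hmem : tanWitness τ ∈ s :=
      Finset.mem_image.mpr ⟨τ, hTan.mem_toFinset.mpr hτ, rfl⟩
    apply hw
    rw [hτσ]
    exact hπB _ (Algebra.subset_adjoin ⟨tanWitness τ, hmem, rfl⟩)
  -- conclusion
  intro σ
  rw [← htr₀ σ, ← himage (s : Set GQ), ← AlgHom.map_adjoin]
  refine ⟨(r₀ σ).trace, ?_, rfl⟩
  show (r₀ σ).trace ∈ B
  rw [hBtop]; exact Algebra.mem_top

end main

section package

variable {𝒪 : Type} [CommRing 𝒪] [IsLocalRing 𝒪] [Finite (ResidueField 𝒪)]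
  {𝒟 : ∀ ⦃A : Type⦄ [CommRing A] [IsLocalRing A] [Algebra 𝒪 A], GaloisRepAdic A → Prop}

/-- **K1 in `GenData` form**: from finiteness of the set of tangent trace functions we get a
`GenData` (with prescribed uniformizer) satisfying `HasK1`. -/
theorem exists_genData_hasK1_of_finite (rbar : GQ →* M2 (ResidueField 𝒪))
    (hgram : HasUnitGram rbar) (h𝒟 : IsDeformationCondition 𝒪 𝒟)
    (hTan : (tangentTraces 𝒪 𝒟 rbar).Finite) (ϖ : 𝒪)
    (hϖ : maximalIdeal 𝒪 = Ideal.span {ϖ}) :
    ∃ G : GenData 𝒪 rbar, G.ϖ = ϖ ∧ G.HasK1 𝒟 := by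
  classical
  obtain ⟨s, hs⟩ := exists_trace_generators rbar hgram h𝒟 hTan
  let g : Fin s.card → GQ := fun i => (s.equivFin.symm i : GQ)
  have hsurj : ∀ i : Fin s.card, ∃ c : 𝒪, IsLocalRing.residue 𝒪 c = (rbar (g i)).trace :=
    fun i => IsLocalRing.residue_surjective _
  choose c hc using hsurj
  refine ⟨⟨s.card, g, c, hc, ϖ, hϖ⟩, rfl, ?_⟩
  intro A _ _ _ hA
  haveI := hA.isLocalHom
  intro r hr σ
  have h1 := hs A hA r hr.cont hr.strict hr.isD σ
  refine Algebra.adjoin_mono ?_ h1
  rintro _ ⟨γ, hγ, rfl⟩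
  refine ⟨s.equivFin ⟨γ, hγ⟩, ?_⟩
  show (r (g (s.equivFin ⟨γ, hγ⟩))).trace = (r γ).trace
  simp only [g, Equiv.symm_apply_apply]

end package

section final

variable {𝒪 : Type} [CommRing 𝒪] [IsDomain 𝒪] [IsDiscreteValuationRing 𝒪]
  [Finite (ResidueField 𝒪)]
  {𝒟 : ∀ ⦃A : Type⦄ [CommRing A] [IsLocalRing A] [Algebra 𝒪 A], GaloisRepAdic A → Prop}

/-- **M7a, final form.**  For an absolutely irreducible residual representation `ρbar` written in
a basis `b`, a deformation condition `𝒟` with finite tangent space admits generation data `G`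
with the property `K1`. -/
theorem exists_genData_hasK1 (ρbar : ResidualGaloisRep (ResidueField 𝒪))
    (b : Module.Basis (Fin 2) (ResidueField 𝒪) ρbar.V)
    (habs : ρbar.IsAbsolutelyIrreducible) (h𝒟 : IsDeformationCondition 𝒪 𝒟)
    (hfin : TangentFinite 𝒪 ρbar 𝒟) :
    ∃ G : GenData 𝒪 (resMat ρbar b), G.HasK1 𝒟 := by
  obtain ⟨ϖ, hϖ⟩ := IsDiscreteValuationRing.exists_irreducible 𝒪
  obtain ⟨G, -, hG⟩ := exists_genData_hasK1_of_finite (resMat ρbar b)
    (hasUnitGram_of_isAbsolutelyIrreducible ρbar habs b) h𝒟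
    (finite_tangentTraces 𝒪 𝒟 ρbar b hfin) ϖ hϖ.maximalIdeal_eq
  exact ⟨G, hG⟩

end final

end Fermat.Agent.S53x
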