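import Fermat.Agent.S53x.FibProdAlg
import Fermat.Agent.S53x.ClassifyingMap

/-!
# S53, M8-B (B1, B2) in the exact shape of the captain's skeleton
-/

set_option autoImplicit false
set_option linter.unusedSectionVars false
set_option linter.unusedVariables false

namespace Fermat.Agent.S53x

open IsLocalRing MvPowerSeries

section

variable {𝒪 : Type} [CommRing 𝒪] [IsDomain 𝒪] [IsDiscreteValuationRing 𝒪]
  [IsAdicComplete (maximalIdeal 𝒪) 𝒪] [Finite (ResidueField 𝒪)]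
variable (𝒟 : ∀ ⦃A : Type⦄ [CommRing A] [IsLocalRing A] [Algebra 𝒪 A], GaloisRepAdic A → Prop)
variable {rbar : GQ →* M2 (ResidueField 𝒪)} (G : GenData 𝒪 rbar)

/-- (B2) admissible ideals are upward closed. -/
theorem adm_mono (h𝒟 : GaloisRep.IsDeformationCondition 𝒪 𝒟) {J J' : Ideal G.S}
    (h : G.IsAdm 𝒟 J) (hle : J ≤ J') (hJ' : J' ≠ ⊤) : G.IsAdm 𝒟 J' :=
  GenData.IsAdm.mono h𝒟 h hle hJ'

/-- (B1), with the descent statement (B4, `adm_of_dlift`) as an explicit hypothesis. -/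
theorem adm_inf_of_descent (h𝒟 : GaloisRep.IsDeformationCondition 𝒪 𝒟)
    (hB4 : ∀ {A : Type} [CommRing A] [IsLocalRing A] [Algebra 𝒪 A]
      (hA : GaloisRep.IsArtinianTestAlgebra 𝒪 A) (r : GQ →* M2 A)
      (_ : haveI := hA.isLocalHom; IsDLift 𝒪 𝒟 rbar A r)
      (θ : G.S →ₐ[𝒪] A) (_ : G.IsClassifying θ r),
      ∃ (h1 : IsLocalRing (G.S ⧸ RingHom.ker (θ : G.S →+* A)))
        (h2 : IsLocalHom (algebraMap 𝒪 (G.S ⧸ RingHom.ker (θ : G.S →+* A))))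
        (r' : GQ →* M2 (G.S ⧸ RingHom.ker (θ : G.S →+* A))),
        IsDLift 𝒪 𝒟 rbar (G.S ⧸ RingHom.ker (θ : G.S →+* A)) r' ∧
        G.IsClassifying (Ideal.Quotient.mkₐ 𝒪 (RingHom.ker (θ : G.S →+* A))) r' ∧
        ∃ X : M2 A, IsUnit X.det ∧
          ∀ σ, X * (r' σ).map (RingHom.kerLift (θ : G.S →+* A)) = r σ * X)
    {J₁ J₂ : Ideal G.S} (h₁ : G.IsAdm 𝒟 J₁) (h₂ : G.IsAdm 𝒟 J₂) :
    G.IsAdm 𝒟 (J₁ ⊓ J₂) := by
  refine GenData.IsAdm.inf (hasFibreLifts h𝒟) ?_ h₁ h₂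
  intro A _ _ _ hA r θ hr hθ
  obtain ⟨h1, h2, r', hr', hcl', -⟩ := hB4 hA r hr θ hθ
  obtain ⟨-, ⟨N, hN⟩, hϖ⟩ := classifying_ker G hA r θ (haveI := hA.isLocalHom; hr.strict) hθ
  exact ⟨h1, h2, N, hN, hϖ, r', hr', hcl'⟩

end

end Fermat.Agent.S53x
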