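import Fermat.Agent.S53x.AdmissibleInf
import Fermat.Agent.S53x.ClassifyingMap

/-!
# S53, module M8-B (B5): the residual representation gives an admissible ideal containing `(X)`
-/

set_option autoImplicit false

namespace Fermat.Agent.S53x

open IsLocalRing MvPowerSeries GaloisRep

section

variable {𝒪 : Type} [CommRing 𝒪] [IsLocalRing 𝒪]

/-- The residue field is an Artinian test algebra. -/
theorem ar_residueField_isArtinianTestAlgebra : IsArtinianTestAlgebra 𝒪 (ResidueField 𝒪) where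
  isLocalHom := by
    rw [ResidueField.algebraMap_eq]
    infer_instance
  residue_surjective := by
    rw [ResidueField.algebraMap_eq]
    exact (IsLocalRing.residue_surjective).comp IsLocalRing.residue_surjective
  isArtinian := inferInstance

/-- `rbar` is a strict lift of itself over the residue field. -/
theorem ar_strict_self [IsLocalHom (algebraMap 𝒪 (ResidueField 𝒪))]
    (rbar : GQ →* M2 (ResidueField 𝒪)) (σ : GQ) :
    (rbar σ).map (residue (ResidueField 𝒪)) =
      (rbar σ).map (ResidueField.map (algebraMap 𝒪 (ResidueField 𝒪))) := by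
  ext i j
  simp only [Matrix.map_apply]
  obtain ⟨c, hc⟩ := IsLocalRing.residue_surjective (rbar σ i j)
  rw [← hc, ResidueField.map_residue, ResidueField.algebraMap_eq]

end

section

variable {𝒪 : Type} [CommRing 𝒪] [IsDomain 𝒪] [IsDiscreteValuationRing 𝒪]
  [IsAdicComplete (maximalIdeal 𝒪) 𝒪] [Finite (ResidueField 𝒪)]
variable (𝒟 : ∀ ⦃A : Type⦄ [CommRing A] [IsLocalRing A] [Algebra 𝒪 A], GaloisRepAdic A → Prop)
variable {rbar : GQ →* M2 (ResidueField 𝒪)} (G : GenData 𝒪 rbar)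

/-- **(B5)** nonemptiness: the residual representation itself gives an admissible ideal, and it
contains `(X)`. -/
theorem ar_adm_residual (h𝒟 : GaloisRep.IsDeformationCondition 𝒪 𝒟) (hrbar : FinLevelMod rbar ⊥)
    (hbar : 𝒟 (ofMat rbar (adicCont_of_finLevelMod_bot hrbar))) :
    ∃ J : Ideal G.S, G.IsAdm 𝒟 J ∧ G.XX ≤ J := by
  have hk : IsArtinianTestAlgebra 𝒪 (ResidueField 𝒪) := ar_residueField_isArtinianTestAlgebra
  haveI hkl : IsLocalHom (algebraMap 𝒪 (ResidueField 𝒪)) := hk.isLocalHom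
  have hstrict := ar_strict_self (𝒪 := 𝒪) rbar
  have hD : IsDLift 𝒪 𝒟 rbar (ResidueField 𝒪) rbar :=
    ⟨adicCont_of_finLevelMod_bot hrbar, hstrict, hbar⟩
  obtain ⟨θ, hθ⟩ := cm_exists_classifying G rbar hstrict
  have hsurj : Function.Surjective θ := by
    intro x
    obtain ⟨c, rfl⟩ := IsLocalRing.residue_surjective x
    refine ⟨algebraMap 𝒪 G.S c, ?_⟩
    rw [AlgHom.commutes, ResidueField.algebraMap_eq]
  set J : Ideal G.S := RingHom.ker θ with hJdef
  have hJtop : J ≠ ⊤ := RingHom.ker_ne_top _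
  have hXX : G.XX ≤ J := by
    rw [Ideal.span_le]
    rintro _ ⟨o, rfl⟩
    show (X o : G.S) ∈ RingHom.ker θ
    rw [RingHom.mem_ker, (cm_isClassifying_iff G θ rbar).mp hθ o]
    have := cm_targets_mem G rbar hstrict o
    rwa [IsLocalRing.maximalIdeal_eq_bot, Ideal.mem_bot] at this
  have hϖ : (X none - C G.ϖ : G.S) ∈ J := cm_X_none_sub_C_mem_ker G hθ
  have h1 : IsLocalRing (G.S ⧸ J) := cm_isLocalRing_quot G J hJtop
  have hB : IsArtinianTestAlgebra 𝒪 (G.S ⧸ J) :=
    cm_quot_isArtinianTestAlgebra G J (N := 1) (by rw [pow_one]; exact hXX) hϖ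
  have h2 : IsLocalHom (algebraMap 𝒪 (G.S ⧸ J)) := hB.isLocalHom
  let e : (G.S ⧸ J) ≃ₐ[𝒪] ResidueField 𝒪 := Ideal.quotientKerAlgEquivOfSurjective hsurj
  let φ : ResidueField 𝒪 →ₐ[𝒪] G.S ⧸ J := e.symm.toAlgHom
  have hφ : IsLocalHom (φ : ResidueField 𝒪 →+* G.S ⧸ J) := by
    constructor
    intro a ha
    have h3 : IsUnit (e (φ a)) := ha.map e
    have h4 : e (φ a) = a := e.apply_symm_apply a
    rwa [h4] at h3
  have hcomp : φ.comp θ = Ideal.Quotient.mkₐ 𝒪 J := by
    ext1 f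
    show e.symm (θ f) = Ideal.Quotient.mk J f
    rw [AlgEquiv.symm_apply_eq]
    rfl
  refine ⟨J, ⟨h1, h2, 1, by rw [pow_one]; exact hXX, hϖ,
    mapRep (φ : ResidueField 𝒪 →+* G.S ⧸ J) rbar, IsDLift.mapRep h𝒟 hk hB φ hφ hD, ?_⟩, hXX⟩
  rw [← hcomp]
  exact cm_classifying_comp G φ hθ

end

end Fermat.Agent.S53x
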