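import Mathlib

/-!
# S53, assembly helper: the minimal chain `J_n`

Abstract lattice lemma for the construction of the universal deformation ring.
`B` is a family of ideals of `S` (those carrying a deformation), closed under binary infimum and
under `J ↦ J ⊔ XX ^ n`, nonempty, and such that for every `n` all members containing `XX ^ n`
contain a fixed ideal `K n` of finite index.  Then for every `n` the family
`{J ∈ B | XX ^ n ≤ J}` has a least element `Jn n`, and `Jn n = Jn (n + 1) ⊔ XX ^ n`.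

All declarations live in `Fermat.Agent.S53x.MC`.
-/

set_option autoImplicit false

namespace Fermat.Agent.S53x.MC

variable {S : Type*} [CommRing S]

/-- Ideals containing an ideal of finite index form a finite set. -/
theorem finite_setOf_ge_of_finite_quotient (K : Ideal S) [Finite (S ⧸ K)] :
    {J : Ideal S | K ≤ J}.Finite := by
  classical
  have hinj : Set.InjOn (fun J : Ideal S => ((J.map (Ideal.Quotient.mk K) : Ideal (S ⧸ K)) :
      Set (S ⧸ K))) {J : Ideal S | K ≤ J} := by
    intro J hJ J' hJ' h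
    have h' : J.map (Ideal.Quotient.mk K) = J'.map (Ideal.Quotient.mk K) := SetLike.coe_injective h
    have e1 := Ideal.comap_map_of_surjective (Ideal.Quotient.mk K) Ideal.Quotient.mk_surjective J
    have e2 := Ideal.comap_map_of_surjective (Ideal.Quotient.mk K) Ideal.Quotient.mk_surjective J'
    rw [← RingHom.ker_eq_comap_bot, Ideal.mk_ker] at e1 e2
    have hJ1 : J ⊔ K = J := sup_eq_left.mpr hJ
    have hJ2 : J' ⊔ K = J' := sup_eq_left.mpr hJ'
    rw [hJ1] at e1
    rw [hJ2] at e2
    rw [← e1, ← e2, h']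
  exact Set.Finite.of_finite_image (Set.toFinite _) hinj

/-- A nonempty finite family of ideals closed under binary infimum contains its infimum. -/
theorem sInf_mem_of_finite_of_inf_closed (F : Set (Ideal S)) (hfin : F.Finite) (hne : F.Nonempty)
    (hinf : ∀ J ∈ F, ∀ J' ∈ F, J ⊓ J' ∈ F) : sInf F ∈ F := by
  classical
  -- induction on finite subsets
  have key : ∀ s : Finset (Ideal S), s.Nonempty → (∀ J ∈ s, J ∈ F) → s.inf id ∈ F := by
    intro s hs
    induction hs using Finset.Nonempty.cons_induction with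
    | singleton a =>
      intro h
      simpa using h a (by simp)
    | cons a s ha hs ih =>
      intro h
      rw [Finset.inf_cons]
      exact hinf _ (h a (by simp)) _ (ih fun J hJ => h J (by simp [hJ]))
  have h1 := key hfin.toFinset (by simpa using hne) (by simp)
  have h2 : hfin.toFinset.inf id = sInf F := by
    apply le_antisymm
    · apply le_sInf
      intro J hJ
      exact Finset.inf_le (f := id) (by simpa using hJ)
    · apply Finset.le_inf
      intro J hJ
      exact sInf_le (by simpa using hJ)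
  rwa [h2] at h1

/-- The minimal chain. -/
theorem exists_min_chain (XX : Ideal S) (B : Set (Ideal S))
    (hinf : ∀ J ∈ B, ∀ J' ∈ B, J ⊓ J' ∈ B)
    (hup : ∀ J ∈ B, ∀ n : ℕ, J ⊔ XX ^ n ∈ B)
    (hne : B.Nonempty)
    (hfin : ∀ n : ℕ, ∃ K : Ideal S, Finite (S ⧸ K) ∧ ∀ J ∈ B, XX ^ n ≤ J → K ≤ J) :
    ∃ Jn : ℕ → Ideal S,
      (∀ n, Jn n ∈ B) ∧ (∀ n, XX ^ n ≤ Jn n) ∧ (∀ n, ∀ J ∈ B, XX ^ n ≤ J → Jn n ≤ J) ∧
      (∀ n, Jn n = Jn (n + 1) ⊔ XX ^ n) := by
  classical
  let F : ℕ → Set (Ideal S) := fun n => {J | J ∈ B ∧ XX ^ n ≤ J}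
  have hFfin : ∀ n, (F n).Finite := by
    intro n
    obtain ⟨K, hK, hKB⟩ := hfin n
    exact (finite_setOf_ge_of_finite_quotient K).subset fun J hJ => hKB J hJ.1 hJ.2
  have hFne : ∀ n, (F n).Nonempty := by
    intro n
    obtain ⟨J, hJ⟩ := hne
    exact ⟨J ⊔ XX ^ n, hup J hJ n, le_sup_right⟩
  have hFinf : ∀ n, ∀ J ∈ F n, ∀ J' ∈ F n, J ⊓ J' ∈ F n := by
    intro n J hJ J' hJ'
    exact ⟨hinf J hJ.1 J' hJ'.1, le_inf hJ.2 hJ'.2⟩
  have hmem : ∀ n, sInf (F n) ∈ F n := fun n =>
    sInf_mem_of_finite_of_inf_closed (F n) (hFfin n) (hFne n) (hFinf n)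
  refine ⟨fun n => sInf (F n), fun n => (hmem n).1, fun n => (hmem n).2,
    fun n J hJ hXJ => sInf_le ⟨hJ, hXJ⟩, fun n => ?_⟩
  apply le_antisymm
  · -- `Jn (n+1) ⊔ XX^n ∈ F n`
    exact sInf_le ⟨hup _ (hmem (n + 1)).1 n, le_sup_right⟩
  · apply sup_le
    · -- `Jn n ∈ F (n+1)`
      exact sInf_le ⟨(hmem n).1, le_trans (Ideal.pow_le_pow_right (Nat.le_succ n)) (hmem n).2⟩
    · exact (hmem n).2

end Fermat.Agent.S53x.MC
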