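import Mathlib
import Fermat.Agent.S53x.MinChain
import Fermat.Agent.S53x.PowerSeriesRing

/-!
# S53, module M8-C: minimal ideals

`S = MvPowerSeries σ 𝒪` with `σ` finite and `𝒪` a Noetherian local ring with finite residue field
whose maximal ideal is generated by `ϖ`.  For a predicate `P` on ideals of `S` satisfying

* (i)  `P J → J ≠ ⊤ ∧ (∃ N, (X)^N ≤ J) ∧ X x₀ - C ϖ ∈ J`,
* (ii) `P J₁ → P J₂ → P (J₁ ⊓ J₂)`,
* (iii) `P J → J ≤ J' → J' ≠ ⊤ → P J'`,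
* (iv) `∃ J, P J ∧ (X) ≤ J`,

there is a chain `Jn` of ideals with `Jn 0 = ⊤`, `(X)^n ≤ Jn n`, `P (Jn n)` for `n ≥ 1`,
`Jn n = Jn (n+1) ⊔ (X)^n` and `Jn n` least among the `J` with `P J` and `(X)^n ≤ J`.

Main results: `mi_exists_minimal_ideals` (general form) and `exists_minimal_ideals`
(the exact form of the S53 skeleton).

Auxiliary facts recorded here:
* `mi_finite_residueField` : the residue field of `S` is finite;
* `mi_maximalIdeal_le` : `𝔪_S ≤ (X) ⊔ (X x₀ - C ϖ)`;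
* `mi_finite_quotient` : `S ⧸ ((X)^n ⊔ (X x₀ - C ϖ))` is finite;
* `mi_le_maximalIdeal` : a proper ideal of `S` lies in `𝔪_S`
  (this is `IsLocalRing.le_maximalIdeal`; `(X) ≤ 𝔪_S` is `idealX_le_maximalIdeal`).
-/

set_option autoImplicit false

namespace Fermat.Agent.S53x

open IsLocalRing MvPowerSeries

section MinimalIdeals

variable {σ 𝒪 : Type*} [Finite σ] [CommRing 𝒪] [IsLocalRing 𝒪]

omit [Finite σ] [IsLocalRing 𝒪] in
/-- The constant-series embedding `C : 𝒪 → 𝒪⟦σ⟧` is a local homomorphism. -/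
theorem mi_isLocalHom_C :
    IsLocalHom (MvPowerSeries.C : 𝒪 →+* MvPowerSeries σ 𝒪) := by
  constructor
  intro a ha
  have h := MvPowerSeries.isUnit_iff_constantCoeff.mp ha
  simpa using h

/-- The residue field of `𝒪⟦σ⟧` is a quotient of the residue field of `𝒪`. -/
theorem mi_residueField_map_C_surjective :
    haveI := mi_isLocalHom_C (σ := σ) (𝒪 := 𝒪)
    Function.Surjective
      (ResidueField.map (MvPowerSeries.C : 𝒪 →+* MvPowerSeries σ 𝒪)) := by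
  have := mi_isLocalHom_C (σ := σ) (𝒪 := 𝒪)
  intro y
  obtain ⟨s, rfl⟩ := IsLocalRing.residue_surjective y
  refine ⟨IsLocalRing.residue 𝒪 (MvPowerSeries.constantCoeff s), ?_⟩
  rw [ResidueField.map_residue]
  have h : s - MvPowerSeries.C (MvPowerSeries.constantCoeff s) ∈
      maximalIdeal (MvPowerSeries σ 𝒪) :=
    idealX_le_maximalIdeal (sub_C_constantCoeff_mem_idealX s)
  have h2 := (IsLocalRing.residue_eq_zero_iff _).mpr h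
  rw [map_sub, sub_eq_zero] at h2
  exact h2.symm

/-- The residue field of `𝒪⟦σ⟧` is finite if that of `𝒪` is. -/
theorem mi_finite_residueField [Finite (ResidueField 𝒪)] :
    Finite (ResidueField (MvPowerSeries σ 𝒪)) := by
  have := mi_isLocalHom_C (σ := σ) (𝒪 := 𝒪)
  exact Finite.of_surjective _ (mi_residueField_map_C_surjective (σ := σ) (𝒪 := 𝒪))

omit [Finite σ] in
/-- A proper ideal of `𝒪⟦σ⟧` is contained in the maximal ideal. -/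
theorem mi_le_maximalIdeal {J : Ideal (MvPowerSeries σ 𝒪)} (hJ : J ≠ ⊤) :
    J ≤ maximalIdeal (MvPowerSeries σ 𝒪) :=
  IsLocalRing.le_maximalIdeal hJ

/-- If `ϖ` generates the maximal ideal of `𝒪` then `𝔪_S ≤ (X) ⊔ (X x₀ - C ϖ)`. -/
theorem mi_maximalIdeal_le (x₀ : σ) {ϖ : 𝒪} (hϖ : maximalIdeal 𝒪 = Ideal.span {ϖ}) :
    maximalIdeal (MvPowerSeries σ 𝒪) ≤
      idealX σ 𝒪 ⊔ Ideal.span {(MvPowerSeries.X x₀ - MvPowerSeries.C ϖ : MvPowerSeries σ 𝒪)} := by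
  intro f hf
  have hf0 : MvPowerSeries.constantCoeff f ∈ maximalIdeal 𝒪 := by
    rw [mem_maximalIdeal, mem_nonunits_iff]
    intro hu
    exact (mem_maximalIdeal _).mp hf (MvPowerSeries.isUnit_iff_constantCoeff.mpr hu)
  rw [hϖ, Ideal.mem_span_singleton] at hf0
  obtain ⟨d, hd⟩ := hf0
  have e1 : f = ((f - MvPowerSeries.C (MvPowerSeries.constantCoeff f)) +
      MvPowerSeries.C d * MvPowerSeries.X x₀) +
      (-MvPowerSeries.C d) * (MvPowerSeries.X x₀ - MvPowerSeries.C ϖ) := by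
    rw [hd, map_mul]; ring
  rw [e1]
  refine Ideal.add_mem _ (Ideal.mem_sup_left ?_) (Ideal.mem_sup_right ?_)
  · exact Ideal.add_mem _ (sub_C_constantCoeff_mem_idealX f)
      (Ideal.mul_mem_left _ _ (Ideal.subset_span ⟨x₀, rfl⟩))
  · exact Ideal.mul_mem_left _ _ (Ideal.subset_span rfl)

/-- `(a ⊔ b)^n ≤ a^n ⊔ b` for ideals of a commutative ring. -/
theorem mi_sup_pow_le {R : Type*} [CommRing R] (a b : Ideal R) (n : ℕ) :
    (a ⊔ b) ^ n ≤ a ^ n ⊔ b := by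
  induction n with
  | zero => simp
  | succ n ih =>
    rw [pow_succ, pow_succ]
    refine le_trans (Ideal.mul_mono_left ih) ?_
    rw [Ideal.sup_mul, Ideal.mul_sup]
    have h1 : a ^ n * b ≤ a ^ n * a ⊔ b := le_trans Ideal.mul_le_right le_sup_right
    have h2 : b * (a ⊔ b) ≤ a ^ n * a ⊔ b := le_trans Ideal.mul_le_left le_sup_right
    exact sup_le (sup_le le_sup_left h1) h2

/-- The quotient of `𝒪⟦σ⟧` by `(X)^n ⊔ (X x₀ - C ϖ)` is finite. -/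
theorem mi_finite_quotient [IsNoetherianRing 𝒪] [Finite (ResidueField 𝒪)] (x₀ : σ) {ϖ : 𝒪}
    (hϖ : maximalIdeal 𝒪 = Ideal.span {ϖ}) (n : ℕ) :
    Finite (MvPowerSeries σ 𝒪 ⧸ (idealX σ 𝒪 ^ n ⊔
      Ideal.span {(MvPowerSeries.X x₀ - MvPowerSeries.C ϖ : MvPowerSeries σ 𝒪)})) := by
  have := mi_finite_residueField (σ := σ) (𝒪 := 𝒪)
  rw [IsLocalRing.finite_quotient_iff]
  exact ⟨n, le_trans (Ideal.pow_right_mono (mi_maximalIdeal_le x₀ hϖ) n) (mi_sup_pow_le _ _ n)⟩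

/-- **Minimal ideals** (general form). -/
theorem mi_exists_minimal_ideals [IsNoetherianRing 𝒪] [Finite (ResidueField 𝒪)] (x₀ : σ) (ϖ : 𝒪)
    (hϖ : maximalIdeal 𝒪 = Ideal.span {ϖ}) (P : Ideal (MvPowerSeries σ 𝒪) → Prop)
    (hP1 : ∀ J, P J → J ≠ ⊤ ∧ (∃ N, idealX σ 𝒪 ^ N ≤ J) ∧
      (MvPowerSeries.X x₀ - MvPowerSeries.C ϖ : MvPowerSeries σ 𝒪) ∈ J)
    (hP2 : ∀ J₁ J₂, P J₁ → P J₂ → P (J₁ ⊓ J₂))
    (hP3 : ∀ J J', P J → J ≤ J' → J' ≠ ⊤ → P J')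
    (hP4 : ∃ J, P J ∧ idealX σ 𝒪 ≤ J) :
    ∃ Jn : ℕ → Ideal (MvPowerSeries σ 𝒪), Jn 0 = ⊤ ∧ (∀ n, idealX σ 𝒪 ^ n ≤ Jn n) ∧
      (∀ n, 1 ≤ n → P (Jn n)) ∧ (∀ n, Jn n = Jn (n + 1) ⊔ idealX σ 𝒪 ^ n) ∧
      (∀ n J, P J → idealX σ 𝒪 ^ n ≤ J → Jn n ≤ J) := by
  classical
  let B : Set (Ideal (MvPowerSeries σ 𝒪)) := {J | P J ∨ J = ⊤}
  have hinf : ∀ J ∈ B, ∀ J' ∈ B, J ⊓ J' ∈ B := by
    rintro J (hJ | rfl) J' (hJ' | rfl)
    · exact Or.inl (hP2 J J' hJ hJ')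
    · rw [inf_top_eq]; exact Or.inl hJ
    · rw [top_inf_eq]; exact Or.inl hJ'
    · rw [inf_top_eq]; exact Or.inr rfl
  have hup : ∀ J ∈ B, ∀ n : ℕ, J ⊔ idealX σ 𝒪 ^ n ∈ B := by
    rintro J (hJ | rfl) n
    · by_cases h : J ⊔ idealX σ 𝒪 ^ n = ⊤
      · exact Or.inr h
      · exact Or.inl (hP3 J _ hJ le_sup_left h)
    · rw [top_sup_eq]; exact Or.inr rfl
  have hne : B.Nonempty := ⟨⊤, Or.inr rfl⟩
  have hfin : ∀ n : ℕ, ∃ K : Ideal (MvPowerSeries σ 𝒪), Finite (MvPowerSeries σ 𝒪 ⧸ K) ∧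
      ∀ J ∈ B, idealX σ 𝒪 ^ n ≤ J → K ≤ J := by
    intro n
    refine ⟨_, mi_finite_quotient x₀ hϖ n, ?_⟩
    rintro J (hJ | rfl) hXJ
    · refine sup_le hXJ ?_
      rw [Ideal.span_le, Set.singleton_subset_iff]
      exact (hP1 J hJ).2.2
    · exact le_top
  obtain ⟨Jn, hmem, hpow, hmin, hstep⟩ := MC.exists_min_chain (idealX σ 𝒪) B hinf hup hne hfin
  refine ⟨Jn, ?_, hpow, ?_, hstep, fun n J hJ hXJ => hmin n J (Or.inl hJ) hXJ⟩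
  · have h := hpow 0
    rw [pow_zero, Ideal.one_eq_top] at h
    exact eq_top_iff.mpr h
  · intro n hn
    rcases hmem n with h | h
    · exact h
    · exfalso
      obtain ⟨J₁, hPJ₁, hXJ₁⟩ := hP4
      have h1 : idealX σ 𝒪 ^ n ≤ J₁ :=
        le_trans (Ideal.pow_le_self (Nat.one_le_iff_ne_zero.mp hn)) hXJ₁
      have h2 := hmin n J₁ (Or.inl hPJ₁) h1
      rw [h] at h2
      exact (hP1 J₁ hPJ₁).1 (eq_top_iff.mpr h2)

end MinimalIdeals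

section Skeleton

variable {𝒪 : Type} [CommRing 𝒪] [IsDomain 𝒪] [IsDiscreteValuationRing 𝒪]
  [IsAdicComplete (maximalIdeal 𝒪) 𝒪] [Finite (ResidueField 𝒪)]

omit [IsAdicComplete (maximalIdeal 𝒪) 𝒪] in
/-- **Minimal ideals** (M8-C), in the exact form of the S53 skeleton. -/
theorem exists_minimal_ideals {σ : Type} [Finite σ] (x₀ : σ) (ϖ : 𝒪)
    (hϖ : maximalIdeal 𝒪 = Ideal.span {ϖ}) (P : Ideal (MvPowerSeries σ 𝒪) → Prop)
    (hP1 : ∀ J, P J → J ≠ ⊤ ∧ (∃ N, idealX σ 𝒪 ^ N ≤ J) ∧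
      (MvPowerSeries.X x₀ - MvPowerSeries.C ϖ : MvPowerSeries σ 𝒪) ∈ J)
    (hP2 : ∀ J₁ J₂, P J₁ → P J₂ → P (J₁ ⊓ J₂))
    (hP3 : ∀ J J', P J → J ≤ J' → J' ≠ ⊤ → P J')
    (hP4 : ∃ J, P J ∧ idealX σ 𝒪 ≤ J) :
    ∃ Jn : ℕ → Ideal (MvPowerSeries σ 𝒪), Jn 0 = ⊤ ∧ (∀ n, idealX σ 𝒪 ^ n ≤ Jn n) ∧
      (∀ n, 1 ≤ n → P (Jn n)) ∧ (∀ n, Jn n = Jn (n + 1) ⊔ idealX σ 𝒪 ^ n) ∧
      (∀ n J, P J → idealX σ 𝒪 ^ n ≤ J → Jn n ≤ J) :=
  mi_exists_minimal_ideals x₀ ϖ hϖ P hP1 hP2 hP3 hP4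

end Skeleton

end Fermat.Agent.S53x
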