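import Fermat.Agent.S53x.DLift
import Fermat.Agent.S53x.PowerSeriesRing

/-!
# S53: the ring `R = S ⧸ ⨅ n, Jn n`

`G : GenData 𝒪 rbar`, `S = G.S = 𝒪⟦X_none, X_0, …⟧`, `XX = (X)`.  Given a tower of ideals
`Jn : ℕ → Ideal S` with `XX ^ n ≤ Jn n`, `Jn n = Jn (n+1) ⊔ XX ^ n`, `X none - C ϖ ∈ Jn n` for
`n ≥ 1` and `Jn 1 ≠ ⊤` (bundled as `G.IsTower Jn`), we collect the ring-theoretic facts about
`R := S ⧸ ⨅ n, Jn n` and the finite levels `S ⧸ Jn n`.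
-/

set_option autoImplicit false

namespace Fermat.Agent.S53x

open IsLocalRing MvPowerSeries

section RingR

variable {𝒪 : Type} [CommRing 𝒪] [IsLocalRing 𝒪] {rbar : GQ →* M2 (ResidueField 𝒪)}

lemma GenData.XX_eq_idealX (G : GenData 𝒪 rbar) : G.XX = idealX (Option (Fin G.n)) 𝒪 := rfl

/-- The hypotheses on the tower of ideals `Jn`. (`Jn 0 = ⊤` is a consequence, see
`GenData.IsTower.zero`.) -/
structure GenData.IsTower (G : GenData 𝒪 rbar) (Jn : ℕ → Ideal G.S) : Prop where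
  pow_le : ∀ n, G.XX ^ n ≤ Jn n
  step : ∀ n, Jn n = Jn (n + 1) ⊔ G.XX ^ n
  mem : ∀ n, 1 ≤ n → (X none - C G.ϖ : G.S) ∈ Jn n
  ne_top : Jn 1 ≠ ⊤

namespace GenData.IsTower

variable {G : GenData 𝒪 rbar} {Jn : ℕ → Ideal G.S} (h : G.IsTower Jn)

include h

lemma zero : Jn 0 = ⊤ := by
  rw [h.step 0, pow_zero, Ideal.one_eq_top, sup_top_eq]

lemma antitone : Antitone Jn := antitone_of_eq_succ_sup_pow G.XX Jn h.step

lemma ne_top_of_one_le {n : ℕ} (hn : 1 ≤ n) : Jn n ≠ ⊤ := fun e =>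
  h.ne_top (top_le_iff.mp (e ▸ h.antitone hn))

lemma mem_iInf : (X none - C G.ϖ : G.S) ∈ ⨅ n, Jn n := by
  rw [Ideal.mem_iInf]
  intro n
  rcases Nat.eq_zero_or_pos n with rfl | hn
  · rw [h.zero]; trivial
  · exact h.mem n hn

lemma iInf_ne_top : (⨅ n, Jn n) ≠ ⊤ := fun e =>
  h.ne_top (top_le_iff.mp (e ▸ iInf_le Jn 1))

/-- **Mittag-Leffler**: `J ⊔ XX ^ n = Jn n`. -/
theorem iInf_sup_pow (n : ℕ) : (⨅ m, Jn m) ⊔ G.XX ^ n = Jn n :=
  mittagLeffler_sup_pow (idealX (Option (Fin G.n)) 𝒪) Jn h.pow_le h.step n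

/-! ### The ring `R = S ⧸ ⨅ n, Jn n` -/

theorem isLocalRing : IsLocalRing (G.S ⧸ ⨅ n, Jn n) := isLocalRing_quotient _ h.iInf_ne_top

theorem isLocalHom_algebraMap : IsLocalHom (algebraMap 𝒪 (G.S ⧸ ⨅ n, Jn n)) :=
  isLocalHom_algebraMap_quotient _ h.iInf_ne_top

omit h in
theorem isNoetherianRing [IsNoetherianRing 𝒪] : IsNoetherianRing (G.S ⧸ ⨅ n, Jn n) :=
  inferInstance

omit h in
theorem residue_surjective [IsLocalRing (G.S ⧸ ⨅ n, Jn n)] :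
    Function.Surjective (residue (G.S ⧸ ⨅ n, Jn n) ∘ algebraMap 𝒪 (G.S ⧸ ⨅ n, Jn n)) :=
  residue_comp_algebraMap_quotient_surjective _

theorem maximalIdeal_eq [IsLocalRing (G.S ⧸ ⨅ n, Jn n)] :
    maximalIdeal (G.S ⧸ ⨅ n, Jn n) = G.XX.map (Ideal.Quotient.mk (⨅ n, Jn n)) :=
  maximalIdeal_quotient_eq_map _ G.hϖ h.mem_iInf

theorem isAdicComplete [IsNoetherianRing 𝒪] [IsLocalRing (G.S ⧸ ⨅ n, Jn n)] :
    IsAdicComplete (maximalIdeal (G.S ⧸ ⨅ n, Jn n)) (G.S ⧸ ⨅ n, Jn n) :=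
  isAdicComplete_quotient _ G.hϖ h.mem_iInf


/-! ### The finite levels `S ⧸ Jn n`, `n ≥ 1` -/

theorem isLocalRing_level {n : ℕ} (hn : 1 ≤ n) : IsLocalRing (G.S ⧸ Jn n) :=
  isLocalRing_quotient _ (h.ne_top_of_one_le hn)

theorem isLocalHom_algebraMap_level {n : ℕ} (hn : 1 ≤ n) :
    IsLocalHom (algebraMap 𝒪 (G.S ⧸ Jn n)) :=
  isLocalHom_algebraMap_quotient _ (h.ne_top_of_one_le hn)

theorem maximalIdeal_level_eq {n : ℕ} (hn : 1 ≤ n) [IsLocalRing (G.S ⧸ Jn n)] :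
    maximalIdeal (G.S ⧸ Jn n) = G.XX.map (Ideal.Quotient.mk (Jn n)) :=
  maximalIdeal_quotient_eq_map _ G.hϖ (h.mem n hn)

theorem maximalIdeal_level_pow_eq_bot {n : ℕ} (hn : 1 ≤ n) [IsLocalRing (G.S ⧸ Jn n)] :
    maximalIdeal (G.S ⧸ Jn n) ^ n = ⊥ := by
  rw [h.maximalIdeal_level_eq hn, ← Ideal.map_pow, Ideal.map_eq_bot_iff_le_ker, Ideal.mk_ker]
  exact h.pow_le n

/-- `S ⧸ Jn n` is an Artinian test algebra for `n ≥ 1`. -/
theorem isArtinianTestAlgebra_level [IsNoetherianRing 𝒪] {n : ℕ} (hn : 1 ≤ n)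
    [IsLocalRing (G.S ⧸ Jn n)] : GaloisRep.IsArtinianTestAlgebra 𝒪 (G.S ⧸ Jn n) where
  isLocalHom := h.isLocalHom_algebraMap_level hn
  residue_surjective := residue_comp_algebraMap_quotient_surjective _
  isArtinian := isArtinianRing_quotient _ G.hϖ (h.mem n hn) (h.pow_le n)

end GenData.IsTower

/-! ### The projections `R → S ⧸ Jn n` and the transition maps -/

/-- The projection `R = S ⧸ ⨅ m, Jn m → S ⧸ Jn n` as an `𝒪`-algebra map. As a ring hom it is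
`Ideal.Quotient.factor (iInf_le Jn n)`. -/
noncomputable abbrev GenData.projR (G : GenData 𝒪 rbar) (Jn : ℕ → Ideal G.S) (n : ℕ) :
    (G.S ⧸ ⨅ m, Jn m) →ₐ[𝒪] G.S ⧸ Jn n :=
  Ideal.Quotient.factorₐ 𝒪 (iInf_le Jn n)

/-- The transition map `S ⧸ Jn (n+1) → S ⧸ Jn n` as an `𝒪`-algebra map. As a ring hom it is
`Ideal.Quotient.factor (h.antitone (Nat.le_succ n))`. -/
noncomputable abbrev GenData.IsTower.transR {G : GenData 𝒪 rbar} {Jn : ℕ → Ideal G.S}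
    (h : G.IsTower Jn) (n : ℕ) : (G.S ⧸ Jn (n + 1)) →ₐ[𝒪] G.S ⧸ Jn n :=
  Ideal.Quotient.factorₐ 𝒪 (h.antitone (Nat.le_succ n))

section Proj

variable (G : GenData 𝒪 rbar) (Jn : ℕ → Ideal G.S)

lemma GenData.projR_mk (n : ℕ) (s : G.S) :
    G.projR Jn n (Ideal.Quotient.mk _ s) = Ideal.Quotient.mk _ s := rfl

lemma GenData.projR_comp_mkₐ (n : ℕ) :
    (G.projR Jn n).comp (Ideal.Quotient.mkₐ 𝒪 (⨅ m, Jn m)) = Ideal.Quotient.mkₐ 𝒪 (Jn n) := rfl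

lemma GenData.projR_surjective (n : ℕ) : Function.Surjective (G.projR Jn n) :=
  Ideal.Quotient.factor_surjective (iInf_le Jn n)

/-- An element of `R` is determined by its images in all `S ⧸ Jn n`. -/
theorem GenData.projR_ext {x y : G.S ⧸ ⨅ m, Jn m} (hxy : ∀ n, G.projR Jn n x = G.projR Jn n y) :
    x = y := by
  obtain ⟨s, rfl⟩ := Ideal.Quotient.mk_surjective x
  obtain ⟨t, rfl⟩ := Ideal.Quotient.mk_surjective y
  rw [Ideal.Quotient.eq, Ideal.mem_iInf]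
  intro n
  have := hxy n
  rwa [GenData.projR_mk, GenData.projR_mk, Ideal.Quotient.eq] at this

theorem GenData.projR_eq_zero_imp {x : G.S ⧸ ⨅ m, Jn m} (hx : ∀ n, G.projR Jn n x = 0) :
    x = 0 :=
  G.projR_ext Jn fun n => by rw [hx n, map_zero]

end Proj

namespace GenData.IsTower

variable {G : GenData 𝒪 rbar} {Jn : ℕ → Ideal G.S} (h : G.IsTower Jn)

include h

lemma transR_surjective (n : ℕ) : Function.Surjective (h.transR n) :=
  Ideal.Quotient.factor_surjective (h.antitone (Nat.le_succ n))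

lemma transR_comp_projR (n : ℕ) : (h.transR n).comp (G.projR Jn (n + 1)) = G.projR Jn n :=
  Ideal.Quotient.factorₐ_comp _ _ _

lemma transR_projR (n : ℕ) (x : G.S ⧸ ⨅ m, Jn m) :
    h.transR n (G.projR Jn (n + 1) x) = G.projR Jn n x := by
  rw [← h.transR_comp_projR n]; rfl

/-- The kernel of `R → S ⧸ Jn n` is the image of `XX ^ n`. -/
theorem ker_projR_eq_map (n : ℕ) :
    RingHom.ker (G.projR Jn n) = (G.XX ^ n).map (Ideal.Quotient.mk (⨅ m, Jn m)) := by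
  have h1 : RingHom.ker (G.projR Jn n) = (Jn n).map (Ideal.Quotient.mk (⨅ m, Jn m)) :=
    Ideal.Quotient.factor_ker (iInf_le Jn n)
  rw [h1, ← h.iInf_sup_pow n, Ideal.map_sup, Ideal.map_quotient_self, bot_sup_eq]

/-- The kernel of `R → S ⧸ Jn n` is `𝔪_R ^ n`. -/
theorem ker_projR [IsLocalRing (G.S ⧸ ⨅ m, Jn m)] (n : ℕ) :
    RingHom.ker (G.projR Jn n) = maximalIdeal (G.S ⧸ ⨅ m, Jn m) ^ n := by
  rw [h.ker_projR_eq_map, h.maximalIdeal_eq, Ideal.map_pow]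

theorem projR_eq_zero_iff [IsLocalRing (G.S ⧸ ⨅ m, Jn m)] (n : ℕ) (x : G.S ⧸ ⨅ m, Jn m) :
    G.projR Jn n x = 0 ↔ x ∈ maximalIdeal (G.S ⧸ ⨅ m, Jn m) ^ n := by
  rw [← h.ker_projR n, RingHom.mem_ker]

/-- `R` is separated for the `𝔪_R`-adic topology (elementary proof, no Krull). -/
theorem iInf_maximalIdeal_pow [IsLocalRing (G.S ⧸ ⨅ m, Jn m)] :
    ⨅ n, maximalIdeal (G.S ⧸ ⨅ m, Jn m) ^ n = ⊥ := by
  rw [eq_bot_iff]
  intro x hx
  rw [Ideal.mem_iInf] at hx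
  rw [Ideal.mem_bot]
  exact G.projR_eq_zero_imp Jn fun n => (h.projR_eq_zero_iff n x).mpr (hx n)

/-- The projection `R → S ⧸ Jn n` is a local homomorphism for `n ≥ 1`. -/
theorem isLocalHom_projR [IsLocalRing (G.S ⧸ ⨅ m, Jn m)] {n : ℕ} (hn : 1 ≤ n) :
    IsLocalHom (G.projR Jn n : (G.S ⧸ ⨅ m, Jn m) →+* G.S ⧸ Jn n) := by
  have : Nontrivial (G.S ⧸ Jn n) := Ideal.Quotient.nontrivial_iff.mpr (h.ne_top_of_one_le hn)
  exact IsLocalHom.of_surjective _ (G.projR_surjective Jn n)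

/-- The transition map `S ⧸ Jn (n+1) → S ⧸ Jn n` is a local homomorphism for `n ≥ 1`. -/
theorem isLocalHom_transR {n : ℕ} (hn : 1 ≤ n) [IsLocalRing (G.S ⧸ Jn (n + 1))] :
    IsLocalHom (h.transR n : (G.S ⧸ Jn (n + 1)) →+* G.S ⧸ Jn n) := by
  have : Nontrivial (G.S ⧸ Jn n) := Ideal.Quotient.nontrivial_iff.mpr (h.ne_top_of_one_le hn)
  exact IsLocalHom.of_surjective _ (h.transR_surjective n)

/-- **Limits**: a compatible family `a n ∈ S ⧸ Jn n` comes from a unique element of `R`.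
(Shape of the hypothesis `hlim` of `LR.existsUnique_limit_rep`.) -/
theorem existsUnique_projR_eq (a : ∀ n, G.S ⧸ Jn n)
    (ha : ∀ n, Ideal.Quotient.factor (h.antitone (Nat.le_succ n)) (a (n + 1)) = a n) :
    ∃! x : G.S ⧸ ⨅ m, Jn m, ∀ n, Ideal.Quotient.factor (iInf_le Jn n) x = a n :=
  exists_unique_limit (idealX (Option (Fin G.n)) 𝒪) Jn h.pow_le h.step a ha


/-! ### Maps out of `R` -/

/-- A local `𝒪`-algebra map from `R` to a local ring with nilpotent maximal ideal factors through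
some finite level `S ⧸ Jn n`, `n ≥ 1`. -/
theorem exists_factor_level [IsLocalRing (G.S ⧸ ⨅ m, Jn m)] {A : Type} [CommRing A]
    [IsLocalRing A] [Algebra 𝒪 A] (hnil : IsNilpotent (maximalIdeal A))
    (φ : (G.S ⧸ ⨅ m, Jn m) →ₐ[𝒪] A) (hφ : IsLocalHom (φ : (G.S ⧸ ⨅ m, Jn m) →+* A)) :
    ∃ n, 1 ≤ n ∧ ∃ ψ : (G.S ⧸ Jn n) →ₐ[𝒪] A, ψ.comp (G.projR Jn n) = φ := by
  obtain ⟨N, hN⟩ := hnil
  have hN1 : maximalIdeal A ^ (N + 1) = ⊥ := by
    rw [pow_succ, hN, Ideal.zero_eq_bot, Ideal.bot_mul]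
  refine ⟨N + 1, Nat.le_add_left 1 N, ?_⟩
  have hker : ∀ x : G.S ⧸ ⨅ m, Jn m, G.projR Jn (N + 1) x = 0 → φ x = 0 := by
    intro x hx
    rw [h.projR_eq_zero_iff] at hx
    have h1 : (φ : (G.S ⧸ ⨅ m, Jn m) →+* A) x ∈
        (maximalIdeal (G.S ⧸ ⨅ m, Jn m) ^ (N + 1)).map (φ : (G.S ⧸ ⨅ m, Jn m) →+* A) :=
      Ideal.mem_map_of_mem _ hx
    rw [Ideal.map_pow] at h1
    have h2 : (maximalIdeal (G.S ⧸ ⨅ m, Jn m)).map (φ : (G.S ⧸ ⨅ m, Jn m) →+* A) ≤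
        maximalIdeal A := ((IsLocalRing.local_hom_TFAE _).out 0 2).mp hφ
    have h3 := Ideal.pow_right_mono h2 (N + 1) h1
    rw [hN1, Ideal.mem_bot] at h3
    exact h3
  refine ⟨Ideal.Quotient.liftₐ (Jn (N + 1)) (φ.comp (Ideal.Quotient.mkₐ 𝒪 (⨅ m, Jn m))) ?_, ?_⟩
  · intro s hs
    apply hker
    change G.projR Jn (N + 1) (Ideal.Quotient.mk _ s) = 0
    rw [GenData.projR_mk]
    exact Ideal.Quotient.eq_zero_iff_mem.mpr hs
  · apply Ideal.Quotient.algHom_ext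
    ext s
    rfl

omit h in
/-- Two `𝒪`-algebra maps out of a quotient `S ⧸ J` with `X none - C ϖ ∈ J` agree as soon as they
agree on the classes of the `X (some i)`, provided these (and `ϖ`) are sent to nilpotents. -/
theorem _root_.Fermat.Agent.S53x.GenData.quotient_algHom_ext (G : GenData 𝒪 rbar) {J : Ideal G.S}
    (hJ : (X none - C G.ϖ : G.S) ∈ J) {A : Type} [CommRing A] [Algebra 𝒪 A]
    {φ φ' : (G.S ⧸ J) →ₐ[𝒪] A} (hϖ : IsNilpotent (algebraMap 𝒪 A G.ϖ))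
    (hnil : ∀ i, IsNilpotent (φ (Ideal.Quotient.mk J (X (some i)))))
    (hX : ∀ i, φ (Ideal.Quotient.mk J (X (some i))) = φ' (Ideal.Quotient.mk J (X (some i)))) :
    φ = φ' := by
  have hnone : ∀ ψ : (G.S ⧸ J) →ₐ[𝒪] A,
      ψ (Ideal.Quotient.mk J (X none)) = algebraMap 𝒪 A G.ϖ := by
    intro ψ
    have h1 : Ideal.Quotient.mk J (X none) = algebraMap 𝒪 (G.S ⧸ J) G.ϖ := by
      have : algebraMap 𝒪 (G.S ⧸ J) G.ϖ = Ideal.Quotient.mk J (C G.ϖ) := rfl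
      rw [this, Ideal.Quotient.eq]
      exact hJ
    rw [h1, AlgHom.commutes]
  apply Ideal.Quotient.algHom_ext
  have key : φ.comp (Ideal.Quotient.mkₐ 𝒪 J) = φ'.comp (Ideal.Quotient.mkₐ 𝒪 J) := by
    apply algHom_ext_of_isNilpotent
    · rintro (_ | i)
      · change IsNilpotent (φ (Ideal.Quotient.mk J (X none)))
        rw [hnone]; exact hϖ
      · exact hnil i
    · rintro (_ | i)
      · change φ (Ideal.Quotient.mk J (X none)) = φ' (Ideal.Quotient.mk J (X none))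
        rw [hnone, hnone]
      · exact hX i
  exact key

/-- Uniqueness of `𝒪`-algebra maps out of `R`: they are determined by the images of the classes
of the `X (some i)`. -/
theorem algHom_ext_R {A : Type} [CommRing A] [Algebra 𝒪 A]
    {φ φ' : (G.S ⧸ ⨅ m, Jn m) →ₐ[𝒪] A} (hϖ : IsNilpotent (algebraMap 𝒪 A G.ϖ))
    (hnil : ∀ i, IsNilpotent (φ (Ideal.Quotient.mk _ (X (some i)))))
    (hX : ∀ i, φ (Ideal.Quotient.mk _ (X (some i))) = φ' (Ideal.Quotient.mk _ (X (some i)))) :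
    φ = φ' :=
  G.quotient_algHom_ext h.mem_iInf hϖ hnil hX

/-- Same for the finite levels. -/
theorem algHom_ext_level {n : ℕ} (hn : 1 ≤ n) {A : Type} [CommRing A] [Algebra 𝒪 A]
    {φ φ' : (G.S ⧸ Jn n) →ₐ[𝒪] A} (hϖ : IsNilpotent (algebraMap 𝒪 A G.ϖ))
    (hnil : ∀ i, IsNilpotent (φ (Ideal.Quotient.mk _ (X (some i)))))
    (hX : ∀ i, φ (Ideal.Quotient.mk _ (X (some i))) = φ' (Ideal.Quotient.mk _ (X (some i)))) :
    φ = φ' :=
  G.quotient_algHom_ext (h.mem n hn) hϖ hnil hX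

/-- The classes of the variables lie in the maximal ideal of `R`. -/
lemma mk_X_mem_maximalIdeal [IsLocalRing (G.S ⧸ ⨅ m, Jn m)] (i : Option (Fin G.n)) :
    Ideal.Quotient.mk (⨅ m, Jn m) (X i) ∈ maximalIdeal (G.S ⧸ ⨅ m, Jn m) := by
  rw [h.maximalIdeal_eq]
  exact Ideal.mem_map_of_mem _ (Ideal.subset_span ⟨i, rfl⟩)

/-- In `R`, the class of `X none` is `ϖ`. -/
lemma mk_X_none : Ideal.Quotient.mk (⨅ m, Jn m) (X none) =
    algebraMap 𝒪 (G.S ⧸ ⨅ m, Jn m) G.ϖ := by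
  have : algebraMap 𝒪 (G.S ⧸ ⨅ m, Jn m) G.ϖ = Ideal.Quotient.mk _ (C G.ϖ) := rfl
  rw [this, Ideal.Quotient.eq]
  exact h.mem_iInf

/-- Uniqueness of local `𝒪`-algebra maps from `R` to a local ring with nilpotent maximal ideal. -/
theorem algHom_ext_of_isNilpotent_maximalIdeal [IsLocalRing (G.S ⧸ ⨅ m, Jn m)] {A : Type}
    [CommRing A] [IsLocalRing A] [Algebra 𝒪 A] (hnil : IsNilpotent (maximalIdeal A))
    {φ φ' : (G.S ⧸ ⨅ m, Jn m) →ₐ[𝒪] A} (hφ : IsLocalHom (φ : (G.S ⧸ ⨅ m, Jn m) →+* A))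
    (hX : ∀ i, φ (Ideal.Quotient.mk _ (X (some i))) = φ' (Ideal.Quotient.mk _ (X (some i)))) :
    φ = φ' := by
  obtain ⟨N, hN⟩ := hnil
  have hmem : ∀ i, IsNilpotent (φ (Ideal.Quotient.mk (⨅ m, Jn m) (X i))) := by
    intro i
    have h1 : (φ : (G.S ⧸ ⨅ m, Jn m) →+* A) (Ideal.Quotient.mk (⨅ m, Jn m) (X i)) ∈
        maximalIdeal A :=
      haveI := hφ; map_nonunit (φ : (G.S ⧸ ⨅ m, Jn m) →+* A) _ (h.mk_X_mem_maximalIdeal i)
    refine ⟨N, ?_⟩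
    have h2 := Ideal.pow_mem_pow h1 N
    rw [hN] at h2
    exact h2
  refine h.algHom_ext_R ?_ (fun i => hmem (some i)) hX
  have := hmem none
  rwa [h.mk_X_none, AlgHom.commutes] at this

end GenData.IsTower

/-! ### Representations over `R` -/

section Rep

/-- Strictness can be checked after a (local) `𝒪`-algebra map. -/
theorem strict_of_mapRep {A B : Type} [CommRing A] [IsLocalRing A] [Algebra 𝒪 A]
    [IsLocalHom (algebraMap 𝒪 A)] [CommRing B] [IsLocalRing B] [Algebra 𝒪 B]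
    [IsLocalHom (algebraMap 𝒪 B)] (φ : A →ₐ[𝒪] B) {r : GQ →* M2 A}
    (hr : ∀ σ, (mapRep (φ : A →+* B) r σ).map (residue B) =
      (rbar σ).map (ResidueField.map (algebraMap 𝒪 B))) (σ : GQ) :
    (r σ).map (residue A) = (rbar σ).map (ResidueField.map (algebraMap 𝒪 A)) := by
  ext i j
  have hh := congrFun (congrFun (hr σ) i) j
  simp only [Matrix.map_apply, mapRep_apply] at hh ⊢
  obtain ⟨c, hc⟩ := residue_surjective (rbar σ i j)
  rw [← hc, ResidueField.map_residue] at hh ⊢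
  have h1 : (φ : A →+* B) (r σ i j) - algebraMap 𝒪 B c ∈ maximalIdeal B := by
    rw [← Ideal.Quotient.eq]; exact hh
  have h2 : (φ : A →+* B) (r σ i j - algebraMap 𝒪 A c) ∈ maximalIdeal B := by
    have : (φ : A →+* B) (r σ i j - algebraMap 𝒪 A c) =
        (φ : A →+* B) (r σ i j) - algebraMap 𝒪 B c := by
      rw [map_sub]; congr 1; exact φ.commutes c
    rwa [this]
  have h3 : r σ i j - algebraMap 𝒪 A c ∈ maximalIdeal A := by
    rw [mem_maximalIdeal, mem_nonunits_iff]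
    intro hu
    exact (mem_maximalIdeal _).mp h2 (hu.map (φ : A →+* B))
  exact (Ideal.Quotient.eq).mpr h3

end Rep

namespace GenData.IsTower

variable {G : GenData 𝒪 rbar} {Jn : ℕ → Ideal G.S} (h : G.IsTower Jn)

include h

/-- The classifying property over `R` can be checked on all finite levels `n ≥ 1`. -/
theorem isClassifying_of_projR (r : GQ →* M2 (G.S ⧸ ⨅ m, Jn m))
    (hr : ∀ n, 1 ≤ n → G.IsClassifying (Ideal.Quotient.mkₐ 𝒪 (Jn n))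
      (mapRep (G.projR Jn n : (G.S ⧸ ⨅ m, Jn m) →+* G.S ⧸ Jn n) r)) :
    G.IsClassifying (Ideal.Quotient.mkₐ 𝒪 (⨅ m, Jn m)) r := by
  refine ⟨h.mk_X_none, fun i => ?_⟩
  apply G.projR_ext Jn
  intro n
  rcases Nat.eq_zero_or_pos n with rfl | hn
  · have : Subsingleton (G.S ⧸ Jn 0) := Ideal.Quotient.subsingleton_iff.mpr h.zero
    exact Subsingleton.elim _ _
  · have h1 := (hr n hn).2 i
    rw [Ideal.Quotient.mkₐ_eq_mk] at h1 ⊢
    rw [GenData.projR_mk, h1, map_sub, AlgHom.commutes, mapRep_apply]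
    congr 1
    exact (AddMonoidHom.map_trace (G.projR Jn n) (r (G.g i))).symm

/-- Adic continuity over `R` can be checked on all finite levels `n ≥ 1`. -/
theorem adicCont_of_projR [IsLocalRing (G.S ⧸ ⨅ m, Jn m)] (r : GQ →* M2 (G.S ⧸ ⨅ m, Jn m))
    (hr : ∀ n, 1 ≤ n →
      FinLevelMod (mapRep (G.projR Jn n : (G.S ⧸ ⨅ m, Jn m) →+* G.S ⧸ Jn n) r) ⊥) :
    AdicCont r := by
  intro n
  rcases Nat.eq_zero_or_pos n with rfl | hn
  · obtain ⟨L, hL, -⟩ := hr 1 le_rfl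
    refine ⟨L, hL, fun σ _ i j => ?_⟩
    rw [pow_zero, Ideal.one_eq_top]
    trivial
  · obtain ⟨L, hL, hLr⟩ := hr n hn
    refine ⟨L, hL, fun σ hσ i j => ?_⟩
    rw [← h.projR_eq_zero_iff]
    have h1 := hLr σ hσ i j
    rw [Ideal.mem_bot] at h1
    rw [← h1, mapRep_apply]
    by_cases hij : i = j
    · subst hij
      simp [Matrix.sub_apply]
    · simp [Matrix.sub_apply, hij]

end GenData.IsTower

/-- Strictness over `R` can be checked on level `1`. -/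
theorem GenData.strict_of_projR_one (G : GenData 𝒪 rbar) (Jn : ℕ → Ideal G.S)
    [IsLocalRing (G.S ⧸ ⨅ m, Jn m)]
    [IsLocalHom (algebraMap 𝒪 (G.S ⧸ ⨅ m, Jn m))] [IsLocalRing (G.S ⧸ Jn 1)]
    [IsLocalHom (algebraMap 𝒪 (G.S ⧸ Jn 1))] (r : GQ →* M2 (G.S ⧸ ⨅ m, Jn m))
    (hr : ∀ σ, (mapRep (G.projR Jn 1 : (G.S ⧸ ⨅ m, Jn m) →+* G.S ⧸ Jn 1) r σ).map
      (residue (G.S ⧸ Jn 1)) = (rbar σ).map (ResidueField.map (algebraMap 𝒪 (G.S ⧸ Jn 1))))
    (σ : GQ) :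
    (r σ).map (residue (G.S ⧸ ⨅ m, Jn m)) =
      (rbar σ).map (ResidueField.map (algebraMap 𝒪 (G.S ⧸ ⨅ m, Jn m))) :=
  strict_of_mapRep (G.projR Jn 1) hr σ

end RingR

end Fermat.Agent.S53x
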