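import Fermat.Agent.S53x.AdmissibleInf
import Fermat.Agent.S53x.ClassifyingMap
import Fermat.Agent.S53x.RingR

/-!
# S53, module M8-F: the Artinian universal property `UA` of `(R, ru)`, `R = S ⧸ ⨅ n, Jn n`

Inputs (all as hypotheses): the tower `Jn` (`G.IsTower Jn`), its minimality among admissible
ideals, witnesses `r n` over `S ⧸ Jn n`, the limit representation `ru` (conjugate to `r n` at
each level `n ≥ 1`), and (B3), (B4) in the shapes of the captain's skeleton.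
-/

set_option autoImplicit false

namespace Fermat.Agent.S53x

open IsLocalRing MvPowerSeries GaloisRep

section Conj

variable {Γ : Type} {A B : Type} [CommRing A] [CommRing B]

lemma ua_conj_trans {a b c : Γ → M2 A}
    (h1 : ∃ X : M2 A, IsUnit X.det ∧ ∀ σ, X * a σ = b σ * X)
    (h2 : ∃ X : M2 A, IsUnit X.det ∧ ∀ σ, X * b σ = c σ * X) :
    ∃ X : M2 A, IsUnit X.det ∧ ∀ σ, X * a σ = c σ * X := by
  obtain ⟨X, hX, h1⟩ := h1
  obtain ⟨Y, hY, h2⟩ := h2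
  refine ⟨Y * X, by rw [Matrix.det_mul]; exact hY.mul hX, fun σ => ?_⟩
  rw [mul_assoc, h1, ← mul_assoc, h2, mul_assoc]

lemma ua_conj_map (f : A →+* B) {a b : Γ → M2 A}
    (h : ∃ X : M2 A, IsUnit X.det ∧ ∀ σ, X * a σ = b σ * X) :
    ∃ X : M2 B, IsUnit X.det ∧ ∀ σ, X * (a σ).map f = (b σ).map f * X := by
  obtain ⟨X, hX, h⟩ := h
  refine ⟨X.map f, ?_, fun σ => ?_⟩
  · have : (X.map f).det = f X.det := by
      rw [RingHom.map_det]; rfl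
    rw [this]
    exact hX.map f
  · rw [← Matrix.map_mul, h, Matrix.map_mul]

lemma ua_trace_eq_of_conj {a b X : M2 A} (hX : IsUnit X.det) (h : X * a = b * X) :
    a.trace = b.trace := by
  have h1 : a = X⁻¹ * (b * X) := by
    rw [← h, ← mul_assoc, Matrix.nonsing_inv_mul X hX, one_mul]
  rw [h1, Matrix.trace_mul_comm, mul_assoc, Matrix.mul_nonsing_inv X hX, mul_one]

end Conj

section UA

variable {𝒪 : Type} [CommRing 𝒪] [IsDomain 𝒪] [IsDiscreteValuationRing 𝒪]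
  [IsAdicComplete (maximalIdeal 𝒪) 𝒪] [Finite (ResidueField 𝒪)]
variable (𝒟 : ∀ ⦃A : Type⦄ [CommRing A] [IsLocalRing A] [Algebra 𝒪 A], GaloisRepAdic A → Prop)
variable {rbar : GQ →* M2 (ResidueField 𝒪)} (G : GenData 𝒪 rbar)

/-- The quotient map `S → R` is the classifying map of the limit representation `ru`. -/
theorem ua_classifying_ru (Jn : ℕ → Ideal G.S) (hT : G.IsTower Jn)
    (r : ∀ n, GQ →* M2 (G.S ⧸ Jn n))
    (hcl : ∀ n, 1 ≤ n → G.IsClassifying (Ideal.Quotient.mkₐ 𝒪 (Jn n)) (r n))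
    (ru : GQ →* M2 (G.S ⧸ ⨅ m, Jn m))
    (hconj : ∀ n, 1 ≤ n → ∃ X : M2 (G.S ⧸ Jn n), IsUnit X.det ∧
        ∀ γ, X * (ru γ).map (Ideal.Quotient.factor (iInf_le Jn n)) = r n γ * X) :
    G.IsClassifying (Ideal.Quotient.mkₐ 𝒪 (⨅ m, Jn m)) ru := by
  refine ⟨?_, fun i => ?_⟩
  · have := hT.mem_iInf
    show Ideal.Quotient.mk _ (X none : G.S) = Ideal.Quotient.mk _ (C G.ϖ)
    exact Ideal.Quotient.eq.mpr this
  · apply G.projR_ext Jn
    intro n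
    rcases Nat.eq_zero_or_pos n with rfl | hn
    · have : Subsingleton (G.S ⧸ Jn 0) := Ideal.Quotient.subsingleton_iff.mpr hT.zero
      exact Subsingleton.elim _ _
    · obtain ⟨Y, hY, hYc⟩ := hconj n hn
      have h1 : G.projR Jn n ((Ideal.Quotient.mkₐ 𝒪 (⨅ m, Jn m)) (X (some i))) =
          (Ideal.Quotient.mkₐ 𝒪 (Jn n)) (X (some i)) := rfl
      rw [h1, (hcl n hn).2 i, map_sub, AlgHom.commutes]
      congr 1
      have h2 : G.projR Jn n (ru (G.g i)).trace =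
          ((ru (G.g i)).map (Ideal.Quotient.factor (iInf_le Jn n))).trace := by
        simp only [Matrix.trace, Matrix.diag, Matrix.map_apply, map_sum]
        rfl
      rw [h2]
      exact (ua_trace_eq_of_conj hY (hYc (G.g i))).symm

/-- **(F) the Artinian universal property** of `(R, ru)`. -/
theorem universal_artinian (h𝒟 : IsDeformationCondition 𝒪 𝒟)
    (hB3 : ∀ {J : Ideal G.S} (h1 : IsLocalRing (G.S ⧸ J))
      (h2 : IsLocalHom (algebraMap 𝒪 (G.S ⧸ J)))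
      (_ : ∃ N, G.XX ^ N ≤ J) (_ : (MvPowerSeries.X none - MvPowerSeries.C G.ϖ : G.S) ∈ J)
      (r r' : GQ →* M2 (G.S ⧸ J))
      (_ : IsDLift 𝒪 𝒟 rbar (G.S ⧸ J) r) (_ : IsDLift 𝒪 𝒟 rbar (G.S ⧸ J) r')
      (_ : G.IsClassifying (Ideal.Quotient.mkₐ 𝒪 J) r)
      (_ : G.IsClassifying (Ideal.Quotient.mkₐ 𝒪 J) r'),
      ∃ X : M2 (G.S ⧸ J), IsUnit X.det ∧ ∀ σ, X * r σ = r' σ * X)
    (hB4 : ∀ {A : Type} [CommRing A] [IsLocalRing A] [Algebra 𝒪 A]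
      (hA : GaloisRep.IsArtinianTestAlgebra 𝒪 A) (r : GQ →* M2 A)
      (_ : haveI := hA.isLocalHom; IsDLift 𝒪 𝒟 rbar A r)
      (θ : G.S →ₐ[𝒪] A) (_ : G.IsClassifying θ r),
      ∃ (h1 : IsLocalRing (G.S ⧸ RingHom.ker (θ : G.S →+* A)))
        (h2 : IsLocalHom (algebraMap 𝒪 (G.S ⧸ RingHom.ker (θ : G.S →+* A))))
        (r' : GQ →* M2 (G.S ⧸ RingHom.ker (θ : G.S →+* A))),
        IsDLift 𝒪 𝒟 rbar (G.S ⧸ RingHom.ker (θ : G.S →+* A)) r' ∧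
        G.IsClassifying (Ideal.Quotient.mkₐ 𝒪 (RingHom.ker (θ : G.S →+* A))) r' ∧
        ∃ X : M2 A, IsUnit X.det ∧
          ∀ σ, X * (r' σ).map (RingHom.kerLift (θ : G.S →+* A)) = r σ * X)
    (Jn : ℕ → Ideal G.S) (hT : G.IsTower Jn)
    (hmin : ∀ n J, G.IsAdm 𝒟 J → G.XX ^ n ≤ J → Jn n ≤ J)
    (r : ∀ n, GQ →* M2 (G.S ⧸ Jn n))
    (hr : ∀ n, 1 ≤ n → ∃ (h1 : IsLocalRing (G.S ⧸ Jn n))
      (h2 : IsLocalHom (algebraMap 𝒪 (G.S ⧸ Jn n))),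
      @IsDLift 𝒪 _ _ 𝒟 rbar (G.S ⧸ Jn n) _ h1 _ h2 (r n) ∧
        G.IsClassifying (Ideal.Quotient.mkₐ 𝒪 (Jn n)) (r n))
    (ru : GQ →* M2 (G.S ⧸ ⨅ m, Jn m))
    (hconj : ∀ n, 1 ≤ n → ∃ X : M2 (G.S ⧸ Jn n), IsUnit X.det ∧
        ∀ γ, X * (ru γ).map (Ideal.Quotient.factor (iInf_le Jn n)) = r n γ * X)
    {A : Type} [CommRing A] [IsLocalRing A] [Algebra 𝒪 A]
    (hA : GaloisRep.IsArtinianTestAlgebra 𝒪 A) (rA : GQ →* M2 A)
    (hrA : haveI := hA.isLocalHom; IsDLift 𝒪 𝒟 rbar A rA) :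
    ∃! φ : (G.S ⧸ ⨅ m, Jn m) →ₐ[𝒪] A, IsLocalHom (φ : (G.S ⧸ ⨅ m, Jn m) →+* A) ∧
      ∃ X : M2 A, IsUnit X.det ∧ ∀ σ, X * (ru σ).map φ = rA σ * X := by
  haveI := hA.isLocalHom
  haveI := hA.isArtinian
  have hclru : G.IsClassifying (Ideal.Quotient.mkₐ 𝒪 (⨅ m, Jn m)) ru :=
    ua_classifying_ru G Jn hT r (fun n hn => by
      obtain ⟨_, _, _, h⟩ := hr n hn
      exact h) ru hconj
  -- the classifying map of `rA`
  obtain ⟨θ, hθ⟩ := exists_classifying G hA rA hrA.strict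
  obtain ⟨hker_top, ⟨N, hN⟩, hkerϖ⟩ := classifying_ker G hA rA θ hrA.strict hθ
  obtain ⟨k1, k2, r', hr', hcl', XA, hXA, hXAc⟩ := hB4 hA rA hrA θ hθ
  have hadmK : G.IsAdm 𝒟 (RingHom.ker (θ : G.S →+* A)) :=
    ⟨k1, k2, N, hN, hkerϖ, r', hr', hcl'⟩
  have hN1 : G.XX ^ (N + 1) ≤ RingHom.ker (θ : G.S →+* A) :=
    (Ideal.pow_le_pow_right (Nat.le_succ N)).trans hN
  have hle : Jn (N + 1) ≤ RingHom.ker (θ : G.S →+* A) := hmin (N + 1) _ hadmK hN1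
  have hle' : (⨅ m, Jn m) ≤ RingHom.ker (θ : G.S →+* A) := (iInf_le Jn (N + 1)).trans hle
  -- the induced map `φ : R → A`
  let φ : (G.S ⧸ ⨅ m, Jn m) →ₐ[𝒪] A :=
    Ideal.Quotient.liftₐ (⨅ m, Jn m) θ (fun a ha => hle' ha)
  have hφmk : ∀ s : G.S, φ (Ideal.Quotient.mk _ s) = θ s := fun s => rfl
  have hθloc : IsLocalHom (θ : G.S →+* A) := cm_isLocalHom G rA hrA.strict hθ
  have hφloc : IsLocalHom (φ : (G.S ⧸ ⨅ m, Jn m) →+* A) := by
    constructor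
    intro x hx
    obtain ⟨s, rfl⟩ := Ideal.Quotient.mk_surjective x
    have : IsUnit s := hθloc.map_nonunit s hx
    exact this.map _
  refine ⟨φ, ⟨hφloc, ?_⟩, ?_⟩
  · -- existence of the conjugation
    obtain ⟨l1, l2, hrN, hclN⟩ := hr (N + 1) (Nat.succ_le_succ (Nat.zero_le N))
    have hTA1 : IsArtinianTestAlgebra 𝒪 (G.S ⧸ Jn (N + 1)) :=
      G.isArtinianTestAlgebra_quotient (Jn (N + 1)) l2 (hT.pow_le (N + 1))
        (hT.mem (N + 1) (Nat.succ_le_succ (Nat.zero_le N)))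
    have hTA2 : IsArtinianTestAlgebra 𝒪 (G.S ⧸ RingHom.ker (θ : G.S →+* A)) :=
      G.isArtinianTestAlgebra_quotient _ k2 hN hkerϖ
    let f : G.S ⧸ Jn (N + 1) →ₐ[𝒪] G.S ⧸ RingHom.ker (θ : G.S →+* A) :=
      Ideal.Quotient.factorₐ 𝒪 hle
    have hfs : Function.Surjective
        (f : G.S ⧸ Jn (N + 1) →+* G.S ⧸ RingHom.ker (θ : G.S →+* A)) :=
      Ideal.Quotient.factor_surjective hle
    have hf : IsLocalHom (f : G.S ⧸ Jn (N + 1) →+* G.S ⧸ RingHom.ker (θ : G.S →+* A)) :=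
      IsLocalHom.of_surjective _ hfs
    have hrf : IsDLift 𝒪 𝒟 rbar (G.S ⧸ RingHom.ker (θ : G.S →+* A))
        (mapRep (f : G.S ⧸ Jn (N + 1) →+* G.S ⧸ RingHom.ker (θ : G.S →+* A)) (r (N + 1))) :=
      IsDLift.mapRep h𝒟 hTA1 hTA2 f hf hrN
    have hclf : G.IsClassifying (Ideal.Quotient.mkₐ 𝒪 (RingHom.ker (θ : G.S →+* A)))
        (mapRep (f : G.S ⧸ Jn (N + 1) →+* G.S ⧸ RingHom.ker (θ : G.S →+* A)) (r (N + 1))) :=
      classifying_comp G f (r (N + 1)) _ hclN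
    obtain ⟨X3, hX3, hX3c⟩ := hB3 k1 k2 ⟨N, hN⟩ hkerϖ _ _ hrf hr' hclf hcl'
    let p : (G.S ⧸ ⨅ m, Jn m) →+* G.S ⧸ Jn (N + 1) := Ideal.Quotient.factor (iInf_le Jn (N + 1))
    let g : G.S ⧸ RingHom.ker (θ : G.S →+* A) →+* A := RingHom.kerLift (θ : G.S →+* A)
    have c1 := ua_conj_map (a := fun σ => (ru σ).map p) (b := fun σ => r (N + 1) σ)
      (f : G.S ⧸ Jn (N + 1) →+* G.S ⧸ RingHom.ker (θ : G.S →+* A))
      (hconj (N + 1) (Nat.succ_le_succ (Nat.zero_le N)))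
    have c2 : ∃ X : M2 (G.S ⧸ RingHom.ker (θ : G.S →+* A)), IsUnit X.det ∧
        ∀ σ, X * (fun σ => (r (N + 1) σ).map
          (f : G.S ⧸ Jn (N + 1) →+* G.S ⧸ RingHom.ker (θ : G.S →+* A))) σ = r' σ * X :=
      ⟨X3, hX3, hX3c⟩
    have c3 := ua_conj_trans c1 c2
    have c4 := ua_conj_map (a := fun σ => ((ru σ).map p).map
      (f : G.S ⧸ Jn (N + 1) →+* G.S ⧸ RingHom.ker (θ : G.S →+* A))) (b := fun σ => r' σ) g c3
    have c5 : ∃ X : M2 A, IsUnit X.det ∧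
        ∀ σ, X * (fun σ => (r' σ).map g) σ = rA σ * X := ⟨XA, hXA, hXAc⟩
    obtain ⟨Z, hZ, hZc⟩ := ua_conj_trans c4 c5
    refine ⟨Z, hZ, fun σ => ?_⟩
    have e : (ru σ).map φ = (((ru σ).map p).map
        (f : G.S ⧸ Jn (N + 1) →+* G.S ⧸ RingHom.ker (θ : G.S →+* A))).map g := by
      ext i j
      simp only [Matrix.map_apply]
      obtain ⟨s, hs⟩ := Ideal.Quotient.mk_surjective (ru σ i j)
      rw [← hs]
      rfl
    rw [e]
    exact hZc σ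
  · -- uniqueness
    rintro φ' ⟨_, X', hX', hX'c⟩
    have h1 := classifying_comp G φ' ru _ hclru
    have hθ' : G.IsClassifying (φ'.comp (Ideal.Quotient.mkₐ 𝒪 (⨅ m, Jn m))) rA := by
      refine ⟨h1.1, fun i => ?_⟩
      rw [h1.2 i]
      congr 1
      exact ua_trace_eq_of_conj hX' (hX'c (G.g i))
    have hθθ' := classifying_unique G hA rA _ _ hrA.strict hθ' hθ
    ext x
    obtain ⟨s, rfl⟩ := Ideal.Quotient.mk_surjective x
    have : φ' (Ideal.Quotient.mk _ s) = θ s := by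
      rw [← hθθ']
      rfl
    rw [this, hφmk]

end UA

end Fermat.Agent.S53x
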