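import Fermat.Agent.S53x.Universal3
import Fermat.Agent.S53x.UniversalArt
import Fermat.Agent.S53x.MinimalIdeals
import Fermat.Agent.S53x.AdmissibleRes
import Fermat.Agent.S53x.AdmissibleInfExact

/-!
# S53 assembly, part 4: the universal lift over `R = S ⧸ ⨅ Jn` and its Artinian universal property
-/

set_option autoImplicit false
set_option linter.unusedSectionVars false
set_option linter.style.haveILetI false

namespace Fermat.Agent.S53x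

open IsLocalRing MvPowerSeries

section

variable {𝒪 : Type} [CommRing 𝒪] [IsDomain 𝒪] [IsDiscreteValuationRing 𝒪]
  [IsAdicComplete (maximalIdeal 𝒪) 𝒪] [Finite (ResidueField 𝒪)]
variable {𝒟 : ∀ ⦃A : Type⦄ [CommRing A] [IsLocalRing A] [Algebra 𝒪 A], GaloisRepAdic A → Prop}
variable {rbar : GQ →* M2 (ResidueField 𝒪)} {G : GenData 𝒪 rbar} {Jn : ℕ → Ideal G.S}

/-- (B1) admissible ideals are closed under intersection. -/
theorem adm_inf_of_hasB4 (h𝒟 : GaloisRep.IsDeformationCondition 𝒪 𝒟) (hB4 : G.HasB4 𝒟)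
    {J₁ J₂ : Ideal G.S} (h₁ : G.IsAdm 𝒟 J₁) (h₂ : G.IsAdm 𝒟 J₂) :
    G.IsAdm 𝒟 (J₁ ⊓ J₂) :=
  adm_inf_of_descent 𝒟 G h𝒟 hB4 h₁ h₂

/-- Existence of the tower of minimal admissible ideals. -/
theorem GenData.exists_tower (G : GenData 𝒪 rbar) (h𝒟 : GaloisRep.IsDeformationCondition 𝒪 𝒟)
    (hB4 : G.HasB4 𝒟) (hrbar : FinLevelMod rbar ⊥)
    (hbar : 𝒟 (ofMat rbar (adicCont_of_finLevelMod_bot hrbar))) :
    ∃ Jn : ℕ → Ideal G.S, G.Tower 𝒟 Jn := by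
  obtain ⟨Jn, h0, hpow, hadm, hstep, hmin⟩ :=
    exists_minimal_ideals (σ := Option (Fin G.n)) none G.ϖ G.hϖ (G.IsAdm 𝒟)
      (fun J hJ => ⟨hJ.ne_top, by
        obtain ⟨_, _, N, hN, hϖ, _⟩ := hJ
        exact ⟨⟨N, hN⟩, hϖ⟩⟩)
      (fun J₁ J₂ h₁ h₂ => adm_inf_of_hasB4 h𝒟 hB4 h₁ h₂)
      (fun J J' h hle hJ' => adm_mono 𝒟 G h𝒟 h hle hJ')
      (ar_adm_residual 𝒟 G h𝒟 hrbar hbar)
  exact ⟨Jn, ⟨h0, hpow, hadm, hstep, hmin⟩⟩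

/-- The universal lift over `R = S ⧸ ⨅ Jn`: it is a strict type-`𝒟` lift, and it has the Artinian
universal property `UA`. -/
theorem GenData.Tower.exists_universal (T : G.Tower 𝒟 Jn)
    (h𝒟 : GaloisRep.IsDeformationCondition 𝒪 𝒟) (hB3 : G.HasB3 𝒟) (hB4 : G.HasB4 𝒟)
    [IsLocalRing (G.S ⧸ ⨅ m, Jn m)]
    [IsAdicComplete (maximalIdeal (G.S ⧸ ⨅ m, Jn m)) (G.S ⧸ ⨅ m, Jn m)]
    [IsLocalHom (algebraMap 𝒪 (G.S ⧸ ⨅ m, Jn m))] :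
    ∃ ru : GQ →* M2 (G.S ⧸ ⨅ m, Jn m), IsDLift 𝒪 𝒟 rbar (G.S ⧸ ⨅ m, Jn m) ru ∧
      UA 𝒟 rbar (G.S ⧸ ⨅ m, Jn m) ru := by
  obtain ⟨ru, hru⟩ := T.exists_univ h𝒟 hB3
  have hlev : T.Levelwise ru := hru
  have hcont : AdicCont ru := T.adicCont_of_levelwise hlev
  refine ⟨ru, ⟨hcont, T.strict_of_levelwise hlev, T.isD_of_levelwise h𝒟 inferInstance hlev hcont⟩, ?_⟩
  classical
  -- choose the level-wise witnesses
  have hw : ∀ n, ∃ rn : GQ →* M2 (G.S ⧸ Jn n), 1 ≤ n →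
      (∃ (h1 : IsLocalRing (G.S ⧸ Jn n)) (h2 : IsLocalHom (algebraMap 𝒪 (G.S ⧸ Jn n))),
        @IsDLift 𝒪 _ _ 𝒟 rbar (G.S ⧸ Jn n) _ h1 _ h2 rn ∧
          G.IsClassifying (Ideal.Quotient.mkₐ 𝒪 (Jn n)) rn) ∧
      ∃ X : M2 (G.S ⧸ Jn n), IsUnit X.det ∧
        ∀ γ, X * (ru γ).map (Ideal.Quotient.factor (iInf_le Jn n)) = rn γ * X := by
    intro n
    by_cases hn : 1 ≤ n
    · obtain ⟨rn, hrn, hcn, -, hX⟩ := hru n hn
      exact ⟨rn, fun _ => ⟨⟨_, _, hrn, hcn⟩, hX⟩⟩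
    · exact ⟨1, fun h => absurd h hn⟩
  choose rfam hrfam using hw
  intro A _ _ _ hA rA hrA
  exact universal_artinian (𝒟 := 𝒟) (G := G) h𝒟
    hB3 hB4 Jn T.isTower T.min
    rfam (fun n hn => (hrfam n hn).1) ru (fun n hn => (hrfam n hn).2) hA rA hrA

end

end Fermat.Agent.S53x
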