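import Fermat.Agent.S53x.Admissible
import Fermat.Agent.S53x.MatrixForm
import Fermat.Agent.S53x.PowerSeriesRing

/-!
# S53, module M8-B (B1, B2): admissible ideals are upward closed and closed under `⊓`
-/

set_option autoImplicit false

namespace Fermat.Agent.S53x

open IsLocalRing GaloisRep

section

variable {𝒪 : Type} [CommRing 𝒪] [IsLocalRing 𝒪]
variable {𝒟 : ∀ ⦃A : Type⦄ [CommRing A] [IsLocalRing A] [Algebra 𝒪 A], GaloisRepAdic A → Prop}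
variable {rbar : GQ →* M2 (ResidueField 𝒪)}

/-- Strictness is preserved by local `𝒪`-algebra homomorphisms. -/
theorem strict_mapRep {A B : Type} [CommRing A] [IsLocalRing A] [Algebra 𝒪 A]
    [IsLocalHom (algebraMap 𝒪 A)] [CommRing B] [IsLocalRing B] [Algebra 𝒪 B]
    [IsLocalHom (algebraMap 𝒪 B)] (φ : A →ₐ[𝒪] B) (hφ : IsLocalHom (φ : A →+* B))
    {r : GQ →* M2 A}
    (hr : ∀ σ, (r σ).map (residue A) = (rbar σ).map (ResidueField.map (algebraMap 𝒪 A))) (σ : GQ) :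
    (mapRep (φ : A →+* B) r σ).map (residue B) =
      (rbar σ).map (ResidueField.map (algebraMap 𝒪 B)) := by
  ext i j
  have h := congrFun (congrFun (hr σ) i) j
  simp only [Matrix.map_apply, mapRep_apply] at h ⊢
  obtain ⟨c, hc⟩ := residue_surjective (rbar σ i j)
  rw [← hc, ResidueField.map_residue] at h ⊢
  have h1 : r σ i j - algebraMap 𝒪 A c ∈ maximalIdeal A := by
    rw [← Ideal.Quotient.eq]; exact h
  have h2 : (φ : A →+* B) (r σ i j - algebraMap 𝒪 A c) ∈ maximalIdeal B :=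
    haveI := hφ; map_nonunit (φ : A →+* B) _ h1
  have h3 : (φ : A →+* B) (r σ i j) - algebraMap 𝒪 B c ∈ maximalIdeal B := by
    have : (φ : A →+* B) (r σ i j - algebraMap 𝒪 A c) =
        (φ : A →+* B) (r σ i j) - algebraMap 𝒪 B c := by
      rw [map_sub]; congr 1; exact φ.commutes c
    rwa [this] at h2
  exact (Ideal.Quotient.eq).mpr h3

/-- A strict type-`𝒟` lift over a test algebra stays one after a local `𝒪`-algebra hom to another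
test algebra. -/
theorem IsDLift.mapRep (h𝒟 : IsDeformationCondition 𝒪 𝒟) {A B : Type} [CommRing A]
    [IsLocalRing A] [Algebra 𝒪 A] [IsLocalHom (algebraMap 𝒪 A)] [CommRing B] [IsLocalRing B]
    [Algebra 𝒪 B] [IsLocalHom (algebraMap 𝒪 B)] (hA : IsArtinianTestAlgebra 𝒪 A)
    (hB : IsArtinianTestAlgebra 𝒪 B) (φ : A →ₐ[𝒪] B) (hφ : IsLocalHom (φ : A →+* B))
    {r : GQ →* M2 A} (hr : IsDLift 𝒪 𝒟 rbar A r) :
    IsDLift 𝒪 𝒟 rbar B (Fermat.Agent.S53x.mapRep (φ : A →+* B) r) where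
  cont := adicCont_mapRep (φ : A →+* B) hφ hr.cont
  strict := strict_mapRep φ hφ hr.strict
  isD := h𝒟.of_isEquiv hB (baseChangeAlong_ofMat (φ : A →+* B) hφ r hr.cont)
    (h𝒟.baseChangeAlong hA hB φ hφ hr.isD)

end

section

variable {𝒪 : Type} [CommRing 𝒪] [IsLocalRing 𝒪] [IsNoetherianRing 𝒪]
variable {𝒟 : ∀ ⦃A : Type⦄ [CommRing A] [IsLocalRing A] [Algebra 𝒪 A], GaloisRepAdic A → Prop}
variable {rbar : GQ →* M2 (ResidueField 𝒪)}

/-- `S ⧸ J` is an Artinian test algebra when it is local, killed by a power of `(X)` and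
`X_none = ϖ` in it. -/
theorem GenData.isArtinianTestAlgebra_quotient (G : GenData 𝒪 rbar) (J : Ideal G.S)
    [IsLocalRing (G.S ⧸ J)] (h2 : IsLocalHom (algebraMap 𝒪 (G.S ⧸ J))) {N : ℕ}
    (hN : G.XX ^ N ≤ J)
    (hϖ : (MvPowerSeries.X none - MvPowerSeries.C G.ϖ : G.S) ∈ J) :
    IsArtinianTestAlgebra 𝒪 (G.S ⧸ J) where
  isLocalHom := h2
  residue_surjective := residue_comp_algebraMap_quotient_surjective J
  isArtinian := isArtinianRing_quotient J G.hϖ hϖ hN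

/-- (B2) Admissible ideals are upward closed (among proper ideals). -/
theorem GenData.IsAdm.mono (h𝒟 : IsDeformationCondition 𝒪 𝒟) {G : GenData 𝒪 rbar}
    {J J' : Ideal G.S} (hJ : G.IsAdm 𝒟 J) (hle : J ≤ J') (hJ' : J' ≠ ⊤) : G.IsAdm 𝒟 J' := by
  obtain ⟨h1, h2, N, hN, hϖ, r, hr, hcl⟩ := hJ
  have h1' : IsLocalRing (G.S ⧸ J') := isLocalRing_quotient J' hJ'
  have h2' : IsLocalHom (algebraMap 𝒪 (G.S ⧸ J')) := isLocalHom_algebraMap_quotient J' hJ'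
  have hA : IsArtinianTestAlgebra 𝒪 (G.S ⧸ J) :=
    G.isArtinianTestAlgebra_quotient J h2 hN hϖ
  have hB : IsArtinianTestAlgebra 𝒪 (G.S ⧸ J') :=
    G.isArtinianTestAlgebra_quotient J' h2' (hN.trans hle) (hle hϖ)
  let φ : G.S ⧸ J →ₐ[𝒪] G.S ⧸ J' := Ideal.Quotient.factorₐ 𝒪 hle
  have hφs : Function.Surjective (φ : G.S ⧸ J →+* G.S ⧸ J') :=
    Ideal.Quotient.factor_surjective hle
  have hφ : IsLocalHom (φ : G.S ⧸ J →+* G.S ⧸ J') := IsLocalHom.of_surjective _ hφs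
  refine ⟨h1', h2', N, hN.trans hle, hle hϖ, mapRep (φ : G.S ⧸ J →+* G.S ⧸ J') r,
    IsDLift.mapRep h𝒟 hA hB φ hφ hr, ?_, ?_⟩
  · have := hcl.1
    have e : (Ideal.Quotient.mkₐ 𝒪 J') (MvPowerSeries.X none) =
        φ ((Ideal.Quotient.mkₐ 𝒪 J) (MvPowerSeries.X none)) := rfl
    rw [e, this]
    exact φ.commutes _
  · intro i
    have := hcl.2 i
    have e : (Ideal.Quotient.mkₐ 𝒪 J') (MvPowerSeries.X (some i)) =
        φ ((Ideal.Quotient.mkₐ 𝒪 J) (MvPowerSeries.X (some i))) := rfl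
    rw [e, this, map_sub, φ.commutes]
    congr 1
    simp only [mapRep_apply, Matrix.trace, Matrix.diag, Matrix.map_apply, map_sum]
    rfl

end

section

variable {𝒪 : Type} [CommRing 𝒪] [IsLocalRing 𝒪]
variable {rbar : GQ →* M2 (ResidueField 𝒪)}

/-- Elements of the maximal ideal of an Artinian local ring are nilpotent. -/
theorem isNilpotent_of_mem_maximalIdeal_of_isArtinianRing {P : Type} [CommRing P] [IsLocalRing P]
    [IsArtinianRing P] {x : P} (hx : x ∈ maximalIdeal P) : IsNilpotent x := by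
  obtain ⟨n, hn⟩ := IsArtinianRing.isNilpotent_jacobson_bot (R := P)
  rw [IsLocalRing.jacobson_eq_maximalIdeal ⊥ bot_ne_top] at hn
  refine ⟨n, ?_⟩
  have := Ideal.pow_mem_pow hx n
  rw [hn] at this
  simpa using this

/-- The classifying map of a representation over a "fibre product" `P` of `A₁` and `A₂`:
it exists, is compatible with the classifying maps of the two projections, and its kernel is
the intersection of their kernels. -/
theorem GenData.exists_classifying_of_jointly_injective (G : GenData 𝒪 rbar)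
    {A₁ A₂ P : Type} [CommRing A₁] [IsLocalRing A₁] [Algebra 𝒪 A₁]
    [CommRing A₂] [IsLocalRing A₂] [Algebra 𝒪 A₂]
    [CommRing P] [IsLocalRing P] [IsArtinianRing P] [Algebra 𝒪 P]
    (p₁ : P →ₐ[𝒪] A₁) (p₂ : P →ₐ[𝒪] A₂)
    (hinj : ∀ x y : P, p₁ x = p₁ y → p₂ x = p₂ y → x = y)
    (hlift : ∀ a₁ ∈ maximalIdeal A₁, ∀ a₂ ∈ maximalIdeal A₂, ∃ x : P, p₁ x = a₁ ∧ p₂ x = a₂)
    (r : GQ →* M2 P) (θ₁ : G.S →ₐ[𝒪] A₁) (θ₂ : G.S →ₐ[𝒪] A₂)
    (hθ₁ : G.IsClassifying θ₁ (mapRep (p₁ : P →+* A₁) r))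
    (hθ₂ : G.IsClassifying θ₂ (mapRep (p₂ : P →+* A₂) r))
    (hm₁ : ∀ j, θ₁ (MvPowerSeries.X j) ∈ maximalIdeal A₁)
    (hm₂ : ∀ j, θ₂ (MvPowerSeries.X j) ∈ maximalIdeal A₂) :
    ∃ θ : G.S →ₐ[𝒪] P, p₁.comp θ = θ₁ ∧ p₂.comp θ = θ₂ ∧ G.IsClassifying θ r ∧
      RingHom.ker (θ : G.S →+* P) =
        RingHom.ker (θ₁ : G.S →+* A₁) ⊓ RingHom.ker (θ₂ : G.S →+* A₂) := by
  choose a ha₁ ha₂ using fun j => hlift _ (hm₁ j) _ (hm₂ j)
  have hanil : ∀ j, IsNilpotent (a j) := by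
    intro j
    apply isNilpotent_of_mem_maximalIdeal_of_isArtinianRing
    rw [mem_maximalIdeal, mem_nonunits_iff]
    intro hu
    have h1 : IsUnit ((p₁ : P →+* A₁) (a j)) := hu.map (p₁ : P →+* A₁)
    have h2 : (p₁ : P →+* A₁) (a j) ∈ maximalIdeal A₁ := by
      have : (p₁ : P →+* A₁) (a j) = θ₁ (MvPowerSeries.X j) := ha₁ j
      rw [this]; exact hm₁ j
    exact (mem_maximalIdeal _).mp h2 h1
  obtain ⟨θ, hθ⟩ := exists_algHom_X_eq (R := 𝒪) a hanil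
  have hc₁ : p₁.comp θ = θ₁ := by
    apply algHom_ext_of_isNilpotent
    · intro j
      rw [AlgHom.comp_apply, hθ j]
      exact (hanil j).map p₁
    · intro j
      rw [AlgHom.comp_apply, hθ j]
      exact ha₁ j
  have hc₂ : p₂.comp θ = θ₂ := by
    apply algHom_ext_of_isNilpotent
    · intro j
      rw [AlgHom.comp_apply, hθ j]
      exact (hanil j).map p₂
    · intro j
      rw [AlgHom.comp_apply, hθ j]
      exact ha₂ j
  have hc₁' : ∀ f, p₁ (θ f) = θ₁ f := fun f => by rw [← hc₁]; rfl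
  have hc₂' : ∀ f, p₂ (θ f) = θ₂ f := fun f => by rw [← hc₂]; rfl
  have htr₁ : ∀ σ, p₁ ((r σ).trace) = (mapRep (p₁ : P →+* A₁) r σ).trace := by
    intro σ
    simp only [mapRep_apply, Matrix.trace, Matrix.diag, Matrix.map_apply, map_sum]
    rfl
  have htr₂ : ∀ σ, p₂ ((r σ).trace) = (mapRep (p₂ : P →+* A₂) r σ).trace := by
    intro σ
    simp only [mapRep_apply, Matrix.trace, Matrix.diag, Matrix.map_apply, map_sum]
    rfl
  refine ⟨θ, hc₁, hc₂, ⟨?_, ?_⟩, ?_⟩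
  · apply hinj
    · rw [hc₁', hθ₁.1, p₁.commutes]
    · rw [hc₂', hθ₂.1, p₂.commutes]
  · intro i
    apply hinj
    · rw [hc₁', hθ₁.2 i, map_sub, p₁.commutes, htr₁]
    · rw [hc₂', hθ₂.2 i, map_sub, p₂.commutes, htr₂]
  · ext f
    simp only [Ideal.mem_inf, RingHom.mem_ker]
    constructor
    · intro h
      have h' : θ f = 0 := h
      refine ⟨?_, ?_⟩
      · show θ₁ f = 0
        rw [← hc₁', h', map_zero]
      · show θ₂ f = 0
        rw [← hc₂', h', map_zero]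
    · rintro ⟨h1, h2⟩
      have h1' : θ₁ f = 0 := h1
      have h2' : θ₂ f = 0 := h2
      show θ f = 0
      apply hinj
      · rw [hc₁', h1', map_zero]
      · rw [hc₂', h2', map_zero]

end

section

variable {𝒪 : Type} [CommRing 𝒪] [IsLocalRing 𝒪] [IsNoetherianRing 𝒪]
variable {rbar : GQ →* M2 (ResidueField 𝒪)}

/-- The fibre product package (output of module M5), as a proposition: any two strict type-`𝒟`
lifts over test algebras `A₁`, `A₂` are the two projections of a strict type-`𝒟` lift over a test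
algebra `P` which embeds in `A₁ × A₂` and contains `m₁ × m₂`. -/
def HasFibreLifts (𝒪 : Type) [CommRing 𝒪] [IsLocalRing 𝒪]
    (𝒟 : ∀ ⦃A : Type⦄ [CommRing A] [IsLocalRing A] [Algebra 𝒪 A], GaloisRepAdic A → Prop)
    (rbar : GQ →* M2 (ResidueField 𝒪)) : Prop :=
  ∀ (A₁ A₂ : Type) [CommRing A₁] [IsLocalRing A₁] [Algebra 𝒪 A₁] [CommRing A₂] [IsLocalRing A₂]
    [Algebra 𝒪 A₂] (hA₁ : IsArtinianTestAlgebra 𝒪 A₁) (hA₂ : IsArtinianTestAlgebra 𝒪 A₂)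
    (r₁ : GQ →* M2 A₁) (r₂ : GQ →* M2 A₂),
    @IsDLift 𝒪 _ _ 𝒟 rbar A₁ _ _ _ hA₁.isLocalHom r₁ →
    @IsDLift 𝒪 _ _ 𝒟 rbar A₂ _ _ _ hA₂.isLocalHom r₂ →
    ∃ (P : Type) (_ : CommRing P) (_ : IsLocalRing P) (_ : Algebra 𝒪 P)
      (hP : IsArtinianTestAlgebra 𝒪 P) (p₁ : P →ₐ[𝒪] A₁) (p₂ : P →ₐ[𝒪] A₂),
      (∀ x y : P, p₁ x = p₁ y → p₂ x = p₂ y → x = y) ∧
      (∀ a₁ ∈ maximalIdeal A₁, ∀ a₂ ∈ maximalIdeal A₂, ∃ x : P, p₁ x = a₁ ∧ p₂ x = a₂) ∧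
      ∃ r : GQ →* M2 P, @IsDLift 𝒪 _ _ 𝒟 rbar P _ _ _ hP.isLocalHom r ∧
        mapRep (p₁ : P →+* A₁) r = r₁ ∧ mapRep (p₂ : P →+* A₂) r = r₂

variable {𝒟 : ∀ ⦃A : Type⦄ [CommRing A] [IsLocalRing A] [Algebra 𝒪 A], GaloisRepAdic A → Prop}

/-- (B1) Admissible ideals are closed under `⊓`, given the fibre product package (M5) and the
descent statement (B4). -/
theorem GenData.IsAdm.inf {G : GenData 𝒪 rbar} (hfib : HasFibreLifts 𝒪 𝒟 rbar)
    (hB4 : ∀ (A : Type) [CommRing A] [IsLocalRing A] [Algebra 𝒪 A]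
      (hA : IsArtinianTestAlgebra 𝒪 A) (r : GQ →* M2 A) (θ : G.S →ₐ[𝒪] A),
      @IsDLift 𝒪 _ _ 𝒟 rbar A _ _ _ hA.isLocalHom r → G.IsClassifying θ r →
        G.IsAdm 𝒟 (RingHom.ker (θ : G.S →+* A)))
    {J₁ J₂ : Ideal G.S} (hJ₁ : G.IsAdm 𝒟 J₁) (hJ₂ : G.IsAdm 𝒟 J₂) : G.IsAdm 𝒟 (J₁ ⊓ J₂) := by
  obtain ⟨h1, h2, N₁, hN₁, hϖ₁, r₁, hr₁, hcl₁⟩ := hJ₁
  obtain ⟨h1', h2', N₂, hN₂, hϖ₂, r₂, hr₂, hcl₂⟩ := hJ₂
  have hA₁ : IsArtinianTestAlgebra 𝒪 (G.S ⧸ J₁) :=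
    G.isArtinianTestAlgebra_quotient J₁ h2 hN₁ hϖ₁
  have hA₂ : IsArtinianTestAlgebra 𝒪 (G.S ⧸ J₂) :=
    G.isArtinianTestAlgebra_quotient J₂ h2' hN₂ hϖ₂
  obtain ⟨P, iP1, iP2, iP3, hP, p₁, p₂, hinj, hlift, r, hr, hr1, hr2⟩ :=
    hfib (G.S ⧸ J₁) (G.S ⧸ J₂) hA₁ hA₂ r₁ r₂ hr₁ hr₂
  haveI : IsArtinianRing P := hP.isArtinian
  have hmk : ∀ (J : Ideal G.S) [IsLocalRing (G.S ⧸ J)] (j : Option (Fin G.n)),
      (Ideal.Quotient.mkₐ 𝒪 J) (MvPowerSeries.X j) ∈ maximalIdeal (G.S ⧸ J) := by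
    intro J _ j
    have hX : (MvPowerSeries.X j : G.S) ∈ maximalIdeal G.S :=
      idealX_le_maximalIdeal (Ideal.subset_span ⟨j, rfl⟩)
    rw [mem_maximalIdeal, mem_nonunits_iff] at hX ⊢
    intro hu
    haveI : IsLocalHom (Ideal.Quotient.mk J) :=
      IsLocalHom.of_surjective _ Ideal.Quotient.mk_surjective
    exact hX (isUnit_of_map_unit (Ideal.Quotient.mk J) _ hu)
  obtain ⟨θ, -, -, hθcl, hker⟩ := G.exists_classifying_of_jointly_injective p₁ p₂ hinj hlift r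
    (Ideal.Quotient.mkₐ 𝒪 J₁) (Ideal.Quotient.mkₐ 𝒪 J₂) (by rw [hr1]; exact hcl₁)
    (by rw [hr2]; exact hcl₂) (hmk J₁) (hmk J₂)
  have h := hB4 P hP r θ hr hθcl
  rw [hker] at h
  have e₁ : RingHom.ker (Ideal.Quotient.mkₐ 𝒪 J₁ : G.S →+* G.S ⧸ J₁) = J₁ :=
    Ideal.mk_ker
  have e₂ : RingHom.ker (Ideal.Quotient.mkₐ 𝒪 J₂ : G.S →+* G.S ⧸ J₂) = J₂ :=
    Ideal.mk_ker
  rwa [e₁, e₂] at h

end

end Fermat.Agent.S53x
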