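import Fermat.Agent.S53x.AdmissibleInfExact
import Fermat.Agent.S53x.AdmissibleWit
import Fermat.Agent.S53x.AdmissibleConj

/-!
# S53, M8-B (B1): admissible ideals are closed under `⊓` (exact shape of the captain's skeleton)
-/

set_option autoImplicit false
set_option linter.unusedSectionVars false
set_option linter.unusedVariables false

namespace Fermat.Agent.S53x

open IsLocalRing MvPowerSeries

section

variable {𝒪 : Type} [CommRing 𝒪] [IsDomain 𝒪] [IsDiscreteValuationRing 𝒪]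
  [IsAdicComplete (maximalIdeal 𝒪) 𝒪] [Finite (ResidueField 𝒪)]
variable (𝒟 : ∀ ⦃A : Type⦄ [CommRing A] [IsLocalRing A] [Algebra 𝒪 A], GaloisRepAdic A → Prop)
variable {rbar : GQ →* M2 (ResidueField 𝒪)} (G : GenData 𝒪 rbar)

/-- (B1) admissible ideals are closed under finite intersections. -/
theorem adm_inf (h𝒟 : GaloisRep.IsDeformationCondition 𝒪 𝒟) (hgram : HasUnitGram rbar)
    (hK1 : G.HasK1 𝒟) {J₁ J₂ : Ideal G.S} (h₁ : G.IsAdm 𝒟 J₁) (h₂ : G.IsAdm 𝒟 J₂) :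
    G.IsAdm 𝒟 (J₁ ⊓ J₂) :=
  adm_inf_of_descent 𝒟 G h𝒟
    (fun hA r hr θ hθ => adm_of_dlift 𝒟 G h𝒟 hgram hK1 hA r hr θ hθ) h₁ h₂

end

end Fermat.Agent.S53x
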