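import Mathlib
import Fermat.Agent.S53x.Basic
import Fermat.Agent.S53x.PowerSeriesRing

/-!
# S53, assembly helpers: conjugation, compatible systems and limits of matrix representations

Generic lemmas used in the assembly (module M8):

All declarations live in the sub-namespace `Fermat.Agent.S53x.LR` (to avoid clashes with
`MatrixForm.lean`).

* `conjRep u r` : conjugate of a matrix representation by a unit of the matrix ring, `IsConjRep`.
* `exists_units_lift` : lifting invertible matrices along a surjection of local rings.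
* `exists_compatible_of_conj` (L1) : a tower of representations over `S ⧸ Jn n` which is compatible
  up to conjugation can be replaced by an exactly compatible tower of conjugates.
* `existsUnique_limit_rep` (L2) : an exactly compatible tower glues to a representation over
  `S ⧸ ⨅ n, Jn n` as soon as elements glue.
* `exists_compatible_of_conj_of_one_le` (L1') : the same when only the levels `n ≥ 1` are local
  rings (level `0` may be the zero ring); the level `1` representation is kept exactly.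
* `exists_limit_rep` (L1' + L2) : the statement used by the assembly: a tower compatible up to
  conjugation over `S ⧸ Jn n` (with `Jn n = Jn (n+1) ⊔ I ^ n`, `I ^ n ≤ Jn n`, `S` `I`-adically
  precomplete) comes from a representation over `S ⧸ ⨅ n, Jn n` restricting exactly to level `1`
  and to a conjugate at each level `n ≥ 1`.
* `finLevelMod_*`, `adicCont_of_finLevelMod_ker` (L3) : continuity bookkeeping.
* `ringHom_ext_of_forall_sub_mem_pow` (L4) : separatedness for ring homs.
-/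

set_option autoImplicit false

namespace Fermat.Agent.S53x.LR

open IsLocalRing

section Conj

variable {Γ A B : Type} [Monoid Γ] [CommRing A] [CommRing B]

/-- Conjugate a matrix representation by a unit of the matrix ring: `γ ↦ u * r γ * u⁻¹`. -/
def conjRep (u : (M2 A)ˣ) (r : Γ →* M2 A) : Γ →* M2 A where
  toFun γ := (u : M2 A) * r γ * ((u⁻¹ : (M2 A)ˣ) : M2 A)
  map_one' := by simp
  map_mul' γ δ := by
    rw [map_mul]
    have h : ((u⁻¹ : (M2 A)ˣ) : M2 A) * (u : M2 A) = 1 := Units.inv_mul u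
    calc (u : M2 A) * (r γ * r δ) * ((u⁻¹ : (M2 A)ˣ) : M2 A)
        = (u : M2 A) * r γ * (1 : M2 A) * r δ * ((u⁻¹ : (M2 A)ˣ) : M2 A) := by
          simp only [mul_one, mul_assoc]
      _ = (u : M2 A) * r γ * (((u⁻¹ : (M2 A)ˣ) : M2 A) * (u : M2 A)) * r δ *
            ((u⁻¹ : (M2 A)ˣ) : M2 A) := by rw [h]
      _ = _ := by simp only [mul_assoc]

@[simp] lemma conjRep_apply (u : (M2 A)ˣ) (r : Γ →* M2 A) (γ : Γ) :
    conjRep u r γ = (u : M2 A) * r γ * ((u⁻¹ : (M2 A)ˣ) : M2 A) := rfl

lemma conjRep_mul_unit (u : (M2 A)ˣ) (r : Γ →* M2 A) (γ : Γ) :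
    (u : M2 A) * r γ = conjRep u r γ * (u : M2 A) := by
  rw [conjRep_apply, mul_assoc, Units.inv_mul, mul_one]

@[simp] lemma conjRep_one (r : Γ →* M2 A) : conjRep (1 : (M2 A)ˣ) r = r := by
  ext γ : 1
  simp

lemma conjRep_conjRep (u v : (M2 A)ˣ) (r : Γ →* M2 A) :
    conjRep u (conjRep v r) = conjRep (u * v) r := by
  ext γ : 1
  simp only [conjRep_apply, Units.val_mul, mul_inv_rev, mul_assoc]

lemma trace_conjRep (u : (M2 A)ˣ) (r : Γ →* M2 A) (γ : Γ) :
    (conjRep u r γ).trace = (r γ).trace := by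
  rw [conjRep_apply, Matrix.trace_mul_cycle, Units.inv_mul, one_mul]

/-- Two matrix representations are conjugate: intertwined by a matrix with unit determinant. -/
def IsConjRep (r r' : Γ →* M2 A) : Prop :=
  ∃ X : M2 A, IsUnit X.det ∧ ∀ γ, X * r γ = r' γ * X

lemma isConjRep_conjRep (u : (M2 A)ˣ) (r : Γ →* M2 A) : IsConjRep r (conjRep u r) :=
  ⟨u, (Matrix.isUnit_iff_isUnit_det _).mp u.isUnit, fun γ => conjRep_mul_unit u r γ⟩

lemma IsConjRep.exists_unit {r r' : Γ →* M2 A} (h : IsConjRep r r') :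
    ∃ u : (M2 A)ˣ, r' = conjRep u r := by
  obtain ⟨X, hX, hXr⟩ := h
  obtain ⟨u, rfl⟩ := (Matrix.isUnit_iff_isUnit_det X).mpr hX
  refine ⟨u, ?_⟩
  ext γ : 1
  rw [conjRep_apply, hXr γ, mul_assoc, Units.mul_inv, mul_one]

lemma isConjRep_iff_exists_unit {r r' : Γ →* M2 A} :
    IsConjRep r r' ↔ ∃ u : (M2 A)ˣ, r' = conjRep u r :=
  ⟨IsConjRep.exists_unit, fun ⟨u, hu⟩ => hu ▸ isConjRep_conjRep u r⟩

lemma IsConjRep.refl (r : Γ →* M2 A) : IsConjRep r r :=
  ⟨1, by simp, fun γ => by simp⟩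

lemma IsConjRep.symm {r r' : Γ →* M2 A} (h : IsConjRep r r') : IsConjRep r' r := by
  obtain ⟨u, rfl⟩ := h.exists_unit
  refine isConjRep_iff_exists_unit.mpr ⟨u⁻¹, ?_⟩
  rw [conjRep_conjRep, inv_mul_cancel, conjRep_one]

lemma IsConjRep.trans {r r' r'' : Γ →* M2 A} (h : IsConjRep r r') (h' : IsConjRep r' r'') :
    IsConjRep r r'' := by
  obtain ⟨u, rfl⟩ := h.exists_unit
  obtain ⟨v, rfl⟩ := h'.exists_unit
  exact isConjRep_iff_exists_unit.mpr ⟨v * u, (conjRep_conjRep v u r)⟩

lemma IsConjRep.trace_eq {r r' : Γ →* M2 A} (h : IsConjRep r r') (γ : Γ) :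
    (r' γ).trace = (r γ).trace := by
  obtain ⟨u, rfl⟩ := h.exists_unit
  exact trace_conjRep u r γ

/-- Pushing forward commutes with conjugation. -/
lemma mapRep_conjRep (φ : A →+* B) (u : (M2 A)ˣ) (r : Γ →* M2 A) :
    mapRep φ (conjRep u r) = conjRep (Units.map φ.mapMatrix.toMonoidHom u) (mapRep φ r) := by
  ext γ : 1
  rw [mapRep_apply, conjRep_apply, conjRep_apply, mapRep_apply]
  have h1 : ∀ M : M2 A, M.map φ = φ.mapMatrix M := fun M => rfl
  rw [h1, map_mul, map_mul]
  rfl

lemma IsConjRep.mapRep (φ : A →+* B) {r r' : Γ →* M2 A} (h : IsConjRep r r') :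
    IsConjRep (mapRep φ r) (mapRep φ r') := by
  obtain ⟨u, rfl⟩ := h.exists_unit
  rw [mapRep_conjRep]
  exact isConjRep_conjRep _ _

lemma mapRep_mapRep {C : Type} [CommRing C] (φ : A →+* B) (ψ : B →+* C) (r : Γ →* M2 A) :
    mapRep ψ (mapRep φ r) = mapRep (ψ.comp φ) r := by
  ext γ : 1
  simp only [mapRep_apply, Matrix.map_map]
  rfl

lemma mapRep_id (r : Γ →* M2 A) : mapRep (RingHom.id A) r = r := by
  ext γ : 1
  simp [mapRep_apply]

end Conj

section Lift

variable {A B : Type} [CommRing A] [CommRing B]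

/-- Lifting invertible `2 × 2` matrices along a surjective local ring homomorphism. -/
theorem exists_units_lift (f : A →+* B) (hf : Function.Surjective f) [IsLocalHom f]
    (u : (M2 B)ˣ) : ∃ v : (M2 A)ˣ, Units.map f.mapMatrix.toMonoidHom v = u := by
  have hsurj : ∀ b : B, ∃ a : A, f a = b := hf
  choose g hg using hsurj
  let Y : M2 A := Matrix.of fun i j => g ((u : M2 B) i j)
  have hY : Y.map f = (u : M2 B) := by
    ext i j
    simp [Y, hg]
  have hdet : IsUnit Y.det := by
    have h1 : f Y.det = ((u : M2 B)).det := by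
      rw [RingHom.map_det, RingHom.mapMatrix_apply, hY]
    have h2 : IsUnit ((u : M2 B)).det := (Matrix.isUnit_iff_isUnit_det _).mp u.isUnit
    rw [← h1] at h2
    exact isUnit_of_map_unit f _ h2
  obtain ⟨v, hv⟩ := (Matrix.isUnit_iff_isUnit_det Y).mpr hdet
  refine ⟨v, Units.ext ?_⟩
  show f.mapMatrix (v : M2 A) = (u : M2 B)
  rw [hv, RingHom.mapMatrix_apply, hY]

end Lift

section Tower

variable {Γ S : Type} [Monoid Γ] [CommRing S] (Jn : ℕ → Ideal S) (hanti : Antitone Jn)

/-- The transition map `S ⧸ Jn (n+1) → S ⧸ Jn n` of the tower. -/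
abbrev towerMap (n : ℕ) : S ⧸ Jn (n + 1) →+* S ⧸ Jn n :=
  Ideal.Quotient.factor (hanti (Nat.le_succ n))

/-- The projection `S ⧸ ⨅ m, Jn m → S ⧸ Jn n`. -/
abbrev towerProj (n : ℕ) : S ⧸ (⨅ m, Jn m) →+* S ⧸ Jn n :=
  Ideal.Quotient.factor (iInf_le Jn n)

lemma towerMap_surjective (n : ℕ) : Function.Surjective (towerMap Jn hanti n) :=
  Ideal.Quotient.factor_surjective _

lemma towerMap_comp_towerProj (n : ℕ) :
    (towerMap Jn hanti n).comp (towerProj Jn (n + 1)) = towerProj Jn n := by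
  ext x
  simp

/-- (L1) A tower of matrix representations over the local rings `S ⧸ Jn n` that is compatible up to
conjugation can be replaced by an exactly compatible tower of conjugates. -/
theorem exists_compatible_of_conj [∀ n, IsLocalRing (S ⧸ Jn n)]
    (r : ∀ n, Γ →* M2 (S ⧸ Jn n))
    (hconj : ∀ n, IsConjRep (mapRep (towerMap Jn hanti n) (r (n + 1))) (r n)) :
    ∃ r' : ∀ n, Γ →* M2 (S ⧸ Jn n),
      (∀ n, IsConjRep (r n) (r' n)) ∧
      (∀ n, mapRep (towerMap Jn hanti n) (r' (n + 1)) = r' n) ∧ r' 0 = r 0 := by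
  have hloc : ∀ n, IsLocalHom (towerMap Jn hanti n) := fun n =>
    IsLocalHom.of_surjective _ (towerMap_surjective Jn hanti n)
  -- the conjugating units
  have hX : ∀ n, ∃ X : (M2 (S ⧸ Jn n))ˣ,
      r n = conjRep X (mapRep (towerMap Jn hanti n) (r (n + 1))) := fun n =>
    (hconj n).exists_unit
  choose X hXr using hX
  -- lifting units along the tower
  have hlift : ∀ n (u : (M2 (S ⧸ Jn n))ˣ), ∃ v : (M2 (S ⧸ Jn (n + 1)))ˣ,
      Units.map (towerMap Jn hanti n).mapMatrix.toMonoidHom v = u := fun n u =>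
    haveI := hloc n
    exists_units_lift (towerMap Jn hanti n) (towerMap_surjective Jn hanti n) u
  choose lift hliftspec using hlift
  -- the recursive conjugators
  let Y : ∀ n, (M2 (S ⧸ Jn n))ˣ := fun n =>
    Nat.rec (motive := fun n => (M2 (S ⧸ Jn n))ˣ) 1 (fun n Yn => lift n (Yn * X n)) n
  have hY0 : Y 0 = 1 := rfl
  have hYS : ∀ n, Y (n + 1) = lift n (Y n * X n) := fun n => rfl
  refine ⟨fun n => conjRep (Y n) (r n), fun n => isConjRep_conjRep _ _, fun n => ?_, ?_⟩
  · rw [mapRep_conjRep, hYS n, hliftspec n (Y n * X n), ← conjRep_conjRep, ← hXr n]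
  · show conjRep (Y 0) (r 0) = r 0
    rw [hY0, conjRep_one]

/-- (L2) An exactly compatible tower of matrix representations over `S ⧸ Jn n` glues uniquely to a
representation over `S ⧸ ⨅ n, Jn n`, provided compatible families of elements glue uniquely. -/
theorem existsUnique_limit_rep
    (hlim : ∀ a : ∀ n, S ⧸ Jn n, (∀ n, towerMap Jn hanti n (a (n + 1)) = a n) →
      ∃! x : S ⧸ (⨅ m, Jn m), ∀ n, towerProj Jn n x = a n)
    (r : ∀ n, Γ →* M2 (S ⧸ Jn n))
    (hcompat : ∀ n, mapRep (towerMap Jn hanti n) (r (n + 1)) = r n) :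
    ∃! rr : Γ →* M2 (S ⧸ (⨅ m, Jn m)), ∀ n, mapRep (towerProj Jn n) rr = r n := by
  have hc : ∀ n γ i j, towerMap Jn hanti n (r (n + 1) γ i j) = r n γ i j := by
    intro n γ i j
    have h := congrArg (fun ρ : Γ →* M2 (S ⧸ Jn n) => ρ γ i j) (hcompat n)
    simpa [mapRep_apply] using h
  -- entrywise gluing
  have hent : ∀ γ i j, ∃! x : S ⧸ (⨅ m, Jn m), ∀ n, towerProj Jn n x = r n γ i j := fun γ i j =>
    hlim (fun n => r n γ i j) (fun n => hc n γ i j)
  choose e he huniq using hent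
  -- separation: an element is determined by its projections
  have hsep : ∀ x y : S ⧸ (⨅ m, Jn m), (∀ n, towerProj Jn n x = towerProj Jn n y) → x = y := by
    intro x y hxy
    obtain ⟨z, -, hz⟩ := hlim (fun n => towerProj Jn n y) (fun n => by
      have := congrArg (fun φ : S ⧸ (⨅ m, Jn m) →+* S ⧸ Jn n => φ y)
        (towerMap_comp_towerProj Jn hanti n)
      exact this)
    rw [hz x hxy, hz y (fun n => rfl)]
  have hsepM : ∀ M M' : M2 (S ⧸ (⨅ m, Jn m)),
      (∀ n, M.map (towerProj Jn n) = M'.map (towerProj Jn n)) → M = M' := by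
    intro M M' h
    ext i j
    apply hsep
    intro n
    have := congrArg (fun N : M2 (S ⧸ Jn n) => N i j) (h n)
    simpa using this
  let E : Γ → M2 (S ⧸ (⨅ m, Jn m)) := fun γ => Matrix.of fun i j => e γ i j
  have hE : ∀ n γ, (E γ).map (towerProj Jn n) = r n γ := by
    intro n γ
    ext i j
    simp [E, he γ i j n]
  have hmapmul : ∀ n (M M' : M2 (S ⧸ (⨅ m, Jn m))),
      (M * M').map (towerProj Jn n) = M.map (towerProj Jn n) * M'.map (towerProj Jn n) := by
    intro n M M'
    exact Matrix.map_mul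
  let rr : Γ →* M2 (S ⧸ (⨅ m, Jn m)) :=
    { toFun := E
      map_one' := by
        apply hsepM
        intro n
        rw [hE n 1, map_one, Matrix.map_one _ (map_zero _) (map_one _)]
      map_mul' := by
        intro γ δ
        apply hsepM
        intro n
        rw [hmapmul, hE, hE, hE, map_mul] }
  refine ⟨rr, fun n => ?_, fun ρ hρ => ?_⟩
  · ext γ : 1
    rw [mapRep_apply]
    exact hE n γ
  · ext γ : 1
    apply hsepM
    intro n
    have h1 : (ρ γ).map (towerProj Jn n) = r n γ := by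
      rw [← hρ n, mapRep_apply]
    rw [h1]
    exact (hE n γ).symm

/-- (L1') Variant of `exists_compatible_of_conj` in which only the levels `n ≥ 1` are local rings
(the level `0` quotient may be the zero ring) and compatibility up to conjugation is only assumed
at the levels `n ≥ 1`. The representation at level `1` is kept exactly. -/
theorem exists_compatible_of_conj_of_one_le (hloc : ∀ n, 1 ≤ n → IsLocalRing (S ⧸ Jn n))
    (r : ∀ n, Γ →* M2 (S ⧸ Jn n))
    (hconj : ∀ n, 1 ≤ n → IsConjRep (mapRep (towerMap Jn hanti n) (r (n + 1))) (r n)) :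
    ∃ r' : ∀ n, Γ →* M2 (S ⧸ Jn n),
      (∀ n, 1 ≤ n → IsConjRep (r n) (r' n)) ∧
      (∀ n, mapRep (towerMap Jn hanti n) (r' (n + 1)) = r' n) ∧ r' 1 = r 1 := by
  -- the conjugating units (junk at level `0`)
  have hX : ∀ n, ∃ X : (M2 (S ⧸ Jn n))ˣ, 1 ≤ n →
      r n = conjRep X (mapRep (towerMap Jn hanti n) (r (n + 1))) := fun n => by
    by_cases hn : 1 ≤ n
    · obtain ⟨X, hX⟩ := (hconj n hn).exists_unit
      exact ⟨X, fun _ => hX⟩
    · exact ⟨1, fun h => absurd h hn⟩
  choose X hXr using hX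
  -- lifting units along the tower (junk at level `0`)
  have hlift : ∀ n (u : (M2 (S ⧸ Jn n))ˣ), ∃ v : (M2 (S ⧸ Jn (n + 1)))ˣ, 1 ≤ n →
      Units.map (towerMap Jn hanti n).mapMatrix.toMonoidHom v = u := fun n u => by
    by_cases hn : 1 ≤ n
    · haveI := hloc n hn
      haveI := hloc (n + 1) (by omega)
      haveI : IsLocalHom (towerMap Jn hanti n) :=
        IsLocalHom.of_surjective _ (towerMap_surjective Jn hanti n)
      obtain ⟨v, hv⟩ :=
        exists_units_lift (towerMap Jn hanti n) (towerMap_surjective Jn hanti n) u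
      exact ⟨v, fun _ => hv⟩
    · exact ⟨1, fun h => absurd h hn⟩
  choose lift hliftspec using hlift
  -- the recursive conjugators: `Y 0 = Y 1 = 1`, `Y (n+2) = lift (Y (n+1) * X (n+1))`
  let Y : ∀ n, (M2 (S ⧸ Jn n))ˣ := fun n =>
    Nat.rec (motive := fun n => (M2 (S ⧸ Jn n))ˣ) 1
      (fun n Yn => if n = 0 then 1 else lift n (Yn * X n)) n
  have hY1 : Y 1 = 1 := by
    show (if (0 : ℕ) = 0 then (1 : (M2 (S ⧸ Jn (0 + 1)))ˣ) else _) = 1
    rw [if_pos rfl]
  have hYS : ∀ n, 1 ≤ n → Y (n + 1) = lift n (Y n * X n) := fun n hn => by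
    show (if n = 0 then (1 : (M2 (S ⧸ Jn (n + 1)))ˣ) else lift n (Y n * X n)) = _
    rw [if_neg (by omega)]
  let r' : ∀ n, Γ →* M2 (S ⧸ Jn n) := fun n =>
    match n with
    | 0 => mapRep (towerMap Jn hanti 0) (conjRep (Y 1) (r 1))
    | n + 1 => conjRep (Y (n + 1)) (r (n + 1))
  have hr'S : ∀ n, r' (n + 1) = conjRep (Y (n + 1)) (r (n + 1)) := fun n => rfl
  have hr'0 : r' 0 = mapRep (towerMap Jn hanti 0) (conjRep (Y 1) (r 1)) := rfl
  refine ⟨r', fun n hn => ?_, fun n => ?_, ?_⟩
  · obtain ⟨m, rfl⟩ : ∃ m, n = m + 1 := ⟨n - 1, by omega⟩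
    rw [hr'S]
    exact isConjRep_conjRep _ _
  · rcases Nat.eq_zero_or_pos n with rfl | hn
    · rfl
    · obtain ⟨m, rfl⟩ : ∃ m, n = m + 1 := ⟨n - 1, by omega⟩
      rw [hr'S, hr'S, mapRep_conjRep, hYS (m + 1) (by omega),
        hliftspec (m + 1) (Y (m + 1) * X (m + 1)) (by omega), ← conjRep_conjRep,
        ← hXr (m + 1) (by omega)]
  · show conjRep (Y 1) (r 1) = r 1
    rw [hY1, conjRep_one]

/-- (L1' + L2, the statement used by the assembly.) Let `S` be `I`-adically precomplete and `Jn` a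
chain of ideals with `I ^ n ≤ Jn n` and `Jn n = Jn (n+1) ⊔ I ^ n`, such that `S ⧸ Jn n` is local for
`n ≥ 1`. A family of representations `r n` over `S ⧸ Jn n` that is compatible up to conjugation (at
the levels `n ≥ 1`) comes from a representation `ru` over `S ⧸ ⨅ n, Jn n` which restricts to `r 1`
exactly and to a conjugate of `r n` at each level `n ≥ 1`. -/
theorem exists_limit_rep {S : Type} [CommRing S] (I : Ideal S) [IsPrecomplete I S]
    (Jn : ℕ → Ideal S) (hpow : ∀ n, I ^ n ≤ Jn n) (hstep : ∀ n, Jn n = Jn (n + 1) ⊔ I ^ n)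
    (hloc : ∀ n, 1 ≤ n → IsLocalRing (S ⧸ Jn n)) {Γ : Type} [Monoid Γ]
    (r : ∀ n, Γ →* M2 (S ⧸ Jn n))
    (hconj : ∀ n, 1 ≤ n → ∃ X : M2 (S ⧸ Jn n), IsUnit X.det ∧ ∀ γ,
      X * (r (n + 1) γ).map (Ideal.Quotient.factor
        (antitone_of_eq_succ_sup_pow I Jn hstep (Nat.le_succ n))) = r n γ * X) :
    ∃ ru : Γ →* M2 (S ⧸ ⨅ m, Jn m),
      (∀ γ, (ru γ).map (Ideal.Quotient.factor (iInf_le Jn 1)) = r 1 γ) ∧
      ∀ n, 1 ≤ n → ∃ X : M2 (S ⧸ Jn n), IsUnit X.det ∧ ∀ γ,
        X * (ru γ).map (Ideal.Quotient.factor (iInf_le Jn n)) = r n γ * X := by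
  have hanti : Antitone Jn := antitone_of_eq_succ_sup_pow I Jn hstep
  obtain ⟨r', hr'conj, hr'compat, hr'1⟩ :=
    exists_compatible_of_conj_of_one_le Jn hanti hloc r (fun n hn => hconj n hn)
  obtain ⟨ru, hru, -⟩ := existsUnique_limit_rep Jn hanti
    (fun a ha => exists_unique_limit I Jn hpow hstep a ha) r' hr'compat
  refine ⟨ru, fun γ => ?_, fun n hn => ?_⟩
  · have h := congrArg (fun ρ : Γ →* M2 (S ⧸ Jn 1) => ρ γ) (hru 1)
    rw [hr'1] at h
    exact h
  · obtain ⟨X, hX, hXr⟩ := (hr'conj n hn).symm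
    refine ⟨X, hX, fun γ => ?_⟩
    have h := hXr γ
    rw [← hru n] at h
    exact h

end Tower

section Continuity

variable {A B : Type} [CommRing A] [CommRing B]

lemma finLevelMod_mono {r : GQ →* M2 A} {I J : Ideal A} (hIJ : I ≤ J) (h : FinLevelMod r I) :
    FinLevelMod r J := by
  obtain ⟨L, hL, hLr⟩ := h
  exact ⟨L, hL, fun σ hσ i j => hIJ (hLr σ hσ i j)⟩

/-- If the pushforward along `φ` is trivial on an open subgroup, then `r` is trivial there modulo
`ker φ`. -/
lemma finLevelMod_ker_of_mapRep (φ : A →+* B) {r : GQ →* M2 A}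
    (h : FinLevelMod (mapRep φ r) ⊥) : FinLevelMod r (RingHom.ker φ) := by
  obtain ⟨L, hL, hLr⟩ := h
  refine ⟨L, hL, fun σ hσ i j => ?_⟩
  have h1 := hLr σ hσ i j
  rw [Ideal.mem_bot] at h1
  rw [RingHom.mem_ker]
  have h2 : (mapRep φ r σ - 1) i j = φ ((r σ - 1) i j) := by
    rw [mapRep_apply]
    by_cases hij : i = j
    · subst hij; simp
    · simp [Matrix.one_apply_ne hij]
  rw [← h2]
  exact h1

lemma finLevelMod_mapRep (φ : A →+* B) {r : GQ →* M2 A} {I : Ideal A} {J : Ideal B}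
    (hIJ : I.map φ ≤ J) (h : FinLevelMod r I) : FinLevelMod (mapRep φ r) J := by
  obtain ⟨L, hL, hLr⟩ := h
  refine ⟨L, hL, fun σ hσ i j => ?_⟩
  have h2 : (mapRep φ r σ - 1) i j = φ ((r σ - 1) i j) := by
    rw [mapRep_apply]
    by_cases hij : i = j
    · subst hij; simp
    · simp [Matrix.one_apply_ne hij]
  rw [h2]
  exact hIJ (Ideal.mem_map_of_mem φ (hLr σ hσ i j))

/-- Over a local ring with nilpotent maximal ideal, an adically continuous representation is trivial
on an open subgroup. -/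
lemma finLevelMod_bot_of_adicCont [IsLocalRing A] (hnil : IsNilpotent (maximalIdeal A))
    {r : GQ →* M2 A} (hr : AdicCont r) : FinLevelMod r ⊥ := by
  obtain ⟨n, hn⟩ := hnil
  have h := hr n
  rw [hn] at h
  exact finLevelMod_mono (le_of_eq Ideal.zero_eq_bot) h

/-- (L3) A representation over a local ring `A` all of whose pushforwards along ring homs `φ n`
with `ker (φ n) ≤ 𝔪 ^ n` are trivial on open subgroups is adically continuous. -/
theorem adicCont_of_finLevelMod_ker [IsLocalRing A] {ι : ℕ → Type} [∀ n, CommRing (ι n)]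
    (φ : ∀ n, A →+* ι n) (hker : ∀ n, RingHom.ker (φ n) ≤ maximalIdeal A ^ n)
    {r : GQ →* M2 A} (h : ∀ n, FinLevelMod (mapRep (φ n) r) ⊥) : AdicCont r :=
  fun n => finLevelMod_mono (hker n) (finLevelMod_ker_of_mapRep (φ n) (h n))

lemma adicCont_mapRep_of_isLocalHom [IsLocalRing A] [IsLocalRing B] (φ : A →+* B) [IsLocalHom φ]
    {r : GQ →* M2 A} (hr : AdicCont r) : AdicCont (mapRep φ r) := by
  intro n
  refine finLevelMod_mapRep φ ?_ (hr n)
  rw [Ideal.map_pow]
  exact Ideal.pow_right_mono (((IsLocalRing.local_hom_TFAE φ).out 0 2).mp ‹IsLocalHom φ›) n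

lemma adicCont_conjRep [IsLocalRing A] (u : (M2 A)ˣ) {r : GQ →* M2 A} (hr : AdicCont r) :
    AdicCont (conjRep u r) := by
  intro n
  obtain ⟨L, hL, hLr⟩ := hr n
  refine ⟨L, hL, fun σ hσ i j => ?_⟩
  have h1 : conjRep u r σ - 1 = (u : M2 A) * (r σ - 1) * ((u⁻¹ : (M2 A)ˣ) : M2 A) := by
    rw [conjRep_apply, mul_sub, sub_mul, mul_one, Units.mul_inv]
  rw [h1]
  simp only [Matrix.mul_apply]
  refine Ideal.sum_mem _ fun k _ => Ideal.mul_mem_right _ _ ?_
  refine Ideal.sum_mem _ fun l _ => Ideal.mul_mem_left _ _ (hLr σ hσ l k)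

end Continuity

section Separated

/-- (L4) Two ring homomorphisms into an `I`-adically separated ring that agree modulo every power
of `I` are equal. -/
theorem ringHom_ext_of_forall_sub_mem_pow {R B : Type} [CommRing R] [CommRing B] (I : Ideal B)
    [IsHausdorff I B] (φ φ' : R →+* B) (h : ∀ n x, φ x - φ' x ∈ I ^ n) : φ = φ' := by
  ext x
  rw [← sub_eq_zero]
  apply IsHausdorff.haus (inferInstance : IsHausdorff I B)
  intro n
  rw [SModEq.sub_mem, sub_zero]
  simpa [smul_eq_mul, Ideal.mul_top] using h n x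

/-- Two matrices over an `I`-adically separated ring whose entries agree modulo every power of `I`
are equal; in particular traces that agree modulo all `I ^ n` agree. -/
theorem eq_of_forall_sub_mem_pow {B : Type} [CommRing B] (I : Ideal B) [IsHausdorff I B]
    (x y : B) (h : ∀ n, x - y ∈ I ^ n) : x = y := by
  rw [← sub_eq_zero]
  apply IsHausdorff.haus (inferInstance : IsHausdorff I B)
  intro n
  rw [SModEq.sub_mem, sub_zero]
  simpa [smul_eq_mul, Ideal.mul_top] using h n

end Separated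

end Fermat.Agent.S53x.LR
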