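import Fermat.Agent.S53x.MatrixForm
import Fermat.Agent.S53x.SubTestAlg

/-!
# S53 helper: type `𝒟` of a limit representation (via `iff_forall_surjective`)

`R` complete Noetherian local `𝒪`-algebra, `ru : GQ →* M2 R` adically continuous.  Suppose that for
every `N` there is an Artinian test algebra `L` ("level"), a surjective local `𝒪`-algebra map
`p : R → L` with `ker p ≤ 𝔪_R ^ N`, and a type-`𝒟` matrix representation `rL` over `L` conjugate to
the pushforward of `ru`.  Then `ofMat ru` is of type `𝒟`.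

All declarations carry the prefix `tdl_`.
-/

set_option autoImplicit false
set_option linter.unusedSectionVars false
set_option linter.style.haveILetI false

namespace Fermat.Agent.S53x

open IsLocalRing

section

variable {𝒪 : Type} [CommRing 𝒪] [IsLocalRing 𝒪]
variable (𝒟 : ∀ ⦃A : Type⦄ [CommRing A] [IsLocalRing A] [Algebra 𝒪 A], GaloisRepAdic A → Prop)

/-- Equal ring homs give equivalent base changes. -/
theorem tdl_baseChangeAlong_congr {A B : Type} [CommRing A] [IsLocalRing A] [CommRing B]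
    [IsLocalRing B] (ρ : GaloisRepAdic A) {φ ψ : A →+* B} (hφ : IsLocalHom φ) (hψ : IsLocalHom ψ)
    (h : φ = ψ) : (ρ.baseChangeAlong φ hφ).IsEquiv (ρ.baseChangeAlong ψ hψ) := by
  subst h
  exact mf_isEquiv_refl _

/-- If `q = q' ∘ p` is a local hom and `p` is surjective then `q'` is a local hom. -/
theorem tdl_isLocalHom_of_comp {R L B : Type} [CommRing R] [CommRing L] [CommRing B]
    (p : R →+* L) (hp : Function.Surjective p) (q' : L →+* B)
    (hq : IsLocalHom (q'.comp p)) : IsLocalHom q' := by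
  refine ⟨fun x hx => ?_⟩
  obtain ⟨y, rfl⟩ := hp x
  have h1 : IsUnit ((q'.comp p) y) := hx
  exact (hq.map_nonunit y h1).map p

/-- One level: if `q : R → B` factors through a level `p : R → L` over which the pushforward of
`ru` is conjugate to a type-`𝒟` representation, then the base change of `ofMat ru` along `q` is of
type `𝒟`. -/
theorem tdl_isD_baseChange_of_level (h𝒟 : GaloisRep.IsDeformationCondition 𝒪 𝒟)
    {R L B : Type} [CommRing R] [IsLocalRing R] [Algebra 𝒪 R]
    [CommRing L] [IsLocalRing L] [Algebra 𝒪 L] [CommRing B] [IsLocalRing B] [Algebra 𝒪 B]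
    (hL : GaloisRep.IsArtinianTestAlgebra 𝒪 L) (hB : GaloisRep.IsArtinianTestAlgebra 𝒪 B)
    (ru : GQ →* M2 R) (hru : AdicCont ru)
    (p : R →ₐ[𝒪] L) (hp : IsLocalHom (p : R →+* L)) (hps : Function.Surjective p)
    (q : R →ₐ[𝒪] B) (hq : IsLocalHom (q : R →+* B))
    (hker : RingHom.ker (p : R →+* L) ≤ RingHom.ker (q : R →+* B))
    (rL : GQ →* M2 L) (hrL : AdicCont rL) (hD : 𝒟 (ofMat rL hrL))
    (X : M2 L) (hX : IsUnit X.det) (hconj : ∀ σ, X * (ru σ).map p = rL σ * X) :
    𝒟 ((ofMat ru hru).baseChangeAlong (q : R →+* B) hq) := by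
  -- the factorisation
  let q' : L →ₐ[𝒪] B := AlgHom.liftOfSurjective p hps q hker
  have hcomp : q'.comp p = q := AlgHom.liftOfSurjective_comp p hps q hker
  have hcomp' : (q' : L →+* B).comp (p : R →+* L) = (q : R →+* B) := by
    rw [← hcomp]; rfl
  have hq'p : IsLocalHom ((q' : L →+* B).comp (p : R →+* L)) := by rw [hcomp']; exact hq
  have hq' : IsLocalHom (q' : L →+* B) :=
    tdl_isLocalHom_of_comp (p : R →+* L) hps (q' : L →+* B) hq'p
  -- level `L`
  have E1 : ((ofMat ru hru).baseChangeAlong (p : R →+* L) hp).IsEquiv (ofMat rL hrL) :=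
    mf_isEquiv_trans (baseChangeAlong_ofMat (p : R →+* L) hp ru hru)
      (ofMat_isEquiv_of_conj _ hrL X hX (fun σ => by rw [mapRep_apply]; exact hconj σ))
  have D1 : 𝒟 ((ofMat ru hru).baseChangeAlong (p : R →+* L) hp) :=
    h𝒟.of_isEquiv hL (mf_isEquiv_symm E1) hD
  have D2 : 𝒟 (((ofMat ru hru).baseChangeAlong (p : R →+* L) hp).baseChangeAlong
      (q' : L →+* B) hq') := h𝒟.baseChangeAlong hL hB q' hq' D1
  have E2 : (((ofMat ru hru).baseChangeAlong (p : R →+* L) hp).baseChangeAlong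
      (q' : L →+* B) hq').IsEquiv
        ((ofMat ru hru).baseChangeAlong ((q' : L →+* B).comp (p : R →+* L)) hq'p) :=
    baseChangeAlong_baseChangeAlong (p : R →+* L) hp (q' : L →+* B) hq' hq'p (ofMat ru hru)
  have E3 : ((ofMat ru hru).baseChangeAlong ((q' : L →+* B).comp (p : R →+* L)) hq'p).IsEquiv
      ((ofMat ru hru).baseChangeAlong (q : R →+* B) hq) :=
    tdl_baseChangeAlong_congr (ofMat ru hru) hq'p hq hcomp'
  exact h𝒟.of_isEquiv hB (mf_isEquiv_trans E2 E3) D2

/-- **Type `𝒟` of a limit**: if arbitrarily deep levels of `ru` are (conjugate to) type-`𝒟`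
representations over Artinian test algebras, then `ofMat ru` is of type `𝒟`. -/
theorem tdl_isD_of_levels (h𝒟 : GaloisRep.IsDeformationCondition 𝒪 𝒟)
    {R : Type} [CommRing R] [IsLocalRing R] [IsNoetherianRing R]
    [IsAdicComplete (maximalIdeal R) R] [Algebra 𝒪 R]
    (hloc : IsLocalHom (algebraMap 𝒪 R))
    (hres : Function.Surjective (residue R ∘ algebraMap 𝒪 R))
    (ru : GQ →* M2 R) (hru : AdicCont ru)
    (hlev : ∀ N : ℕ, ∃ (L : Type) (_ : CommRing L) (_ : IsLocalRing L) (_ : Algebra 𝒪 L),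
      GaloisRep.IsArtinianTestAlgebra 𝒪 L ∧
      ∃ (p : R →ₐ[𝒪] L) (_ : IsLocalHom (p : R →+* L)), Function.Surjective p ∧
        RingHom.ker (p : R →+* L) ≤ maximalIdeal R ^ N ∧
        ∃ (rL : GQ →* M2 L) (hrL : AdicCont rL), 𝒟 (ofMat rL hrL) ∧
          ∃ X : M2 L, IsUnit X.det ∧ ∀ σ, X * (ru σ).map p = rL σ * X) :
    𝒟 (ofMat ru hru) := by
  rw [h𝒟.iff_forall_surjective hloc hres]
  intro B _ _ _ hB q hq _
  haveI := hB.isArtinian
  obtain ⟨N, hN⟩ := sta_isNilpotent_maximalIdeal_of_isArtinianRing B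
  obtain ⟨L, _, _, _, hL, p, hp, hps, hker, rL, hrL, hD, X, hX, hconj⟩ := hlev N
  refine tdl_isD_baseChange_of_level 𝒟 h𝒟 hL hB ru hru p hp hps q hq ?_ rL hrL hD X hX hconj
  refine hker.trans ?_
  intro x hx
  rw [RingHom.mem_ker]
  have h1 : (q : R →+* B) x ∈ (maximalIdeal R ^ N).map (q : R →+* B) :=
    Ideal.mem_map_of_mem _ hx
  have h2 : (maximalIdeal R ^ N).map (q : R →+* B) ≤ maximalIdeal B ^ N := by
    rw [Ideal.map_pow]
    refine Ideal.pow_right_mono ?_ N
    exact ((IsLocalRing.local_hom_TFAE (q : R →+* B)).out 0 2).mp hq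
  have h3 := h2 h1
  rw [hN] at h3
  simpa using h3

end

end Fermat.Agent.S53x
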