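import Fermat.Agent.S53x.Tangent
import Fermat.Agent.S53x.MinimalIdeals
import Fermat.Agent.S53x.AdmissibleWit
import Fermat.Agent.S53x.AdmissibleRes
import Fermat.Agent.S53x.AdmissibleConj
import Fermat.Agent.S53x.AdmissibleInfExact
import Fermat.Agent.S53x.LimitRep
import Fermat.Agent.S53x.RingR
import Fermat.Agent.S53x.TypeDLimit
import Fermat.Agent.S53x.UniversalArt
import Fermat.Agent.S53x.CNLUniversal

/-!
# S53: final assembly (helper33's independent dry run of M8-E + wiring)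
-/

set_option autoImplicit false

namespace Fermat.Agent.S53x

open IsLocalRing MvPowerSeries GaloisRep

section

variable {𝒪 : Type} [CommRing 𝒪] [IsDomain 𝒪] [IsDiscreteValuationRing 𝒪]
  [IsAdicComplete (maximalIdeal 𝒪) 𝒪] [Finite (ResidueField 𝒪)]
variable (𝒟 : ∀ ⦃A : Type⦄ [CommRing A] [IsLocalRing A] [Algebra 𝒪 A], GaloisRepAdic A → Prop)
variable {rbar : GQ →* M2 (ResidueField 𝒪)} (G : GenData 𝒪 rbar)

/-- basic consequences of admissibility -/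
theorem h33_adm_basic {J : Ideal G.S} (h : G.IsAdm 𝒟 J) :
    J ≠ ⊤ ∧ (∃ N, G.XX ^ N ≤ J) ∧ (X none - C G.ϖ : G.S) ∈ J := by
  obtain ⟨h1, _, N, hN, hϖ, _⟩ := h
  refine ⟨?_, ⟨N, hN⟩, hϖ⟩
  intro htop
  have : Subsingleton (G.S ⧸ J) := Ideal.Quotient.subsingleton_iff.mpr htop
  exact not_subsingleton (G.S ⧸ J) this

/-- **Step 1**: the tower of minimal admissible ideals. -/
theorem h33_exists_tower (h𝒟 : IsDeformationCondition 𝒪 𝒟) (hrbar : FinLevelMod rbar ⊥)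
    (hbar : 𝒟 (ofMat rbar (adicCont_of_finLevelMod_bot hrbar))) (hgram : HasUnitGram rbar)
    (hK1 : G.HasK1 𝒟) :
    ∃ Jn : ℕ → Ideal G.S, G.IsTower Jn ∧ (∀ n, 1 ≤ n → G.IsAdm 𝒟 (Jn n)) ∧
      (∀ n J, G.IsAdm 𝒟 J → G.XX ^ n ≤ J → Jn n ≤ J) := by
  obtain ⟨Jn, _, hpow, hadm, hstep, hmin⟩ :=
    exists_minimal_ideals (σ := Option (Fin G.n)) none G.ϖ G.hϖ (G.IsAdm 𝒟)
      (fun J hJ => h33_adm_basic 𝒟 G hJ)
      (fun J₁ J₂ h₁ h₂ => adm_inf_of_descent 𝒟 G h𝒟 (adm_of_dlift 𝒟 G h𝒟 hgram hK1) h₁ h₂)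
      (fun J J' h hle hJ' => adm_mono 𝒟 G h𝒟 h hle hJ')
      (ar_adm_residual 𝒟 G h𝒟 hrbar hbar)
  refine ⟨Jn, ⟨hpow, hstep, fun n hn => (h33_adm_basic 𝒟 G (hadm n hn)).2.2,
    (h33_adm_basic 𝒟 G (hadm 1 le_rfl)).1⟩, hadm, hmin⟩

/-- **Step 2**: witnesses over the levels and the limit representation `ru` over `R`. -/
theorem h33_exists_ru (h𝒟 : IsDeformationCondition 𝒪 𝒟) (hgram : HasUnitGram rbar)
    (hK1 : G.HasK1 𝒟) (Jn : ℕ → Ideal G.S) (hT : G.IsTower Jn)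
    (hadm : ∀ n, 1 ≤ n → G.IsAdm 𝒟 (Jn n)) :
    ∃ (r : ∀ n, GQ →* M2 (G.S ⧸ Jn n)) (ru : GQ →* M2 (G.S ⧸ ⨅ m, Jn m)),
      (∀ n, 1 ≤ n → ∃ (h1 : IsLocalRing (G.S ⧸ Jn n))
        (h2 : IsLocalHom (algebraMap 𝒪 (G.S ⧸ Jn n))),
        @IsDLift 𝒪 _ _ 𝒟 rbar (G.S ⧸ Jn n) _ h1 _ h2 (r n) ∧
          G.IsClassifying (Ideal.Quotient.mkₐ 𝒪 (Jn n)) (r n)) ∧
      (∀ γ, (ru γ).map (Ideal.Quotient.factor (iInf_le Jn 1)) = r 1 γ) ∧
      ∀ n, 1 ≤ n → ∃ X : M2 (G.S ⧸ Jn n), IsUnit X.det ∧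
        ∀ γ, X * (ru γ).map (Ideal.Quotient.factor (iInf_le Jn n)) = r n γ * X := by
  classical
  have hw : ∀ n, ∃ r : GQ →* M2 (G.S ⧸ Jn n), 1 ≤ n → ∃ (h1 : IsLocalRing (G.S ⧸ Jn n))
      (h2 : IsLocalHom (algebraMap 𝒪 (G.S ⧸ Jn n))),
      @IsDLift 𝒪 _ _ 𝒟 rbar (G.S ⧸ Jn n) _ h1 _ h2 r ∧
        G.IsClassifying (Ideal.Quotient.mkₐ 𝒪 (Jn n)) r := by
    intro n
    by_cases hn : 1 ≤ n
    · obtain ⟨h1, h2, N, hN, hϖ, r, hr, hcl⟩ := hadm n hn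
      exact ⟨r, fun _ => ⟨h1, h2, hr, hcl⟩⟩
    · exact ⟨1, fun h => absurd h hn⟩
  choose r hr using hw
  have hconj : ∀ n, 1 ≤ n → ∃ X : M2 (G.S ⧸ Jn n), IsUnit X.det ∧ ∀ γ,
      X * (r (n + 1) γ).map (Ideal.Quotient.factor
        (antitone_of_eq_succ_sup_pow G.XX Jn hT.step (Nat.le_succ n))) = r n γ * X := by
    intro n hn
    obtain ⟨h1, h2, hrn, hcln⟩ := hr n hn
    obtain ⟨k1, k2, hrn1, hcln1⟩ := hr (n + 1) (Nat.le_succ_of_le hn)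
    have hA : IsArtinianTestAlgebra 𝒪 (G.S ⧸ Jn (n + 1)) :=
      hT.isArtinianTestAlgebra_level (Nat.le_succ_of_le hn)
    have hB : IsArtinianTestAlgebra 𝒪 (G.S ⧸ Jn n) := hT.isArtinianTestAlgebra_level hn
    have hf : IsLocalHom (hT.transR n : (G.S ⧸ Jn (n + 1)) →+* G.S ⧸ Jn n) :=
      hT.isLocalHom_transR hn
    have hrf := IsDLift.mapRep h𝒟 hA hB (hT.transR n) hf hrn1
    have hclf := classifying_comp G (hT.transR n) (r (n + 1)) _ hcln1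
    exact adm_witness_conj 𝒟 G h𝒟 hgram hK1 h1 h2 ⟨n, hT.pow_le n⟩ (hT.mem n hn) _ _ hrf hrn
      hclf hcln
  obtain ⟨ru, hru1, hruc⟩ := LR.exists_limit_rep G.XX Jn hT.pow_le hT.step
    (fun n hn => hT.isLocalRing_level hn) r hconj
  exact ⟨r, ru, hr, hru1, hruc⟩

/-- **Step 3**: `ru` is a strict type-`𝒟` lift over `R`. -/
theorem h33_isDLift_R (h𝒟 : IsDeformationCondition 𝒪 𝒟) (Jn : ℕ → Ideal G.S) (hT : G.IsTower Jn)
    [IsLocalRing (G.S ⧸ ⨅ m, Jn m)] [IsLocalHom (algebraMap 𝒪 (G.S ⧸ ⨅ m, Jn m))]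
    (r : ∀ n, GQ →* M2 (G.S ⧸ Jn n))
    (hr : ∀ n, 1 ≤ n → ∃ (h1 : IsLocalRing (G.S ⧸ Jn n))
      (h2 : IsLocalHom (algebraMap 𝒪 (G.S ⧸ Jn n))),
      @IsDLift 𝒪 _ _ 𝒟 rbar (G.S ⧸ Jn n) _ h1 _ h2 (r n) ∧
        G.IsClassifying (Ideal.Quotient.mkₐ 𝒪 (Jn n)) (r n))
    (ru : GQ →* M2 (G.S ⧸ ⨅ m, Jn m))
    (hru1 : ∀ γ, (ru γ).map (Ideal.Quotient.factor (iInf_le Jn 1)) = r 1 γ)
    (hruc : ∀ n, 1 ≤ n → ∃ X : M2 (G.S ⧸ Jn n), IsUnit X.det ∧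
      ∀ γ, X * (ru γ).map (Ideal.Quotient.factor (iInf_le Jn n)) = r n γ * X) :
    IsDLift 𝒪 𝒟 rbar (G.S ⧸ ⨅ m, Jn m) ru := by
  have hcont : AdicCont ru := by
    refine hT.adicCont_of_projR ru (fun n hn => ?_)
    obtain ⟨h1, h2, hrn, _⟩ := hr n hn
    obtain ⟨X, hX, hXc⟩ := hruc n hn
    have hbot : maximalIdeal (G.S ⧸ Jn n) ^ n = ⊥ := hT.maximalIdeal_level_pow_eq_bot hn
    obtain ⟨L, hL, hLr⟩ := finLevelMod_bot_of_adicCont hbot hrn.cont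
    refine ⟨L, hL, fun σ hσ i j => ?_⟩
    have e1 : r n σ = 1 := mf_eq_one_of_finLevelMod_bot (hLr σ hσ)
    have e2 : (ru σ).map (Ideal.Quotient.factor (iInf_le Jn n)) = 1 := by
      have h3 := hXc σ
      rw [e1, one_mul] at h3
      calc (ru σ).map (Ideal.Quotient.factor (iInf_le Jn n))
          = X⁻¹ * (X * (ru σ).map (Ideal.Quotient.factor (iInf_le Jn n))) := by
            rw [← mul_assoc, Matrix.nonsing_inv_mul X hX, one_mul]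
        _ = 1 := by rw [h3, Matrix.nonsing_inv_mul X hX]
    have e3 : mapRep (G.projR Jn n : (G.S ⧸ ⨅ m, Jn m) →+* G.S ⧸ Jn n) ru σ = 1 := e2
    rw [e3, sub_self]
    exact Ideal.zero_mem _
  obtain ⟨l1, l2, hr1, _⟩ := hr 1 le_rfl
  have hstrict : ∀ σ, (ru σ).map (residue (G.S ⧸ ⨅ m, Jn m)) =
      (rbar σ).map (ResidueField.map (algebraMap 𝒪 (G.S ⧸ ⨅ m, Jn m))) := by
    refine G.strict_of_projR_one Jn ru (fun σ => ?_)
    have e : mapRep (G.projR Jn 1 : (G.S ⧸ ⨅ m, Jn m) →+* G.S ⧸ Jn 1) ru σ = r 1 σ := hru1 σ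
    rw [e]
    exact hr1.strict σ
  haveI : IsNoetherianRing (G.S ⧸ ⨅ m, Jn m) := GenData.IsTower.isNoetherianRing
  haveI : IsAdicComplete (maximalIdeal (G.S ⧸ ⨅ m, Jn m)) (G.S ⧸ ⨅ m, Jn m) :=
    hT.isAdicComplete
  refine ⟨hcont, hstrict, ?_⟩
  refine tdl_isD_of_levels 𝒟 h𝒟 inferInstance GenData.IsTower.residue_surjective ru hcont
    (fun N => ?_)
  have hN1 : 1 ≤ N + 1 := Nat.succ_le_succ (Nat.zero_le N)
  obtain ⟨k1, k2, hrn, _⟩ := hr (N + 1) hN1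
  obtain ⟨X, hX, hXc⟩ := hruc (N + 1) hN1
  refine ⟨G.S ⧸ Jn (N + 1), inferInstance, k1, inferInstance,
    hT.isArtinianTestAlgebra_level hN1, G.projR Jn (N + 1), hT.isLocalHom_projR hN1,
    G.projR_surjective Jn (N + 1), ?_, r (N + 1), hrn.cont, hrn.isD, X, hX, hXc⟩
  have hk := hT.ker_projR (N + 1)
  have hk' : RingHom.ker (G.projR Jn (N + 1) : (G.S ⧸ ⨅ m, Jn m) →+* G.S ⧸ Jn (N + 1)) =
      maximalIdeal (G.S ⧸ ⨅ m, Jn m) ^ (N + 1) := hk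
  rw [hk']
  exact Ideal.pow_le_pow_right (Nat.le_succ N)

end

/-- **S53, assembled**: existence of the universal deformation ring. -/
theorem h33_nonempty_deformationRingData
    (𝒪 : Type) [CommRing 𝒪] [IsDomain 𝒪] [IsDiscreteValuationRing 𝒪]
    [IsAdicComplete (IsLocalRing.maximalIdeal 𝒪) 𝒪] [Finite (IsLocalRing.ResidueField 𝒪)]
    (ρbar : ResidualGaloisRep (IsLocalRing.ResidueField 𝒪))
    (𝒟 : ∀ ⦃A : Type⦄ [CommRing A] [IsLocalRing A] [Algebra 𝒪 A], GaloisRepAdic A → Prop)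
    (habs : ρbar.IsAbsolutelyIrreducible)
    (h𝒟 : GaloisRep.IsDeformationCondition 𝒪 𝒟)
    (hbar : 𝒟 (GaloisRepAdic.ofResidualGaloisRep ρbar))
    (hfin : GaloisRep.TangentFinite 𝒪 ρbar 𝒟) :
    Nonempty (GaloisRep.DeformationRingData 𝒪 ρbar 𝒟) := by
  classical
  let b := resStdBasis ρbar
  have hrbar : FinLevelMod (resMat ρbar b) ⊥ := finLevelMod_resMat ρbar b
  have hgram : HasUnitGram (resMat ρbar b) := hasUnitGram_of_isAbsolutelyIrreducible ρbar habs b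
  have hρbar : ρbar.IsEquiv (resOfMat (resMat ρbar b) hrbar) := isEquiv_resOfMat_resMat ρbar b
  have hbar' : 𝒟 (ofMat (resMat ρbar b) (adicCont_of_finLevelMod_bot hrbar)) :=
    h𝒟.of_isEquiv isArtinianTestAlgebra_residueField (ofResidualGaloisRep_isEquiv_ofMat ρbar b)
      hbar
  obtain ⟨G, hK1⟩ := exists_genData_hasK1 ρbar b habs h𝒟 hfin
  obtain ⟨Jn, hT, hadm, hmin⟩ := h33_exists_tower 𝒟 G h𝒟 hrbar hbar' hgram hK1
  obtain ⟨r, ru, hr, hru1, hruc⟩ := h33_exists_ru 𝒟 G h𝒟 hgram hK1 Jn hT hadm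
  haveI hR1 : IsLocalRing (G.S ⧸ ⨅ m, Jn m) := hT.isLocalRing
  haveI hR2 : IsLocalHom (algebraMap 𝒪 (G.S ⧸ ⨅ m, Jn m)) := hT.isLocalHom_algebraMap
  haveI hR3 : IsNoetherianRing (G.S ⧸ ⨅ m, Jn m) := GenData.IsTower.isNoetherianRing
  haveI hR4 : IsAdicComplete (maximalIdeal (G.S ⧸ ⨅ m, Jn m)) (G.S ⧸ ⨅ m, Jn m) :=
    hT.isAdicComplete
  have hD : IsDLift 𝒪 𝒟 (resMat ρbar b) (G.S ⧸ ⨅ m, Jn m) ru :=
    h33_isDLift_R 𝒟 G h𝒟 Jn hT r hr ru hru1 hruc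
  have UA : ∀ (B : Type) [CommRing B] [IsLocalRing B] [Algebra 𝒪 B]
      (hB : IsArtinianTestAlgebra 𝒪 B),
      haveI := hB.isLocalHom
      ∀ rB : GQ →* M2 B, IsDLift 𝒪 𝒟 (resMat ρbar b) B rB →
        ∃! φ : (G.S ⧸ ⨅ m, Jn m) →ₐ[𝒪] B, IsLocalHom (φ : (G.S ⧸ ⨅ m, Jn m) →+* B) ∧
          ∃ X : M2 B, IsUnit X.det ∧ ∀ σ, X * (ru σ).map φ = rB σ * X := by
    intro B _ _ _ hB rB hrB
    exact universal_artinian 𝒟 G h𝒟 (adm_witness_conj 𝒟 G h𝒟 hgram hK1)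
      (adm_of_dlift 𝒟 G h𝒟 hgram hK1) Jn hT hmin r hr ru hruc hB rB hrB
  exact ⟨{
    R := G.S ⧸ ⨅ m, Jn m
    instCommRing := inferInstance
    instIsLocalRing := hR1
    instIsNoetherianRing := hR3
    instIsAdicComplete := hR4
    instAlgebra := inferInstance
    instIsLocalHom := hR2
    residue_surjective := GenData.IsTower.residue_surjective
    absIrr := habs
    ρ := ofMat ru hD.cont
    isOfType := hD.isD
    residual_isEquiv := residual_isEquiv_of_strict_of_residual ρbar b _ ru hD.cont hD.strict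
    universal := fun A _ _ _ _ _ _ hsurj ρA hDA hres =>
      cnl_universal h𝒟 hrbar hgram ρbar hρbar ru hD.cont UA A hsurj ρA hDA hres }⟩

end Fermat.Agent.S53x
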