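import Fermat.Agent.S53x.DLift
import Fermat.Agent.S53x.MatrixForm

/-!
# S53: the matrix-language Artinian universal property `UA` and its `GaloisRepAdic` form
-/

set_option autoImplicit false

namespace Fermat.Agent.S53x

open IsLocalRing

section

variable {𝒪 : Type} [CommRing 𝒪] [IsLocalRing 𝒪]
variable (𝒟 : ∀ ⦃A : Type⦄ [CommRing A] [IsLocalRing A] [Algebra 𝒪 A], GaloisRepAdic A → Prop)
variable (rbar : GQ →* M2 (ResidueField 𝒪))

/-- **Matrix-language universal property for Artinian test algebras.** -/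
def UA (R : Type) [CommRing R] [Algebra 𝒪 R] (runiv : GQ →* M2 R) : Prop :=
  ∀ (A : Type) [CommRing A] [IsLocalRing A] [Algebra 𝒪 A]
    (hA : GaloisRep.IsArtinianTestAlgebra 𝒪 A),
    haveI := hA.isLocalHom
    ∀ r : GQ →* M2 A, IsDLift 𝒪 𝒟 rbar A r →
      ∃! φ : R →ₐ[𝒪] A, IsLocalHom (φ : R →+* A) ∧
        ∃ X : M2 A, IsUnit X.det ∧ ∀ σ, X * (runiv σ).map φ = r σ * X

variable {𝒟} {rbar}

/-- `UA` implies the universal property in `GaloisRepAdic` language for Artinian test algebras. -/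
theorem artinian_universal_of_UA (h𝒟 : GaloisRep.IsDeformationCondition 𝒪 𝒟)
    (ρbar : ResidualGaloisRep (ResidueField 𝒪)) (b : Module.Basis (Fin 2) (ResidueField 𝒪) ρbar.V)
    (hb : rbar = resMat ρbar b)
    {R : Type} [CommRing R] [IsLocalRing R] [Algebra 𝒪 R] (runiv : GQ →* M2 R)
    (hcont : AdicCont runiv) (hUA : UA 𝒟 rbar R runiv)
    (A : Type) [CommRing A] [IsLocalRing A] [Algebra 𝒪 A]
    (hA : GaloisRep.IsArtinianTestAlgebra 𝒪 A) [hloc : IsLocalHom (algebraMap 𝒪 A)]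
    (ρA : GaloisRepAdic A) (hD : 𝒟 ρA)
    (hres : ρA.residual.IsEquiv
      (ρbar.baseChangeAlong (IsLocalRing.ResidueField.map (algebraMap 𝒪 A)))) :
    ∃! φ : R →ₐ[𝒪] A, ∃ hφ : IsLocalHom (φ : R →+* A),
      ((ofMat runiv hcont).baseChangeAlong (φ : R →+* A) hφ).IsEquiv ρA := by
  subst hb
  obtain ⟨r, hr, he, hstrict⟩ := exists_strict_ofMat_of_residual ρbar b
    (IsLocalRing.ResidueField.map (algebraMap 𝒪 A)) ρA hres
  have hDr : 𝒟 (ofMat r hr) := h𝒟.of_isEquiv hA he hD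
  have hlift : IsDLift 𝒪 𝒟 (resMat ρbar b) A r := ⟨hr, hstrict, hDr⟩
  obtain ⟨φ, ⟨hφ, X, hX, hconj⟩, huniq⟩ := hUA A hA r hlift
  refine ⟨φ, ⟨hφ, ?_⟩, ?_⟩
  · refine mf_isEquiv_trans (baseChangeAlong_ofMat (φ : R →+* A) hφ runiv hcont) ?_
    refine mf_isEquiv_trans ?_ (mf_isEquiv_symm he)
    exact ofMat_isEquiv_of_conj _ hr X hX (fun σ => by rw [mapRep_apply]; exact hconj σ)
  · rintro ψ ⟨hψ, hψe⟩
    apply huniq
    refine ⟨hψ, ?_⟩
    have h1 : (ofMat (mapRep (ψ : R →+* A) runiv) (adicCont_mapRep (ψ : R →+* A) hψ hcont)).IsEquiv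
        (ofMat r hr) :=
      mf_isEquiv_trans (mf_isEquiv_symm (baseChangeAlong_ofMat (ψ : R →+* A) hψ runiv hcont))
        (mf_isEquiv_trans hψe he)
    obtain ⟨X', hX', hc'⟩ := exists_conj_of_ofMat_isEquiv h1
    exact ⟨X', hX', fun σ => by have := hc' σ; rwa [mapRep_apply] at this⟩

end

end Fermat.Agent.S53x
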