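import Fermat.Agent.S53x.Basic

/-!
# Maps to the dual numbers detecting a non-generated cotangent direction
-/

set_option autoImplicit false

namespace Fermat.Agent.S53x

open IsLocalRing TrivSqZeroExt

/-- The `𝒪`-algebra structure on `k[ε]` used in `GaloisRep.TangentFinite`. -/
@[reducible] noncomputable def dualAlgebra (𝒪 : Type) [CommRing 𝒪] [IsLocalRing 𝒪] :
    Algebra 𝒪 (DualNumber (ResidueField 𝒪)) :=
  ((algebraMap (ResidueField 𝒪) (DualNumber (ResidueField 𝒪))).comp
    (algebraMap 𝒪 (ResidueField 𝒪))).toAlgebra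

section

variable {𝒪 : Type} [CommRing 𝒪] [IsLocalRing 𝒪]
variable {A : Type} [CommRing A] [IsLocalRing A] [Algebra 𝒪 A]

/-- If `I ⊔ m²` misses an element `x₀` of the maximal ideal (and `I` contains the image of `m_𝒪`),
there is an `𝒪`-algebra map to the dual numbers killing `I` whose `ε`-part at `x₀` is nonzero. -/
theorem exists_algHom_dualNumber
    (hloc : IsLocalHom (algebraMap 𝒪 A))
    (hsurj : Function.Surjective (residue A ∘ algebraMap 𝒪 A))
    (I : Ideal A) (hI : (maximalIdeal 𝒪).map (algebraMap 𝒪 A) ≤ I) (hI' : I ≤ maximalIdeal A)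
    (x₀ : A) (hx₀ : x₀ ∈ maximalIdeal A) (hx₀' : x₀ ∉ I ⊔ maximalIdeal A ^ 2) :
    letI := dualAlgebra 𝒪
    ∃ φ : A →ₐ[𝒪] DualNumber (ResidueField 𝒪), (∀ x ∈ I, φ x = 0) ∧ (φ x₀).snd ≠ 0 := by
  classical
  set K : Ideal A := I ⊔ maximalIdeal A ^ 2 with hK
  have hIK : I ≤ K := le_sup_left
  have hm2K : maximalIdeal A ^ 2 ≤ K := le_sup_right
  have h𝒪K : ∀ c ∈ maximalIdeal 𝒪, algebraMap 𝒪 A c ∈ K := fun c hc =>
    hIK (hI (Ideal.mem_map_of_mem _ hc))
  -- the section `s : k → A ⧸ K`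
  let s : ResidueField 𝒪 →+* A ⧸ K :=
    Ideal.Quotient.lift (maximalIdeal 𝒪) ((Ideal.Quotient.mk K).comp (algebraMap 𝒪 A))
      (fun c hc => by
        rw [RingHom.comp_apply, Ideal.Quotient.eq_zero_iff_mem]; exact h𝒪K c hc)
  have hs : ∀ c : 𝒪, s (residue 𝒪 c) = Ideal.Quotient.mk K (algebraMap 𝒪 A c) := fun c => rfl
  letI algW : Algebra (ResidueField 𝒪) (A ⧸ K) := s.toAlgebra
  have hx₀K : (Ideal.Quotient.mk K x₀) ≠ 0 := by
    rw [Ne, Ideal.Quotient.eq_zero_iff_mem]; exact hx₀'
  obtain ⟨lam, hlam⟩ := Module.Projective.exists_dual_ne_zero (ResidueField 𝒪) hx₀K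
  -- the projection `π : A → k`
  have hmA : ∀ c : 𝒪, algebraMap 𝒪 A c ∈ maximalIdeal A ↔ c ∈ maximalIdeal 𝒪 := by
    intro c
    constructor
    · intro h
      by_contra hc
      have hu : IsUnit c := by
        by_contra hnu
        exact hc ((IsLocalRing.mem_maximalIdeal c).2 hnu)
      exact (IsLocalRing.mem_maximalIdeal _).1 h (hu.map _)
    · intro h
      rw [IsLocalRing.mem_maximalIdeal] at h ⊢
      intro hu
      exact h (hloc.map_nonunit c hu)
  have hlift : ∀ a : A, ∃ c : 𝒪, a - algebraMap 𝒪 A c ∈ maximalIdeal A := by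
    intro a
    obtain ⟨c, hc⟩ := hsurj (residue A a)
    refine ⟨c, ?_⟩
    rw [← Ideal.Quotient.eq_zero_iff_mem, map_sub]
    have : (Ideal.Quotient.mk (maximalIdeal A)) (algebraMap 𝒪 A c) = residue A a := hc
    rw [this]; exact sub_self _
  choose cc hcc using hlift
  -- uniqueness of the residue class of the lift
  have hcc_uniq : ∀ (a : A) (c : 𝒪), a - algebraMap 𝒪 A c ∈ maximalIdeal A →
      c - cc a ∈ maximalIdeal 𝒪 := by
    intro a c hc
    rw [← hmA, map_sub]
    have := Ideal.sub_mem _ (hcc a) hc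
    simpa using this
  let p : A → A := fun a => a - algebraMap 𝒪 A (cc a)
  have hp_mem : ∀ a, p a ∈ maximalIdeal A := hcc
  -- `p` modulo `K`
  have hp_add : ∀ a b, p (a + b) - (p a + p b) ∈ K := by
    intro a b
    have h1 : cc a + cc b - cc (a + b) ∈ maximalIdeal 𝒪 := by
      apply hcc_uniq
      have := Ideal.add_mem _ (hcc a) (hcc b)
      rw [map_add]; convert this using 1; ring
    have h2 := h𝒪K _ h1
    have : p (a + b) - (p a + p b) = algebraMap 𝒪 A (cc a + cc b - cc (a + b)) := by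
      simp only [p, map_add, map_sub]; ring
    rw [this]; exact h2
  have hp_mul : ∀ a b, p (a * b) - (algebraMap 𝒪 A (cc a) * p b + algebraMap 𝒪 A (cc b) * p a) ∈ K := by
    intro a b
    have h1 : cc a * cc b - cc (a * b) ∈ maximalIdeal 𝒪 := by
      apply hcc_uniq
      have e : a * b - algebraMap 𝒪 A (cc a * cc b) =
          (a - algebraMap 𝒪 A (cc a)) * b + algebraMap 𝒪 A (cc a) * (b - algebraMap 𝒪 A (cc b)) := by
        rw [map_mul]; ring
      rw [e]
      exact Ideal.add_mem _ (Ideal.mul_mem_right _ _ (hcc a)) (Ideal.mul_mem_left _ _ (hcc b))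
    have h2 := h𝒪K _ h1
    have h3 : p a * p b ∈ K := hm2K (by rw [pow_two]; exact Ideal.mul_mem_mul (hp_mem a) (hp_mem b))
    have : p (a * b) - (algebraMap 𝒪 A (cc a) * p b + algebraMap 𝒪 A (cc b) * p a) =
        algebraMap 𝒪 A (cc a * cc b - cc (a * b)) + p a * p b := by
      simp only [p, map_mul, map_sub]; ring
    rw [this]; exact Ideal.add_mem _ h2 h3
  have hp_alg : ∀ c : 𝒪, p (algebraMap 𝒪 A c) ∈ K := by
    intro c
    have h1 : c - cc (algebraMap 𝒪 A c) ∈ maximalIdeal 𝒪 := by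
      apply hcc_uniq; rw [sub_self]; exact Ideal.zero_mem _
    have := h𝒪K _ h1
    simpa [p, map_sub] using this
  have hp_max : ∀ x ∈ maximalIdeal A, p x - x ∈ K := by
    intro x hx
    have h1 : (0 : 𝒪) - cc x ∈ maximalIdeal 𝒪 := by
      apply hcc_uniq; simpa using hx
    have := h𝒪K _ h1
    simpa [p, map_sub] using this
  -- the maps
  let π : A → ResidueField 𝒪 := fun a => residue 𝒪 (cc a)
  let δ : A → ResidueField 𝒪 := fun a => lam (Ideal.Quotient.mk K (p a))
  have hπ_of : ∀ (a : A) (c : 𝒪), a - algebraMap 𝒪 A c ∈ maximalIdeal A → π a = residue 𝒪 c := by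
    intro a c hc
    have := hcc_uniq a c hc
    have h0 : residue 𝒪 (c - cc a) = 0 := (residue_eq_zero_iff _).2 this
    rw [map_sub, sub_eq_zero] at h0
    exact h0.symm
  have hπ_add : ∀ a b, π (a + b) = π a + π b := by
    intro a b
    rw [hπ_of (a + b) (cc a + cc b), map_add]
    have := Ideal.add_mem _ (hcc a) (hcc b)
    rw [map_add]; convert this using 1; ring
  have hπ_mul : ∀ a b, π (a * b) = π a * π b := by
    intro a b
    rw [hπ_of (a * b) (cc a * cc b), map_mul]
    have e : a * b - algebraMap 𝒪 A (cc a * cc b) =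
        (a - algebraMap 𝒪 A (cc a)) * b + algebraMap 𝒪 A (cc a) * (b - algebraMap 𝒪 A (cc b)) := by
      rw [map_mul]; ring
    rw [e]
    exact Ideal.add_mem _ (Ideal.mul_mem_right _ _ (hcc a)) (Ideal.mul_mem_left _ _ (hcc b))
  have hπ_alg : ∀ c : 𝒪, π (algebraMap 𝒪 A c) = residue 𝒪 c := by
    intro c; apply hπ_of; rw [sub_self]; exact Ideal.zero_mem _
  have hmkK : ∀ x y : A, x - y ∈ K → Ideal.Quotient.mk K x = Ideal.Quotient.mk K y := by
    intro x y h; exact (Ideal.Quotient.eq).2 h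
  have hsmul : ∀ (c : 𝒪) (w : A ⧸ K), Ideal.Quotient.mk K (algebraMap 𝒪 A c) * w
      = (residue 𝒪 c) • w := by
    intro c w
    rw [Algebra.smul_def]; rfl
  have hδ_add : ∀ a b, δ (a + b) = δ a + δ b := by
    intro a b
    show lam _ = lam _ + lam _
    rw [hmkK _ _ (hp_add a b), map_add, map_add]
  have hδ_mul : ∀ a b, δ (a * b) = π a * δ b + π b * δ a := by
    intro a b
    show lam _ = _ * lam _ + _ * lam _
    rw [hmkK _ _ (hp_mul a b), map_add, map_mul, map_mul, hsmul, hsmul, map_add, map_smul, map_smul,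
      smul_eq_mul, smul_eq_mul]
  have hδ_alg : ∀ c : 𝒪, δ (algebraMap 𝒪 A c) = 0 := by
    intro c
    show lam _ = 0
    rw [(Ideal.Quotient.eq_zero_iff_mem).2 (hp_alg c), map_zero]
  have hδ_max : ∀ x ∈ maximalIdeal A, δ x = lam (Ideal.Quotient.mk K x) := by
    intro x hx
    show lam _ = lam _
    rw [hmkK _ _ (hp_max x hx)]
  letI := dualAlgebra 𝒪
  let φ : A →ₐ[𝒪] DualNumber (ResidueField 𝒪) :=
    { toFun := fun a => inl (π a) + inr (δ a)
      map_one' := by
        have h1 : (1 : A) = algebraMap 𝒪 A 1 := (map_one _).symm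
        rw [h1, hπ_alg, hδ_alg, map_one, inr_zero, add_zero, inl_one]
      map_mul' := by
        intro a b
        rw [hπ_mul, hδ_mul]
        ext
        · simp
        · simp [mul_comm]
      map_zero' := by
        have h0 : (0 : A) = algebraMap 𝒪 A 0 := (map_zero _).symm
        rw [h0, hπ_alg, hδ_alg, map_zero, inr_zero, add_zero, inl_zero]
      map_add' := by
        intro a b
        rw [hπ_add, hδ_add, inl_add, inr_add]; abel
      commutes' := by
        intro c
        show inl (π (algebraMap 𝒪 A c)) + inr (δ (algebraMap 𝒪 A c)) = _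
        rw [hπ_alg, hδ_alg, inr_zero, add_zero]
        rfl }
  refine ⟨φ, ?_, ?_⟩
  · intro x hx
    have hxm : x ∈ maximalIdeal A := hI' hx
    show inl (π x) + inr (δ x) = 0
    have h1 : π x = 0 := by
      rw [hπ_of x 0 (by simpa using hxm), map_zero]
    have h2 : δ x = 0 := by
      rw [hδ_max x hxm, (Ideal.Quotient.eq_zero_iff_mem).2 (hIK hx), map_zero]
    rw [h1, h2, inl_zero, inr_zero, add_zero]
  · show (inl (π x₀) + inr (δ x₀)).snd ≠ 0
    rw [hδ_max x₀ hx₀]
    simpa using hlam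

end

end Fermat.Agent.S53x

namespace Fermat.Agent.S53x

open IsLocalRing TrivSqZeroExt

section

variable {𝒪 : Type} [CommRing 𝒪] [IsLocalRing 𝒪]
variable {A : Type} [CommRing A] [IsLocalRing A] [Algebra 𝒪 A]

/-- Nakayama in the nilpotent form we need. -/
lemma le_of_le_sup_sq_of_isNilpotent (I : Ideal A) (hnil : IsNilpotent (maximalIdeal A))
    (h : maximalIdeal A ≤ I ⊔ maximalIdeal A ^ 2) : maximalIdeal A ≤ I := by
  obtain ⟨N, hN⟩ := hnil
  have key : ∀ n : ℕ, maximalIdeal A ≤ I ⊔ maximalIdeal A ^ (n + 1) := by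
    intro n
    induction n with
    | zero => simp
    | succ n ih =>
      intro x hx
      obtain ⟨a, ha, b, hb, rfl⟩ := Submodule.mem_sup.1 (h hx)
      refine Submodule.add_mem _ (Submodule.mem_sup_left ha) ?_
      have h2 : maximalIdeal A ^ 2 ≤ I ⊔ maximalIdeal A ^ (n + 1 + 1) := by
        rw [pow_two, Ideal.mul_le]
        intro r hr s hs
        obtain ⟨a', ha', b', hb', hab⟩ := Submodule.mem_sup.1 (ih hr)
        rw [← hab, add_mul]
        refine Submodule.add_mem _ (Submodule.mem_sup_left (Ideal.mul_mem_right _ _ ha')) ?_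
        apply Submodule.mem_sup_right
        rw [pow_succ (maximalIdeal A) (n + 1)]
        exact Ideal.mul_mem_mul hb' hs
      exact h2 hb
  have := key N
  rw [pow_succ, hN, Ideal.zero_eq_bot, Ideal.bot_mul, sup_bot_eq] at this
  exact this

/-- **Abstract generation lemma.**  If every `𝒪`-algebra map `A → k[ε]` whose `ε`-part vanishes
on the `t (g i)` has vanishing `ε`-part on all `t γ`, and the `t γ` generate `A`, then the
maximal ideal of `A` is generated by `m_𝒪` and the `t (g i) - c i`. -/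
theorem maximalIdeal_eq_of_tangent {Γ ι : Type}
    (hloc : IsLocalHom (algebraMap 𝒪 A))
    (hsurj : Function.Surjective (residue A ∘ algebraMap 𝒪 A))
    (hnil : IsNilpotent (maximalIdeal A))
    (t : Γ → A) (hgen : Algebra.adjoin 𝒪 (Set.range t) = ⊤)
    (g : ι → Γ) (c : ι → 𝒪) (hc : ∀ i, t (g i) - algebraMap 𝒪 A (c i) ∈ maximalIdeal A)
    (H : letI := dualAlgebra 𝒪
      ∀ φ : A →ₐ[𝒪] DualNumber (ResidueField 𝒪),
        (∀ i, (φ (t (g i))).snd = 0) → ∀ γ, (φ (t γ)).snd = 0) :
    maximalIdeal A = (maximalIdeal 𝒪).map (algebraMap 𝒪 A) ⊔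
      Ideal.span (Set.range fun i => t (g i) - algebraMap 𝒪 A (c i)) := by
  classical
  set I : Ideal A := (maximalIdeal 𝒪).map (algebraMap 𝒪 A) ⊔
      Ideal.span (Set.range fun i => t (g i) - algebraMap 𝒪 A (c i)) with hIdef
  have hI1 : (maximalIdeal 𝒪).map (algebraMap 𝒪 A) ≤ I := le_sup_left
  have hI2 : I ≤ maximalIdeal A := by
    refine sup_le ?_ ?_
    · rw [Ideal.map_le_iff_le_comap]
      intro x hx
      rw [Ideal.mem_comap, IsLocalRing.mem_maximalIdeal]
      intro hu
      exact (IsLocalRing.mem_maximalIdeal x).1 hx (hloc.map_nonunit x hu)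
    · rw [Ideal.span_le]
      rintro _ ⟨i, rfl⟩
      exact hc i
  refine le_antisymm ?_ hI2
  apply le_of_le_sup_sq_of_isNilpotent I hnil
  by_contra hnot
  obtain ⟨x₀, hx₀, hx₀'⟩ := Set.not_subset.1 hnot
  letI := dualAlgebra 𝒪
  obtain ⟨φ, hφI, hφx⟩ := exists_algHom_dualNumber hloc hsurj I hI1 hI2 x₀ hx₀ hx₀'
  -- the subalgebra of dual numbers with vanishing `ε`-part
  let T : Subalgebra 𝒪 (DualNumber (ResidueField 𝒪)) :=
    { carrier := {z | z.snd = 0}
      mul_mem' := by
        intro a b ha hb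
        simp only [Set.mem_ofPred_eq] at ha hb ⊢
        simp [ha, hb]
      one_mem' := by simp
      add_mem' := by
        intro a b ha hb
        simp only [Set.mem_ofPred_eq] at ha hb ⊢
        simp [ha, hb]
      zero_mem' := by simp
      algebraMap_mem' := by
        intro r
        show (algebraMap 𝒪 (DualNumber (ResidueField 𝒪)) r).snd = 0
        rfl }
  have hgi : ∀ i, (φ (t (g i))).snd = 0 := by
    intro i
    have h1 : φ (t (g i) - algebraMap 𝒪 A (c i)) = 0 :=
      hφI _ (le_sup_right (a := (maximalIdeal 𝒪).map (algebraMap 𝒪 A))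
        (Ideal.subset_span ⟨i, rfl⟩))
    rw [map_sub, sub_eq_zero] at h1
    rw [h1, AlgHom.commutes]
    rfl
  have hall := H φ hgi
  have hle : Algebra.adjoin 𝒪 (Set.range t) ≤ T.comap φ := by
    rw [Algebra.adjoin_le_iff]
    rintro _ ⟨γ, rfl⟩
    exact hall γ
  rw [hgen] at hle
  exact hφx (hle (Algebra.mem_top (x := x₀)))

end

end Fermat.Agent.S53x
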