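import Fermat.Agent.S53x.FibreLift

/-!
# S53, M5 (c): the fibre product `A₁ ×_k A₂` of two local `𝒪`-algebras with residue field
`k = 𝒪/m`, as a subalgebra of `A₁ × A₂`, and the fibre product package `HasFibreLifts`.
-/

set_option autoImplicit false
set_option linter.unusedSectionVars false

namespace Fermat.Agent.S53x

open IsLocalRing GaloisRep

section general

/-- In a local ring, `u ≡ v` modulo the maximal ideal and `v` a unit imply `u` a unit. -/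
theorem fpa_isUnit_of_sub_mem {A : Type} [CommRing A] [IsLocalRing A] {u v : A}
    (h : u - v ∈ maximalIdeal A) (hv : IsUnit v) : IsUnit u := by
  by_contra hu
  have hu' : u ∈ maximalIdeal A := (mem_maximalIdeal u).mpr hu
  have : v ∈ maximalIdeal A := by
    have e : v = u - (u - v) := by ring
    rw [e]; exact Ideal.sub_mem _ hu' h
  exact (mem_maximalIdeal v).mp this hv

theorem fpa_isUnit_iff_of_sub_mem {A : Type} [CommRing A] [IsLocalRing A] {u v : A}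
    (h : u - v ∈ maximalIdeal A) : IsUnit u ↔ IsUnit v := by
  refine ⟨fun hu => fpa_isUnit_of_sub_mem ?_ hu, fpa_isUnit_of_sub_mem h⟩
  have e : v - u = -(u - v) := by ring
  rw [e]; exact Ideal.neg_mem_iff _ |>.mpr h

/-- A ring embedded in a product of two Artinian rings with surjective projections is
Artinian. -/
theorem fpa_isArtinianRing_of_jointly_injective {P A₁ A₂ : Type} [CommRing P] [CommRing A₁]
    [CommRing A₂] [IsArtinianRing A₁] [IsArtinianRing A₂] (p₁ : P →+* A₁) (p₂ : P →+* A₂)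
    (hs₁ : Function.Surjective p₁) (hs₂ : Function.Surjective p₂)
    (hinj : ∀ x y : P, p₁ x = p₁ y → p₂ x = p₂ y → x = y) : IsArtinianRing P := by
  letI : Algebra P A₁ := p₁.toAlgebra
  letI : Algebra P A₂ := p₂.toAlgebra
  haveI : IsArtinian P A₁ := isArtinian_of_surjective_algebraMap (R := A₁) (M := A₁) hs₁
  haveI : IsArtinian P A₂ := isArtinian_of_surjective_algebraMap (R := A₂) (M := A₂) hs₂
  let f : P →ₗ[P] A₁ × A₂ := LinearMap.prod (Algebra.linearMap P A₁) (Algebra.linearMap P A₂)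
  have hf : Function.Injective f := by
    intro x y hxy
    have h1 : p₁ x = p₁ y := congrArg Prod.fst hxy
    have h2 : p₂ x = p₂ y := congrArg Prod.snd hxy
    exact hinj x y h1 h2
  exact isArtinian_of_injective f hf

end general

section

variable {𝒪 : Type} [CommRing 𝒪] [IsLocalRing 𝒪]
variable (A₁ A₂ : Type) [CommRing A₁] [IsLocalRing A₁] [Algebra 𝒪 A₁]
  [CommRing A₂] [IsLocalRing A₂] [Algebra 𝒪 A₂]

/-- The fibre product of `A₁` and `A₂` over the residue field of `𝒪`: pairs congruent to a common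
constant. -/
def fpaSub : Subalgebra 𝒪 (A₁ × A₂) where
  carrier := {x | ∃ c : 𝒪, x.1 - algebraMap 𝒪 A₁ c ∈ maximalIdeal A₁ ∧
    x.2 - algebraMap 𝒪 A₂ c ∈ maximalIdeal A₂}
  mul_mem' := by
    rintro x y ⟨c, hc1, hc2⟩ ⟨d, hd1, hd2⟩
    refine ⟨c * d, ?_, ?_⟩
    · have e : (x * y).1 - algebraMap 𝒪 A₁ (c * d) =
          x.1 * (y.1 - algebraMap 𝒪 A₁ d) + (x.1 - algebraMap 𝒪 A₁ c) * algebraMap 𝒪 A₁ d := by
        rw [map_mul, Prod.fst_mul]; ring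
      rw [e]
      exact Ideal.add_mem _ (Ideal.mul_mem_left _ _ hd1) (Ideal.mul_mem_right _ _ hc1)
    · have e : (x * y).2 - algebraMap 𝒪 A₂ (c * d) =
          x.2 * (y.2 - algebraMap 𝒪 A₂ d) + (x.2 - algebraMap 𝒪 A₂ c) * algebraMap 𝒪 A₂ d := by
        rw [map_mul, Prod.snd_mul]; ring
      rw [e]
      exact Ideal.add_mem _ (Ideal.mul_mem_left _ _ hd2) (Ideal.mul_mem_right _ _ hc2)
  add_mem' := by
    rintro x y ⟨c, hc1, hc2⟩ ⟨d, hd1, hd2⟩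
    refine ⟨c + d, ?_, ?_⟩
    · have e : (x + y).1 - algebraMap 𝒪 A₁ (c + d) =
          (x.1 - algebraMap 𝒪 A₁ c) + (y.1 - algebraMap 𝒪 A₁ d) := by
        rw [map_add, Prod.fst_add]; ring
      rw [e]; exact Ideal.add_mem _ hc1 hd1
    · have e : (x + y).2 - algebraMap 𝒪 A₂ (c + d) =
          (x.2 - algebraMap 𝒪 A₂ c) + (y.2 - algebraMap 𝒪 A₂ d) := by
        rw [map_add, Prod.snd_add]; ring
      rw [e]; exact Ideal.add_mem _ hc2 hd2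
  algebraMap_mem' := by
    intro c
    refine ⟨c, ?_, ?_⟩
    · simp
    · simp

variable {A₁ A₂}

theorem mem_fpaSub {x : A₁ × A₂} : x ∈ fpaSub (𝒪 := 𝒪) A₁ A₂ ↔
    ∃ c : 𝒪, x.1 - algebraMap 𝒪 A₁ c ∈ maximalIdeal A₁ ∧
      x.2 - algebraMap 𝒪 A₂ c ∈ maximalIdeal A₂ := Iff.rfl

variable (𝒪 A₁ A₂) in
/-- First projection. -/
def fpaFst : fpaSub (𝒪 := 𝒪) A₁ A₂ →ₐ[𝒪] A₁ := (AlgHom.fst 𝒪 A₁ A₂).comp (fpaSub A₁ A₂).val

variable (𝒪 A₁ A₂) in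
/-- Second projection. -/
def fpaSnd : fpaSub (𝒪 := 𝒪) A₁ A₂ →ₐ[𝒪] A₂ := (AlgHom.snd 𝒪 A₁ A₂).comp (fpaSub A₁ A₂).val

@[simp] theorem fpaFst_apply (x : fpaSub (𝒪 := 𝒪) A₁ A₂) : fpaFst 𝒪 A₁ A₂ x = x.1.1 := rfl

@[simp] theorem fpaSnd_apply (x : fpaSub (𝒪 := 𝒪) A₁ A₂) : fpaSnd 𝒪 A₁ A₂ x = x.1.2 := rfl

theorem fpa_hinj (x y : fpaSub (𝒪 := 𝒪) A₁ A₂) (h1 : fpaFst 𝒪 A₁ A₂ x = fpaFst 𝒪 A₁ A₂ y)
    (h2 : fpaSnd 𝒪 A₁ A₂ x = fpaSnd 𝒪 A₁ A₂ y) : x = y :=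
  Subtype.ext (Prod.ext h1 h2)

theorem fpa_hsurj (a₁ : A₁) (a₂ : A₂) (c : 𝒪) (h1 : a₁ - algebraMap 𝒪 A₁ c ∈ maximalIdeal A₁)
    (h2 : a₂ - algebraMap 𝒪 A₂ c ∈ maximalIdeal A₂) :
    ∃ x : fpaSub (𝒪 := 𝒪) A₁ A₂, fpaFst 𝒪 A₁ A₂ x = a₁ ∧ fpaSnd 𝒪 A₁ A₂ x = a₂ :=
  ⟨⟨(a₁, a₂), c, h1, h2⟩, rfl, rfl⟩

variable [IsLocalHom (algebraMap 𝒪 A₁)] [IsLocalHom (algebraMap 𝒪 A₂)]

/-- Units of the fibre product are detected on the constant. -/
theorem fpa_isUnit_iff (x : fpaSub (𝒪 := 𝒪) A₁ A₂) {c : 𝒪}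
    (h1 : x.1.1 - algebraMap 𝒪 A₁ c ∈ maximalIdeal A₁)
    (h2 : x.1.2 - algebraMap 𝒪 A₂ c ∈ maximalIdeal A₂) : IsUnit x ↔ IsUnit c := by
  constructor
  · intro hx
    have h : IsUnit (fpaFst 𝒪 A₁ A₂ x) := hx.map _
    rw [fpaFst_apply, fpa_isUnit_iff_of_sub_mem h1] at h
    exact isUnit_of_map_unit (algebraMap 𝒪 A₁) c h
  · intro hc
    have ha : IsUnit x.1.1 := (fpa_isUnit_iff_of_sub_mem h1).mpr (hc.map _)
    have hb : IsUnit x.1.2 := (fpa_isUnit_iff_of_sub_mem h2).mpr (hc.map _)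
    obtain ⟨a', ha'⟩ := ha.exists_right_inv
    obtain ⟨b', hb'⟩ := hb.exists_right_inv
    obtain ⟨c', hc'⟩ := hc.exists_right_inv
    have hm1 : a' - algebraMap 𝒪 A₁ c' ∈ maximalIdeal A₁ := by
      have e : a' - algebraMap 𝒪 A₁ c' =
          -(a' * algebraMap 𝒪 A₁ c') * (x.1.1 - algebraMap 𝒪 A₁ c) := by
        have e1 : algebraMap 𝒪 A₁ c * algebraMap 𝒪 A₁ c' = 1 := by
          rw [← map_mul, hc', map_one]
        calc a' - algebraMap 𝒪 A₁ c'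
            = a' * (algebraMap 𝒪 A₁ c * algebraMap 𝒪 A₁ c') -
              (x.1.1 * a') * algebraMap 𝒪 A₁ c' := by rw [e1, ha']; ring
          _ = _ := by ring
      rw [e]; exact Ideal.mul_mem_left _ _ h1
    have hm2 : b' - algebraMap 𝒪 A₂ c' ∈ maximalIdeal A₂ := by
      have e : b' - algebraMap 𝒪 A₂ c' =
          -(b' * algebraMap 𝒪 A₂ c') * (x.1.2 - algebraMap 𝒪 A₂ c) := by
        have e1 : algebraMap 𝒪 A₂ c * algebraMap 𝒪 A₂ c' = 1 := by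
          rw [← map_mul, hc', map_one]
        calc b' - algebraMap 𝒪 A₂ c'
            = b' * (algebraMap 𝒪 A₂ c * algebraMap 𝒪 A₂ c') -
              (x.1.2 * b') * algebraMap 𝒪 A₂ c' := by rw [e1, hb']; ring
          _ = _ := by ring
      rw [e]; exact Ideal.mul_mem_left _ _ h2
    refine IsUnit.of_mul_eq_one (⟨(a', b'), c', hm1, hm2⟩ : fpaSub (𝒪 := 𝒪) A₁ A₂) ?_
    exact Subtype.ext (Prod.ext ha' hb')

instance fpa_nontrivial : Nontrivial (fpaSub (𝒪 := 𝒪) A₁ A₂) :=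
  ⟨⟨0, 1, fun h => by
    have : (0 : A₁) = 1 := congrArg (fun x : fpaSub (𝒪 := 𝒪) A₁ A₂ => x.1.1) h
    exact zero_ne_one this⟩⟩

instance fpa_isLocalRing : IsLocalRing (fpaSub (𝒪 := 𝒪) A₁ A₂) := by
  refine IsLocalRing.of_isUnit_or_isUnit_one_sub_self fun x => ?_
  obtain ⟨c, h1, h2⟩ := x.2
  rcases IsLocalRing.isUnit_or_isUnit_one_sub_self c with hc | hc
  · exact Or.inl ((fpa_isUnit_iff x h1 h2).mpr hc)
  · right
    refine (fpa_isUnit_iff (1 - x) (c := 1 - c) ?_ ?_).mpr hc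
    · have e : (1 - x).1.1 - algebraMap 𝒪 A₁ (1 - c) = -(x.1.1 - algebraMap 𝒪 A₁ c) := by
        rw [map_sub, map_one]
        show (1 - x.1.1) - _ = _
        ring
      rw [e]; exact (Ideal.neg_mem_iff _).mpr h1
    · have e : (1 - x).1.2 - algebraMap 𝒪 A₂ (1 - c) = -(x.1.2 - algebraMap 𝒪 A₂ c) := by
        rw [map_sub, map_one]
        show (1 - x.1.2) - _ = _
        ring
      rw [e]; exact (Ideal.neg_mem_iff _).mpr h2

theorem fpa_isLocalHom_fst : IsLocalHom (fpaFst 𝒪 A₁ A₂ : fpaSub (𝒪 := 𝒪) A₁ A₂ →+* A₁) := by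
  constructor
  intro x hx
  obtain ⟨c, h1, h2⟩ := x.2
  have hx' : IsUnit x.1.1 := hx
  rw [fpa_isUnit_iff_of_sub_mem h1] at hx'
  exact (fpa_isUnit_iff x h1 h2).mpr (isUnit_of_map_unit (algebraMap 𝒪 A₁) c hx')

theorem fpa_isLocalHom_snd : IsLocalHom (fpaSnd 𝒪 A₁ A₂ : fpaSub (𝒪 := 𝒪) A₁ A₂ →+* A₂) := by
  constructor
  intro x hx
  obtain ⟨c, h1, h2⟩ := x.2
  have hx' : IsUnit x.1.2 := hx
  rw [fpa_isUnit_iff_of_sub_mem h2] at hx'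
  exact (fpa_isUnit_iff x h1 h2).mpr (isUnit_of_map_unit (algebraMap 𝒪 A₂) c hx')

instance fpa_isLocalHom_algebraMap : IsLocalHom (algebraMap 𝒪 (fpaSub (𝒪 := 𝒪) A₁ A₂)) := by
  constructor
  intro c hc
  have h : IsUnit (fpaFst 𝒪 A₁ A₂ (algebraMap 𝒪 (fpaSub (𝒪 := 𝒪) A₁ A₂) c)) := hc.map _
  rw [AlgHom.commutes] at h
  exact isUnit_of_map_unit (algebraMap 𝒪 A₁) c h

/-- The fibre product of two test algebras is a test algebra. -/
theorem fpa_isArtinianTestAlgebra (hA₁ : IsArtinianTestAlgebra 𝒪 A₁)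
    (hA₂ : IsArtinianTestAlgebra 𝒪 A₂) : IsArtinianTestAlgebra 𝒪 (fpaSub (𝒪 := 𝒪) A₁ A₂) where
  isLocalHom := inferInstance
  residue_surjective := by
    intro y
    obtain ⟨x, rfl⟩ := residue_surjective y
    obtain ⟨c, h1, h2⟩ := x.2
    refine ⟨c, ?_⟩
    symm
    apply Ideal.Quotient.eq.mpr
    rw [mem_maximalIdeal, mem_nonunits_iff]
    intro hu
    have h : IsUnit (fpaFst 𝒪 A₁ A₂ (x - algebraMap 𝒪 (fpaSub (𝒪 := 𝒪) A₁ A₂) c)) := hu.map _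
    rw [map_sub, AlgHom.commutes, fpaFst_apply] at h
    exact (mem_maximalIdeal _).mp h1 h
  isArtinian := by
    haveI := hA₁.isArtinian
    haveI := hA₂.isArtinian
    refine fpa_isArtinianRing_of_jointly_injective
      (fpaFst 𝒪 A₁ A₂ : fpaSub (𝒪 := 𝒪) A₁ A₂ →+* A₁)
      (fpaSnd 𝒪 A₁ A₂ : fpaSub (𝒪 := 𝒪) A₁ A₂ →+* A₂) ?_ ?_ fpa_hinj
    · intro a
      obtain ⟨c, hc⟩ := hA₁.residue_surjective (residue A₁ a)
      have h1 : a - algebraMap 𝒪 A₁ c ∈ maximalIdeal A₁ := Ideal.Quotient.eq.mp hc.symm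
      obtain ⟨x, hx, -⟩ := fpa_hsurj (A₂ := A₂) a (algebraMap 𝒪 A₂ c) c h1 (by simp)
      exact ⟨x, hx⟩
    · intro b
      obtain ⟨c, hc⟩ := hA₂.residue_surjective (residue A₂ b)
      have h2 : b - algebraMap 𝒪 A₂ c ∈ maximalIdeal A₂ := Ideal.Quotient.eq.mp hc.symm
      obtain ⟨x, -, hx⟩ := fpa_hsurj (A₁ := A₁) (algebraMap 𝒪 A₁ c) b c (by simp) h2
      exact ⟨x, hx⟩

end

section

variable {𝒪 : Type} [CommRing 𝒪] [IsLocalRing 𝒪]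
variable {𝒟 : ∀ ⦃A : Type⦄ [CommRing A] [IsLocalRing A] [Algebra 𝒪 A], GaloisRepAdic A → Prop}
variable {rbar : GQ →* M2 (ResidueField 𝒪)}

/-- **M5 package**: strict type-`𝒟` lifts glue over fibre products. -/
theorem hasFibreLifts (h𝒟 : IsDeformationCondition 𝒪 𝒟) : HasFibreLifts 𝒪 𝒟 rbar := by
  intro A₁ A₂ _ _ _ _ _ _ hA₁ hA₂ r₁ r₂ hr₁ hr₂
  haveI := hA₁.isLocalHom
  haveI := hA₂.isLocalHom
  have hP := fpa_isArtinianTestAlgebra hA₁ hA₂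
  obtain ⟨r, hr, h1, h2⟩ := exists_isDLift_of_fibre h𝒟 hA₁ hA₂ hP (fpaFst 𝒪 A₁ A₂)
    (fpaSnd 𝒪 A₁ A₂) fpa_isLocalHom_fst fpa_isLocalHom_snd fpa_hinj fpa_hsurj hr₁ hr₂
  refine ⟨fpaSub (𝒪 := 𝒪) A₁ A₂, inferInstance, inferInstance, inferInstance, hP,
    fpaFst 𝒪 A₁ A₂, fpaSnd 𝒪 A₁ A₂, fpa_hinj, ?_, r, hr, h1, h2⟩
  intro a₁ ha₁ a₂ ha₂
  exact fpa_hsurj a₁ a₂ 0 (by simpa using ha₁) (by simpa using ha₂)

end

end Fermat.Agent.S53x
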