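import Fermat.Agent.S53x.AdmissibleInf

/-!
# S53, M5 (d),(e) in abstract form: gluing two strict type-`𝒟` lifts over a fibre product

`P` is any test algebra with two local projections `p₁ : P → A₁`, `p₂ : P → A₂` which are jointly
injective and such that every pair `(a₁, a₂)` with the same residue class (witnessed by a
constant `c : 𝒪`) comes from `P`.  Then two strict type-`𝒟` lifts `r₁`, `r₂` glue to a strict
type-`𝒟` lift over `P`.
-/

set_option autoImplicit false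

namespace Fermat.Agent.S53x

open IsLocalRing GaloisRep

section

variable {𝒪 : Type} [CommRing 𝒪] [IsLocalRing 𝒪]

/-- The residue field of `𝒪` is an Artinian test algebra. -/
theorem isArtinianTestAlgebra_residueField : IsArtinianTestAlgebra 𝒪 (ResidueField 𝒪) where
  isLocalHom := by
    rw [ResidueField.algebraMap_eq]; infer_instance
  residue_surjective := by
    rw [ResidueField.algebraMap_eq]
    exact (residue_surjective (R := ResidueField 𝒪)).comp (residue_surjective (R := 𝒪))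
  isArtinian := inferInstance

/-- The residue map of a local `𝒪`-algebra with residue field `k = 𝒪/m`, as an `𝒪`-algebra map
to `k`. -/
theorem exists_algHom_residueField (A : Type) [CommRing A] [IsLocalRing A] [Algebra 𝒪 A]
    [IsLocalHom (algebraMap 𝒪 A)]
    (hs : Function.Surjective (residue A ∘ algebraMap 𝒪 A)) :
    ∃ f : A →ₐ[𝒪] ResidueField 𝒪, ∀ (a : A) (c : 𝒪),
      f a = residue 𝒪 c ↔ a - algebraMap 𝒪 A c ∈ maximalIdeal A := by
  have hbij : Function.Bijective (ResidueField.map (algebraMap 𝒪 A)) := by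
    refine ⟨RingHom.injective _, fun y => ?_⟩
    obtain ⟨c, hc⟩ := hs y
    exact ⟨residue 𝒪 c, by rw [ResidueField.map_residue]; exact hc⟩
  let e : ResidueField 𝒪 ≃+* ResidueField A := RingEquiv.ofBijective _ hbij
  have he : ∀ x, e x = ResidueField.map (algebraMap 𝒪 A) x := fun x => rfl
  let f₀ : A →+* ResidueField 𝒪 := (e.symm : ResidueField A →+* ResidueField 𝒪).comp (residue A)
  have hf₀ : ∀ (a : A) (c : 𝒪), f₀ a = residue 𝒪 c ↔ a - algebraMap 𝒪 A c ∈ maximalIdeal A := by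
    intro a c
    have h1 : f₀ a = e.symm (residue A a) := rfl
    rw [h1, RingEquiv.symm_apply_eq, he, ResidueField.map_residue]
    exact Ideal.Quotient.eq
  refine ⟨{ f₀ with commutes' := fun c => ?_ }, hf₀⟩
  show f₀ (algebraMap 𝒪 A c) = algebraMap 𝒪 (ResidueField 𝒪) c
  rw [ResidueField.algebraMap_eq, hf₀, sub_self]
  exact zero_mem _

end

section

variable {𝒪 : Type} [CommRing 𝒪] [IsLocalRing 𝒪]
variable {𝒟 : ∀ ⦃A : Type⦄ [CommRing A] [IsLocalRing A] [Algebra 𝒪 A], GaloisRepAdic A → Prop}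
variable {rbar : GQ →* M2 (ResidueField 𝒪)}

/-- Entrywise consequence of strictness. -/
theorem IsDLift.entry_sub_mem {A : Type} [CommRing A] [IsLocalRing A] [Algebra 𝒪 A]
    [IsLocalHom (algebraMap 𝒪 A)] {r : GQ →* M2 A}
    (hr : ∀ σ, (r σ).map (residue A) = (rbar σ).map (ResidueField.map (algebraMap 𝒪 A)))
    (σ : GQ) (i j : Fin 2) {c : 𝒪} (hc : residue 𝒪 c = rbar σ i j) :
    r σ i j - algebraMap 𝒪 A c ∈ maximalIdeal A := by
  have h := congrFun (congrFun (hr σ) i) j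
  simp only [Matrix.map_apply] at h
  rw [← hc, ResidueField.map_residue] at h
  exact Ideal.Quotient.eq.mp h

/-- Converse: entrywise congruences give strictness. -/
theorem strict_of_entry_sub_mem {A : Type} [CommRing A] [IsLocalRing A] [Algebra 𝒪 A]
    [IsLocalHom (algebraMap 𝒪 A)] {r : GQ →* M2 A}
    (h : ∀ (σ : GQ) (i j : Fin 2), ∃ c : 𝒪, residue 𝒪 c = rbar σ i j ∧
      r σ i j - algebraMap 𝒪 A c ∈ maximalIdeal A) (σ : GQ) :
    (r σ).map (residue A) = (rbar σ).map (ResidueField.map (algebraMap 𝒪 A)) := by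
  ext i j
  obtain ⟨c, hc, hm⟩ := h σ i j
  simp only [Matrix.map_apply]
  rw [← hc, ResidueField.map_residue]
  exact Ideal.Quotient.eq.mpr hm

/-- **Gluing over a fibre product.** -/
theorem exists_isDLift_of_fibre (h𝒟 : IsDeformationCondition 𝒪 𝒟)
    {A₁ A₂ P : Type} [CommRing A₁] [IsLocalRing A₁] [Algebra 𝒪 A₁] [IsLocalHom (algebraMap 𝒪 A₁)]
    [CommRing A₂] [IsLocalRing A₂] [Algebra 𝒪 A₂] [IsLocalHom (algebraMap 𝒪 A₂)]
    [CommRing P] [IsLocalRing P] [Algebra 𝒪 P] [IsLocalHom (algebraMap 𝒪 P)]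
    (hA₁ : IsArtinianTestAlgebra 𝒪 A₁) (hA₂ : IsArtinianTestAlgebra 𝒪 A₂)
    (hP : IsArtinianTestAlgebra 𝒪 P)
    (p₁ : P →ₐ[𝒪] A₁) (p₂ : P →ₐ[𝒪] A₂) (hp₁ : IsLocalHom (p₁ : P →+* A₁))
    (hp₂ : IsLocalHom (p₂ : P →+* A₂))
    (hinj : ∀ x y : P, p₁ x = p₁ y → p₂ x = p₂ y → x = y)
    (hsurj : ∀ (a₁ : A₁) (a₂ : A₂) (c : 𝒪), a₁ - algebraMap 𝒪 A₁ c ∈ maximalIdeal A₁ →
      a₂ - algebraMap 𝒪 A₂ c ∈ maximalIdeal A₂ → ∃ x : P, p₁ x = a₁ ∧ p₂ x = a₂)
    {r₁ : GQ →* M2 A₁} {r₂ : GQ →* M2 A₂} (hr₁ : IsDLift 𝒪 𝒟 rbar A₁ r₁)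
    (hr₂ : IsDLift 𝒪 𝒟 rbar A₂ r₂) :
    ∃ r : GQ →* M2 P, IsDLift 𝒪 𝒟 rbar P r ∧ mapRep (p₁ : P →+* A₁) r = r₁ ∧
      mapRep (p₂ : P →+* A₂) r = r₂ := by
  classical
  -- entries
  have hent : ∀ (σ : GQ) (i j : Fin 2), ∃ x : P, p₁ x = r₁ σ i j ∧ p₂ x = r₂ σ i j := by
    intro σ i j
    obtain ⟨c, hc⟩ := residue_surjective (rbar σ i j)
    exact hsurj _ _ c (IsDLift.entry_sub_mem hr₁.strict σ i j hc)
      (IsDLift.entry_sub_mem hr₂.strict σ i j hc)
  choose x hx₁ hx₂ using hent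
  -- joint injectivity for matrices
  have hinjM : ∀ X Y : M2 P, X.map p₁ = Y.map p₁ → X.map p₂ = Y.map p₂ → X = Y := by
    intro X Y h1 h2
    ext i j
    apply hinj
    · simpa using congrFun (congrFun h1 i) j
    · simpa using congrFun (congrFun h2 i) j
  let R : GQ → M2 P := fun σ => Matrix.of fun i j => x σ i j
  have hR₁ : ∀ σ, (R σ).map p₁ = r₁ σ := fun σ => by
    ext i j; simp [R, hx₁]
  have hR₂ : ∀ σ, (R σ).map p₂ = r₂ σ := fun σ => by
    ext i j; simp [R, hx₂]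
  have hmapmul : ∀ {B : Type} [CommRing B] (p : P →+* B) (X Y : M2 P),
      (X * Y).map p = X.map p * Y.map p := fun p X Y => Matrix.map_mul
  have hone : R 1 = 1 := by
    apply hinjM
    · rw [hR₁, map_one]
      exact (Matrix.map_one (p₁ : P →+* A₁) (map_zero _) (map_one _)).symm
    · rw [hR₂, map_one]
      exact (Matrix.map_one (p₂ : P →+* A₂) (map_zero _) (map_one _)).symm
  have hmul : ∀ σ τ, R (σ * τ) = R σ * R τ := by
    intro σ τ
    apply hinjM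
    · have := hmapmul (p₁ : P →+* A₁) (R σ) (R τ)
      have e1 : (R σ * R τ).map p₁ = (R σ).map p₁ * (R τ).map p₁ := this
      rw [e1, hR₁, hR₁, hR₁, map_mul]
    · have := hmapmul (p₂ : P →+* A₂) (R σ) (R τ)
      have e1 : (R σ * R τ).map p₂ = (R σ).map p₂ * (R τ).map p₂ := this
      rw [e1, hR₂, hR₂, hR₂, map_mul]
  let r : GQ →* M2 P := { toFun := R, map_one' := hone, map_mul' := hmul }
  have hr1 : mapRep (p₁ : P →+* A₁) r = r₁ := by
    ext σ : 1
    exact hR₁ σ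
  have hr2 : mapRep (p₂ : P →+* A₂) r = r₂ := by
    ext σ : 1
    exact hR₂ σ
  -- continuity
  haveI : IsArtinianRing A₁ := hA₁.isArtinian
  haveI : IsArtinianRing A₂ := hA₂.isArtinian
  haveI : IsArtinianRing P := hP.isArtinian
  have hnil : ∀ (B : Type) [CommRing B] [IsLocalRing B] [IsArtinianRing B],
      ∃ n : ℕ, maximalIdeal B ^ n = ⊥ := by
    intro B _ _ _
    obtain ⟨n, hn⟩ := IsArtinianRing.isNilpotent_jacobson_bot (R := B)
    rw [IsLocalRing.jacobson_eq_maximalIdeal ⊥ bot_ne_top] at hn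
    exact ⟨n, hn⟩
  obtain ⟨n₁, hn₁⟩ := hnil A₁
  obtain ⟨n₂, hn₂⟩ := hnil A₂
  obtain ⟨L₁, hL₁, hl₁⟩ := finLevelMod_bot_of_adicCont hn₁ hr₁.cont
  obtain ⟨L₂, hL₂, hl₂⟩ := finLevelMod_bot_of_adicCont hn₂ hr₂.cont
  have hcont : AdicCont r := by
    apply adicCont_of_finLevelMod_bot
    refine ⟨L₁ ⊔ L₂, IntermediateField.finiteDimensional_sup L₁ L₂, fun σ hσ i j => ?_⟩
    have h1 : r₁ σ = 1 := mf_eq_one_of_finLevelMod_bot
      (hl₁ σ fun y hy => hσ y ((le_sup_left : L₁ ≤ L₁ ⊔ L₂) hy))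
    have h2 : r₂ σ = 1 := mf_eq_one_of_finLevelMod_bot
      (hl₂ σ fun y hy => hσ y ((le_sup_right : L₂ ≤ L₁ ⊔ L₂) hy))
    have : r σ = 1 := by
      apply hinjM
      · show (R σ).map p₁ = _
        rw [hR₁, h1]
        exact (Matrix.map_one (p₁ : P →+* A₁) (map_zero _) (map_one _)).symm
      · show (R σ).map p₂ = _
        rw [hR₂, h2]
        exact (Matrix.map_one (p₂ : P →+* A₂) (map_zero _) (map_one _)).symm
    rw [this, sub_self]
    exact zero_mem _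
  -- strictness
  have hstrict : ∀ σ, (r σ).map (residue P) =
      (rbar σ).map (ResidueField.map (algebraMap 𝒪 P)) := by
    apply strict_of_entry_sub_mem
    intro σ i j
    obtain ⟨c, hc⟩ := residue_surjective (rbar σ i j)
    refine ⟨c, hc, ?_⟩
    rw [mem_maximalIdeal, mem_nonunits_iff]
    intro hu
    have h1 : IsUnit ((p₁ : P →+* A₁) (r σ i j - algebraMap 𝒪 P c)) := hu.map _
    have h2 : (p₁ : P →+* A₁) (r σ i j - algebraMap 𝒪 P c) =
        r₁ σ i j - algebraMap 𝒪 A₁ c := by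
      rw [map_sub]
      congr 1
      · exact hx₁ σ i j
      · exact p₁.commutes c
    rw [h2] at h1
    exact (mem_maximalIdeal _).mp (IsDLift.entry_sub_mem hr₁.strict σ i j hc) h1
  -- type 𝒟
  obtain ⟨f₁, hf₁⟩ := exists_algHom_residueField (𝒪 := 𝒪) A₁ hA₁.residue_surjective
  obtain ⟨f₂, hf₂⟩ := exists_algHom_residueField (𝒪 := 𝒪) A₂ hA₂.residue_surjective
  have hPc : ∀ y : P, ∃ c : 𝒪, y - algebraMap 𝒪 P c ∈ maximalIdeal P := by
    intro y
    obtain ⟨c, hc⟩ := hP.residue_surjective (residue P y)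
    exact ⟨c, Ideal.Quotient.eq.mp hc.symm⟩
  have hcomp : f₁.comp p₁ = f₂.comp p₂ := by
    ext y
    obtain ⟨c, hc⟩ := hPc y
    have h1 : p₁ y - algebraMap 𝒪 A₁ c ∈ maximalIdeal A₁ := by
      have := (haveI := hp₁; map_nonunit (p₁ : P →+* A₁) _ hc)
      rwa [map_sub, show (p₁ : P →+* A₁) (algebraMap 𝒪 P c) = algebraMap 𝒪 A₁ c from
        p₁.commutes c] at this
    have h2 : p₂ y - algebraMap 𝒪 A₂ c ∈ maximalIdeal A₂ := by
      have := (haveI := hp₂; map_nonunit (p₂ : P →+* A₂) _ hc)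
      rwa [map_sub, show (p₂ : P →+* A₂) (algebraMap 𝒪 P c) = algebraMap 𝒪 A₂ c from
        p₂.commutes c] at this
    show f₁ (p₁ y) = f₂ (p₂ y)
    rw [(hf₁ _ c).mpr h1, (hf₂ _ c).mpr h2]
  have hD₁ : 𝒟 ((ofMat r hcont).baseChangeAlong (p₁ : P →+* A₁) hp₁) := by
    refine h𝒟.of_isEquiv hA₁ ?_ hr₁.isD
    refine mf_isEquiv_symm (mf_isEquiv_trans (baseChangeAlong_ofMat (p₁ : P →+* A₁) hp₁ r hcont) ?_)
    exact ofMat_isEquiv_of_eq _ _ (fun σ => by rw [hr1])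
  have hD₂ : 𝒟 ((ofMat r hcont).baseChangeAlong (p₂ : P →+* A₂) hp₂) := by
    refine h𝒟.of_isEquiv hA₂ ?_ hr₂.isD
    refine mf_isEquiv_symm (mf_isEquiv_trans (baseChangeAlong_ofMat (p₂ : P →+* A₂) hp₂ r hcont) ?_)
    exact ofMat_isEquiv_of_eq _ _ (fun σ => by rw [hr2])
  have hD : 𝒟 (ofMat r hcont) := by
    refine h𝒟.of_fibreProduct hA₁ hA₂ (isArtinianTestAlgebra_residueField (𝒪 := 𝒪)) hP f₁ f₂ p₁ p₂
      hp₁ hp₂ hcomp ?_ ?_ hD₁ hD₂
    · intro y z hyz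
      simp only [Prod.mk.injEq] at hyz
      exact hinj y z hyz.1 hyz.2
    · intro a b hab
      obtain ⟨c, hc⟩ := residue_surjective (f₁ a)
      have h1 := (hf₁ a c).mp hc.symm
      have h2 := (hf₂ b c).mp (by rw [← hab]; exact hc.symm)
      exact hsurj a b c h1 h2
  exact ⟨r, ⟨hcont, hstrict, hD⟩, hr1, hr2⟩

end

end Fermat.Agent.S53x
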