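import Fermat.Agent.S53x.TestAlg
import Fermat.Agent.S53x.FibreLift

/-!
# S53, M5 (c)+(d)+(e): the concrete fibre product over `k` and gluing of two strict `𝒟`-lifts

This file instantiates the abstract gluing theorem `exists_isDLift_of_fibre` (FibreLift.lean) at
the concrete fibre product `fibProd 𝒪 A₁ A₂` (TestAlg.lean), and also packages the existence of a
fibre-product-like test algebra in the abstract shape.
-/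

set_option autoImplicit false

namespace Fermat.Agent.S53x

open IsLocalRing GaloisRep

section

variable {𝒪 : Type} [CommRing 𝒪] [IsLocalRing 𝒪] [Finite (ResidueField 𝒪)]
variable {A₁ : Type} [CommRing A₁] [IsLocalRing A₁] [Algebra 𝒪 A₁]
variable {A₂ : Type} [CommRing A₂] [IsLocalRing A₂] [Algebra 𝒪 A₂]

omit [IsLocalRing 𝒪] [Finite (ResidueField 𝒪)] in
/-- The structure map of the concrete fibre product is a local hom. -/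
instance fibProd_algebraMap_isLocalHom [h₁ : IsLocalHom (algebraMap 𝒪 A₁)]
    [IsLocalHom (algebraMap 𝒪 A₂)] : IsLocalHom (algebraMap 𝒪 (fibProd 𝒪 A₁ A₂)) := by
  refine ⟨fun c hc => ?_⟩
  have h : IsUnit ((fibProdFst 𝒪 A₁ A₂ : fibProd 𝒪 A₁ A₂ →+* A₁)
      (algebraMap 𝒪 (fibProd 𝒪 A₁ A₂) c)) := hc.map _
  have e : (fibProdFst 𝒪 A₁ A₂ : fibProd 𝒪 A₁ A₂ →+* A₁) (algebraMap 𝒪 (fibProd 𝒪 A₁ A₂) c) =
      algebraMap 𝒪 A₁ c := (fibProdFst 𝒪 A₁ A₂).commutes c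
  rw [e] at h
  exact h₁.map_nonunit c h

omit [IsLocalRing 𝒪] [Finite (ResidueField 𝒪)] in
/-- The lifting property of the concrete fibre product: pairs congruent to a common constant. -/
theorem fibProd_exists_of_sub_mem (a₁ : A₁) (a₂ : A₂) (c : 𝒪)
    (h1 : a₁ - algebraMap 𝒪 A₁ c ∈ maximalIdeal A₁)
    (h2 : a₂ - algebraMap 𝒪 A₂ c ∈ maximalIdeal A₂) :
    ∃ x : fibProd 𝒪 A₁ A₂, fibProdFst 𝒪 A₁ A₂ x = a₁ ∧ fibProdSnd 𝒪 A₁ A₂ x = a₂ :=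
  ⟨⟨(a₁, a₂), mem_fibProd.mpr ⟨c, h1, h2⟩⟩, rfl, rfl⟩

/-- **Existence of a fibre-product package** (abstract shape used in `exists_isDLift_of_fibre`). -/
theorem exists_fibre_package [IsLocalHom (algebraMap 𝒪 A₁)] [IsLocalHom (algebraMap 𝒪 A₂)]
    (hA₁ : IsArtinianTestAlgebra 𝒪 A₁) (hA₂ : IsArtinianTestAlgebra 𝒪 A₂) :
    ∃ (P : Type) (_ : CommRing P) (_ : IsLocalRing P) (_ : Algebra 𝒪 P)
      (_ : IsLocalHom (algebraMap 𝒪 P)) (_ : IsArtinianTestAlgebra 𝒪 P)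
      (p₁ : P →ₐ[𝒪] A₁) (p₂ : P →ₐ[𝒪] A₂),
      IsLocalHom (p₁ : P →+* A₁) ∧ IsLocalHom (p₂ : P →+* A₂) ∧
      (∀ x y : P, p₁ x = p₁ y → p₂ x = p₂ y → x = y) ∧
      (∀ (a₁ : A₁) (a₂ : A₂) (c : 𝒪), a₁ - algebraMap 𝒪 A₁ c ∈ maximalIdeal A₁ →
        a₂ - algebraMap 𝒪 A₂ c ∈ maximalIdeal A₂ → ∃ x : P, p₁ x = a₁ ∧ p₂ x = a₂) :=
  ⟨fibProd 𝒪 A₁ A₂, inferInstance, inferInstance, inferInstance, inferInstance,
    testAlg_fibProd hA₁ hA₂, fibProdFst 𝒪 A₁ A₂, fibProdSnd 𝒪 A₁ A₂, inferInstance, inferInstance,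
    fun _ _ h1 h2 => fibProd_ext h1 h2, fibProd_exists_of_sub_mem⟩

end

section

variable {𝒪 : Type} [CommRing 𝒪] [IsLocalRing 𝒪] [Finite (ResidueField 𝒪)]
variable {𝒟 : ∀ ⦃A : Type⦄ [CommRing A] [IsLocalRing A] [Algebra 𝒪 A], GaloisRepAdic A → Prop}
variable {rbar : GQ →* M2 (ResidueField 𝒪)}

/-- **Gluing two strict type-`𝒟` lifts over the concrete fibre product `A₁ ×ₖ A₂`.** -/
theorem exists_isDLift_fibProd (h𝒟 : IsDeformationCondition 𝒪 𝒟)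
    {A₁ A₂ : Type} [CommRing A₁] [IsLocalRing A₁] [Algebra 𝒪 A₁] [IsLocalHom (algebraMap 𝒪 A₁)]
    [CommRing A₂] [IsLocalRing A₂] [Algebra 𝒪 A₂] [IsLocalHom (algebraMap 𝒪 A₂)]
    (hA₁ : IsArtinianTestAlgebra 𝒪 A₁) (hA₂ : IsArtinianTestAlgebra 𝒪 A₂)
    {r₁ : GQ →* M2 A₁} {r₂ : GQ →* M2 A₂} (hr₁ : IsDLift 𝒪 𝒟 rbar A₁ r₁)
    (hr₂ : IsDLift 𝒪 𝒟 rbar A₂ r₂) :
    ∃ r : GQ →* M2 (fibProd 𝒪 A₁ A₂), IsDLift 𝒪 𝒟 rbar (fibProd 𝒪 A₁ A₂) r ∧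
      mapRep (fibProdFst 𝒪 A₁ A₂ : fibProd 𝒪 A₁ A₂ →+* A₁) r = r₁ ∧
      mapRep (fibProdSnd 𝒪 A₁ A₂ : fibProd 𝒪 A₁ A₂ →+* A₂) r = r₂ :=
  exists_isDLift_of_fibre h𝒟 hA₁ hA₂ (testAlg_fibProd hA₁ hA₂) (fibProdFst 𝒪 A₁ A₂)
    (fibProdSnd 𝒪 A₁ A₂) inferInstance inferInstance (fun _ _ h1 h2 => fibProd_ext h1 h2)
    fibProd_exists_of_sub_mem hr₁ hr₂

end

end Fermat.Agent.S53x
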