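import Fermat.Agent.S53x.Basic

/-!
# S53 module M1a: a unit Gram determinant gives a basis of `M2 A`

If the Gram matrix `(tr (r (g i) * r (g j)))` of four matrices `r (g i)` has unit determinant,
then the `r (g i)` form an `A`-basis of `M2 A`, and the coordinates of any `y` are obtained from
the traces `tr (y * r (g j))` by applying the inverse Gram matrix.
-/

set_option autoImplicit false

namespace Fermat.Agent.S53x

open Matrix

section

variable {Γ A : Type} [Monoid Γ] [CommRing A]

/-- Entry formula for the Gram matrix. -/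
lemma gram_apply (r : Γ →* M2 A) (g : Fin 4 → Γ) (i j : Fin 4) :
    gram r g i j = (r (g i) * r (g j)).trace := by
  simp [gram, map_mul]

/-- The Gram matrix is symmetric. -/
lemma gram_transpose (r : Γ →* M2 A) (g : Fin 4 → Γ) : (gram r g)ᵀ = gram r g := by
  ext i j
  rw [Matrix.transpose_apply, gram_apply, gram_apply, Matrix.trace_mul_comm]

/-- `c ↦ ∑ i, c i • r (g i)`. -/
noncomputable def gramComb (r : Γ →* M2 A) (g : Fin 4 → Γ) : (Fin 4 → A) →ₗ[A] M2 A :=
  Fintype.linearCombination A (fun i => r (g i))

lemma gramComb_apply (r : Γ →* M2 A) (g : Fin 4 → Γ) (c : Fin 4 → A) :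
    gramComb r g c = ∑ i, c i • r (g i) := by
  simp [gramComb, Fintype.linearCombination_apply]

/-- `y ↦ (tr (y * r (g j)))_j`. -/
noncomputable def gramTr (r : Γ →* M2 A) (g : Fin 4 → Γ) : M2 A →ₗ[A] (Fin 4 → A) where
  toFun y := fun j => (y * r (g j)).trace
  map_add' y z := by
    funext j
    simp [Matrix.add_mul, Matrix.trace_add]
  map_smul' a y := by
    funext j
    simp [Matrix.trace_smul]

@[simp] lemma gramTr_apply (r : Γ →* M2 A) (g : Fin 4 → Γ) (y : M2 A) (j : Fin 4) :
    gramTr r g y j = (y * r (g j)).trace := rfl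

/-- `gramTr ∘ gramComb` is multiplication by the Gram matrix. -/
lemma gramTr_gramComb (r : Γ →* M2 A) (g : Fin 4 → Γ) (c : Fin 4 → A) :
    gramTr r g (gramComb r g c) = (gram r g).mulVec c := by
  funext j
  rw [gramTr_apply, gramComb_apply, Finset.sum_mul, Matrix.trace_sum, Matrix.mulVec, dotProduct]
  refine Finset.sum_congr rfl fun i _ => ?_
  rw [Matrix.smul_mul, Matrix.trace_smul, smul_eq_mul, mul_comm, gram_apply,
    Matrix.trace_mul_comm]

/-- With a unit Gram determinant the trace-coordinate map is surjective. -/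
lemma gramTr_surjective (r : Γ →* M2 A) (g : Fin 4 → Γ) (hg : IsUnit (gram r g).det) :
    Function.Surjective (gramTr r g) := by
  intro t
  refine ⟨gramComb r g ((gram r g)⁻¹.mulVec t), ?_⟩
  rw [gramTr_gramComb, Matrix.mulVec_mulVec, Matrix.mul_nonsing_inv _ hg, Matrix.one_mulVec]

/-- A fixed linear identification of `Fin 4 → A` with `M2 A`. -/
noncomputable def flat4 (A : Type) [CommRing A] : (Fin 4 → A) ≃ₗ[A] M2 A :=
  (LinearEquiv.funCongrLeft A A finProdFinEquiv).trans (LinearEquiv.curry A A (Fin 2) (Fin 2))

/-- With a unit Gram determinant the trace-coordinate map is injective. -/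
lemma gramTr_injective (r : Γ →* M2 A) (g : Fin 4 → Γ) (hg : IsUnit (gram r g).det) :
    Function.Injective (gramTr r g) := by
  have h1 : Function.Surjective ((gramTr r g).comp (flat4 A).toLinearMap) :=
    (gramTr_surjective r g hg).comp (flat4 A).surjective
  have h2 : Function.Injective ((gramTr r g).comp (flat4 A).toLinearMap) :=
    OrzechProperty.injective_of_surjective_endomorphism _ h1
  intro y z hyz
  have := @h2 ((flat4 A).symm y) ((flat4 A).symm z) (by simpa using hyz)
  exact (flat4 A).symm.injective this

end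

/-- **Gram expansion**: coordinates of `y` in the basis `r (g i)` via traces. -/
theorem gram_span {Γ A : Type} [Monoid Γ] [CommRing A] (r : Γ →* M2 A) (g : Fin 4 → Γ)
    (hg : IsUnit (gram r g).det) (y : M2 A) :
    y = ∑ i, ((gram r g)⁻¹.mulVec (fun j => (y * r (g j)).trace)) i • r (g i) := by
  apply gramTr_injective r g hg
  rw [← gramComb_apply, gramTr_gramComb, Matrix.mulVec_mulVec, Matrix.mul_nonsing_inv _ hg,
    Matrix.one_mulVec]
  rfl

/-- The four matrices `r (g i)` are linearly independent when the Gram determinant is a unit. -/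
theorem gram_linearIndependent {Γ A : Type} [Monoid Γ] [CommRing A] (r : Γ →* M2 A)
    (g : Fin 4 → Γ) (hg : IsUnit (gram r g).det) : LinearIndependent A (fun i => r (g i)) := by
  rw [Fintype.linearIndependent_iff]
  intro c hc i
  have h0 : gramComb r g c = 0 := by rw [gramComb_apply]; exact hc
  have h1 : (gram r g).mulVec c = 0 := by rw [← gramTr_gramComb, h0, map_zero]
  have h2 : c = 0 := by
    have := congrArg ((gram r g)⁻¹.mulVec) h1
    rwa [Matrix.mulVec_mulVec, Matrix.nonsing_inv_mul _ hg, Matrix.one_mulVec,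
      Matrix.mulVec_zero] at this
  rw [h2]; rfl

/-- The four matrices `r (g i)` span `M2 A` when the Gram determinant is a unit. -/
theorem gram_span_top {Γ A : Type} [Monoid Γ] [CommRing A] (r : Γ →* M2 A)
    (g : Fin 4 → Γ) (hg : IsUnit (gram r g).det) :
    Submodule.span A (Set.range fun i => r (g i)) = ⊤ := by
  rw [eq_top_iff]
  intro y _
  rw [gram_span r g hg y]
  exact Submodule.sum_mem _ fun i _ =>
    Submodule.smul_mem _ _ (Submodule.subset_span (Set.mem_range_self i))

end Fermat.Agent.S53x
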