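import Fermat.Agent.S53x.Basic

/-!
# S53: Hensel normal form (diagonal variant) for 2×2 lifts (helper4)

Pure matrix algebra over a local ring `A`.  A pair `(P, Q)` of `2 × 2` matrices is *normal* if
`P` is diagonal and `Q 1 0 = 1`.

* `nf_exists_conj`: over a Henselian local ring, if `P ≡ E₁₁` and `Q 1 0 ≡ 1` modulo the maximal
  ideal, then some `Y ≡ 1` conjugates `(P, Q)` into a normal pair.
* `nf_scalar_of_conj`: an invertible matrix intertwining two normal pairs (with `P ≡ P' ≡ E₁₁`)
  is a scalar matrix; hence two representations in normal form that are conjugate are EQUAL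
  (`nf_rep_eq_of_conj`).
-/

set_option autoImplicit false

namespace Fermat.Agent.S53x

open IsLocalRing Polynomial Matrix

variable {A : Type} [CommRing A]

/-- `P` is diagonal and `Q 1 0 = 1`. -/
def IsNormalPair (P Q : M2 A) : Prop := P 0 1 = 0 ∧ P 1 0 = 0 ∧ Q 1 0 = 1

/-- The Hensel property we need (holds for `HenselianLocalRing`, hence for adically complete
local rings and Artinian local rings). -/
def NFHensel (A : Type) [CommRing A] [IsLocalRing A] : Prop :=
  ∀ f : A[X], f.Monic → ∀ a₀ : A, f.eval a₀ ∈ maximalIdeal A →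
    IsUnit (f.derivative.eval a₀) → ∃ a : A, f.IsRoot a ∧ a - a₀ ∈ maximalIdeal A

lemma nfHensel_of_henselianLocalRing (A : Type) [CommRing A] [HenselianLocalRing A] :
    NFHensel A := fun f hf a₀ h₁ h₂ => HenselianLocalRing.is_henselian f hf a₀ h₁ h₂

lemma nfHensel_of_isAdicComplete (A : Type) [CommRing A] [IsLocalRing A]
    [IsAdicComplete (maximalIdeal A) A] : NFHensel A := by
  intro f hf a₀ h₁ h₂
  have := HenselianRing.is_henselian (I := maximalIdeal A) f hf a₀ h₁
    (h₂.map (Ideal.Quotient.mk (maximalIdeal A)))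
  exact this

section Local

variable [IsLocalRing A]

lemma nf_isUnit_of_sub_one_mem {x : A} (hx : x - 1 ∈ maximalIdeal A) : IsUnit x := by
  by_contra h
  have hx' : x ∈ maximalIdeal A := (mem_maximalIdeal x).2 h
  have h1 : (1 : A) ∈ maximalIdeal A := by
    have := (maximalIdeal A).sub_mem hx' hx
    simpa using this
  exact (Ideal.ne_top_iff_one _).1 (Ideal.IsMaximal.ne_top inferInstance) h1

/-- Hensel: the characteristic polynomial of `P ≡ E₁₁` splits with roots `≡ 1` and `≡ 0`. -/
lemma nf_exists_eigenvalues (hH : NFHensel A) (P : M2 A)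
    (h00 : P 0 0 - 1 ∈ maximalIdeal A) (h01 : P 0 1 ∈ maximalIdeal A)
    (h10 : P 1 0 ∈ maximalIdeal A) (h11 : P 1 1 ∈ maximalIdeal A) :
    ∃ lam mu : A, lam - 1 ∈ maximalIdeal A ∧ mu ∈ maximalIdeal A ∧
      lam + mu = P 0 0 + P 1 1 ∧ lam * mu = P 0 0 * P 1 1 - P 0 1 * P 1 0 := by
  set t : A := P 0 0 + P 1 1 with ht
  set d : A := P 0 0 * P 1 1 - P 0 1 * P 1 0 with hd
  have ht1 : t - 1 ∈ maximalIdeal A := by
    have : t - 1 = (P 0 0 - 1) + P 1 1 := by rw [ht]; ring
    rw [this]; exact (maximalIdeal A).add_mem h00 h11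
  have hdm : d ∈ maximalIdeal A := by
    rw [hd]
    exact (maximalIdeal A).sub_mem ((maximalIdeal A).mul_mem_left _ h11)
      ((maximalIdeal A).mul_mem_left _ h10)
  let f : A[X] := X ^ 2 + (-(C t) * X + C d)
  have hfm : f.Monic := by
    apply monic_X_pow_add
    calc (-(C t) * X + C d : A[X]).degree ≤ 1 := by
          refine (degree_add_le _ _).trans (max_le ?_ ?_)
          · calc (-(C t) * X : A[X]).degree ≤ (-(C t) : A[X]).degree + (X : A[X]).degree :=
                  degree_mul_le _ _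
              _ ≤ 0 + 1 := by
                  gcongr
                  · rw [degree_neg]; exact degree_C_le
                  · exact degree_X_le
              _ = 1 := by norm_num
          · exact degree_C_le.trans (by norm_num)
      _ < 2 := by norm_num
  have hev : f.eval 1 = 1 - t + d := by
    simp only [f, eval_add, eval_pow, eval_X, eval_mul, eval_neg, eval_C]; ring
  have hder : f.derivative.eval 1 = 2 - t := by
    simp only [f, derivative_add, derivative_X_pow, derivative_mul, derivative_neg, derivative_C,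
      derivative_X, eval_add, eval_mul, eval_neg, eval_C, eval_X, eval_pow, eval_zero,
      eval_one, Nat.cast_ofNat]
    ring
  obtain ⟨lam, hroot, hlam⟩ := hH f hfm 1
    (by
      rw [hev]
      have : 1 - t + d = -(t - 1) + d := by ring
      rw [this]
      exact (maximalIdeal A).add_mem ((maximalIdeal A).neg_mem ht1) hdm)
    (by
      rw [hder]
      apply nf_isUnit_of_sub_one_mem
      have : 2 - t - 1 = -(t - 1) := by ring
      rw [this]
      exact (maximalIdeal A).neg_mem ht1)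
  have hroot' : lam ^ 2 - t * lam + d = 0 := by
    have := hroot
    simp only [IsRoot.def, f, eval_add, eval_pow, eval_X, eval_mul, eval_neg, eval_C] at this
    linear_combination this
  refine ⟨lam, t - lam, hlam, ?_, by ring, ?_⟩
  · have : t - lam = (t - 1) - (lam - 1) := by ring
    rw [this]; exact (maximalIdeal A).sub_mem ht1 hlam
  · linear_combination -hroot'

/-- Existence of a normalising conjugation `Y ≡ 1`, with explicit inverse `Z`. -/
theorem nf_exists_conj (hH : NFHensel A) (P Q : M2 A)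
    (h00 : P 0 0 - 1 ∈ maximalIdeal A) (h01 : P 0 1 ∈ maximalIdeal A)
    (h10 : P 1 0 ∈ maximalIdeal A) (h11 : P 1 1 ∈ maximalIdeal A)
    (hQ : Q 1 0 - 1 ∈ maximalIdeal A) :
    ∃ Y Z : M2 A, Y * Z = 1 ∧ Z * Y = 1 ∧ (∀ i j, (Y - 1) i j ∈ maximalIdeal A) ∧
      (∀ i j, (Z - 1) i j ∈ maximalIdeal A) ∧ IsNormalPair (Z * P * Y) (Z * Q * Y) ∧
      (Z * P * Y) 0 0 - 1 ∈ maximalIdeal A ∧ (Z * P * Y) 1 1 ∈ maximalIdeal A := by
  obtain ⟨lam, mu, hlam, hmu, hsum, hprod⟩ := nf_exists_eigenvalues hH P h00 h01 h10 h11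
  obtain ⟨m, hm⟩ : ∃ m, m = maximalIdeal A := ⟨_, rfl⟩
  rw [← hm] at h00 h01 h10 h11 hQ hlam hmu ⊢
  have hs00m : (P 0 0 - mu) - 1 ∈ m := by
    have : (P 0 0 - mu) - 1 = (P 0 0 - 1) - mu := by ring
    rw [this]; exact m.sub_mem h00 hmu
  have hs11m : (lam - P 1 1) - 1 ∈ m := by
    have : (lam - P 1 1) - 1 = (lam - 1) - P 1 1 := by ring
    rw [this]; exact m.sub_mem hlam h11
  obtain ⟨δ, hδ⟩ : ∃ δ, δ = (P 0 0 - mu) * (lam - P 1 1) + P 0 1 * P 1 0 := ⟨_, rfl⟩
  have hδm : δ - 1 ∈ m := by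
    have : δ - 1 = ((P 0 0 - mu) - 1) * (lam - P 1 1) + ((lam - P 1 1) - 1) + P 0 1 * P 1 0 := by
      rw [hδ]; ring
    rw [this]
    exact m.add_mem (m.add_mem (m.mul_mem_right _ hs00m) hs11m) (m.mul_mem_right _ h01)
  have hδu : IsUnit δ := nf_isUnit_of_sub_one_mem (hm ▸ hδm)
  obtain ⟨w, hw⟩ : ∃ w, w = -P 1 0 * (Q 0 0 * (P 0 0 - mu) + Q 0 1 * P 1 0)
      + (P 0 0 - mu) * (Q 1 0 * (P 0 0 - mu) + Q 1 1 * P 1 0) := ⟨_, rfl⟩
  have hwm : w - 1 ∈ m := by
    have : w - 1 = -P 1 0 * (Q 0 0 * (P 0 0 - mu) + Q 0 1 * P 1 0)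
        + (P 0 0 - mu) * (Q 1 1 * P 1 0)
        + (((P 0 0 - mu) - 1) * (Q 1 0 * (P 0 0 - mu)) + (Q 1 0 - 1) * (P 0 0 - mu)
          + ((P 0 0 - mu) - 1)) := by rw [hw]; ring
    rw [this]
    refine m.add_mem (m.add_mem ?_ ?_) (m.add_mem (m.add_mem ?_ ?_) hs00m)
    · exact m.mul_mem_right _ (m.neg_mem h10)
    · exact m.mul_mem_left _ (m.mul_mem_left _ h10)
    · exact m.mul_mem_right _ hs00m
    · exact m.mul_mem_right _ hQ
  have hwu : IsUnit w := nf_isUnit_of_sub_one_mem (hm ▸ hwm)
  obtain ⟨δi, hδi⟩ := hδu.exists_right_inv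
  obtain ⟨wi, hwi⟩ := hwu.exists_right_inv
  have hδim : δi - 1 ∈ m := by
    have : δi - 1 = -(δi * (δ - 1)) := by linear_combination hδi
    rw [this]; exact m.neg_mem (m.mul_mem_left _ hδm)
  have hwim : wi - 1 ∈ m := by
    have : wi - 1 = -(wi * (w - 1)) := by linear_combination hwi
    rw [this]; exact m.neg_mem (m.mul_mem_left _ hwm)
  obtain ⟨u, hu⟩ : ∃ u, u = w * δi := ⟨_, rfl⟩
  have hum : u - 1 ∈ m := by
    have : u - 1 = (w - 1) * δi + (δi - 1) := by rw [hu]; ring
    rw [this]; exact m.add_mem (m.mul_mem_right _ hwm) hδim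
  have hudet : u * δ = w := by linear_combination δ * hu + w * hδi
  have hdetY : (P 0 0 - mu) * ((lam - P 1 1) * u) - (-P 0 1 * u) * P 1 0 = w := by
    linear_combination (-u) * hδ + hudet
  let Y : M2 A := !![P 0 0 - mu, -P 0 1 * u; P 1 0, (lam - P 1 1) * u]
  let Z : M2 A := !![wi * ((lam - P 1 1) * u), wi * (P 0 1 * u); wi * (-P 1 0), wi * (P 0 0 - mu)]
  have hYZ : Y * Z = 1 := by
    ext i j
    fin_cases i <;> fin_cases j <;>
      simp only [Y, Z, Matrix.mul_apply, Fin.sum_univ_two, Fin.zero_eta, Fin.mk_one, Fin.isValue,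
        Matrix.of_apply, Matrix.cons_val', Matrix.cons_val_zero, Matrix.cons_val_one,
        Matrix.cons_val_fin_one, Matrix.one_apply_eq, Matrix.one_apply_ne, ne_eq, zero_ne_one,
        one_ne_zero, not_false_eq_true]
    · linear_combination wi * hdetY + hwi
    · ring
    · ring
    · linear_combination wi * hdetY + hwi
  have hZY : Z * Y = 1 := by
    ext i j
    fin_cases i <;> fin_cases j <;>
      simp only [Y, Z, Matrix.mul_apply, Fin.sum_univ_two, Fin.zero_eta, Fin.mk_one, Fin.isValue,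
        Matrix.of_apply, Matrix.cons_val', Matrix.cons_val_zero, Matrix.cons_val_one,
        Matrix.cons_val_fin_one, Matrix.one_apply_eq, Matrix.one_apply_ne, ne_eq, zero_ne_one,
        one_ne_zero, not_false_eq_true]
    · linear_combination wi * hdetY + hwi
    · ring
    · ring
    · linear_combination wi * hdetY + hwi
  have hPY : P * Y = Y * !![lam, 0; 0, mu] := by
    ext i j
    fin_cases i <;> fin_cases j <;>
      simp only [Y, Matrix.mul_apply, Fin.sum_univ_two, Fin.zero_eta, Fin.mk_one, Fin.isValue,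
        Matrix.of_apply, Matrix.cons_val', Matrix.cons_val_zero, Matrix.cons_val_one,
        Matrix.cons_val_fin_one]
    · linear_combination (-(P 0 0)) * hsum + hprod
    · linear_combination (P 0 1 * u) * hsum
    · linear_combination (-(P 1 0)) * hsum
    · linear_combination (u * P 1 1) * hsum - u * hprod
  have hZPY : Z * P * Y = !![lam, 0; 0, mu] := by
    rw [Matrix.mul_assoc, hPY, ← Matrix.mul_assoc, hZY, Matrix.one_mul]
  have hZQY : (Z * Q * Y) 1 0 = 1 := by
    simp only [Y, Z, Matrix.mul_apply, Fin.sum_univ_two, Fin.isValue,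
        Matrix.of_apply, Matrix.cons_val', Matrix.cons_val_zero, Matrix.cons_val_one,
        Matrix.cons_val_fin_one]
    linear_combination (-wi) * hw + hwi
  refine ⟨Y, Z, hYZ, hZY, ?_, ?_, ⟨?_, ?_, hZQY⟩, ?_, ?_⟩
  · intro i j
    fin_cases i <;> fin_cases j <;>
      simp only [Y, Matrix.sub_apply, Fin.zero_eta, Fin.mk_one, Fin.isValue,
        Matrix.of_apply, Matrix.cons_val', Matrix.cons_val_zero, Matrix.cons_val_one,
        Matrix.cons_val_fin_one, Matrix.one_apply_eq, Matrix.one_apply_ne, ne_eq, zero_ne_one,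
        one_ne_zero, not_false_eq_true, sub_zero]
    · exact hs00m
    · exact m.mul_mem_right _ (m.neg_mem h01)
    · exact h10
    · have : (lam - P 1 1) * u - 1 = ((lam - P 1 1) - 1) * u + (u - 1) := by ring
      rw [this]; exact m.add_mem (m.mul_mem_right _ hs11m) hum
  · intro i j
    fin_cases i <;> fin_cases j <;>
      simp only [Z, Matrix.sub_apply, Fin.zero_eta, Fin.mk_one, Fin.isValue,
        Matrix.of_apply, Matrix.cons_val', Matrix.cons_val_zero, Matrix.cons_val_one,
        Matrix.cons_val_fin_one, Matrix.one_apply_eq, Matrix.one_apply_ne, ne_eq, zero_ne_one,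
        one_ne_zero, not_false_eq_true, sub_zero]
    · have : wi * ((lam - P 1 1) * u) - 1
          = (wi - 1) * ((lam - P 1 1) * u) + (((lam - P 1 1) - 1) * u + (u - 1)) := by ring
      rw [this]
      exact m.add_mem (m.mul_mem_right _ hwim) (m.add_mem (m.mul_mem_right _ hs11m) hum)
    · exact m.mul_mem_left _ (m.mul_mem_right _ h01)
    · exact m.mul_mem_left _ (m.neg_mem h10)
    · have : wi * (P 0 0 - mu) - 1 = (wi - 1) * (P 0 0 - mu) + ((P 0 0 - mu) - 1) := by ring
      rw [this]; exact m.add_mem (m.mul_mem_right _ hwim) hs00m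
  · rw [hZPY]; simp
  · rw [hZPY]; simp
  · rw [hZPY]; simpa using hlam
  · rw [hZPY]; simpa using hmu

/-- An invertible intertwiner between two normal pairs (both `≡ E₁₁` on the diagonal) is scalar. -/
theorem nf_scalar_of_conj {P Q P' Q' X : M2 A}
    (hN : IsNormalPair P Q) (hN' : IsNormalPair P' Q')
    (h00 : P 0 0 - 1 ∈ maximalIdeal A) (h11 : P 1 1 ∈ maximalIdeal A)
    (h00' : P' 0 0 - 1 ∈ maximalIdeal A) (h11' : P' 1 1 ∈ maximalIdeal A)
    (hP : X * P = P' * X) (hQ : X * Q = Q' * X) :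
    X 0 1 = 0 ∧ X 1 0 = 0 ∧ X 0 0 = X 1 1 := by
  obtain ⟨p01, p10, q10⟩ := hN
  obtain ⟨p01', p10', q10'⟩ := hN'
  set m := maximalIdeal A
  have hu1 : IsUnit (P' 0 0 - P 1 1) := by
    apply nf_isUnit_of_sub_one_mem
    have : P' 0 0 - P 1 1 - 1 = (P' 0 0 - 1) - P 1 1 := by ring
    rw [this]; exact m.sub_mem h00' h11
  have hu2 : IsUnit (P 0 0 - P' 1 1) := by
    apply nf_isUnit_of_sub_one_mem
    have : P 0 0 - P' 1 1 - 1 = (P 0 0 - 1) - P' 1 1 := by ring
    rw [this]; exact m.sub_mem h00 h11'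
  have e01 := congrFun (congrFun hP 0) 1
  have e10 := congrFun (congrFun hP 1) 0
  have f10 := congrFun (congrFun hQ 1) 0
  simp only [Matrix.mul_apply, Fin.sum_univ_two, Fin.isValue] at e01 e10 f10
  rw [p01, p01'] at e01
  rw [p10, p10'] at e10
  have hx01 : X 0 1 = 0 := by
    have : (P' 0 0 - P 1 1) * X 0 1 = 0 := by linear_combination -e01
    exact (hu1.mul_right_eq_zero).1 this
  have hx10 : X 1 0 = 0 := by
    have : (P 0 0 - P' 1 1) * X 1 0 = 0 := by linear_combination e10
    exact (hu2.mul_right_eq_zero).1 this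
  refine ⟨hx01, hx10, ?_⟩
  rw [q10, q10', hx10] at f10
  linear_combination -f10

/-- Two monoid homs into `M2 A` which are in normal form at `a, b : Γ`-combinations `P = ev r`,
and are intertwined by an invertible matrix, are equal.  Here the "evaluation" data are abstract:
`P = eP r`, where `eP` is any map compatible with intertwiners (e.g. evaluation of a fixed element
of the monoid algebra). -/
theorem nf_rep_eq_of_conj {Γ : Type} [Monoid Γ] (r r' : Γ →* M2 A) {P Q P' Q' X : M2 A}
    (hX : IsUnit X.det)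
    (hN : IsNormalPair P Q) (hN' : IsNormalPair P' Q')
    (h00 : P 0 0 - 1 ∈ maximalIdeal A) (h11 : P 1 1 ∈ maximalIdeal A)
    (h00' : P' 0 0 - 1 ∈ maximalIdeal A) (h11' : P' 1 1 ∈ maximalIdeal A)
    (hP : X * P = P' * X) (hQ : X * Q = Q' * X)
    (hr : ∀ γ, X * r γ = r' γ * X) : r = r' := by
  obtain ⟨x01, x10, x00⟩ := nf_scalar_of_conj hN hN' h00 h11 h00' h11' hP hQ
  have hXs : X = X 0 0 • (1 : M2 A) := by
    ext i j
    fin_cases i <;> fin_cases j <;> simp [x01, x10, x00]
  have hdet : X.det = X 0 0 * X 0 0 := by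
    rw [Matrix.det_fin_two, x01, x10, ← x00]; ring
  have hu : IsUnit (X 0 0) := by
    rw [hdet] at hX
    exact isUnit_of_mul_isUnit_left hX
  ext γ i j
  have := congrFun (congrFun (hr γ) i) j
  rw [hXs] at this
  simp only [Matrix.smul_mul, Matrix.mul_smul, Matrix.one_mul, Matrix.mul_one,
    Matrix.smul_apply, smul_eq_mul] at this
  exact hu.mul_left_cancel this

end Local

end Fermat.Agent.S53x
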