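import Mathlib

set_option autoImplicit false

/-!
S53 module M6, parts (c) and (e): Mittag-Leffler for a decreasing chain of ideals in an adically
precomplete ring, and the limit property of the quotient by the infimum.
Stated for a general commutative ring `S` with an ideal `XX`.
-/

namespace Fermat.Agent.S53x

section ML

variable {S : Type*} [CommRing S] (XX : Ideal S)

/-- A sequence whose successive differences lie in `XX ^ n` is Cauchy. -/
theorem ml_cauchy_of_succ (f : ℕ → S) (hf : ∀ n, f (n + 1) - f n ∈ XX ^ n) {m n : ℕ}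
    (hmn : m ≤ n) : f n - f m ∈ XX ^ m := by
  induction n, hmn using Nat.le_induction with
  | base => simp
  | succ n hmn ih =>
    have h1 : f (n + 1) - f n ∈ XX ^ m := Ideal.pow_le_pow_right hmn (hf n)
    have : f (n + 1) - f m = (f (n + 1) - f n) + (f n - f m) := by ring
    rw [this]
    exact Ideal.add_mem _ h1 ih

/-- Limit of a sequence with successive differences in `XX ^ n`, in a precomplete ring. -/
theorem ml_exists_limit [IsPrecomplete XX S] (f : ℕ → S)
    (hf : ∀ n, f (n + 1) - f n ∈ XX ^ n) :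
    ∃ L : S, ∀ n, L - f n ∈ XX ^ n := by
  have hprec := (inferInstance : IsPrecomplete XX S)
  obtain ⟨L, hL⟩ := hprec.prec (f := f) (by
    intro m n hmn
    rw [SModEq.sub_mem]
    have h := ml_cauchy_of_succ XX f hf hmn
    have h' : f m - f n ∈ XX ^ m := by
      have : f m - f n = -(f n - f m) := by ring
      rw [this]; exact Ideal.neg_mem_iff _ |>.mpr h
    simpa [smul_eq_mul, Ideal.mul_top] using h')
  refine ⟨L, fun n => ?_⟩
  have h := hL n
  rw [SModEq.sub_mem] at h
  have h' : f n - L ∈ XX ^ n := by simpa [smul_eq_mul, Ideal.mul_top] using h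
  have : L - f n = -(f n - L) := by ring
  rw [this]; exact Ideal.neg_mem_iff _ |>.mpr h'

variable {XX}

/-- The chain is antitone. -/
theorem ml_antitone (Jn : ℕ → Ideal S) (hstep : ∀ n, Jn n = Jn (n + 1) ⊔ XX ^ n) :
    Antitone Jn := by
  apply antitone_nat_of_succ_le
  intro n
  rw [hstep n]
  exact le_sup_left

/-- Mittag-Leffler for ideals: M6 (c). -/
theorem ml_iInf_sup_pow [IsPrecomplete XX S] (Jn : ℕ → Ideal S)
    (hXX : ∀ n, XX ^ n ≤ Jn n) (hstep : ∀ n, Jn n = Jn (n + 1) ⊔ XX ^ n) (n : ℕ) :
    (⨅ m, Jn m) ⊔ XX ^ n = Jn n := by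
  have hanti := ml_antitone Jn hstep
  apply le_antisymm
  · exact sup_le (iInf_le _ n) (hXX n)
  · intro x hx
    -- build the sequence x_m ∈ Jn (n + m) with x_0 = x, x_{m+1} - x_m ∈ XX^(n+m)
    have hsplit : ∀ (m : ℕ) (y : S), y ∈ Jn m → ∃ z ∈ Jn (m + 1), y - z ∈ XX ^ m := by
      intro m y hy
      rw [hstep m] at hy
      obtain ⟨z, hz, e, he, rfl⟩ := Submodule.mem_sup.mp hy
      exact ⟨z, hz, by simpa using he⟩
    classical
    let next : ℕ → S → S := fun m y =>
      if hy : y ∈ Jn m then (hsplit m y hy).choose else y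
    let g : ℕ → S := fun m => Nat.rec (motive := fun _ => S) x (fun m y => next (n + m) y) m
    have hg0 : g 0 = x := rfl
    have hgS : ∀ m, g (m + 1) = next (n + m) (g m) := fun m => rfl
    have hgmem : ∀ m, g m ∈ Jn (n + m) := by
      intro m
      induction m with
      | zero => simpa [hg0] using hx
      | succ m ih =>
        rw [hgS m]
        show (if hy : g m ∈ Jn (n + m) then (hsplit (n + m) (g m) hy).choose else g m) ∈ _
        rw [dif_pos ih]
        exact (hsplit (n + m) (g m) ih).choose_spec.1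
    have hgdiff : ∀ m, g m - g (m + 1) ∈ XX ^ (n + m) := by
      intro m
      rw [hgS m]
      show g m - (if hy : g m ∈ Jn (n + m) then (hsplit (n + m) (g m) hy).choose else g m) ∈ _
      rw [dif_pos (hgmem m)]
      exact (hsplit (n + m) (g m) (hgmem m)).choose_spec.2
    let f : ℕ → S := fun m => g (m - n)
    have hf : ∀ m, f (m + 1) - f m ∈ XX ^ m := by
      intro m
      by_cases hm : n ≤ m
      · obtain ⟨k, rfl⟩ := Nat.exists_eq_add_of_le hm
        have h1 : n + k + 1 - n = k + 1 := by omega
        have h2 : n + k - n = k := by omega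
        show g (n + k + 1 - n) - g (n + k - n) ∈ XX ^ (n + k)
        rw [h1, h2]
        have : g (k + 1) - g k = -(g k - g (k + 1)) := by ring
        rw [this]
        exact (Ideal.neg_mem_iff _).mpr (hgdiff k)
      · have h1 : m + 1 - n = 0 := by omega
        have h2 : m - n = 0 := by omega
        show g (m + 1 - n) - g (m - n) ∈ XX ^ m
        rw [h1, h2]
        simp
    obtain ⟨L, hL⟩ := ml_exists_limit XX f hf
    have hLmem : ∀ m, L ∈ Jn m := by
      intro m
      -- enough for indices ≥ n, by antitonicity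
      have hbig : L ∈ Jn (n + m) := by
        have h1 : L - f (n + m) ∈ Jn (n + m) := hXX _ (hL (n + m))
        have h2 : f (n + m) ∈ Jn (n + m) := by
          show g (n + m - n) ∈ Jn (n + m)
          have : n + m - n = m := by omega
          rw [this]
          exact hgmem m
        have : L = (L - f (n + m)) + f (n + m) := by ring
        rw [this]
        exact Ideal.add_mem _ h1 h2
      exact hanti (Nat.le_add_left m n) hbig
    have hLinf : L ∈ ⨅ m, Jn m := by
      rw [Ideal.mem_iInf]
      exact hLmem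
    have hxL : x - L ∈ XX ^ n := by
      have h1 := hL n
      have h2 : f n = x := by
        show g (n - n) = x
        rw [Nat.sub_self, hg0]
      rw [h2] at h1
      have : x - L = -(L - x) := by ring
      rw [this]
      exact (Ideal.neg_mem_iff _).mpr h1
    have : x = L + (x - L) := by ring
    rw [this]
    exact Submodule.add_mem_sup hLinf hxL

/-- Limit property: M6 (e). -/
theorem ml_existsUnique_lim [IsPrecomplete XX S] (Jn : ℕ → Ideal S)
    (hXX : ∀ n, XX ^ n ≤ Jn n) (hstep : ∀ n, Jn n = Jn (n + 1) ⊔ XX ^ n)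
    (a : ∀ n, S ⧸ Jn n)
    (hcompat : ∀ n, Ideal.Quotient.factor (ml_antitone Jn hstep (Nat.le_succ n)) (a (n + 1)) = a n) :
    ∃! x : S ⧸ (⨅ m, Jn m), ∀ n, Ideal.Quotient.factor (iInf_le Jn n) x = a n := by
  have hanti := ml_antitone Jn hstep
  -- lifts
  choose s hs using fun n => Ideal.Quotient.mk_surjective (a n)
  have hdiff : ∀ n, s (n + 1) - s n ∈ Jn n := by
    intro n
    have h := hcompat n
    rw [← hs (n + 1), ← hs n, Ideal.Quotient.factor_mk] at h
    exact (Ideal.Quotient.eq).mp h
  -- decompose the differences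
  have hdec : ∀ n, ∃ j ∈ (⨅ m, Jn m), ∃ e ∈ XX ^ n, s (n + 1) - s n = j + e := by
    intro n
    have h := hdiff n
    rw [← ml_iInf_sup_pow Jn hXX hstep n] at h
    obtain ⟨j, hj, e, he, hje⟩ := Submodule.mem_sup.mp h
    exact ⟨j, hj, e, he, hje.symm⟩
  choose j hj e he hje using hdec
  let t : ℕ → S := fun n => s n - ∑ i ∈ Finset.range n, j i
  have ht : ∀ n, t (n + 1) - t n ∈ XX ^ n := by
    intro n
    have : t (n + 1) - t n = e n := by
      show (s (n + 1) - ∑ i ∈ Finset.range (n + 1), j i) - (s n - ∑ i ∈ Finset.range n, j i) = e n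
      rw [Finset.sum_range_succ]
      have := hje n
      linear_combination this
    rw [this]
    exact he n
  obtain ⟨L, hL⟩ := ml_exists_limit XX t ht
  refine ⟨Ideal.Quotient.mk _ L, ?_, ?_⟩
  · intro n
    rw [Ideal.Quotient.factor_mk, ← hs n]
    apply (Ideal.Quotient.eq).mpr
    have h1 : L - t n ∈ Jn n := hXX n (hL n)
    have h2 : ∑ i ∈ Finset.range n, j i ∈ Jn n := by
      apply Ideal.sum_mem
      intro i _
      exact (iInf_le Jn n) (hj i)
    have : L - s n = (L - t n) - ∑ i ∈ Finset.range n, j i := by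
      show L - s n = (L - (s n - ∑ i ∈ Finset.range n, j i)) - ∑ i ∈ Finset.range n, j i
      ring
    rw [this]
    exact Ideal.sub_mem _ h1 h2
  · intro y hy
    obtain ⟨y', rfl⟩ := Ideal.Quotient.mk_surjective y
    apply (Ideal.Quotient.eq).mpr
    rw [Ideal.mem_iInf]
    intro n
    have h1 := hy n
    rw [Ideal.Quotient.factor_mk, ← hs n] at h1
    have h1' : y' - s n ∈ Jn n := (Ideal.Quotient.eq).mp h1
    have h2 : L - t n ∈ Jn n := hXX n (hL n)
    have h3 : ∑ i ∈ Finset.range n, j i ∈ Jn n := by
      apply Ideal.sum_mem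
      intro i _
      exact (iInf_le Jn n) (hj i)
    have : y' - L = (y' - s n) - (L - t n) + ∑ i ∈ Finset.range n, j i := by
      show y' - L = (y' - s n) - (L - (s n - ∑ i ∈ Finset.range n, j i)) + ∑ i ∈ Finset.range n, j i
      ring
    rw [this]
    exact Ideal.add_mem _ (Ideal.sub_mem _ h1' h2) h3

end ML

end Fermat.Agent.S53x
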