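import Mathlib
import Fermat.Agent.S53x.PowerSeriesML

/-!
# S53 helper (slice K5 of M8, ALTERNATIVE version by helper67; the team version is LimitRep.lean): the limit of a conjugation-compatible system of representations

`S` a commutative ring, `Jn` a decreasing chain of ideals, `J ≤ Jn n` an ideal such that
`S ⧸ J` is the inverse limit of the `S ⧸ Jn n` (this is M6 (e), `ml_existsUnique_lim`).
Given matrix representations `r n : G →* M_d (S ⧸ Jn n)` such that `r (n+1)` reduces to a conjugate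
of `r n`, there is a representation `ρ : G →* M_d (S ⧸ J)` reducing to a conjugate of every `r n`.
-/

set_option autoImplicit false

namespace Fermat.Agent.S53x

open Matrix

section

variable {d : Type} [Fintype d] [DecidableEq d]

/-- Conjugate a matrix-valued monoid hom by a unit of the matrix ring. -/
def lrConj {A : Type} [CommRing A] {G : Type} [Monoid G] (Y : (Matrix d d A)ˣ)
    (r : G →* Matrix d d A) : G →* Matrix d d A where
  toFun g := (Y : Matrix d d A) * r g * ((Y⁻¹ : (Matrix d d A)ˣ) : Matrix d d A)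
  map_one' := by simp
  map_mul' a b := by
    rw [map_mul]
    have h : ((Y⁻¹ : (Matrix d d A)ˣ) : Matrix d d A) * (Y : Matrix d d A) = 1 := by simp
    calc (Y : Matrix d d A) * (r a * r b) * ↑Y⁻¹
        = ↑Y * r a * 1 * r b * ↑Y⁻¹ := by simp [mul_assoc]
      _ = ↑Y * r a * (↑Y⁻¹ * ↑Y) * r b * ↑Y⁻¹ := by rw [h]
      _ = _ := by simp [mul_assoc]

@[simp] lemma lrConj_apply {A : Type} [CommRing A] {G : Type} [Monoid G] (Y : (Matrix d d A)ˣ)
    (r : G →* Matrix d d A) (g : G) :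
    lrConj Y r g = (Y : Matrix d d A) * r g * ((Y⁻¹ : (Matrix d d A)ˣ) : Matrix d d A) := rfl

/-- Units of matrix rings lift along surjective ring homs that reflect units. -/
lemma lr_exists_unit_lift {A B : Type} [CommRing A] [CommRing B] (f : A →+* B)
    (hf : Function.Surjective f) (hunit : ∀ x : A, IsUnit (f x) → IsUnit x)
    (Z : (Matrix d d B)ˣ) : ∃ Z' : (Matrix d d A)ˣ, Units.map f.mapMatrix.toMonoidHom Z' = Z := by
  classical
  choose s hs using hf
  let Zt : Matrix d d A := Matrix.of fun i j => s ((Z : Matrix d d B) i j)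
  have hmap : f.mapMatrix Zt = (Z : Matrix d d B) := by
    ext i j
    simp [Zt, hs]
  have hdet : IsUnit Zt.det := by
    apply hunit
    rw [RingHom.map_det, hmap]
    exact (Matrix.isUnit_iff_isUnit_det _).mp Z.isUnit
  have hZt : IsUnit Zt := (Matrix.isUnit_iff_isUnit_det _).mpr hdet
  refine ⟨hZt.unit, ?_⟩
  ext1
  simpa using hmap

end

section Main

variable {d : Type} [Fintype d] [DecidableEq d]
variable {S : Type} [CommRing S] {G : Type} [Monoid G]

/-- **Limit representation.**  See the module docstring. -/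
theorem exists_limit_rep
    (Jn : ℕ → Ideal S) (hanti : ∀ n, Jn (n + 1) ≤ Jn n) (J : Ideal S) (hJ : ∀ n, J ≤ Jn n)
    (hlim : ∀ a : ∀ n, S ⧸ Jn n,
      (∀ n, Ideal.Quotient.factor (hanti n) (a (n + 1)) = a n) →
      ∃! x : S ⧸ J, ∀ n, Ideal.Quotient.factor (hJ n) x = a n)
    (hunit : ∀ n (x : S ⧸ Jn (n + 1)), IsUnit (Ideal.Quotient.factor (hanti n) x) → IsUnit x)
    (r : ∀ n, G →* Matrix d d (S ⧸ Jn n))
    (hr : ∀ n, ∃ X : Matrix d d (S ⧸ Jn n), IsUnit X.det ∧
      ∀ g, X * (r (n + 1) g).map (Ideal.Quotient.factor (hanti n)) = r n g * X) :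
    ∃ ρ : G →* Matrix d d (S ⧸ J),
      ∀ n, ∃ X : Matrix d d (S ⧸ Jn n), IsUnit X.det ∧
        ∀ g, X * (ρ g).map (Ideal.Quotient.factor (hJ n)) = r n g * X := by
  classical
  -- the rectified system
  let T : ℕ → Type := fun n =>
    {p : G →* Matrix d d (S ⧸ Jn n) // ∃ Y : (Matrix d d (S ⧸ Jn n))ˣ, p = lrConj Y (r n)}
  have step : ∀ n (t : T n), ∃ t' : T (n + 1),
      ∀ g, (t'.1 g).map (Ideal.Quotient.factor (hanti n)) = t.1 g := by
    rintro n ⟨p, Y, rfl⟩
    obtain ⟨X, hXdet, hX⟩ := hr n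
    have hXu : IsUnit X := (Matrix.isUnit_iff_isUnit_det _).mpr hXdet
    obtain ⟨Z', hZ'⟩ := lr_exists_unit_lift (Ideal.Quotient.factor (hanti n))
      (Ideal.Quotient.factor_surjective _) (hunit n) (Y * hXu.unit)
    refine ⟨⟨lrConj Z' (r (n + 1)), Z', rfl⟩, fun g => ?_⟩
    have h1 : (Ideal.Quotient.factor (hanti n)).mapMatrix (Z' : Matrix d d (S ⧸ Jn (n + 1)))
        = (Y : Matrix d d (S ⧸ Jn n)) * X := by
      have := congrArg (fun u : (Matrix d d (S ⧸ Jn n))ˣ => (u : Matrix d d (S ⧸ Jn n))) hZ'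
      simpa using this
    have h2 : (Ideal.Quotient.factor (hanti n)).mapMatrix
        ((Z'⁻¹ : (Matrix d d (S ⧸ Jn (n + 1)))ˣ) : Matrix d d (S ⧸ Jn (n + 1)))
        = ((hXu.unit⁻¹ : (Matrix d d (S ⧸ Jn n))ˣ) : Matrix d d (S ⧸ Jn n)) *
          ((Y⁻¹ : (Matrix d d (S ⧸ Jn n))ˣ) : Matrix d d (S ⧸ Jn n)) := by
      have := congrArg (fun u : (Matrix d d (S ⧸ Jn n))ˣ => ((u⁻¹ : (Matrix d d (S ⧸ Jn n))ˣ) :
        Matrix d d (S ⧸ Jn n))) hZ'
      simpa [_root_.mul_inv_rev] using this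
    have h3 : X * ((hXu.unit⁻¹ : (Matrix d d (S ⧸ Jn n))ˣ) : Matrix d d (S ⧸ Jn n)) = 1 := by
      have := hXu.unit.mul_inv
      simpa using this
    show ((Z' : Matrix d d (S ⧸ Jn (n + 1))) * r (n + 1) g *
        ((Z'⁻¹ : (Matrix d d (S ⧸ Jn (n + 1)))ˣ) : Matrix d d (S ⧸ Jn (n + 1)))).map
        (Ideal.Quotient.factor (hanti n)) = (Y : Matrix d d (S ⧸ Jn n)) * r n g *
        ((Y⁻¹ : (Matrix d d (S ⧸ Jn n))ˣ) : Matrix d d (S ⧸ Jn n))
    have h4 : ∀ M : Matrix d d (S ⧸ Jn (n + 1)),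
        M.map (Ideal.Quotient.factor (hanti n)) = (Ideal.Quotient.factor (hanti n)).mapMatrix M :=
      fun M => rfl
    rw [h4, map_mul, map_mul, h1, h2, ← h4]
    calc (Y : Matrix d d (S ⧸ Jn n)) * X * (r (n + 1) g).map (Ideal.Quotient.factor (hanti n)) *
          (((hXu.unit⁻¹ : (Matrix d d (S ⧸ Jn n))ˣ) : Matrix d d (S ⧸ Jn n)) *
          ((Y⁻¹ : (Matrix d d (S ⧸ Jn n))ˣ) : Matrix d d (S ⧸ Jn n)))
        = (Y : Matrix d d (S ⧸ Jn n)) *
          (X * (r (n + 1) g).map (Ideal.Quotient.factor (hanti n))) *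
          ((hXu.unit⁻¹ : (Matrix d d (S ⧸ Jn n))ˣ) : Matrix d d (S ⧸ Jn n)) *
          ((Y⁻¹ : (Matrix d d (S ⧸ Jn n))ˣ) : Matrix d d (S ⧸ Jn n)) := by
            simp only [mul_assoc]
      _ = (Y : Matrix d d (S ⧸ Jn n)) * r n g *
          (X * ((hXu.unit⁻¹ : (Matrix d d (S ⧸ Jn n))ˣ) : Matrix d d (S ⧸ Jn n))) *
          ((Y⁻¹ : (Matrix d d (S ⧸ Jn n))ˣ) : Matrix d d (S ⧸ Jn n)) := by
            rw [hX g]; simp only [mul_assoc]
      _ = _ := by rw [h3, mul_one]
  choose next hnext using step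
  let seq : ∀ n, T n := fun n =>
    Nat.rec (motive := T) ⟨r 0, 1, by ext g : 1; simp⟩ (fun n t => next n t) n
  have hseq : ∀ n g, ((seq (n + 1)).1 g).map (Ideal.Quotient.factor (hanti n)) = (seq n).1 g :=
    fun n g => hnext n (seq n) g
  -- entrywise limits
  have hex : ∀ g i j, ∃! x : S ⧸ J, ∀ n, Ideal.Quotient.factor (hJ n) x = (seq n).1 g i j := by
    intro g i j
    apply hlim
    intro n
    have := congrFun (congrFun (hseq n g) i) j
    simpa using this
  -- joint injectivity of the reduction maps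
  have hinj : ∀ A B : Matrix d d (S ⧸ J),
      (∀ n, A.map (Ideal.Quotient.factor (hJ n)) = B.map (Ideal.Quotient.factor (hJ n))) →
      A = B := by
    intro A B h
    ext i j
    have hcompat : ∀ n, Ideal.Quotient.factor (hanti n)
        (Ideal.Quotient.factor (hJ (n + 1)) (A i j)) = Ideal.Quotient.factor (hJ n) (A i j) :=
      fun n => Ideal.Quotient.factor_comp_apply _ _ _
    obtain ⟨x, -, hx⟩ := hlim (fun n => Ideal.Quotient.factor (hJ n) (A i j)) hcompat
    rw [hx (A i j) (fun n => rfl), hx (B i j) (fun n => by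
      have := congrFun (congrFun (h n) i) j
      simpa using this.symm)]
  let ρf : G → Matrix d d (S ⧸ J) := fun g => Matrix.of fun i j => (hex g i j).choose
  have hρf : ∀ g n, (ρf g).map (Ideal.Quotient.factor (hJ n)) = (seq n).1 g := by
    intro g n
    ext i j
    exact (hex g i j).choose_spec.1 n
  have hmap : ∀ n (M : Matrix d d (S ⧸ J)),
      M.map (Ideal.Quotient.factor (hJ n)) = (Ideal.Quotient.factor (hJ n)).mapMatrix M :=
    fun n M => rfl
  let ρ : G →* Matrix d d (S ⧸ J) :=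
    { toFun := ρf
      map_one' := by
        apply hinj
        intro n
        rw [hρf, map_one, hmap, map_one]
      map_mul' := by
        intro g h
        apply hinj
        intro n
        rw [hρf, map_mul, hmap, map_mul, ← hmap, ← hmap, hρf, hρf] }
  refine ⟨ρ, fun n => ?_⟩
  obtain ⟨Y, hY⟩ := (seq n).2
  refine ⟨((Y⁻¹ : (Matrix d d (S ⧸ Jn n))ˣ) : Matrix d d (S ⧸ Jn n)), ?_, fun g => ?_⟩
  · exact (Matrix.isUnit_iff_isUnit_det _).mp (Y⁻¹).isUnit
  · show _ * (ρf g).map (Ideal.Quotient.factor (hJ n)) = _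
    rw [hρf, hY, lrConj_apply]
    simp only [← mul_assoc, Units.inv_mul, one_mul]

/-- `exists_limit_rep` in the Mittag-Leffler situation of `ml_existsUnique_lim` (M6 (e)):
`J = ⨅ Jn`, `XX ^ n ≤ Jn n`, `Jn n = Jn (n+1) ⊔ XX ^ n`, `S` is `XX`-adically precomplete. -/
theorem exists_limit_rep_of_ml (XX : Ideal S) [IsPrecomplete XX S] (Jn : ℕ → Ideal S)
    (hXX : ∀ n, XX ^ n ≤ Jn n) (hstep : ∀ n, Jn n = Jn (n + 1) ⊔ XX ^ n)
    (hunit : ∀ n (x : S ⧸ Jn (n + 1)),
      IsUnit (Ideal.Quotient.factor (ml_antitone Jn hstep (Nat.le_succ n)) x) → IsUnit x)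
    (r : ∀ n, G →* Matrix d d (S ⧸ Jn n))
    (hr : ∀ n, ∃ X : Matrix d d (S ⧸ Jn n), IsUnit X.det ∧
      ∀ g, X * (r (n + 1) g).map
        (Ideal.Quotient.factor (ml_antitone Jn hstep (Nat.le_succ n))) = r n g * X) :
    ∃ ρ : G →* Matrix d d (S ⧸ (⨅ m, Jn m)),
      ∀ n, ∃ X : Matrix d d (S ⧸ Jn n), IsUnit X.det ∧
        ∀ g, X * (ρ g).map (Ideal.Quotient.factor (iInf_le Jn n)) = r n g * X :=
  exists_limit_rep Jn (fun n => ml_antitone Jn hstep (Nat.le_succ n)) (⨅ m, Jn m)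
    (fun n => iInf_le Jn n)
    (fun a ha => ml_existsUnique_lim Jn hXX hstep a ha) hunit r hr

end Main

end Fermat.Agent.S53x
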