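import Mathlib
import Fermat.Agent.S53x.LimitRep

/-!
# S53, M8-D: the limit representation (strong form used by the assembly)

`exists_limit_rep_strong` is `LR.exists_limit_rep` from `LimitRep.lean` under the name and in the
namespace requested by the assembly (`Fermat.Agent.S53x`).
-/

set_option autoImplicit false

namespace Fermat.Agent.S53x

/-- Let `S` be `I`-adically precomplete and `Jn` a chain of ideals with `I ^ n ≤ Jn n` and
`Jn n = Jn (n+1) ⊔ I ^ n`, such that `S ⧸ Jn n` is local for `n ≥ 1` (`Jn 0` may be `⊤`). A family of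
representations `r n` over `S ⧸ Jn n` that is compatible up to conjugation (at the levels `n ≥ 1`)
comes from a representation `ru` over `S ⧸ ⨅ n, Jn n` which restricts to `r 1` exactly and to a
conjugate of `r n` at each level `n ≥ 1`. -/
theorem exists_limit_rep_strong {S : Type} [CommRing S] (I : Ideal S) [IsPrecomplete I S]
    (Jn : ℕ → Ideal S) (hpow : ∀ n, I ^ n ≤ Jn n) (hstep : ∀ n, Jn n = Jn (n + 1) ⊔ I ^ n)
    (hloc : ∀ n, 1 ≤ n → IsLocalRing (S ⧸ Jn n)) {Γ : Type} [Monoid Γ]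
    (r : ∀ n, Γ →* M2 (S ⧸ Jn n))
    (hconj : ∀ n, 1 ≤ n → ∃ X : M2 (S ⧸ Jn n), IsUnit X.det ∧ ∀ γ,
      X * (r (n + 1) γ).map (Ideal.Quotient.factor
        (antitone_of_eq_succ_sup_pow I Jn hstep (Nat.le_succ n))) = r n γ * X) :
    ∃ ru : Γ →* M2 (S ⧸ ⨅ m, Jn m),
      (∀ γ, (ru γ).map (Ideal.Quotient.factor (iInf_le Jn 1)) = r 1 γ) ∧
      ∀ n, 1 ≤ n → ∃ X : M2 (S ⧸ Jn n), IsUnit X.det ∧ ∀ γ,
        X * (ru γ).map (Ideal.Quotient.factor (iInf_le Jn n)) = r n γ * X :=
  LR.exists_limit_rep I Jn hpow hstep hloc r hconj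

end Fermat.Agent.S53x
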