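import Mathlib
import Fermat.Agent.S53x.Basic
import Fermat.Agent.S53x.PowerSeriesRing
import Fermat.Agent.S53x.LimitRepAlt

/-!
# S53 helper (M8-D, BACKUP by helper67): the strong limit representation

`exists_limit_rep_strong_B` has EXACTLY the signature requested by the S53 captain for
`exists_limit_rep_strong` (exact equality at level 1, conjugacy at all levels `n ≥ 1`,
`Jn 0 = ⊤` allowed).  It is built on `lrConj`, `lr_exists_unit_lift` from `LimitRepAlt.lean`
and on `exists_unique_limit` from `PowerSeriesRing.lean`.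
-/

set_option autoImplicit false

namespace Fermat.Agent.S53x

open Matrix

section Main

variable {d : Type} [Fintype d] [DecidableEq d]
variable {S : Type} [CommRing S] {G : Type} [Monoid G]

/-- **Limit representation, with exactness at level `0`.**  Same as `exists_limit_rep`, but
the limit reduces to `r 0` exactly (not just up to conjugation). -/
theorem exists_limit_rep_exact
    (Jn : ℕ → Ideal S) (hanti : ∀ n, Jn (n + 1) ≤ Jn n) (J : Ideal S) (hJ : ∀ n, J ≤ Jn n)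
    (hlim : ∀ a : ∀ n, S ⧸ Jn n,
      (∀ n, Ideal.Quotient.factor (hanti n) (a (n + 1)) = a n) →
      ∃! x : S ⧸ J, ∀ n, Ideal.Quotient.factor (hJ n) x = a n)
    (hunit : ∀ n (x : S ⧸ Jn (n + 1)), IsUnit (Ideal.Quotient.factor (hanti n) x) → IsUnit x)
    (r : ∀ n, G →* Matrix d d (S ⧸ Jn n))
    (hr : ∀ n, ∃ X : Matrix d d (S ⧸ Jn n), IsUnit X.det ∧
      ∀ g, X * (r (n + 1) g).map (Ideal.Quotient.factor (hanti n)) = r n g * X) :
    ∃ ρ : G →* Matrix d d (S ⧸ J),
      (∀ g, (ρ g).map (Ideal.Quotient.factor (hJ 0)) = r 0 g) ∧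
      ∀ n, ∃ X : Matrix d d (S ⧸ Jn n), IsUnit X.det ∧
        ∀ g, X * (ρ g).map (Ideal.Quotient.factor (hJ n)) = r n g * X := by
  classical
  -- the rectified system
  let T : ℕ → Type := fun n =>
    {p : G →* Matrix d d (S ⧸ Jn n) // ∃ Y : (Matrix d d (S ⧸ Jn n))ˣ, p = lrConj Y (r n)}
  have step : ∀ n (t : T n), ∃ t' : T (n + 1),
      ∀ g, (t'.1 g).map (Ideal.Quotient.factor (hanti n)) = t.1 g := by
    rintro n ⟨p, Y, rfl⟩
    obtain ⟨X, hXdet, hX⟩ := hr n
    have hXu : IsUnit X := (Matrix.isUnit_iff_isUnit_det _).mpr hXdet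
    obtain ⟨Z', hZ'⟩ := lr_exists_unit_lift (Ideal.Quotient.factor (hanti n))
      (Ideal.Quotient.factor_surjective _) (hunit n) (Y * hXu.unit)
    refine ⟨⟨lrConj Z' (r (n + 1)), Z', rfl⟩, fun g => ?_⟩
    have h1 : (Ideal.Quotient.factor (hanti n)).mapMatrix (Z' : Matrix d d (S ⧸ Jn (n + 1)))
        = (Y : Matrix d d (S ⧸ Jn n)) * X := by
      have := congrArg (fun u : (Matrix d d (S ⧸ Jn n))ˣ => (u : Matrix d d (S ⧸ Jn n))) hZ'
      simpa using this
    have h2 : (Ideal.Quotient.factor (hanti n)).mapMatrix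
        ((Z'⁻¹ : (Matrix d d (S ⧸ Jn (n + 1)))ˣ) : Matrix d d (S ⧸ Jn (n + 1)))
        = ((hXu.unit⁻¹ : (Matrix d d (S ⧸ Jn n))ˣ) : Matrix d d (S ⧸ Jn n)) *
          ((Y⁻¹ : (Matrix d d (S ⧸ Jn n))ˣ) : Matrix d d (S ⧸ Jn n)) := by
      have := congrArg (fun u : (Matrix d d (S ⧸ Jn n))ˣ => ((u⁻¹ : (Matrix d d (S ⧸ Jn n))ˣ) :
        Matrix d d (S ⧸ Jn n))) hZ'
      simpa [_root_.mul_inv_rev] using this
    have h3 : X * ((hXu.unit⁻¹ : (Matrix d d (S ⧸ Jn n))ˣ) : Matrix d d (S ⧸ Jn n)) = 1 := by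
      have := hXu.unit.mul_inv
      simpa using this
    show ((Z' : Matrix d d (S ⧸ Jn (n + 1))) * r (n + 1) g *
        ((Z'⁻¹ : (Matrix d d (S ⧸ Jn (n + 1)))ˣ) : Matrix d d (S ⧸ Jn (n + 1)))).map
        (Ideal.Quotient.factor (hanti n)) = (Y : Matrix d d (S ⧸ Jn n)) * r n g *
        ((Y⁻¹ : (Matrix d d (S ⧸ Jn n))ˣ) : Matrix d d (S ⧸ Jn n))
    have h4 : ∀ M : Matrix d d (S ⧸ Jn (n + 1)),
        M.map (Ideal.Quotient.factor (hanti n)) = (Ideal.Quotient.factor (hanti n)).mapMatrix M :=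
      fun M => rfl
    rw [h4, map_mul, map_mul, h1, h2, ← h4]
    calc (Y : Matrix d d (S ⧸ Jn n)) * X * (r (n + 1) g).map (Ideal.Quotient.factor (hanti n)) *
          (((hXu.unit⁻¹ : (Matrix d d (S ⧸ Jn n))ˣ) : Matrix d d (S ⧸ Jn n)) *
          ((Y⁻¹ : (Matrix d d (S ⧸ Jn n))ˣ) : Matrix d d (S ⧸ Jn n)))
        = (Y : Matrix d d (S ⧸ Jn n)) *
          (X * (r (n + 1) g).map (Ideal.Quotient.factor (hanti n))) *
          ((hXu.unit⁻¹ : (Matrix d d (S ⧸ Jn n))ˣ) : Matrix d d (S ⧸ Jn n)) *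
          ((Y⁻¹ : (Matrix d d (S ⧸ Jn n))ˣ) : Matrix d d (S ⧸ Jn n)) := by
            simp only [mul_assoc]
      _ = (Y : Matrix d d (S ⧸ Jn n)) * r n g *
          (X * ((hXu.unit⁻¹ : (Matrix d d (S ⧸ Jn n))ˣ) : Matrix d d (S ⧸ Jn n))) *
          ((Y⁻¹ : (Matrix d d (S ⧸ Jn n))ˣ) : Matrix d d (S ⧸ Jn n)) := by
            rw [hX g]; simp only [mul_assoc]
      _ = _ := by rw [h3, mul_one]
  choose next hnext using step
  let seq : ∀ n, T n := fun n =>
    Nat.rec (motive := T) ⟨r 0, 1, by ext g : 1; simp⟩ (fun n t => next n t) n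
  have hseq0 : ∀ g, (seq 0).1 g = r 0 g := fun g => rfl
  have hseq : ∀ n g, ((seq (n + 1)).1 g).map (Ideal.Quotient.factor (hanti n)) = (seq n).1 g :=
    fun n g => hnext n (seq n) g
  -- entrywise limits
  have hex : ∀ g i j, ∃! x : S ⧸ J, ∀ n, Ideal.Quotient.factor (hJ n) x = (seq n).1 g i j := by
    intro g i j
    apply hlim
    intro n
    have := congrFun (congrFun (hseq n g) i) j
    simpa using this
  -- joint injectivity of the reduction maps
  have hinj : ∀ A B : Matrix d d (S ⧸ J),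
      (∀ n, A.map (Ideal.Quotient.factor (hJ n)) = B.map (Ideal.Quotient.factor (hJ n))) →
      A = B := by
    intro A B h
    ext i j
    have hcompat : ∀ n, Ideal.Quotient.factor (hanti n)
        (Ideal.Quotient.factor (hJ (n + 1)) (A i j)) = Ideal.Quotient.factor (hJ n) (A i j) :=
      fun n => Ideal.Quotient.factor_comp_apply _ _ _
    obtain ⟨x, -, hx⟩ := hlim (fun n => Ideal.Quotient.factor (hJ n) (A i j)) hcompat
    rw [hx (A i j) (fun n => rfl), hx (B i j) (fun n => by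
      have := congrFun (congrFun (h n) i) j
      simpa using this.symm)]
  let ρf : G → Matrix d d (S ⧸ J) := fun g => Matrix.of fun i j => (hex g i j).choose
  have hρf : ∀ g n, (ρf g).map (Ideal.Quotient.factor (hJ n)) = (seq n).1 g := by
    intro g n
    ext i j
    exact (hex g i j).choose_spec.1 n
  have hmap : ∀ n (M : Matrix d d (S ⧸ J)),
      M.map (Ideal.Quotient.factor (hJ n)) = (Ideal.Quotient.factor (hJ n)).mapMatrix M :=
    fun n M => rfl
  let ρ : G →* Matrix d d (S ⧸ J) :=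
    { toFun := ρf
      map_one' := by
        apply hinj
        intro n
        rw [hρf, map_one, hmap, map_one]
      map_mul' := by
        intro g h
        apply hinj
        intro n
        rw [hρf, map_mul, hmap, map_mul, ← hmap, ← hmap, hρf, hρf] }
  refine ⟨ρ, fun g => ?_, fun n => ?_⟩
  · show (ρf g).map (Ideal.Quotient.factor (hJ 0)) = _
    rw [hρf, hseq0]
  obtain ⟨Y, hY⟩ := (seq n).2
  refine ⟨((Y⁻¹ : (Matrix d d (S ⧸ Jn n))ˣ) : Matrix d d (S ⧸ Jn n)), ?_, fun g => ?_⟩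
  · exact (Matrix.isUnit_iff_isUnit_det _).mp (Y⁻¹).isUnit
  · show _ * (ρf g).map (Ideal.Quotient.factor (hJ n)) = _
    rw [hρf, hY, lrConj_apply]
    simp only [← mul_assoc, Units.inv_mul, one_mul]

end Main

section Strong

variable {S : Type} [CommRing S]

/-- Shifted version of `exists_unique_limit`: a compatible family indexed by the levels `n + 1`
comes from a unique element of `S ⧸ ⨅ m, Jn m`. -/
theorem exists_unique_limit_shift (I : Ideal S) [IsPrecomplete I S] (Jn : ℕ → Ideal S)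
    (hpow : ∀ n, I ^ n ≤ Jn n) (hstep : ∀ n, Jn n = Jn (n + 1) ⊔ I ^ n)
    (a : ∀ n, S ⧸ Jn (n + 1))
    (hcompat : ∀ n, Ideal.Quotient.factor
      (antitone_of_eq_succ_sup_pow I Jn hstep (Nat.le_succ (n + 1))) (a (n + 1)) = a n) :
    ∃! x : S ⧸ (⨅ m, Jn m), ∀ n, Ideal.Quotient.factor (iInf_le Jn (n + 1)) x = a n := by
  have hanti := antitone_of_eq_succ_sup_pow I Jn hstep
  let b : ∀ n, S ⧸ Jn n := fun n =>
    match n with
    | 0 => Ideal.Quotient.factor (hanti (Nat.le_succ 0)) (a 0)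
    | k + 1 => a k
  have hb : ∀ n, Ideal.Quotient.factor (hanti (Nat.le_succ n)) (b (n + 1)) = b n := by
    intro n
    cases n with
    | zero => rfl
    | succ k => exact hcompat k
  obtain ⟨x, hx, hxu⟩ := exists_unique_limit I Jn hpow hstep b hb
  refine ⟨x, fun n => hx (n + 1), fun y hy => hxu y fun n => ?_⟩
  cases n with
  | zero =>
    show _ = Ideal.Quotient.factor (hanti (Nat.le_succ 0)) (a 0)
    rw [← hy 0, Ideal.Quotient.factor_comp_apply]
  | succ k => exact hy k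

/-- **Strong limit representation** (BACKUP of `exists_limit_rep_strong`, identical signature). -/
theorem exists_limit_rep_strong_B (I : Ideal S) [IsPrecomplete I S]
    (Jn : ℕ → Ideal S) (hpow : ∀ n, I ^ n ≤ Jn n) (hstep : ∀ n, Jn n = Jn (n + 1) ⊔ I ^ n)
    (hloc : ∀ n, 1 ≤ n → IsLocalRing (S ⧸ Jn n)) {Γ : Type} [Monoid Γ]
    (r : ∀ n, Γ →* M2 (S ⧸ Jn n))
    (hconj : ∀ n, 1 ≤ n → ∃ X : M2 (S ⧸ Jn n), IsUnit X.det ∧
      ∀ γ, X * (r (n + 1) γ).map (Ideal.Quotient.factor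
        (antitone_of_eq_succ_sup_pow I Jn hstep (Nat.le_succ n))) = r n γ * X) :
    ∃ ru : Γ →* M2 (S ⧸ ⨅ m, Jn m),
      (∀ γ, (ru γ).map (Ideal.Quotient.factor (iInf_le Jn 1)) = r 1 γ) ∧
      ∀ n, 1 ≤ n → ∃ X : M2 (S ⧸ Jn n), IsUnit X.det ∧
        ∀ γ, X * (ru γ).map (Ideal.Quotient.factor (iInf_le Jn n)) = r n γ * X := by
  have hanti := antitone_of_eq_succ_sup_pow I Jn hstep
  obtain ⟨ρ, h0, hρ⟩ := exists_limit_rep_exact (d := Fin 2) (G := Γ)
    (fun n => Jn (n + 1)) (fun n => hanti (Nat.le_succ (n + 1))) (⨅ m, Jn m)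
    (fun n => iInf_le Jn (n + 1))
    (fun a ha => exists_unique_limit_shift I Jn hpow hstep a ha)
    (fun n x hx => by
      have := hloc (n + 1) (by omega)
      have := hloc (n + 1 + 1) (by omega)
      have : IsLocalHom (Ideal.Quotient.factor (hanti (Nat.le_succ (n + 1)))) :=
        IsLocalHom.of_surjective _ (Ideal.Quotient.factor_surjective _)
      exact isUnit_of_map_unit (Ideal.Quotient.factor (hanti (Nat.le_succ (n + 1)))) x hx)
    (fun n => r (n + 1)) (fun n => hconj (n + 1) (by omega))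
  refine ⟨ρ, h0, fun n hn => ?_⟩
  obtain ⟨k, rfl⟩ : ∃ k, n = k + 1 := ⟨n - 1, by omega⟩
  exact hρ k

end Strong

end Fermat.Agent.S53x
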