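import Mathlib

/-!
# Hensel's lemma for quadratics `f0 + f1 b + f2 b^2` with `f0 ∈ 𝔪`, `f1` a unit
in an adically complete local ring (existence) / any local ring (uniqueness).
-/

namespace Fermat.Agent.S53x

open IsLocalRing

variable {A : Type*} [CommRing A] [IsLocalRing A]

theorem FA53_isUnit_add_of_mem_maximalIdeal {u x : A} (hu : IsUnit u) (hx : x ∈ maximalIdeal A) :
    IsUnit (u + x) := by
  by_contra h
  have h1 : u + x ∈ maximalIdeal A := (mem_maximalIdeal _).mpr h
  have h2 : u ∈ maximalIdeal A := by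
    have := (maximalIdeal A).sub_mem h1 hx
    simpa using this
  exact ((mem_maximalIdeal _).mp h2) hu

/-- Uniqueness of a root in the maximal ideal. -/
theorem FA53_quad_root_unique {f0 f1 f2 b b' : A} (hf1 : IsUnit f1)
    (hb : b ∈ maximalIdeal A) (hb' : b' ∈ maximalIdeal A)
    (h : f0 + f1 * b + f2 * b ^ 2 = 0) (h' : f0 + f1 * b' + f2 * b' ^ 2 = 0) : b = b' := by
  have hfac : (b - b') * (f1 + f2 * (b + b')) = 0 := by
    have : (b - b') * (f1 + f2 * (b + b')) =
        (f0 + f1 * b + f2 * b ^ 2) - (f0 + f1 * b' + f2 * b' ^ 2) := by ring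
    rw [this, h, h', sub_zero]
  have hu : IsUnit (f1 + f2 * (b + b')) :=
    FA53_isUnit_add_of_mem_maximalIdeal hf1
      ((maximalIdeal A).mul_mem_left _ ((maximalIdeal A).add_mem hb hb'))
  have := (hu.mul_left_eq_zero).mp hfac
  exact sub_eq_zero.mp this

/-- Existence of a root in the maximal ideal, for an adically complete local ring. -/
theorem FA53_quad_root_exists [IsAdicComplete (maximalIdeal A) A] {f0 f1 f2 : A}
    (hf0 : f0 ∈ maximalIdeal A) (hf1 : IsUnit f1) :
    ∃ b ∈ maximalIdeal A, f0 + f1 * b + f2 * b ^ 2 = 0 := by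
  obtain ⟨u, hu⟩ := hf1.exists_left_inv
  -- contraction `g b = -u (f0 + f2 b^2)`
  let g : A → A := fun b => -(u * (f0 + f2 * b ^ 2))
  let s : ℕ → A := fun n => g^[n] 0
  have hs_succ : ∀ n, s (n + 1) = g (s n) := fun n => Function.iterate_succ_apply' g n 0
  have hs_mem : ∀ n, s n ∈ maximalIdeal A := by
    intro n
    induction n with
    | zero => exact (maximalIdeal A).zero_mem
    | succ n ih =>
      rw [hs_succ]
      show -(u * (f0 + f2 * s n ^ 2)) ∈ maximalIdeal A
      refine (maximalIdeal A).neg_mem ((maximalIdeal A).mul_mem_left _ ?_)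
      refine (maximalIdeal A).add_mem hf0 ((maximalIdeal A).mul_mem_left _ ?_)
      rw [pow_two]
      exact (maximalIdeal A).mul_mem_left _ ih
  have hg_sub : ∀ x y : A, g x - g y = -(u * f2) * ((x - y) * (x + y)) := by
    intro x y; simp only [g]; ring
  have hs_diff : ∀ n, s (n + 1) - s n ∈ maximalIdeal A ^ (n + 1) := by
    intro n
    induction n with
    | zero =>
      rw [pow_one]
      exact (maximalIdeal A).sub_mem (hs_mem 1) (hs_mem 0)
    | succ n ih =>
      have e : s (n + 1 + 1) - s (n + 1) =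
          -(u * f2) * ((s (n + 1) - s n) * (s (n + 1) + s n)) := by
        have h := hg_sub (s (n + 1)) (s n)
        rw [← hs_succ (n + 1), ← hs_succ n] at h
        exact h
      rw [e]
      refine Ideal.mul_mem_left _ _ ?_
      rw [pow_succ]
      exact Ideal.mul_mem_mul ih ((maximalIdeal A).add_mem (hs_mem _) (hs_mem _))
  have hs_cauchy : ∀ {m n : ℕ}, m ≤ n →
      s m ≡ s n [SMOD (maximalIdeal A ^ m • ⊤ : Submodule A A)] := by
    intro m n hmn
    rw [SModEq.sub_mem, smul_eq_mul, Ideal.mul_top]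
    induction n, hmn using Nat.le_induction with
    | base => simp
    | succ n hmn ih =>
      have h1 : s m - s (n + 1) = (s m - s n) - (s (n + 1) - s n) := by ring
      rw [h1]
      refine Ideal.sub_mem _ ih ?_
      exact Ideal.pow_le_pow_right (Nat.le_succ_of_le hmn) (hs_diff n)
  obtain ⟨b, hb⟩ := IsPrecomplete.prec (I := maximalIdeal A) (M := A) inferInstance hs_cauchy
  have hb' : ∀ n, s n - b ∈ maximalIdeal A ^ n := by
    intro n
    have := hb n
    rwa [SModEq.sub_mem, smul_eq_mul, Ideal.mul_top] at this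
  have hbm : b ∈ maximalIdeal A := by
    have h1 := hb' 1
    rw [pow_one] at h1
    have : b = s 1 - (s 1 - b) := by ring
    rw [this]
    exact (maximalIdeal A).sub_mem (hs_mem 1) h1
  have hfix : g b - b = 0 := by
    apply IsHausdorff.haus (I := maximalIdeal A) (M := A) inferInstance
    intro n
    rw [SModEq.sub_mem, smul_eq_mul, Ideal.mul_top, sub_zero]
    -- g b - b = (g b - g (s n)) + (s (n+1) - b)
    have h1 : g b - b = (g b - g (s n)) + (s (n + 1) - b) := by rw [hs_succ]; ring
    rw [h1]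
    refine Ideal.add_mem _ ?_ (Ideal.pow_le_pow_right (Nat.le_succ n) (hb' (n + 1)))
    rw [hg_sub]
    refine Ideal.mul_mem_left _ _ (Ideal.mul_mem_right _ _ ?_)
    have : b - s n = -(s n - b) := by ring
    rw [this]
    exact neg_mem (hb' n)
  refine ⟨b, hbm, ?_⟩
  have h2 : b = -(u * (f0 + f2 * b ^ 2)) := (sub_eq_zero.mp hfix).symm
  have h3 : f1 * b = -(f0 + f2 * b ^ 2) := by
    conv_lhs => rw [h2]
    have : f1 * -(u * (f0 + f2 * b ^ 2)) = -((u * f1) * (f0 + f2 * b ^ 2)) := by ring
    rw [this, hu, one_mul]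
  have : f0 + f1 * b + f2 * b ^ 2 = (f1 * b) + (f0 + f2 * b ^ 2) := by ring
  rw [this, h3]; ring

end Fermat.Agent.S53x
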