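import Mathlib
import Fermat.Agent.S53x.QuadHensel

/-!
# Rigidification ("normal form") of 2×2 matrix representations over a local ring

`r : G →* M₂(A)` is *normal* w.r.t. `(σ0, σ1, i0, c0)` if `r σ0` has first column `(0,1)ᵀ`
(companion form) and the `(i0, 0)` entry of `r σ1` equals `c0`.
* uniqueness: two normal representations, congruent mod `𝔪`, whose residual commutant is scalar,
  and conjugate by some `g ∈ GL₂(A)`, are equal;
* existence: over an adically complete local ring, any representation which is normal mod `𝔪`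
  is conjugate by some `g ≡ 1 mod 𝔪` to a normal one.
-/

namespace Fermat.Agent.S53x

open IsLocalRing Matrix

variable {A : Type*} [CommRing A] {G : Type*} [Monoid G]

/-- conjugate of a matrix-valued hom by a unit matrix -/
def FA53_conjHom (g : (Matrix (Fin 2) (Fin 2) A)ˣ) (r : G →* Matrix (Fin 2) (Fin 2) A) :
    G →* Matrix (Fin 2) (Fin 2) A where
  toFun σ := (g : Matrix (Fin 2) (Fin 2) A) * r σ * ((g⁻¹ : (Matrix (Fin 2) (Fin 2) A)ˣ) :
    Matrix (Fin 2) (Fin 2) A)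
  map_one' := by simp
  map_mul' a b := by
    rw [map_mul]
    have h : ((g⁻¹ : (Matrix (Fin 2) (Fin 2) A)ˣ) : Matrix (Fin 2) (Fin 2) A) *
        (g : Matrix (Fin 2) (Fin 2) A) = 1 := by simp
    calc (g : Matrix (Fin 2) (Fin 2) A) * (r a * r b) * ↑g⁻¹
        = ↑g * r a * 1 * r b * ↑g⁻¹ := by simp [mul_assoc]
      _ = ↑g * r a * (↑g⁻¹ * ↑g) * r b * ↑g⁻¹ := by rw [h]
      _ = _ := by simp [mul_assoc]

@[simp] theorem FA53_conjHom_apply (g : (Matrix (Fin 2) (Fin 2) A)ˣ)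
    (r : G →* Matrix (Fin 2) (Fin 2) A) (σ : G) :
    FA53_conjHom g r σ = (g : Matrix (Fin 2) (Fin 2) A) * r σ *
      ((g⁻¹ : (Matrix (Fin 2) (Fin 2) A)ˣ) : Matrix (Fin 2) (Fin 2) A) := rfl

theorem FA53_conjHom_mul (g h : (Matrix (Fin 2) (Fin 2) A)ˣ)
    (r : G →* Matrix (Fin 2) (Fin 2) A) :
    FA53_conjHom (g * h) r = FA53_conjHom g (FA53_conjHom h r) := by
  ext1 σ
  simp [mul_assoc]

theorem FA53_conjHom_mul_eq (g : (Matrix (Fin 2) (Fin 2) A)ˣ)
    (r : G →* Matrix (Fin 2) (Fin 2) A) (σ : G) :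
    FA53_conjHom g r σ * (g : Matrix (Fin 2) (Fin 2) A) = (g : Matrix (Fin 2) (Fin 2) A) * r σ := by
  simp [mul_assoc]

/-- The derivative of the normalised entry along the conjugation `(1+bM)⁻¹ N (1+bM)`. -/
def FA53_dEntry (M N : Matrix (Fin 2) (Fin 2) A) (i0 : Fin 2) : A :=
  if i0 = 0 then N 0 1 - M 0 1 * N 1 0 else N 1 1 - N 0 0 - M 1 1 * N 1 0

/-- Normal form predicate. -/
structure FA53_IsNormal (r : G →* Matrix (Fin 2) (Fin 2) A) (σ0 σ1 : G) (i0 : Fin 2) (c0 : A) :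
    Prop where
  comp0 : r σ0 0 0 = 0
  comp1 : r σ0 1 0 = 1
  entry : r σ1 i0 0 = c0

variable [IsLocalRing A]

/-- The residual commutant of `r` consists of scalars (formulated without residue fields). -/
def FA53_ResidScalarCommutant (r : G →* Matrix (Fin 2) (Fin 2) A) : Prop :=
  ∀ h : Matrix (Fin 2) (Fin 2) A,
    (∀ σ i j, (h * r σ - r σ * h) i j ∈ maximalIdeal A) →
      h 0 1 ∈ maximalIdeal A ∧ h 1 0 ∈ maximalIdeal A ∧ h 0 0 - h 1 1 ∈ maximalIdeal A

omit [IsLocalRing A] in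
omit [Monoid G] in
theorem FA53_two_mul_apply (X Y : Matrix (Fin 2) (Fin 2) A) (i j : Fin 2) :
    (X * Y) i j = X i 0 * Y 0 j + X i 1 * Y 1 j := by
  rw [Matrix.mul_apply, Fin.sum_univ_two]

/-- **Uniqueness of normal forms.** -/
theorem FA53_normal_unique (r r' : G →* Matrix (Fin 2) (Fin 2) A) (σ0 σ1 : G) (i0 : Fin 2) (c0 : A)
    (hr : FA53_IsNormal r σ0 σ1 i0 c0) (hr' : FA53_IsNormal r' σ0 σ1 i0 c0)
    (hS : FA53_ResidScalarCommutant r)
    (hcong : ∀ σ i j, r σ i j - r' σ i j ∈ maximalIdeal A)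
    (hd : IsUnit (FA53_dEntry (r' σ0) (r' σ1) i0))
    (g : Matrix (Fin 2) (Fin 2) A) (hg : IsUnit g.det)
    (hconj : ∀ σ, g * r σ = r' σ * g) : r = r' := by
  set 𝔪 := maximalIdeal A with h𝔪
  -- step 1: g is scalar mod 𝔪
  have h1 : ∀ σ i j, (g * r σ - r σ * g) i j ∈ 𝔪 := by
    intro σ i j
    rw [hconj σ, ← sub_mul, FA53_two_mul_apply]
    refine 𝔪.add_mem (𝔪.mul_mem_right _ ?_) (𝔪.mul_mem_right _ ?_)
    · rw [Matrix.sub_apply]
      have := hcong σ i 0
      have e : r' σ i 0 - r σ i 0 = -(r σ i 0 - r' σ i 0) := by ring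
      rw [e]; exact neg_mem this
    · rw [Matrix.sub_apply]
      have := hcong σ i 1
      have e : r' σ i 1 - r σ i 1 = -(r σ i 1 - r' σ i 1) := by ring
      rw [e]; exact neg_mem this
  obtain ⟨hg01, hg10, hg0011⟩ := hS g h1
  -- step 2: g00 is a unit
  have hg00 : IsUnit (g 0 0) := by
    by_contra hcon
    have h00 : g 0 0 ∈ 𝔪 := (mem_maximalIdeal _).mpr hcon
    have h11 : g 1 1 ∈ 𝔪 := by
      have : g 1 1 = g 0 0 - (g 0 0 - g 1 1) := by ring
      rw [this]; exact 𝔪.sub_mem h00 hg0011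
    have hdet : g.det ∈ 𝔪 := by
      rw [Matrix.det_fin_two]
      exact 𝔪.sub_mem (𝔪.mul_mem_right _ h00) (𝔪.mul_mem_right _ hg01)
    exact ((mem_maximalIdeal _).mp hdet) hg
  -- step 3: structure of g from σ0
  have e0 := hconj σ0
  have e00 := congrFun (congrFun e0 0) 0
  have e10 := congrFun (congrFun e0 1) 0
  rw [FA53_two_mul_apply, FA53_two_mul_apply, hr.comp0, hr.comp1, hr'.comp0] at e00
  rw [FA53_two_mul_apply, FA53_two_mul_apply, hr.comp0, hr.comp1, hr'.comp1] at e10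
  -- e00 : g 0 0 * 0 + g 0 1 * 1 = 0 * g 0 0 + r' σ0 0 1 * g 1 0
  -- e10 : g 1 0 * 0 + g 1 1 * 1 = 1 * g 0 0 + r' σ0 1 1 * g 1 0
  have hg01' : g 0 1 = r' σ0 0 1 * g 1 0 := by linear_combination e00
  have hg11' : g 1 1 = g 0 0 + r' σ0 1 1 * g 1 0 := by linear_combination e10
  -- step 4: β := g 1 0 = 0
  have e1 := hconj σ1
  have f00 := congrFun (congrFun e1 0) 0
  have f10 := congrFun (congrFun e1 1) 0
  rw [FA53_two_mul_apply, FA53_two_mul_apply] at f00 f10
  have hβ : g 1 0 = 0 := by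
    by_cases hi : i0 = 0
    · -- x = x' = c0
      have hx : r σ1 0 0 = c0 := by have := hr.entry; rwa [hi] at this
      have hx' : r' σ1 0 0 = c0 := by have := hr'.entry; rwa [hi] at this
      have hd' : IsUnit (r' σ1 0 1 - r' σ0 0 1 * r' σ1 1 0) := by
        simpa [FA53_dEntry, hi] using hd
      -- f00 : g00 x + g01 z = x' g00 + y' g10
      have key : g 1 0 * ((r' σ1 0 1 - r' σ0 0 1 * r' σ1 1 0) +
          r' σ0 0 1 * (r' σ1 1 0 - r σ1 1 0)) = 0 := by
        rw [hx, hx', hg01'] at f00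
        linear_combination -f00
      have hu : IsUnit ((r' σ1 0 1 - r' σ0 0 1 * r' σ1 1 0) +
          r' σ0 0 1 * (r' σ1 1 0 - r σ1 1 0)) := by
        refine FA53_isUnit_add_of_mem_maximalIdeal hd' (𝔪.mul_mem_left _ ?_)
        have := hcong σ1 1 0
        have e : r' σ1 1 0 - r σ1 1 0 = -(r σ1 1 0 - r' σ1 1 0) := by ring
        rw [e]; exact neg_mem this
      exact (hu.mul_left_eq_zero).mp key
    · have hi1 : i0 = 1 := by
        fin_cases i0
        · exact absurd rfl hi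
        · rfl
      have hz : r σ1 1 0 = c0 := by have := hr.entry; rwa [hi1] at this
      have hz' : r' σ1 1 0 = c0 := by have := hr'.entry; rwa [hi1] at this
      have hd' : IsUnit (r' σ1 1 1 - r' σ1 0 0 - r' σ0 1 1 * r' σ1 1 0) := by
        simpa [FA53_dEntry, hi1] using hd
      -- f10 : g10 x + g11 z = z' g00 + w' g10
      have key : g 1 0 * (-(r' σ1 1 1 - r' σ1 0 0 - r' σ0 1 1 * r' σ1 1 0) +
          (r σ1 0 0 - r' σ1 0 0)) = 0 := by
        rw [hz, hg11'] at f10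
        rw [hz'] at f10 ⊢
        linear_combination f10
      have hu : IsUnit (-(r' σ1 1 1 - r' σ1 0 0 - r' σ0 1 1 * r' σ1 1 0) +
          (r σ1 0 0 - r' σ1 0 0)) :=
        FA53_isUnit_add_of_mem_maximalIdeal hd'.neg (hcong σ1 0 0)
      exact (hu.mul_left_eq_zero).mp key
  -- step 5: g = g00 • 1
  have hg01'' : g 0 1 = 0 := by rw [hg01', hβ, mul_zero]
  have hg11'' : g 1 1 = g 0 0 := by rw [hg11', hβ, mul_zero, add_zero]
  have hgs : g = g 0 0 • (1 : Matrix (Fin 2) (Fin 2) A) := by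
    ext i j
    fin_cases i <;> fin_cases j <;> simp [hβ, hg01'', hg11'']
  ext σ i j
  have := hconj σ
  rw [hgs] at this
  have e := congrFun (congrFun this i) j
  simp only [Matrix.smul_mul, Matrix.mul_smul, Matrix.one_mul, Matrix.mul_one,
    Matrix.smul_apply, smul_eq_mul] at e
  exact hg00.mul_left_cancel e

end Fermat.Agent.S53x
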