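import Mathlib
import Fermat.Agent.S53x.NormalForm

/-!
# Existence of normal forms over an adically complete local ring
-/

namespace Fermat.Agent.S53x

open IsLocalRing Matrix

variable {A : Type*} [CommRing A] [IsLocalRing A] {G : Type*} [Monoid G]

/-- reduction of 2×2 matrices to the residue field -/
noncomputable def FA53_red : Matrix (Fin 2) (Fin 2) A →+* Matrix (Fin 2) (Fin 2) (ResidueField A) :=
  (residue A).mapMatrix

theorem FA53_red_apply (X : Matrix (Fin 2) (Fin 2) A) (i j : Fin 2) :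
    FA53_red X i j = residue A (X i j) := rfl

theorem FA53_red_eq_one_iff (X : Matrix (Fin 2) (Fin 2) A) :
    FA53_red X = 1 ↔ X 0 0 - 1 ∈ maximalIdeal A ∧ X 0 1 ∈ maximalIdeal A ∧
      X 1 0 ∈ maximalIdeal A ∧ X 1 1 - 1 ∈ maximalIdeal A := by
  constructor
  · intro h
    have h00 := congrFun (congrFun h 0) 0
    have h01 := congrFun (congrFun h 0) 1
    have h10 := congrFun (congrFun h 1) 0
    have h11 := congrFun (congrFun h 1) 1
    rw [FA53_red_apply] at h00 h01 h10 h11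
    simp only [Matrix.one_apply_eq, ne_eq, zero_ne_one, not_false_eq_true, Matrix.one_apply_ne,
      one_ne_zero] at h00 h01 h10 h11
    refine ⟨?_, ?_, ?_, ?_⟩
    · rw [← residue_eq_zero_iff, map_sub, h00, map_one, sub_self]
    · rwa [← residue_eq_zero_iff]
    · rwa [← residue_eq_zero_iff]
    · rw [← residue_eq_zero_iff, map_sub, h11, map_one, sub_self]
  · rintro ⟨h00, h01, h10, h11⟩
    rw [← residue_eq_zero_iff, map_sub, map_one, sub_eq_zero] at h00 h11
    rw [← residue_eq_zero_iff] at h01 h10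
    ext i j
    rw [FA53_red_apply]
    fin_cases i <;> fin_cases j <;> simp [h00, h01, h10, h11]

theorem FA53_red_unit_inv {g : (Matrix (Fin 2) (Fin 2) A)ˣ}
    (h : FA53_red (g : Matrix (Fin 2) (Fin 2) A) = 1) :
    FA53_red ((g⁻¹ : (Matrix (Fin 2) (Fin 2) A)ˣ) : Matrix (Fin 2) (Fin 2) A) = 1 := by
  have h1 : FA53_red ((g : Matrix (Fin 2) (Fin 2) A) *
      ((g⁻¹ : (Matrix (Fin 2) (Fin 2) A)ˣ) : Matrix (Fin 2) (Fin 2) A)) = 1 := by
    rw [Units.mul_inv, map_one]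
  rwa [map_mul, h, one_mul] at h1

theorem FA53_red_conjHom {g : (Matrix (Fin 2) (Fin 2) A)ˣ}
    (h : FA53_red (g : Matrix (Fin 2) (Fin 2) A) = 1) (r : G →* Matrix (Fin 2) (Fin 2) A) (σ : G) :
    FA53_red (FA53_conjHom g r σ) = FA53_red (r σ) := by
  rw [FA53_conjHom_apply, map_mul, map_mul, h, FA53_red_unit_inv h, one_mul, mul_one]

theorem FA53_sub_mem_of_red_eq {X Y : Matrix (Fin 2) (Fin 2) A} (h : FA53_red X = FA53_red Y)
    (i j : Fin 2) : X i j - Y i j ∈ maximalIdeal A := by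
  have := congrFun (congrFun h i) j
  rw [FA53_red_apply, FA53_red_apply] at this
  rw [← residue_eq_zero_iff, map_sub, this, sub_self]

theorem FA53_isUnit_of_sub_mem {u v : A} (hu : IsUnit u) (h : v - u ∈ maximalIdeal A) : IsUnit v := by
  have : v = u + (v - u) := by ring
  rw [this]
  exact FA53_isUnit_add_of_mem_maximalIdeal hu h

omit [IsLocalRing A] [CommRing A] in
theorem FA53_ext2 {X Y : Matrix (Fin 2) (Fin 2) A} (h00 : X 0 0 = Y 0 0) (h01 : X 0 1 = Y 0 1)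
    (h10 : X 1 0 = Y 1 0) (h11 : X 1 1 = Y 1 1) : X = Y := by
  ext i j; fin_cases i <;> fin_cases j <;> assumption

/-- Step 1: make `r σ0` companion. -/
theorem FA53_exists_companion (r : G →* Matrix (Fin 2) (Fin 2) A) (σ0 : G)
    (h00 : r σ0 0 0 ∈ maximalIdeal A) (h10 : r σ0 1 0 - 1 ∈ maximalIdeal A) :
    ∃ g : (Matrix (Fin 2) (Fin 2) A)ˣ, FA53_red (g : Matrix (Fin 2) (Fin 2) A) = 1 ∧
      FA53_conjHom g r σ0 0 0 = 0 ∧ FA53_conjHom g r σ0 1 0 = 1 := by
  obtain ⟨a, ha⟩ : ∃ a, a = r σ0 0 0 := ⟨_, rfl⟩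
  obtain ⟨c, hc⟩ : ∃ c, c = r σ0 1 0 := ⟨_, rfl⟩
  rw [← ha] at h00
  rw [← hc] at h10
  have hcu : IsUnit c := FA53_isUnit_of_sub_mem isUnit_one h10
  obtain ⟨ci, hci⟩ := hcu.exists_left_inv
  have hBiB : (!![1, -(a * ci); 0, ci] : Matrix (Fin 2) (Fin 2) A) * !![1, a; 0, c] = 1 := by
    rw [Matrix.mul_fin_two, Matrix.one_fin_two]
    apply FA53_ext2
    · simp
    · simp
      linear_combination (-a) * hci
    · simp
    · simp
      exact hci
  have hBBi : (!![1, a; 0, c] : Matrix (Fin 2) (Fin 2) A) * !![1, -(a * ci); 0, ci] = 1 := by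
    rw [Matrix.mul_fin_two, Matrix.one_fin_two]
    apply FA53_ext2
    · simp
    · simp
    · simp
    · simp
      linear_combination hci
  have hci1 : ci - 1 ∈ maximalIdeal A := by
    have : ci - 1 = -(ci * (c - 1)) := by linear_combination hci
    rw [this]
    exact neg_mem ((maximalIdeal A).mul_mem_left _ h10)
  refine ⟨⟨!![1, -(a * ci); 0, ci], !![1, a; 0, c], hBiB, hBBi⟩, ?_, ?_, ?_⟩
  · rw [FA53_red_eq_one_iff]
    refine ⟨?_, ?_, ?_, ?_⟩
    · simp
    · simp only [Matrix.of_apply, Matrix.cons_val', Matrix.cons_val_zero, Matrix.cons_val_one,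
        Matrix.cons_val_fin_one]
      exact neg_mem ((maximalIdeal A).mul_mem_right _ h00)
    · simp
    · simpa using hci1
  · rw [FA53_conjHom_apply]
    show ((!![1, -(a * ci); 0, ci] : Matrix (Fin 2) (Fin 2) A) * r σ0 * !![1, a; 0, c]) 0 0 = 0
    rw [Matrix.eta_fin_two (r σ0), ← ha, ← hc, Matrix.mul_fin_two, Matrix.mul_fin_two]
    simp
    linear_combination (-a) * hci
  · rw [FA53_conjHom_apply]
    show ((!![1, -(a * ci); 0, ci] : Matrix (Fin 2) (Fin 2) A) * r σ0 * !![1, a; 0, c]) 1 0 = 1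
    rw [Matrix.eta_fin_two (r σ0), ← ha, ← hc, Matrix.mul_fin_two, Matrix.mul_fin_two]
    simp
    linear_combination hci

theorem FA53_residue_dEntry (M N : Matrix (Fin 2) (Fin 2) A) (i0 : Fin 2) :
    residue A (FA53_dEntry M N i0) = FA53_dEntry (FA53_red M) (FA53_red N) i0 := by
  unfold FA53_dEntry
  split_ifs <;> simp [FA53_red_apply, map_sub, map_mul]

theorem FA53_isUnit_dEntry_congr {M N M' N' : Matrix (Fin 2) (Fin 2) A} (i0 : Fin 2)
    (hM : FA53_red M' = FA53_red M) (hN : FA53_red N' = FA53_red N)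
    (h : IsUnit (FA53_dEntry M N i0)) : IsUnit (FA53_dEntry M' N' i0) := by
  rw [← residue_ne_zero_iff_isUnit, FA53_residue_dEntry] at h ⊢
  rwa [hM, hN]

/-- Step 2: given exact companion form at `σ0`, normalise the entry of `r σ1`. -/
theorem FA53_exists_normal_of_companion [IsAdicComplete (maximalIdeal A) A]
    (r : G →* Matrix (Fin 2) (Fin 2) A) (σ0 σ1 : G) (i0 : Fin 2) (c0 : A)
    (hc0 : r σ0 0 0 = 0) (hc1 : r σ0 1 0 = 1)
    (hent : r σ1 i0 0 - c0 ∈ maximalIdeal A)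
    (hd : IsUnit (FA53_dEntry (r σ0) (r σ1) i0)) :
    ∃ g : (Matrix (Fin 2) (Fin 2) A)ˣ, FA53_red (g : Matrix (Fin 2) (Fin 2) A) = 1 ∧
      FA53_IsNormal (FA53_conjHom g r) σ0 σ1 i0 c0 := by
  obtain ⟨m, hm⟩ : ∃ m, m = r σ0 0 1 := ⟨_, rfl⟩
  obtain ⟨t, ht⟩ : ∃ t, t = r σ0 1 1 := ⟨_, rfl⟩
  obtain ⟨x, hx⟩ : ∃ x, x = r σ1 0 0 := ⟨_, rfl⟩
  obtain ⟨y, hy⟩ : ∃ y, y = r σ1 0 1 := ⟨_, rfl⟩
  obtain ⟨z, hz⟩ : ∃ z, z = r σ1 1 0 := ⟨_, rfl⟩
  obtain ⟨w, hw⟩ : ∃ w, w = r σ1 1 1 := ⟨_, rfl⟩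
  have hM : r σ0 = !![0, m; 1, t] := by
    rw [Matrix.eta_fin_two (r σ0), hc0, hc1, ← hm, ← ht]
  have hN : r σ1 = !![x, y; z, w] := by
    rw [Matrix.eta_fin_two (r σ1), ← hx, ← hy, ← hz, ← hw]
  -- the quadratic
  obtain ⟨f0, f1, f2, hf0, hf1, hkey⟩ : ∃ f0 f1 f2 : A, f0 ∈ maximalIdeal A ∧ IsUnit f1 ∧
      ∀ b : A, f0 + f1 * b + f2 * b ^ 2 = 0 →
        ((!![1 + b * t, -(b * m); -b, 1] : Matrix (Fin 2) (Fin 2) A) * !![x, y; z, w] *
          !![1, b * m; b, 1 + b * t]) i0 0 = c0 * (1 + b * t - b ^ 2 * m) := by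
    by_cases hi : i0 = 0
    · subst hi
      refine ⟨x - c0, (y - m * z) + t * (x - c0), t * y - m * w + c0 * m, ?_, ?_, ?_⟩
      · rw [hx]; exact hent
      · have hd' : IsUnit (y - m * z) := by
          simpa [FA53_dEntry, ← hm, ← hy, ← hz] using hd
        refine FA53_isUnit_add_of_mem_maximalIdeal hd' ((maximalIdeal A).mul_mem_left _ ?_)
        rw [hx]; exact hent
      · intro b hb
        rw [Matrix.mul_fin_two, Matrix.mul_fin_two]
        simp only [Matrix.of_apply, Matrix.cons_val', Matrix.cons_val_zero, Matrix.cons_val_one,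
          Matrix.cons_val_fin_one]
        linear_combination hb
    · have hi1 : i0 = 1 := by
        fin_cases i0
        · exact absurd rfl hi
        · rfl
      subst hi1
      refine ⟨z - c0, w - x - c0 * t, -y + c0 * m, ?_, ?_, ?_⟩
      · rw [hz]; exact hent
      · have hd' : IsUnit (w - x - t * z) := by
          simpa [FA53_dEntry, ← ht, ← hx, ← hw, ← hz] using hd
        have e : w - x - c0 * t = (w - x - t * z) + t * (z - c0) := by ring
        rw [e]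
        refine FA53_isUnit_add_of_mem_maximalIdeal hd' ((maximalIdeal A).mul_mem_left _ ?_)
        rw [hz]; exact hent
      · intro b hb
        rw [Matrix.mul_fin_two, Matrix.mul_fin_two]
        simp only [Matrix.of_apply, Matrix.cons_val', Matrix.cons_val_zero, Matrix.cons_val_one,
          Matrix.cons_val_fin_one]
        linear_combination hb
  obtain ⟨b, hbm, hb⟩ := FA53_quad_root_exists (f2 := f2) hf0 hf1
  have hkey' := hkey b hb
  -- δ and its inverse
  have hδm : b * (t - b * m) ∈ maximalIdeal A := (maximalIdeal A).mul_mem_right _ hbm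
  have hδu : IsUnit (1 + b * t - b ^ 2 * m) := by
    have e : 1 + b * t - b ^ 2 * m = 1 + b * (t - b * m) := by ring
    rw [e]
    exact FA53_isUnit_add_of_mem_maximalIdeal isUnit_one hδm
  obtain ⟨δi, hδi⟩ := hδu.exists_left_inv
  have hAdH : (!![1 + b * t, -(b * m); -b, 1] : Matrix (Fin 2) (Fin 2) A) *
      !![1, b * m; b, 1 + b * t] = (1 + b * t - b ^ 2 * m) • (1 : Matrix (Fin 2) (Fin 2) A) := by
    rw [Matrix.mul_fin_two, Matrix.one_fin_two, Matrix.smul_of, Matrix.smul_cons, Matrix.smul_cons]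
    apply FA53_ext2 <;> simp <;> ring
  have hHAd : (!![1, b * m; b, 1 + b * t] : Matrix (Fin 2) (Fin 2) A) *
      !![1 + b * t, -(b * m); -b, 1] = (1 + b * t - b ^ 2 * m) • (1 : Matrix (Fin 2) (Fin 2) A) := by
    rw [Matrix.mul_fin_two, Matrix.one_fin_two, Matrix.smul_of, Matrix.smul_cons, Matrix.smul_cons]
    apply FA53_ext2 <;> simp <;> ring
  have hgv : (δi • (!![1 + b * t, -(b * m); -b, 1] : Matrix (Fin 2) (Fin 2) A)) *
      !![1, b * m; b, 1 + b * t] = 1 := by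
    rw [Matrix.smul_mul, hAdH, smul_smul, hδi, one_smul]
  have hvg : (!![1, b * m; b, 1 + b * t] : Matrix (Fin 2) (Fin 2) A) *
      (δi • (!![1 + b * t, -(b * m); -b, 1] : Matrix (Fin 2) (Fin 2) A)) = 1 := by
    rw [Matrix.mul_smul, hHAd, smul_smul, hδi, one_smul]
  let g : (Matrix (Fin 2) (Fin 2) A)ˣ :=
    ⟨δi • (!![1 + b * t, -(b * m); -b, 1] : Matrix (Fin 2) (Fin 2) A),
      !![1, b * m; b, 1 + b * t], hgv, hvg⟩
  have hginv : ((g⁻¹ : (Matrix (Fin 2) (Fin 2) A)ˣ) : Matrix (Fin 2) (Fin 2) A) =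
      !![1, b * m; b, 1 + b * t] := rfl
  have hgval : (g : Matrix (Fin 2) (Fin 2) A) =
      δi • (!![1 + b * t, -(b * m); -b, 1] : Matrix (Fin 2) (Fin 2) A) := rfl
  have hredinv : FA53_red ((g⁻¹ : (Matrix (Fin 2) (Fin 2) A)ˣ) : Matrix (Fin 2) (Fin 2) A) = 1 := by
    rw [hginv, FA53_red_eq_one_iff]
    refine ⟨?_, ?_, ?_, ?_⟩
    · simp
    · simpa using (maximalIdeal A).mul_mem_right m hbm
    · simpa using hbm
    · simpa using (maximalIdeal A).mul_mem_right t hbm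
  have hred : FA53_red (g : Matrix (Fin 2) (Fin 2) A) = 1 := by
    have := FA53_red_unit_inv hredinv
    rwa [inv_inv] at this
  refine ⟨g, hred, ⟨?_, ?_, ?_⟩⟩
  · rw [FA53_conjHom_apply, hginv, hgval, hM, Matrix.smul_mul, Matrix.smul_mul, Matrix.smul_apply,
      Matrix.mul_fin_two, Matrix.mul_fin_two]
    simp only [Matrix.of_apply, Matrix.cons_val', Matrix.cons_val_zero, Matrix.cons_val_one,
      Matrix.cons_val_fin_one, smul_eq_mul]
    ring
  · rw [FA53_conjHom_apply, hginv, hgval, hM, Matrix.smul_mul, Matrix.smul_mul, Matrix.smul_apply,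
      Matrix.mul_fin_two, Matrix.mul_fin_two]
    simp only [Matrix.of_apply, Matrix.cons_val', Matrix.cons_val_zero, Matrix.cons_val_one,
      Matrix.cons_val_fin_one, smul_eq_mul]
    linear_combination hδi
  · rw [FA53_conjHom_apply, hginv, hgval, hN, Matrix.smul_mul, Matrix.smul_mul, Matrix.smul_apply,
      hkey', smul_eq_mul]
    linear_combination c0 * hδi

/-- **Existence of normal forms.** -/
theorem FA53_exists_normal [IsAdicComplete (maximalIdeal A) A]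
    (r : G →* Matrix (Fin 2) (Fin 2) A) (σ0 σ1 : G) (i0 : Fin 2) (c0 : A)
    (h00 : r σ0 0 0 ∈ maximalIdeal A) (h10 : r σ0 1 0 - 1 ∈ maximalIdeal A)
    (hent : r σ1 i0 0 - c0 ∈ maximalIdeal A)
    (hd : IsUnit (FA53_dEntry (r σ0) (r σ1) i0)) :
    ∃ g : (Matrix (Fin 2) (Fin 2) A)ˣ, FA53_red (g : Matrix (Fin 2) (Fin 2) A) = 1 ∧
      FA53_IsNormal (FA53_conjHom g r) σ0 σ1 i0 c0 := by
  obtain ⟨g1, hg1, h1a, h1b⟩ := FA53_exists_companion r σ0 h00 h10
  have hent1 : FA53_conjHom g1 r σ1 i0 0 - c0 ∈ maximalIdeal A := by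
    have h := FA53_sub_mem_of_red_eq (FA53_red_conjHom hg1 r σ1) i0 0
    have e : FA53_conjHom g1 r σ1 i0 0 - c0 =
        (FA53_conjHom g1 r σ1 i0 0 - r σ1 i0 0) + (r σ1 i0 0 - c0) := by ring
    rw [e]
    exact (maximalIdeal A).add_mem h hent
  have hd1 : IsUnit (FA53_dEntry (FA53_conjHom g1 r σ0) (FA53_conjHom g1 r σ1) i0) :=
    FA53_isUnit_dEntry_congr i0 (FA53_red_conjHom hg1 r σ0) (FA53_red_conjHom hg1 r σ1) hd
  obtain ⟨g2, hg2, hnorm⟩ :=
    FA53_exists_normal_of_companion (FA53_conjHom g1 r) σ0 σ1 i0 c0 h1a h1b hent1 hd1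
  refine ⟨g2 * g1, ?_, ?_⟩
  · rw [Units.val_mul, map_mul, hg2, hg1, one_mul]
  · rw [FA53_conjHom_mul]
    exact hnorm

end Fermat.Agent.S53x
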