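import Mathlib
import Fermat.Agent.S53x.Basic
import Fermat.Agent.S53x.NormalFormExists

/-!
# Schur's lemma and the choice of rigidifying data for an absolutely irreducible residual rep

From `ρ.IsAbsolutelyIrreducible` we produce a basis `b`, elements `σ0 σ1` and an index `i0` such
that in the basis `b`: `ρ σ0` is in companion form, the `i0`-entry of `[ρ σ1, ρ σ0]` is nonzero
(`FA53_dEntry`), and the commutant of the image consists of scalar matrices.
-/

set_option autoImplicit false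

namespace Fermat.Agent.S53x

open scoped TensorProduct

variable {k : Type} [Field k]

/-- Schur's lemma for an absolutely irreducible residual representation (endomorphism form). -/
theorem FA53_schur_end (ρ : ResidualGaloisRep k) (habs : ρ.IsAbsolutelyIrreducible)
    (f : Module.End k ρ.V) (hf : ∀ σ : GQ, f ∘ₗ ρ.ρ σ = ρ.ρ σ ∘ₗ f) :
    ∃ c : k, ∀ v : ρ.V, f v = c • v := by
  classical
  let K := AlgebraicClosure k
  let VK := K ⊗[k] ρ.V
  have hfr : Module.finrank K VK = 2 := by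
    rw [Module.finrank_baseChange, ρ.finrank_eq]
  have : Module.Finite K VK := Module.finite_of_finrank_pos (by rw [hfr]; norm_num)
  have : Nontrivial VK := Module.nontrivial_of_finrank_pos (R := K) (by rw [hfr]; norm_num)
  let fK : Module.End K VK := f.baseChange K
  obtain ⟨μ, hμ⟩ := Module.End.exists_eigenvalue fK
  let W : Submodule K VK := fK.eigenspace μ
  have hWne : W ≠ ⊥ := hμ
  have hstable : ∀ σ : GQ, ∀ x ∈ W, (ρ.baseChange K).ρ σ x ∈ W := by
    intro σ x hx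
    have hx' : fK x = μ • x := Module.End.mem_eigenspace_iff.mp hx
    apply Module.End.mem_eigenspace_iff.mpr
    show fK ((ρ.ρ σ).baseChange K x) = μ • (ρ.ρ σ).baseChange K x
    have h1 : fK ((ρ.ρ σ).baseChange K x) = (ρ.ρ σ).baseChange K (fK x) := by
      have := congrArg (fun g => (g.baseChange K) x) (hf σ)
      simpa [LinearMap.baseChange_comp, fK] using this
    rw [h1, hx', map_smul]
  have hWtop : W = ⊤ := (habs W hstable).resolve_left hWne
  have hall : ∀ x : VK, fK x = μ • x := fun x => by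
    have hx : x ∈ W := by rw [hWtop]; exact Submodule.mem_top
    exact Module.End.mem_eigenspace_iff.mp hx
  -- descend
  let b0 : Module.Basis (Fin 2) k ρ.V := Module.finBasisOfFinrankEq k ρ.V ρ.finrank_eq
  let bK := b0.baseChange K
  have hcoord : ∀ (v : ρ.V) (i : Fin 2),
      algebraMap k K (b0.repr (f v) i) = algebraMap k K (b0.repr v i) * μ := by
    intro v i
    have h := hall ((1 : K) ⊗ₜ[k] v)
    have h2 : fK ((1 : K) ⊗ₜ[k] v) = (1 : K) ⊗ₜ[k] f v := LinearMap.baseChange_tmul _ _ _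
    rw [h2] at h
    have h3 := congrArg (fun y => bK.repr y i) h
    simp only [bK, Module.Basis.baseChange_repr_tmul, map_smul, Finsupp.smul_apply] at h3
    have h3' : algebraMap k K (b0.repr (f v) i) = μ * algebraMap k K (b0.repr v i) := by
      simpa [Algebra.smul_def] using h3
    rw [h3', mul_comm]
  let c : k := b0.repr (f (b0 0)) 0
  have hμc : μ = algebraMap k K c := by
    have := hcoord (b0 0) 0
    simp only [Module.Basis.repr_self, Finsupp.single_eq_same, map_one, one_mul] at this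
    exact this.symm
  refine ⟨c, fun v => ?_⟩
  apply b0.repr.injective
  ext i
  have := hcoord v i
  rw [hμc, ← map_mul] at this
  have h4 := (algebraMap k K).injective this
  rw [h4, map_smul, Finsupp.smul_apply, smul_eq_mul, mul_comm]

/-- Schur's lemma in matrix form, w.r.t. any basis. -/
theorem FA53_schur_matrix (ρ : ResidualGaloisRep k) (habs : ρ.IsAbsolutelyIrreducible)
    (b : Module.Basis (Fin 2) k ρ.V) (h : M2 k)
    (hh : ∀ σ : GQ, h * LinearMap.toMatrix b b (ρ.ρ σ) = LinearMap.toMatrix b b (ρ.ρ σ) * h) :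
    h 0 1 = 0 ∧ h 1 0 = 0 ∧ h 0 0 = h 1 1 := by
  classical
  let f : Module.End k ρ.V := Matrix.toLin b b h
  have hf : ∀ σ : GQ, f ∘ₗ ρ.ρ σ = ρ.ρ σ ∘ₗ f := by
    intro σ
    apply (LinearMap.toMatrix b b).injective
    rw [LinearMap.toMatrix_comp b b b, LinearMap.toMatrix_comp b b b]
    simp only [f, LinearMap.toMatrix_toLin]
    exact hh σ
  obtain ⟨c, hc⟩ := FA53_schur_end ρ habs f hf
  have hfc : f = c • LinearMap.id := by
    ext v; simp [hc v]
  have hmat : h = c • (1 : M2 k) := by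
    have := congrArg (LinearMap.toMatrix b b) hfc
    simpa [f, LinearMap.toMatrix_toLin, LinearMap.toMatrix_id] using this
  rw [hmat]
  simp

/-- Some `ρ σ0` is not a scalar. -/
theorem FA53_exists_nonscalar (ρ : ResidualGaloisRep k) (habs : ρ.IsAbsolutelyIrreducible) :
    ∃ σ0 : GQ, ¬ ∃ c : k, ∀ v : ρ.V, ρ.ρ σ0 v = c • v := by
  classical
  by_contra hcon
  push Not at hcon
  let b0 : Module.Basis (Fin 2) k ρ.V := Module.finBasisOfFinrankEq k ρ.V ρ.finrank_eq
  have hscal : ∀ σ : GQ, ∃ c : k, LinearMap.toMatrix b0 b0 (ρ.ρ σ) = c • (1 : M2 k) := by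
    intro σ
    obtain ⟨c, hc⟩ := hcon σ
    refine ⟨c, ?_⟩
    have : ρ.ρ σ = c • LinearMap.id := by ext v; simp [hc v]
    rw [this, map_smul, LinearMap.toMatrix_id]
  have := FA53_schur_matrix ρ habs b0 !![0, 1; 0, 0] (fun σ => by
    obtain ⟨c, hc⟩ := hscal σ
    rw [hc]; simp)
  simpa using this.1

/-- A non-scalar endomorphism of a 2-dimensional space has a cyclic vector. -/
theorem FA53_exists_cyclic {V : Type} [AddCommGroup V] [Module k V]
    (b0 : Module.Basis (Fin 2) k V) (M : Module.End k V)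
    (hM : ¬ ∃ c : k, ∀ v : V, M v = c • v) :
    ∃ v : V, LinearIndependent k ![v, M v] := by
  classical
  by_contra hcon
  push Not at hcon
  have key : ∀ v : V, v ≠ 0 → ∃ a : k, a • v = M v := by
    intro v hv
    have h := hcon v
    rw [LinearIndependent.pair_iff' hv] at h
    push Not at h
    exact h
  have h0 : b0 0 ≠ 0 := b0.ne_zero 0
  have h1 : b0 1 ≠ 0 := b0.ne_zero 1
  have hli := b0.linearIndependent
  have hpair : ∀ x y : k, x • b0 0 + y • b0 1 = 0 → x = 0 ∧ y = 0 := by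
    intro x y hxy
    have := (Fintype.linearIndependent_iff.mp hli) ![x, y] (by simpa [Fin.sum_univ_two] using hxy)
    exact ⟨by simpa using this 0, by simpa using this 1⟩
  have h01 : b0 0 + b0 1 ≠ 0 := by
    intro h
    have := hpair 1 1 (by simpa using h)
    exact one_ne_zero this.1
  obtain ⟨a1, ha1⟩ := key _ h0
  obtain ⟨a2, ha2⟩ := key _ h1
  obtain ⟨a3, ha3⟩ := key _ h01
  have hrel : (a3 - a1) • b0 0 + (a3 - a2) • b0 1 = 0 := by
    rw [map_add, ← ha1, ← ha2, smul_add] at ha3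
    rw [sub_smul, sub_smul]
    have : a3 • b0 0 + a3 • b0 1 - (a1 • b0 0 + a2 • b0 1) = 0 := sub_eq_zero.mpr ha3
    rw [← this]; abel
  obtain ⟨e1, e2⟩ := hpair _ _ hrel
  have ea1 : a1 = a3 := (sub_eq_zero.mp e1).symm
  have ea2 : a2 = a3 := (sub_eq_zero.mp e2).symm
  apply hM
  refine ⟨a3, fun v => ?_⟩
  have hv : v = b0.repr v 0 • b0 0 + b0.repr v 1 • b0 1 := by
    conv_lhs => rw [← b0.sum_repr v, Fin.sum_univ_two]
  rw [hv, map_add, map_smul, map_smul, ← ha1, ← ha2, ea1, ea2, smul_add, smul_comm a3,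
    smul_comm a3]

/-- **Choice of rigidifying data.** -/
theorem FA53_schur_choice (ρ : ResidualGaloisRep k) (habs : ρ.IsAbsolutelyIrreducible) :
    ∃ (b : Module.Basis (Fin 2) k ρ.V) (σ0 σ1 : GQ) (i0 : Fin 2),
      (LinearMap.toMatrix b b (ρ.ρ σ0)) 0 0 = 0 ∧ (LinearMap.toMatrix b b (ρ.ρ σ0)) 1 0 = 1 ∧
      FA53_dEntry (LinearMap.toMatrix b b (ρ.ρ σ0)) (LinearMap.toMatrix b b (ρ.ρ σ1)) i0 ≠ 0 := by
  classical
  obtain ⟨σ0, hσ0⟩ := FA53_exists_nonscalar ρ habs
  let b0 : Module.Basis (Fin 2) k ρ.V := Module.finBasisOfFinrankEq k ρ.V ρ.finrank_eq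
  obtain ⟨v, hv⟩ := FA53_exists_cyclic b0 (ρ.ρ σ0) hσ0
  have hcard : Fintype.card (Fin 2) = Module.finrank k ρ.V := by
    rw [ρ.finrank_eq]; rfl
  let b : Module.Basis (Fin 2) k ρ.V := basisOfLinearIndependentOfCardEqFinrank hv hcard
  have hb : ⇑b = ![v, ρ.ρ σ0 v] := coe_basisOfLinearIndependentOfCardEqFinrank hv hcard
  have hb0 : b 0 = v := by rw [hb]; rfl
  have hb1 : b 1 = ρ.ρ σ0 v := by rw [hb]; rfl
  have hM00 : (LinearMap.toMatrix b b (ρ.ρ σ0)) 0 0 = 0 := by
    rw [LinearMap.toMatrix_apply, hb0, ← hb1, b.repr_self]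
    simp
  have hM10 : (LinearMap.toMatrix b b (ρ.ρ σ0)) 1 0 = 1 := by
    rw [LinearMap.toMatrix_apply, hb0, ← hb1, b.repr_self]
    simp
  by_contra hcon
  push Not at hcon
  have hcon' : ∀ (σ1 : GQ) (i0 : Fin 2),
      FA53_dEntry (LinearMap.toMatrix b b (ρ.ρ σ0)) (LinearMap.toMatrix b b (ρ.ρ σ1)) i0 = 0 :=
    fun σ1 i0 => hcon b σ0 σ1 i0 hM00 hM10
  have hcomm : ∀ σ : GQ, LinearMap.toMatrix b b (ρ.ρ σ0) * LinearMap.toMatrix b b (ρ.ρ σ) =
      LinearMap.toMatrix b b (ρ.ρ σ) * LinearMap.toMatrix b b (ρ.ρ σ0) := by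
    intro σ
    have d0 := hcon' σ 0
    have d1 := hcon' σ 1
    simp only [FA53_dEntry, if_true, one_ne_zero, if_false] at d0 d1
    obtain ⟨m, hm⟩ : ∃ m, m = (LinearMap.toMatrix b b (ρ.ρ σ0)) 0 1 := ⟨_, rfl⟩
    obtain ⟨t, ht⟩ : ∃ t, t = (LinearMap.toMatrix b b (ρ.ρ σ0)) 1 1 := ⟨_, rfl⟩
    obtain ⟨x, hx⟩ : ∃ x, x = (LinearMap.toMatrix b b (ρ.ρ σ)) 0 0 := ⟨_, rfl⟩
    obtain ⟨y, hy⟩ : ∃ y, y = (LinearMap.toMatrix b b (ρ.ρ σ)) 0 1 := ⟨_, rfl⟩
    obtain ⟨z, hz⟩ : ∃ z, z = (LinearMap.toMatrix b b (ρ.ρ σ)) 1 0 := ⟨_, rfl⟩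
    obtain ⟨w, hw⟩ : ∃ w, w = (LinearMap.toMatrix b b (ρ.ρ σ)) 1 1 := ⟨_, rfl⟩
    rw [← hm, ← hy, ← hz] at d0
    rw [← ht, ← hx, ← hz, ← hw] at d1
    rw [Matrix.eta_fin_two (LinearMap.toMatrix b b (ρ.ρ σ0)),
      Matrix.eta_fin_two (LinearMap.toMatrix b b (ρ.ρ σ)), hM00, hM10, ← hm, ← ht, ← hx, ← hy,
      ← hz, ← hw, Matrix.mul_fin_two, Matrix.mul_fin_two]
    have hy' : y = m * z := sub_eq_zero.mp d0
    have hw' : w = x + t * z := by linear_combination d1
    subst hy' hw'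
    apply FA53_ext2 <;> simp <;> ring
  have := FA53_schur_matrix ρ habs b (LinearMap.toMatrix b b (ρ.ρ σ0)) hcomm
  rw [hM10] at this
  exact one_ne_zero this.2.1

end Fermat.Agent.S53x
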