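import Mathlib

/-!
# S53 helper: commutative-algebra core of the generation lemma (K1)

Let `T` be a local `𝒪`-algebra with nilpotent maximal ideal and residue field equal to that of `𝒪`,
generated as an `𝒪`-algebra by elements `τ j`.  If every "tangent vector" `φ : T → k[ε]`
that kills the elements `t i ∈ 𝔪_T` also kills the `ε`-part of all the `τ j`, then the `t i` already
generate `T` as an `𝒪`-algebra.
-/

set_option autoImplicit false

namespace Fermat.Agent.S53x

open IsLocalRing

/-- Nakayama for a nilpotent ideal (no finiteness hypothesis). -/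
theorem k1_le_of_le_sup_smul {R M : Type*} [CommRing R] [AddCommGroup M] [Module R M]
    (I : Ideal R) (hI : IsNilpotent I) (N N' : Submodule R M) (h : N ≤ N' ⊔ I • N) : N ≤ N' := by
  obtain ⟨n, hn⟩ := hI
  have key : ∀ k : ℕ, N ≤ N' ⊔ I ^ k • N := by
    intro k
    induction k with
    | zero => simp
    | succ k ih =>
      calc N ≤ N' ⊔ I • N := h
        _ ≤ N' ⊔ I • (N' ⊔ I ^ k • N) := sup_le_sup_left (Submodule.smul_mono le_rfl ih) _
        _ ≤ N' ⊔ I ^ (k + 1) • N := by
          rw [Submodule.smul_sup, ← Submodule.mul_smul, ← pow_succ']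
          exact sup_le le_sup_left (sup_le (le_sup_of_le_left Submodule.smul_le_right) le_sup_right)
  have h2 := key n
  rw [hn] at h2
  simpa using h2

section Tangent

variable {𝒪 T : Type} [CommRing 𝒪] [IsLocalRing 𝒪] [CommRing T] [IsLocalRing T] [Algebra 𝒪 T]
  [IsLocalHom (algebraMap 𝒪 T)]

/-- The comparison of residue fields, as a ring isomorphism. -/
noncomputable def k1_resEquiv (hres : Function.Surjective (residue T ∘ algebraMap 𝒪 T)) :
    ResidueField 𝒪 ≃+* ResidueField T :=
  RingEquiv.ofBijective (ResidueField.map (algebraMap 𝒪 T))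
    ⟨(ResidueField.map (algebraMap 𝒪 T)).injective, fun y => by
      obtain ⟨c, hc⟩ := hres y
      exact ⟨residue 𝒪 c, by simpa [ResidueField.map_residue] using hc⟩⟩

lemma k1_resEquiv_residue (hres : Function.Surjective (residue T ∘ algebraMap 𝒪 T)) (c : 𝒪) :
    k1_resEquiv hres (residue 𝒪 c) = residue T (algebraMap 𝒪 T c) := rfl

lemma k1_resEquiv_symm_residue (hres : Function.Surjective (residue T ∘ algebraMap 𝒪 T)) (c : 𝒪) :
    (k1_resEquiv hres).symm (residue T (algebraMap 𝒪 T c)) = residue 𝒪 c := by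
  rw [← k1_resEquiv_residue hres, RingEquiv.symm_apply_apply]

omit [IsLocalRing 𝒪] [IsLocalHom (algebraMap 𝒪 T)] in
lemma k1_exists_const (hres : Function.Surjective (residue T ∘ algebraMap 𝒪 T)) (x : T) :
    ∃ c : 𝒪, x - algebraMap 𝒪 T c ∈ maximalIdeal T := by
  obtain ⟨c, hc⟩ := hres (residue T x)
  refine ⟨c, ?_⟩
  rw [← residue_eq_zero_iff, map_sub, sub_eq_zero]
  exact hc.symm

variable (f : CotangentSpace T →ₗ[ResidueField T] ResidueField T)

/-- value of the "derivation" attached to `f`, computed with a given constant `c`. -/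
noncomputable def k1_dval (x : T) (c : 𝒪) (h : x - algebraMap 𝒪 T c ∈ maximalIdeal T) :
    ResidueField T :=
  f ((maximalIdeal T).toCotangent ⟨x - algebraMap 𝒪 T c, h⟩)

variable (hf : ∀ (c : 𝒪) (h : algebraMap 𝒪 T c ∈ maximalIdeal T),
  f ((maximalIdeal T).toCotangent ⟨algebraMap 𝒪 T c, h⟩) = 0)

omit [IsLocalRing 𝒪] [IsLocalHom (algebraMap 𝒪 T)] in
include hf in
lemma k1_dval_indep (x : T) (c c' : 𝒪) (h : x - algebraMap 𝒪 T c ∈ maximalIdeal T)
    (h' : x - algebraMap 𝒪 T c' ∈ maximalIdeal T) : k1_dval f x c h = k1_dval f x c' h' := by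
  have h2 : algebraMap 𝒪 T (c' - c) ∈ maximalIdeal T := by
    have : algebraMap 𝒪 T (c' - c) = (x - algebraMap 𝒪 T c) - (x - algebraMap 𝒪 T c') := by
      rw [map_sub]; ring
    rw [this]; exact Ideal.sub_mem _ h h'
  have h3 : (⟨x - algebraMap 𝒪 T c, h⟩ : maximalIdeal T) =
      ⟨x - algebraMap 𝒪 T c', h'⟩ + ⟨algebraMap 𝒪 T (c' - c), h2⟩ := by
    apply Subtype.ext
    simp only [Submodule.coe_add, map_sub]; ring
  unfold k1_dval
  rw [h3, map_add, map_add, hf _ h2, add_zero]

variable (hres : Function.Surjective (residue T ∘ algebraMap 𝒪 T))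

/-- the "derivation" `T → k_T` attached to `f`. -/
noncomputable def k1_d (x : T) : ResidueField T :=
  k1_dval f x (k1_exists_const hres x).choose (k1_exists_const hres x).choose_spec

omit [IsLocalRing 𝒪] [IsLocalHom (algebraMap 𝒪 T)] in
include hf in
lemma k1_d_eq (x : T) (c : 𝒪) (h : x - algebraMap 𝒪 T c ∈ maximalIdeal T) :
    k1_d f hres x = k1_dval f x c h :=
  k1_dval_indep f hf x _ _ _ _

omit [IsLocalRing 𝒪] [IsLocalHom (algebraMap 𝒪 T)] in
include hf in
lemma k1_d_algebraMap (c : 𝒪) : k1_d f hres (algebraMap 𝒪 T c) = 0 := by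
  rw [k1_d_eq f hf hres _ c (by simp)]
  unfold k1_dval
  have : (⟨algebraMap 𝒪 T c - algebraMap 𝒪 T c, by simp⟩ : maximalIdeal T) = 0 := by
    apply Subtype.ext; simp
  rw [this, map_zero, map_zero]

omit [IsLocalRing 𝒪] [IsLocalHom (algebraMap 𝒪 T)] in
include hf in
lemma k1_d_of_mem (m : T) (hm : m ∈ maximalIdeal T) :
    k1_d f hres m = f ((maximalIdeal T).toCotangent ⟨m, hm⟩) := by
  rw [k1_d_eq f hf hres m 0 (by simpa using hm)]
  unfold k1_dval
  congr 2
  apply Subtype.ext; simp

omit [IsLocalRing 𝒪] [IsLocalHom (algebraMap 𝒪 T)] in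
include hf in
lemma k1_d_add (x y : T) : k1_d f hres (x + y) = k1_d f hres x + k1_d f hres y := by
  obtain ⟨c, hc⟩ := k1_exists_const hres x
  obtain ⟨c', hc'⟩ := k1_exists_const hres y
  have h : x + y - algebraMap 𝒪 T (c + c') ∈ maximalIdeal T := by
    have : x + y - algebraMap 𝒪 T (c + c') = (x - algebraMap 𝒪 T c) + (y - algebraMap 𝒪 T c') := by
      rw [map_add]; ring
    rw [this]; exact Ideal.add_mem _ hc hc'
  rw [k1_d_eq f hf hres _ _ h, k1_d_eq f hf hres _ _ hc, k1_d_eq f hf hres _ _ hc']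
  unfold k1_dval
  rw [← map_add, ← map_add]
  congr 2
  apply Subtype.ext
  simp only [Submodule.coe_add, map_add]; ring

omit [IsLocalRing 𝒪] [IsLocalHom (algebraMap 𝒪 T)] in
include hf in
lemma k1_d_mul (x y : T) :
    k1_d f hres (x * y) = residue T x * k1_d f hres y + residue T y * k1_d f hres x := by
  obtain ⟨c, hc⟩ := k1_exists_const hres x
  obtain ⟨c', hc'⟩ := k1_exists_const hres y
  have h : x * y - algebraMap 𝒪 T (c * c') ∈ maximalIdeal T := by
    have : x * y - algebraMap 𝒪 T (c * c') =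
        y * (x - algebraMap 𝒪 T c) + algebraMap 𝒪 T c * (y - algebraMap 𝒪 T c') := by
      rw [map_mul]; ring
    rw [this]
    exact Ideal.add_mem _ (Ideal.mul_mem_left _ _ hc) (Ideal.mul_mem_left _ _ hc')
  rw [k1_d_eq f hf hres _ _ h, k1_d_eq f hf hres _ _ hc, k1_d_eq f hf hres _ _ hc']
  unfold k1_dval
  have e1 : (⟨x * y - algebraMap 𝒪 T (c * c'), h⟩ : maximalIdeal T) =
      y • (⟨x - algebraMap 𝒪 T c, hc⟩ : maximalIdeal T) +
        (algebraMap 𝒪 T c) • (⟨y - algebraMap 𝒪 T c', hc'⟩ : maximalIdeal T) := by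
    apply Subtype.ext
    simp only [Submodule.coe_add, Submodule.coe_smul, smul_eq_mul, map_mul]; ring
  have e2 : residue T (algebraMap 𝒪 T c) = residue T x := by
    rw [eq_comm, ← sub_eq_zero, ← map_sub, residue_eq_zero_iff]; exact hc
  rw [e1, map_add, map_smul, map_smul, map_add]
  rw [← algebraMap_smul (ResidueField T) y, ← algebraMap_smul (ResidueField T) (algebraMap 𝒪 T c)]
  rw [map_smul, map_smul, smul_eq_mul, smul_eq_mul, ResidueField.algebraMap_eq, e2]
  ring


/-- The tangent vector `T → k[ε]` attached to the functional `f`. -/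
noncomputable def k1_tangent : T →+* DualNumber (ResidueField 𝒪) where
  toFun x := TrivSqZeroExt.inl ((k1_resEquiv hres).symm (residue T x)) +
    TrivSqZeroExt.inr ((k1_resEquiv hres).symm (k1_d f hres x))
  map_one' := by
    have h1 : k1_d f hres (1 : T) = 0 := by
      have := k1_d_algebraMap f hf hres 1
      rwa [map_one] at this
    apply TrivSqZeroExt.ext <;> simp [h1]
  map_mul' x y := by
    apply TrivSqZeroExt.ext
    · simp
    · simp only [TrivSqZeroExt.snd_add, TrivSqZeroExt.snd_inl, TrivSqZeroExt.snd_inr, zero_add,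
        TrivSqZeroExt.snd_mul, TrivSqZeroExt.fst_add, TrivSqZeroExt.fst_inl, TrivSqZeroExt.fst_inr,
        add_zero, smul_eq_mul, MulOpposite.smul_eq_mul_unop, MulOpposite.unop_op]
      rw [k1_d_mul f hf hres, map_add, map_mul, map_mul]
      ring
  map_zero' := by
    have h0 : k1_d f hres (0 : T) = 0 := by
      have := k1_d_algebraMap f hf hres 0
      rwa [map_zero] at this
    apply TrivSqZeroExt.ext <;> simp [h0]
  map_add' x y := by
    apply TrivSqZeroExt.ext
    · simp
    · simp [k1_d_add f hf hres]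

lemma k1_tangent_fst (x : T) :
    (k1_tangent f hf hres x).fst = (k1_resEquiv hres).symm (residue T x) := by
  simp [k1_tangent]

lemma k1_tangent_snd (x : T) :
    (k1_tangent f hf hres x).snd = (k1_resEquiv hres).symm (k1_d f hres x) := by
  simp [k1_tangent]


end Tangent

section Main

variable {𝒪 T : Type} [CommRing 𝒪] [IsLocalRing 𝒪] [CommRing T] [IsLocalRing T] [Algebra 𝒪 T]
  [IsLocalHom (algebraMap 𝒪 T)]

/-- Step 1+2: under the tangent hypothesis, the maximal ideal of `T` is generated by the image of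
`𝒪 ∩ 𝔪_T` and the `t i`. -/
theorem k1_span_eq_top [IsNoetherianRing T]
    (hres : Function.Surjective (residue T ∘ algebraMap 𝒪 T))
    {ι : Type} (τ : ι → T) (hgen : Algebra.adjoin 𝒪 (Set.range τ) = ⊤)
    {κ : Type} (t : κ → T) (ht : ∀ i, t i ∈ maximalIdeal T)
    (htan : ∀ φ : T →+* DualNumber (ResidueField 𝒪),
      (∀ c : 𝒪, φ (algebraMap 𝒪 T c) = TrivSqZeroExt.inl (residue 𝒪 c)) →
      (∀ i, φ (t i) = 0) → ∀ j, (φ (τ j)).snd = 0) :
    Submodule.span T {m : maximalIdeal T | (∃ c : 𝒪, (m : T) = algebraMap 𝒪 T c) ∨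
      ∃ i, (m : T) = t i} = ⊤ := by
  set s : Set (maximalIdeal T) := {m : maximalIdeal T | (∃ c : 𝒪, (m : T) = algebraMap 𝒪 T c) ∨
      ∃ i, (m : T) = t i} with hs
  rw [← CotangentSpace.span_image_eq_top_iff]
  by_contra hne
  obtain ⟨f, hf0, hker⟩ := Submodule.exists_le_ker_of_lt_top _ (lt_top_iff_ne_top.mpr hne)
  have hfs : ∀ m ∈ s, f ((maximalIdeal T).toCotangent m) = 0 := fun m hm =>
    hker (Submodule.subset_span ⟨m, hm, rfl⟩)
  have hf : ∀ (c : 𝒪) (h : algebraMap 𝒪 T c ∈ maximalIdeal T),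
      f ((maximalIdeal T).toCotangent ⟨algebraMap 𝒪 T c, h⟩) = 0 :=
    fun c h => hfs _ (Or.inl ⟨c, rfl⟩)
  set φ := k1_tangent f hf hres with hφ
  have hφ1 : ∀ c : 𝒪, φ (algebraMap 𝒪 T c) = TrivSqZeroExt.inl (residue 𝒪 c) := by
    intro c
    apply TrivSqZeroExt.ext
    · rw [k1_tangent_fst, k1_resEquiv_symm_residue, TrivSqZeroExt.fst_inl]
    · rw [k1_tangent_snd, k1_d_algebraMap f hf hres, map_zero, TrivSqZeroExt.snd_inl]
  have hφ2 : ∀ i, φ (t i) = 0 := by
    intro i
    have hi := ht i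
    apply TrivSqZeroExt.ext
    · rw [k1_tangent_fst, (residue_eq_zero_iff _).mpr hi, map_zero, TrivSqZeroExt.fst_zero]
    · rw [k1_tangent_snd, k1_d_of_mem f hf hres _ hi, hfs ⟨t i, hi⟩ (Or.inr ⟨i, rfl⟩), map_zero,
        TrivSqZeroExt.snd_zero]
  have hτ : ∀ j, k1_d f hres (τ j) = 0 := by
    intro j
    have := htan φ hφ1 hφ2 j
    rw [hφ, k1_tangent_snd] at this
    simpa using this
  -- the subalgebra on which the derivation vanishes
  let K : Subalgebra 𝒪 T :=
    { carrier := {x | k1_d f hres x = 0}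
      mul_mem' := fun {x y} hx hy => by
        simp only [Set.mem_ofPred_eq] at hx hy ⊢
        rw [k1_d_mul f hf hres, hx, hy, mul_zero, mul_zero, add_zero]
      add_mem' := fun {x y} hx hy => by
        simp only [Set.mem_ofPred_eq] at hx hy ⊢
        rw [k1_d_add f hf hres, hx, hy, add_zero]
      algebraMap_mem' := fun c => k1_d_algebraMap f hf hres c }
  have hK : K = ⊤ := by
    rw [eq_top_iff, ← hgen]
    exact Algebra.adjoin_le (by rintro _ ⟨j, rfl⟩; exact hτ j)
  have hd : ∀ x : T, k1_d f hres x = 0 := fun x => by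
    have : x ∈ K := by rw [hK]; trivial
    exact this
  apply hf0
  apply LinearMap.ext
  intro v
  obtain ⟨m, rfl⟩ := (maximalIdeal T).toCotangent_surjective v
  rw [LinearMap.zero_apply, ← hd (m : T), k1_d_of_mem f hf hres _ m.2]

/-- **Generation lemma, commutative-algebra core.**  If every tangent vector of `T` killing the
`t i` has no `ε`-component on the generators `τ j`, then the `t i` generate `T`. -/
theorem k1_adjoin_eq_top [IsNoetherianRing T]
    (hres : Function.Surjective (residue T ∘ algebraMap 𝒪 T))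
    (hnil : IsNilpotent (maximalIdeal T))
    {ι : Type} (τ : ι → T) (hgen : Algebra.adjoin 𝒪 (Set.range τ) = ⊤)
    {κ : Type} (t : κ → T) (ht : ∀ i, t i ∈ maximalIdeal T)
    (htan : ∀ φ : T →+* DualNumber (ResidueField 𝒪),
      (∀ c : 𝒪, φ (algebraMap 𝒪 T c) = TrivSqZeroExt.inl (residue 𝒪 c)) →
      (∀ i, φ (t i) = 0) → ∀ j, (φ (τ j)).snd = 0) :
    Algebra.adjoin 𝒪 (Set.range t) = ⊤ := by
  have hspan := k1_span_eq_top hres τ hgen t ht htan
  have ht' : ∀ i, t i ∈ Algebra.adjoin 𝒪 (Set.range t) := fun i =>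
    Algebra.subset_adjoin (Set.mem_range_self i)
  set T' : Subalgebra 𝒪 T := Algebra.adjoin 𝒪 (Set.range t) with hT'
  let I : Ideal T' := (maximalIdeal T).comap (algebraMap T' T)
  have hI : IsNilpotent I := by
    obtain ⟨n, hn⟩ := hnil
    refine ⟨n, ?_⟩
    rw [Ideal.zero_eq_bot, eq_bot_iff]
    refine (Ideal.le_comap_pow (algebraMap T' T) n).trans ?_
    rw [hn, Ideal.zero_eq_bot, Ideal.comap_bot_of_injective _ Subtype.val_injective]
  -- `I • ⊤` is stable under multiplication by elements of `T`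
  have hmul : ∀ (a y : T), y ∈ (I • ⊤ : Submodule T' T) → a * y ∈ (I • ⊤ : Submodule T' T) := by
    intro a y hy
    refine Submodule.smul_induction_on hy (fun g hg b _ => ?_) (fun x y hx hy => ?_)
    · have : a * g • b = g • (a * b) := by
        rw [Subalgebra.smul_def, Subalgebra.smul_def]; ring
      rw [this]
      exact Submodule.smul_mem_smul hg Submodule.mem_top
    · rw [mul_add]; exact Submodule.add_mem _ hx hy
  have key : ∀ (y : maximalIdeal T), y ∈ Submodule.span T {m : maximalIdeal T |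
        (∃ c : 𝒪, (m : T) = algebraMap 𝒪 T c) ∨ ∃ i, (m : T) = t i} →
        (y : T) ∈ (I • ⊤ : Submodule T' T) := by
    intro y hy
    induction hy using Submodule.span_induction with
    | mem y hy =>
      rcases hy with ⟨c, hc⟩ | ⟨i, hi⟩
      · have hy' : (y : T) = (⟨algebraMap 𝒪 T c, T'.algebraMap_mem c⟩ : T') • (1 : T) := by
          rw [Subalgebra.smul_def, smul_eq_mul, mul_one, hc]
        rw [hy']
        refine Submodule.smul_mem_smul ?_ Submodule.mem_top
        show algebraMap T' T _ ∈ maximalIdeal T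
        have := y.2
        rw [hc] at this
        exact this
      · have hy' : (y : T) = (⟨t i, ht' i⟩ : T') • (1 : T) := by
          rw [Subalgebra.smul_def, smul_eq_mul, mul_one, hi]
        rw [hy']
        refine Submodule.smul_mem_smul ?_ Submodule.mem_top
        show algebraMap T' T _ ∈ maximalIdeal T
        exact ht i
    | zero => simp
    | add x y _ _ hx hy =>
      rw [Submodule.coe_add]
      exact Submodule.add_mem _ hx hy
    | smul a x _ hx =>
      rw [Submodule.coe_smul, smul_eq_mul]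
      exact hmul a _ hx
  have hm : ∀ m : maximalIdeal T, (m : T) ∈ (I • ⊤ : Submodule T' T) := by
    intro m
    apply key
    rw [hspan]; trivial
  have hle : (⊤ : Submodule T' T) ≤ (1 : Submodule T' T) ⊔ I • ⊤ := by
    intro x _
    obtain ⟨c, hc⟩ := k1_exists_const hres x
    have hx : x = algebraMap 𝒪 T c + (x - algebraMap 𝒪 T c) := by ring
    rw [hx]
    refine Submodule.add_mem_sup ?_ (hm ⟨_, hc⟩)
    rw [Submodule.mem_one]
    exact ⟨⟨algebraMap 𝒪 T c, T'.algebraMap_mem c⟩, rfl⟩
  have h1 := k1_le_of_le_sup_smul I hI ⊤ 1 hle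
  rw [eq_top_iff]
  intro x _
  have hx : x ∈ (1 : Submodule T' T) := h1 Submodule.mem_top
  rw [Submodule.mem_one] at hx
  obtain ⟨y, rfl⟩ := hx
  exact y.2

end Main
end Fermat.Agent.S53x
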