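import Mathlib

set_option autoImplicit false

/-!
S53 helper (pure algebra core of the generation lemma K1).

For a local `𝒪`-algebra `A` with nilpotent maximal ideal and the same residue field as `𝒪`,
and a proper subalgebra `B`, we construct an `𝒪`-algebra hom `A → k[ε]` (dual numbers over the
residue field `k` of `𝒪`) which is "constant" on `B` and not constant on `A`.
-/

namespace Fermat.Agent.S53x

open IsLocalRing

/-- The `𝒪`-algebra structure on dual numbers over the residue field, exactly as in the frozen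
definition `GaloisRep.TangentFinite`. -/
@[reducible] noncomputable def thDualAlg (𝒪 : Type) [CommRing 𝒪] [IsLocalRing 𝒪] :
    Algebra 𝒪 (DualNumber (ResidueField 𝒪)) :=
  ((algebraMap (ResidueField 𝒪) (DualNumber (ResidueField 𝒪))).comp
      (algebraMap 𝒪 (ResidueField 𝒪))).toAlgebra

section

set_option linter.unusedSectionVars false

variable {𝒪 A : Type} [CommRing 𝒪] [IsLocalRing 𝒪] [CommRing A] [IsLocalRing A] [Algebra 𝒪 A]

/-- The set of elements of the subalgebra lying in the maximal ideal. -/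
def thSet (B : Subalgebra 𝒪 A) : Set A := {x | x ∈ B ∧ x ∈ maximalIdeal A}

/-- The ideal we quotient by. -/
def thIdeal (B : Subalgebra 𝒪 A) : Ideal A := Ideal.span (thSet B) ⊔ maximalIdeal A ^ 2

lemma thIdeal_le (B : Subalgebra 𝒪 A) : thIdeal B ≤ maximalIdeal A := by
  refine sup_le (Ideal.span_le.mpr fun x hx => hx.2) ?_
  exact Ideal.pow_le_self (by norm_num)

lemma th_exists_decomp (hsurj : Function.Surjective (residue A ∘ algebraMap 𝒪 A)) (a : A) :
    ∃ c : 𝒪, a - algebraMap 𝒪 A c ∈ maximalIdeal A := by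
  obtain ⟨c, hc⟩ := hsurj (residue A a)
  refine ⟨c, ?_⟩
  rw [← Ideal.Quotient.eq_zero_iff_mem]
  have : residue A (a - algebraMap 𝒪 A c) = 0 := by
    rw [map_sub]
    simp only [Function.comp_apply] at hc
    rw [hc, sub_self]
  exact this

/-- Key Nakayama-type statement: if `m ≤ span (B ∩ m) ⊔ m^2` and `m` is nilpotent then `B = ⊤`. -/
theorem th_eq_top_of_le (hsurj : Function.Surjective (residue A ∘ algebraMap 𝒪 A))
    (hnil : IsNilpotent (maximalIdeal A)) (B : Subalgebra 𝒪 A)
    (h : maximalIdeal A ≤ thIdeal B) : B = ⊤ := by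
  set m := maximalIdeal A with hm
  -- N := B ∩ m as an 𝒪-submodule
  let N : Submodule 𝒪 A := B.toSubmodule ⊓ m.restrictScalars 𝒪
  have hNmem : ∀ x, x ∈ N ↔ x ∈ B ∧ x ∈ m := by
    intro x
    simp [N, Submodule.mem_inf]
  have hN_le_m : N ≤ m.restrictScalars 𝒪 := inf_le_right
  have hpow_le : ∀ n : ℕ, 1 ≤ n → (m ^ n).restrictScalars 𝒪 ≤ m.restrictScalars 𝒪 := by
    intro n hn x hx
    exact Ideal.pow_le_self (by omega) hx
  -- (★) m ≤ N ⊔ m²
  have hstar : m.restrictScalars 𝒪 ≤ N ⊔ (m ^ 2).restrictScalars 𝒪 := by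
    -- first: span (thSet B) ≤ N ⊔ m²
    have hspan : ∀ x ∈ Ideal.span (thSet B), x ∈ N ⊔ (m ^ 2).restrictScalars 𝒪 := by
      intro x hx
      induction hx using Submodule.span_induction with
      | mem x hx => exact Submodule.mem_sup_left ((hNmem x).mpr hx)
      | zero => exact Submodule.zero_mem _
      | add x y _ _ hx hy => exact Submodule.add_mem _ hx hy
      | smul a x hx ih =>
        obtain ⟨c, hc⟩ := th_exists_decomp hsurj a
        have hxm : x ∈ m := (Ideal.span_le.mpr fun y hy => hy.2) hx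
        have h1 : a • x = c • x + (a - algebraMap 𝒪 A c) * x := by
          rw [smul_eq_mul, Algebra.smul_def]; ring
        rw [h1]
        refine Submodule.add_mem _ (Submodule.smul_mem _ c ih) (Submodule.mem_sup_right ?_)
        show (a - algebraMap 𝒪 A c) * x ∈ m ^ 2
        rw [pow_two]
        exact Ideal.mul_mem_mul hc hxm
    intro x hx
    have hx' : x ∈ thIdeal B := h hx
    obtain ⟨j, hj, z, hz, rfl⟩ := Submodule.mem_sup.mp hx'
    exact Submodule.add_mem _ (hspan j hj) (Submodule.mem_sup_right hz)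
  -- induction: m ≤ N ⊔ m^(n+1)
  have hind : ∀ n : ℕ, m.restrictScalars 𝒪 ≤ N ⊔ (m ^ (n + 1)).restrictScalars 𝒪 := by
    intro n
    induction n with
    | zero =>
      intro x hx
      refine Submodule.mem_sup_right ?_
      show x ∈ m ^ (0 + 1)
      simpa using hx
    | succ n ih =>
      -- enough: m² ≤ N ⊔ m^(n+2)
      have hsq : (m ^ 2).restrictScalars 𝒪 ≤ N ⊔ (m ^ (n + 1 + 1)).restrictScalars 𝒪 := by
        intro x hx
        have hx' : x ∈ m • m := by
          have : x ∈ m ^ 2 := hx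
          rwa [pow_two] at this
        refine Submodule.smul_induction_on hx' ?_ ?_
        · intro u hu v hv
          -- decompose u and v
          obtain ⟨b1, hb1, z1, hz1, rfl⟩ := Submodule.mem_sup.mp (ih hu)
          obtain ⟨b2, hb2, z2, hz2, rfl⟩ := Submodule.mem_sup.mp (ih hv)
          have hb1' := (hNmem b1).mp hb1
          have hb2' := (hNmem b2).mp hb2
          have hz1' : z1 ∈ m ^ (n + 1) := hz1
          have hz2' : z2 ∈ m ^ (n + 1) := hz2
          have e : (b1 + z1) • (b2 + z2) = b1 * b2 + (z1 * (b2 + z2) + b1 * z2) := by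
            rw [smul_eq_mul]; ring
          rw [e]
          refine Submodule.add_mem _ (Submodule.mem_sup_left ?_) (Submodule.mem_sup_right ?_)
          · exact (hNmem _).mpr ⟨B.mul_mem hb1'.1 hb2'.1, Ideal.mul_mem_left _ _ hb2'.2⟩
          · show z1 * (b2 + z2) + b1 * z2 ∈ m ^ (n + 1 + 1)
            have hv' : b2 + z2 ∈ m := hv
            refine Ideal.add_mem _ ?_ ?_
            · rw [pow_succ]
              exact Ideal.mul_mem_mul hz1' hv'
            · rw [pow_succ, mul_comm b1 z2]
              exact Ideal.mul_mem_mul hz2' hb1'.2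
        · intro u v hu hv
          exact Submodule.add_mem _ hu hv
      intro x hx
      obtain ⟨b, hb, z, hz, rfl⟩ := Submodule.mem_sup.mp (hstar hx)
      exact Submodule.add_mem _ (Submodule.mem_sup_left hb) (hsq hz)
  -- conclude m ≤ N
  obtain ⟨n, hn⟩ := hnil
  have hmN : m.restrictScalars 𝒪 ≤ N := by
    intro x hx
    have h1 := hind n hx
    have h2 : m ^ (n + 1) = ⊥ := by
      rw [pow_succ, hn]
      simp
    rw [h2] at h1
    obtain ⟨b, hb, z, hz, rfl⟩ := Submodule.mem_sup.mp h1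
    have hz0 : z = 0 := by simpa using hz
    rw [hz0, add_zero]
    exact hb
  -- finally B = ⊤
  rw [eq_top_iff]
  intro a _
  obtain ⟨c, hc⟩ := th_exists_decomp hsurj a
  have h1 : a - algebraMap 𝒪 A c ∈ B := ((hNmem _).mp (hmN hc)).1
  have : a = (a - algebraMap 𝒪 A c) + algebraMap 𝒪 A c := by ring
  rw [this]
  exact B.add_mem h1 (B.algebraMap_mem c)


/-! ### Construction of the tangent homomorphism -/

variable [IsLocalHom (algebraMap 𝒪 A)]

lemma th_map_surjective (hsurj : Function.Surjective (residue A ∘ algebraMap 𝒪 A)) :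
    Function.Surjective (ResidueField.map (algebraMap 𝒪 A)) := by
  intro y
  obtain ⟨a, rfl⟩ := residue_surjective y
  obtain ⟨c, hc⟩ := hsurj (residue A a)
  refine ⟨residue 𝒪 c, ?_⟩
  rw [ResidueField.map_residue]
  exact hc

/-- The residue fields of `𝒪` and `A` are identified. -/
noncomputable def thResEquiv (hsurj : Function.Surjective (residue A ∘ algebraMap 𝒪 A)) :
    ResidueField 𝒪 ≃+* ResidueField A :=
  RingEquiv.ofBijective (ResidueField.map (algebraMap 𝒪 A))
    ⟨(ResidueField.map (algebraMap 𝒪 A)).injective, th_map_surjective hsurj⟩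

/-- The canonical map `A → k`, `k` the residue field of `𝒪`. -/
noncomputable def thPi (hsurj : Function.Surjective (residue A ∘ algebraMap 𝒪 A)) :
    A →+* ResidueField 𝒪 :=
  ((thResEquiv hsurj).symm : ResidueField A →+* ResidueField 𝒪).comp (residue A)

lemma thPi_spec (hsurj : Function.Surjective (residue A ∘ algebraMap 𝒪 A)) (a : A) :
    ResidueField.map (algebraMap 𝒪 A) (thPi hsurj a) = residue A a := by
  show (thResEquiv hsurj) ((thResEquiv hsurj).symm (residue A a)) = residue A a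
  exact RingEquiv.apply_symm_apply _ _

lemma thPi_algebraMap (hsurj : Function.Surjective (residue A ∘ algebraMap 𝒪 A)) (c : 𝒪) :
    thPi hsurj (algebraMap 𝒪 A c) = residue 𝒪 c := by
  apply (ResidueField.map (algebraMap 𝒪 A)).injective
  rw [thPi_spec, ResidueField.map_residue]

lemma thPi_eq_zero_iff (hsurj : Function.Surjective (residue A ∘ algebraMap 𝒪 A)) (a : A) :
    thPi hsurj a = 0 ↔ a ∈ maximalIdeal A := by
  rw [← residue_eq_zero_iff, ← thPi_spec hsurj a]
  constructor
  · intro h; rw [h, map_zero]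
  · intro h
    exact (map_eq_zero_iff _ (ResidueField.map (algebraMap 𝒪 A)).injective).mp h

lemma th_algebraMap_mem_thIdeal (B : Subalgebra 𝒪 A) (c : 𝒪) (hc : c ∈ maximalIdeal 𝒪) :
    algebraMap 𝒪 A c ∈ thIdeal B := by
  refine Ideal.mem_sup_left (Ideal.subset_span ⟨B.algebraMap_mem c, ?_⟩)
  rw [mem_maximalIdeal, mem_nonunits_iff] at hc ⊢
  intro hu
  exact hc (isUnit_of_map_unit (algebraMap 𝒪 A) c hu)

/-- `π' : A ⧸ I → k`. -/
noncomputable def thPi' (hsurj : Function.Surjective (residue A ∘ algebraMap 𝒪 A))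
    (B : Subalgebra 𝒪 A) : A ⧸ thIdeal B →+* ResidueField 𝒪 :=
  Ideal.Quotient.lift (thIdeal B) (thPi hsurj) (fun a ha =>
    (thPi_eq_zero_iff hsurj a).mpr (thIdeal_le B ha))

/-- `ι : k → A ⧸ I`. -/
noncomputable def thIota (B : Subalgebra 𝒪 A) : ResidueField 𝒪 →+* A ⧸ thIdeal B :=
  Ideal.Quotient.lift (maximalIdeal 𝒪) ((Ideal.Quotient.mk (thIdeal B)).comp (algebraMap 𝒪 A))
    (fun c hc => by
      rw [RingHom.comp_apply, Ideal.Quotient.eq_zero_iff_mem]
      exact th_algebraMap_mem_thIdeal B c hc)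

lemma thIota_residue (B : Subalgebra 𝒪 A) (c : 𝒪) :
    thIota B (residue 𝒪 c) = Ideal.Quotient.mk (thIdeal B) (algebraMap 𝒪 A c) := rfl

lemma thPi'_mk (hsurj : Function.Surjective (residue A ∘ algebraMap 𝒪 A)) (B : Subalgebra 𝒪 A)
    (a : A) : thPi' hsurj B (Ideal.Quotient.mk (thIdeal B) a) = thPi hsurj a := rfl

lemma thPi'_thIota (hsurj : Function.Surjective (residue A ∘ algebraMap 𝒪 A))
    (B : Subalgebra 𝒪 A) (x : ResidueField 𝒪) : thPi' hsurj B (thIota B x) = x := by
  obtain ⟨c, rfl⟩ := residue_surjective x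
  rw [thIota_residue, thPi'_mk, thPi_algebraMap]

/-- `d q = q - ι (π' q)`. -/
noncomputable def thD (hsurj : Function.Surjective (residue A ∘ algebraMap 𝒪 A))
    (B : Subalgebra 𝒪 A) (q : A ⧸ thIdeal B) : A ⧸ thIdeal B :=
  q - thIota B (thPi' hsurj B q)

lemma thD_add (hsurj : Function.Surjective (residue A ∘ algebraMap 𝒪 A)) (B : Subalgebra 𝒪 A)
    (q q' : A ⧸ thIdeal B) : thD hsurj B (q + q') = thD hsurj B q + thD hsurj B q' := by
  simp only [thD, map_add]; ring

lemma thPi'_thD (hsurj : Function.Surjective (residue A ∘ algebraMap 𝒪 A)) (B : Subalgebra 𝒪 A)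
    (q : A ⧸ thIdeal B) : thPi' hsurj B (thD hsurj B q) = 0 := by
  simp only [thD, map_sub, thPi'_thIota, sub_self]

lemma th_mul_eq_zero (hsurj : Function.Surjective (residue A ∘ algebraMap 𝒪 A))
    (B : Subalgebra 𝒪 A) (q q' : A ⧸ thIdeal B) (hq : thPi' hsurj B q = 0)
    (hq' : thPi' hsurj B q' = 0) : q * q' = 0 := by
  obtain ⟨a, rfl⟩ := Ideal.Quotient.mk_surjective q
  obtain ⟨a', rfl⟩ := Ideal.Quotient.mk_surjective q'
  rw [thPi'_mk, thPi_eq_zero_iff] at hq hq'
  rw [← map_mul, Ideal.Quotient.eq_zero_iff_mem]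
  refine Ideal.mem_sup_right ?_
  rw [pow_two]
  exact Ideal.mul_mem_mul hq hq'

lemma thD_mul (hsurj : Function.Surjective (residue A ∘ algebraMap 𝒪 A)) (B : Subalgebra 𝒪 A)
    (q q' : A ⧸ thIdeal B) :
    thD hsurj B (q * q') =
      thIota B (thPi' hsurj B q) * thD hsurj B q' + thIota B (thPi' hsurj B q') * thD hsurj B q := by
  have h0 := th_mul_eq_zero hsurj B _ _ (thPi'_thD hsurj B q) (thPi'_thD hsurj B q')
  simp only [thD, map_mul] at h0 ⊢
  linear_combination h0

lemma thD_thIota (hsurj : Function.Surjective (residue A ∘ algebraMap 𝒪 A)) (B : Subalgebra 𝒪 A)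
    (x : ResidueField 𝒪) : thD hsurj B (thIota B x) = 0 := by
  simp only [thD, thPi'_thIota, sub_self]

lemma thD_mk_of_mem (hsurj : Function.Surjective (residue A ∘ algebraMap 𝒪 A))
    (B : Subalgebra 𝒪 A) (a : A) (ha : a ∈ maximalIdeal A) :
    thD hsurj B (Ideal.Quotient.mk _ a) = Ideal.Quotient.mk _ a := by
  simp only [thD, thPi'_mk, (thPi_eq_zero_iff hsurj a).mpr ha, map_zero, sub_zero]

lemma thD_mk_of_mem_subalgebra (hsurj : Function.Surjective (residue A ∘ algebraMap 𝒪 A))
    (B : Subalgebra 𝒪 A) (b : A) (hb : b ∈ B) :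
    thD hsurj B (Ideal.Quotient.mk _ b) = 0 := by
  obtain ⟨c, hc⟩ := th_exists_decomp hsurj b
  have hx : b - algebraMap 𝒪 A c ∈ thIdeal B :=
    Ideal.mem_sup_left (Ideal.subset_span ⟨B.sub_mem hb (B.algebraMap_mem c), hc⟩)
  have h1 : Ideal.Quotient.mk (thIdeal B) b = thIota B (residue 𝒪 c) := by
    rw [thIota_residue]
    exact (Ideal.Quotient.eq).mpr hx
  rw [h1, thD_thIota]


/-- The `k`-module structure on `A ⧸ I` through `ι`. -/
@[reducible] noncomputable def thModule (B : Subalgebra 𝒪 A) :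
    Module (ResidueField 𝒪) (A ⧸ thIdeal B) :=
  Module.compHom (A ⧸ thIdeal B) (thIota B)

lemma thModule_smul_def (B : Subalgebra 𝒪 A) (x : ResidueField 𝒪) (q : A ⧸ thIdeal B) :
    (letI := thModule B; x • q) = thIota B x * q := rfl

/-- The underlying function of the tangent homomorphism attached to a functional `φ`. -/
noncomputable def thFun (hsurj : Function.Surjective (residue A ∘ algebraMap 𝒪 A))
    (B : Subalgebra 𝒪 A)
    (φ : letI := thModule B; (A ⧸ thIdeal B) →ₗ[ResidueField 𝒪] ResidueField 𝒪) (a : A) :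
    DualNumber (ResidueField 𝒪) :=
  TrivSqZeroExt.inl (thPi hsurj a) +
    TrivSqZeroExt.inr (φ (thD hsurj B (Ideal.Quotient.mk (thIdeal B) a)))

lemma thFun_fst (hsurj : Function.Surjective (residue A ∘ algebraMap 𝒪 A))
    (B : Subalgebra 𝒪 A)
    (φ : letI := thModule B; (A ⧸ thIdeal B) →ₗ[ResidueField 𝒪] ResidueField 𝒪) (a : A) :
    (thFun hsurj B φ a).fst = thPi hsurj a := by
  simp [thFun]

lemma thFun_snd (hsurj : Function.Surjective (residue A ∘ algebraMap 𝒪 A))
    (B : Subalgebra 𝒪 A)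
    (φ : letI := thModule B; (A ⧸ thIdeal B) →ₗ[ResidueField 𝒪] ResidueField 𝒪) (a : A) :
    (thFun hsurj B φ a).snd = φ (thD hsurj B (Ideal.Quotient.mk (thIdeal B) a)) := by
  simp [thFun]

/-- The tangent homomorphism as a ring homomorphism. -/
noncomputable def thRingHom (hsurj : Function.Surjective (residue A ∘ algebraMap 𝒪 A))
    (B : Subalgebra 𝒪 A)
    (φ : letI := thModule B; (A ⧸ thIdeal B) →ₗ[ResidueField 𝒪] ResidueField 𝒪) :
    A →+* DualNumber (ResidueField 𝒪) where
  toFun := thFun hsurj B φ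
  map_one' := by
    apply TrivSqZeroExt.ext
    · rw [thFun_fst, map_one, TrivSqZeroExt.fst_one]
    · rw [thFun_snd, TrivSqZeroExt.snd_one]
      have : thD hsurj B (Ideal.Quotient.mk (thIdeal B) 1) = 0 := by
        simp [thD]
      rw [this, map_zero]
  map_mul' a b := by
    apply TrivSqZeroExt.ext
    · rw [thFun_fst, TrivSqZeroExt.fst_mul, thFun_fst, thFun_fst, map_mul]
    · rw [thFun_snd, TrivSqZeroExt.snd_mul, thFun_snd, thFun_snd, thFun_fst, thFun_fst, map_mul,
        thD_mul, map_add]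
      let _inst := thModule B
      have h1 : thIota B (thPi' hsurj B (Ideal.Quotient.mk (thIdeal B) a)) *
          thD hsurj B (Ideal.Quotient.mk (thIdeal B) b) =
          (thPi hsurj a) • thD hsurj B (Ideal.Quotient.mk (thIdeal B) b) := rfl
      have h2 : thIota B (thPi' hsurj B (Ideal.Quotient.mk (thIdeal B) b)) *
          thD hsurj B (Ideal.Quotient.mk (thIdeal B) a) =
          (thPi hsurj b) • thD hsurj B (Ideal.Quotient.mk (thIdeal B) a) := rfl
      rw [h1, h2, map_smul, map_smul]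
      simp only [smul_eq_mul, MulOpposite.smul_eq_mul_unop, MulOpposite.unop_op]
      ring
  map_zero' := by
    apply TrivSqZeroExt.ext
    · rw [thFun_fst, map_zero, TrivSqZeroExt.fst_zero]
    · rw [thFun_snd, TrivSqZeroExt.snd_zero]
      have : thD hsurj B (Ideal.Quotient.mk (thIdeal B) 0) = 0 := by
        simp [thD]
      rw [this, map_zero]
  map_add' a b := by
    apply TrivSqZeroExt.ext
    · rw [thFun_fst, TrivSqZeroExt.fst_add, thFun_fst, thFun_fst, map_add]
    · rw [thFun_snd, TrivSqZeroExt.snd_add, thFun_snd, thFun_snd, map_add, thD_add, map_add]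


/-- **Tangent homomorphism.**  If `B` is a proper `𝒪`-subalgebra of the local `𝒪`-algebra `A`
(nilpotent maximal ideal, residue field of `𝒪`), there is an `𝒪`-algebra homomorphism
`lam : A → k[ε]` whose `ε`-component vanishes on `B` but not on `A`. -/
theorem exists_tangent_algHom (hsurj : Function.Surjective (residue A ∘ algebraMap 𝒪 A))
    (hnil : IsNilpotent (maximalIdeal A)) (B : Subalgebra 𝒪 A) (hB : B ≠ ⊤) :
    letI := thDualAlg 𝒪
    ∃ lam : A →ₐ[𝒪] DualNumber (ResidueField 𝒪),
      (∀ b ∈ B, (lam b).snd = 0) ∧ (∃ a ∈ maximalIdeal A, (lam a).snd ≠ 0) ∧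
      (∀ a, ResidueField.map (algebraMap 𝒪 A) (lam a).fst = residue A a) := by
  let _i1 := thDualAlg 𝒪
  -- there is x₀ ∈ m not in I
  have hnot : ¬ maximalIdeal A ≤ thIdeal B := fun h => hB (th_eq_top_of_le hsurj hnil B h)
  obtain ⟨x₀, hx₀m, hx₀I⟩ := Set.not_subset.mp hnot
  let _i2 := thModule B
  have hne : Ideal.Quotient.mk (thIdeal B) x₀ ≠ 0 := by
    rw [Ne, Ideal.Quotient.eq_zero_iff_mem]; exact hx₀I
  obtain ⟨φ, hφ⟩ := Module.Projective.exists_dual_ne_zero (ResidueField 𝒪) hne
  refine ⟨{ thRingHom hsurj B φ with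
    commutes' := fun c => ?_ }, ?_, ⟨x₀, hx₀m, ?_⟩, ?_⟩
  · -- commutes with algebraMap
    show thFun hsurj B φ (algebraMap 𝒪 A c) = TrivSqZeroExt.inl (residue 𝒪 c)
    apply TrivSqZeroExt.ext
    · rw [thFun_fst, thPi_algebraMap, TrivSqZeroExt.fst_inl]
    · rw [thFun_snd, TrivSqZeroExt.snd_inl,
        thD_mk_of_mem_subalgebra hsurj B _ (B.algebraMap_mem c), map_zero]
  · intro b hb
    show (thFun hsurj B φ b).snd = 0
    rw [thFun_snd, thD_mk_of_mem_subalgebra hsurj B b hb, map_zero]
  · show (thFun hsurj B φ x₀).snd ≠ 0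
    rw [thFun_snd, thD_mk_of_mem hsurj B x₀ hx₀m]
    exact hφ
  · intro a
    show ResidueField.map (algebraMap 𝒪 A) (thFun hsurj B φ a).fst = residue A a
    rw [thFun_fst, thPi_spec]

/-- The elements on which the `ε`-component of an algebra hom to the dual numbers vanishes
form a subalgebra. -/
theorem exists_gen_snd_ne_zero
    (lam : letI := thDualAlg 𝒪; A →ₐ[𝒪] DualNumber (ResidueField 𝒪))
    {G : Set A} (hG : Algebra.adjoin 𝒪 G = ⊤)
    (h : ∃ a, (letI := thDualAlg 𝒪; lam a).snd ≠ 0) :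
    ∃ g ∈ G, (letI := thDualAlg 𝒪; lam g).snd ≠ 0 := by
  let _i1 := thDualAlg 𝒪
  by_contra hcon
  push Not at hcon
  obtain ⟨a, ha⟩ := h
  apply ha
  have key : ∀ x ∈ Algebra.adjoin 𝒪 G, (lam x).snd = 0 := by
    intro x hx
    induction hx using Algebra.adjoin_induction with
    | mem x hx => exact hcon x hx
    | algebraMap c =>
      rw [AlgHom.commutes]
      rfl
    | add x y _ _ hx hy =>
      rw [map_add, TrivSqZeroExt.snd_add, hx, hy, add_zero]
    | mul x y _ _ hx hy =>
      rw [map_mul, TrivSqZeroExt.snd_mul, hx, hy]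
      simp
  exact key a (by rw [hG]; trivial)

/-- A ring hom to the dual numbers whose first component computes the residue is local. -/
theorem isLocalHom_of_fst_spec (lam : A →+* DualNumber (ResidueField 𝒪))
    (h : ∀ a, ResidueField.map (algebraMap 𝒪 A) (lam a).fst = residue A a) :
    IsLocalHom lam := by
  constructor
  intro a ha
  have h1 : IsUnit (lam a).fst := by
    have := ha.map (TrivSqZeroExt.fstHom (ResidueField 𝒪) (ResidueField 𝒪) (ResidueField 𝒪))
    simpa using this
  have h2 : residue A a ≠ 0 := by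
    rw [← h a]
    exact (map_ne_zero_iff _ (ResidueField.map (algebraMap 𝒪 A)).injective).mpr h1.ne_zero
  by_contra hu
  exact h2 ((residue_eq_zero_iff a).mpr ((mem_maximalIdeal a).mpr hu))

end

end Fermat.Agent.S53x
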