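import Mathlib
import Fermat.Prelude.Def_GaloisRep_DeformationRingData
import Fermat.Prelude.Def_GaloisRep_DeformationCondition

/-!
# S53 helper: the finite separating set of Galois elements extracted from `TangentFinite`

`GaloisRep.TangentFinite` says that there are finitely many tangent deformations (type-`𝒟`
deformations to `k[ε]`) up to equivalence.  Equivalent representations have equal trace functions,
hence there is a finite set `s` of elements of `G_ℚ` such that a tangent deformation whose trace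
function has vanishing `ε`-part on `s` has vanishing `ε`-part everywhere.
-/

set_option autoImplicit false
namespace Fermat.Agent.S53x
open IsLocalRing

/-- Equivalent representations have the same trace function. -/
theorem ts_trace_eq_of_isEquiv {A : Type} [CommRing A] [IsLocalRing A] {ρ₁ ρ₂ : GaloisRepAdic A}
    (h : ρ₁.IsEquiv ρ₂) (σ : AlgebraicClosure ℚ ≃ₐ[ℚ] AlgebraicClosure ℚ) :
    ρ₁.trace σ = ρ₂.trace σ := by
  obtain ⟨e⟩ := h
  unfold GaloisRepAdic.trace
  have : ρ₂.ρ σ = e.toLinearEquiv.conj (ρ₁.ρ σ) := by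
    apply LinearMap.ext
    intro x
    rw [LinearEquiv.conj_apply_apply, e.map_apply, LinearEquiv.apply_symm_apply]
  rw [this, LinearMap.trace_conj']

section

variable (𝒪 : Type) [CommRing 𝒪] [IsLocalRing 𝒪]

/-- The `𝒪`-algebra structure on `k[ε]` used in `GaloisRep.TangentFinite`. -/
@[reducible] noncomputable def tsAlgebra : Algebra 𝒪 (DualNumber (ResidueField 𝒪)) :=
  ((algebraMap (ResidueField 𝒪) (DualNumber (ResidueField 𝒪))).comp
    (algebraMap 𝒪 (ResidueField 𝒪))).toAlgebra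

/-- The `k`-algebra structure on the residue field of `k[ε]` used in `GaloisRep.TangentFinite`. -/
@[reducible] noncomputable def tsResAlgebra :
    Algebra (ResidueField 𝒪) (ResidueField (DualNumber (ResidueField 𝒪))) :=
  ((IsLocalRing.residue (DualNumber (ResidueField 𝒪))).comp
    (algebraMap (ResidueField 𝒪) (DualNumber (ResidueField 𝒪)))).toAlgebra

variable (ρbar : ResidualGaloisRep (ResidueField 𝒪))
  (𝒟 : ∀ ⦃A : Type⦄ [CommRing A] [IsLocalRing A] [Algebra 𝒪 A], GaloisRepAdic A → Prop)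

/-- The predicate cutting out the tangent deformations in `GaloisRep.TangentFinite`. -/
def TsIsTangent (ρ : GaloisRepAdic (DualNumber (ResidueField 𝒪))) : Prop :=
  letI := tsAlgebra 𝒪
  letI := tsResAlgebra 𝒪
  𝒟 ρ ∧ ρ.residual.IsEquiv (ρbar.baseChange (ResidueField (DualNumber (ResidueField 𝒪))))

theorem ts_exists_finset (hfin : GaloisRep.TangentFinite 𝒪 ρbar 𝒟) :
    ∃ s : Finset (AlgebraicClosure ℚ ≃ₐ[ℚ] AlgebraicClosure ℚ),
      ∀ ρ : GaloisRepAdic (DualNumber (ResidueField 𝒪)), TsIsTangent 𝒪 ρbar 𝒟 ρ →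
        (∀ g ∈ s, (ρ.trace g).snd = 0) → ∀ σ, (ρ.trace σ).snd = 0 := by
  classical
  unfold GaloisRep.TangentFinite at hfin
  -- the set of trace functions of tangent deformations is finite
  have key : ∀ (α : Type 1) (S : Setoid α) (_ : Finite (Quotient S))
      (tr : α → ((AlgebraicClosure ℚ ≃ₐ[ℚ] AlgebraicClosure ℚ) → DualNumber (ResidueField 𝒪)))
      (_ : ∀ a b, S.r a b → tr a = tr b), (Set.range tr).Finite := by
    intro α S hS tr htr
    have : Set.range tr = Set.range (Quotient.lift tr htr) := by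
      ext θ
      constructor
      · rintro ⟨a, rfl⟩; exact ⟨Quotient.mk S a, rfl⟩
      · rintro ⟨q, rfl⟩
        induction q using Quotient.inductionOn with
        | h a => exact ⟨a, rfl⟩
    rw [this]
    exact Set.finite_range _
  have hrange := key {ρ : GaloisRepAdic (DualNumber (ResidueField 𝒪)) // TsIsTangent 𝒪 ρbar 𝒟 ρ}
    _ hfin (fun ρ => ρ.1.trace)
    (fun a b h => funext fun σ => ts_trace_eq_of_isEquiv h σ)
  let pick : ((AlgebraicClosure ℚ ≃ₐ[ℚ] AlgebraicClosure ℚ) → DualNumber (ResidueField 𝒪)) →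
      (AlgebraicClosure ℚ ≃ₐ[ℚ] AlgebraicClosure ℚ) :=
    fun θ => if h : ∃ σ, (θ σ).snd ≠ 0 then h.choose else 1
  refine ⟨hrange.toFinset.image pick, ?_⟩
  intro ρ hρ hs σ
  by_contra hne
  have hθ : ρ.trace ∈ Set.range (fun ρ : {ρ : GaloisRepAdic (DualNumber (ResidueField 𝒪)) //
      TsIsTangent 𝒪 ρbar 𝒟 ρ} => ρ.1.trace) := ⟨⟨ρ, hρ⟩, rfl⟩
  have hex : ∃ σ, (ρ.trace σ).snd ≠ 0 := ⟨σ, hne⟩
  have h0 := hs (pick ρ.trace)
    (Finset.mem_image.mpr ⟨ρ.trace, hrange.mem_toFinset.mpr hθ, rfl⟩)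
  simp only [pick, dif_pos hex] at h0
  exact hex.choose_spec h0

/-- `Fin n`-indexed version of `ts_exists_finset`. -/
theorem ts_exists_fin (hfin : GaloisRep.TangentFinite 𝒪 ρbar 𝒟) :
    ∃ (n : ℕ) (g : Fin n → (AlgebraicClosure ℚ ≃ₐ[ℚ] AlgebraicClosure ℚ)),
      ∀ ρ : GaloisRepAdic (DualNumber (ResidueField 𝒪)), TsIsTangent 𝒪 ρbar 𝒟 ρ →
        (∀ i, (ρ.trace (g i)).snd = 0) → ∀ σ, (ρ.trace σ).snd = 0 := by
  obtain ⟨s, hs⟩ := ts_exists_finset 𝒪 ρbar 𝒟 hfin
  refine ⟨s.card, fun i => (s.equivFin.symm i : _), fun ρ hρ h σ => hs ρ hρ (fun g hg => ?_) σ⟩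
  have := h (s.equivFin ⟨g, hg⟩)
  simpa using this

end
end Fermat.Agent.S53x
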