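import Fermat.Agent.S53x.Basic

/-!
# S53, module M5: Artinian test algebras and the fibre product over the residue field
-/

set_option autoImplicit false

namespace Fermat.Agent.S53x

open IsLocalRing GaloisRep

section Finiteness

/-- A module of finite length over a local ring with finite residue field is finite. -/
theorem finite_of_isFiniteLength {A : Type*} [CommRing A] [IsLocalRing A]
    [Finite (ResidueField A)] {M : Type*} [AddCommGroup M] [Module A M]
    (h : IsFiniteLength A M) : Finite M := by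
  induction h with
  | of_subsingleton => infer_instance
  | @of_simple_quotient M _ _ N hs _ ih =>
    obtain ⟨m, hm, ⟨e⟩⟩ := isSimpleModule_iff_quot_maximal.mp hs
    rw [IsLocalRing.eq_maximalIdeal hm] at e
    have : Finite (M ⧸ N) := Finite.of_equiv (ResidueField A) e.symm.toEquiv
    have : Finite N := ih
    have : Finite N.toAddSubgroup := ih
    have : Finite (M ⧸ N.toAddSubgroup) := ‹Finite (M ⧸ N)›
    exact Finite.of_addSubgroup_quotient N.toAddSubgroup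

/-- In a finite ring, an element whose image under an injective ring hom is a unit is a unit. -/
theorem isUnit_of_isUnit_map_of_finite {B A : Type*} [CommRing B] [CommRing A] [Finite A]
    (j : B →+* A) (hj : Function.Injective j) (b : B) (hb : IsUnit (j b)) : IsUnit b := by
  obtain ⟨n, hn, hu⟩ := (isOfFinOrder_of_finite hb.unit).exists_pow_eq_one
  have h1 : j (b ^ n) = j 1 := by
    rw [map_pow, map_one]
    have := congrArg (fun u : Aˣ => (u : A)) hu
    simpa using this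
  exact IsUnit.of_pow_eq_one (hj h1) hn.ne'

end Finiteness

section TestAlgebra

variable {𝒪 : Type} [CommRing 𝒪]
variable {A : Type} [CommRing A] [IsLocalRing A] [Algebra 𝒪 A]

/-- For a test algebra the canonical map `k → ResidueField A` is surjective. -/
theorem testAlg_residueFieldMap_surjective [IsLocalRing 𝒪] (h : IsArtinianTestAlgebra 𝒪 A) :
    haveI := h.isLocalHom
    Function.Surjective (ResidueField.map (algebraMap 𝒪 A)) := by
  haveI := h.isLocalHom
  intro y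
  obtain ⟨c, hc⟩ := h.residue_surjective y
  exact ⟨residue 𝒪 c, by rw [ResidueField.map_residue]; exact hc⟩

/-- For a test algebra the canonical map `k → ResidueField A` is bijective. -/
theorem testAlg_residueFieldMap_bijective [IsLocalRing 𝒪] (h : IsArtinianTestAlgebra 𝒪 A) :
    haveI := h.isLocalHom
    Function.Bijective (ResidueField.map (algebraMap 𝒪 A)) :=
  haveI := h.isLocalHom
  ⟨(ResidueField.map (algebraMap 𝒪 A)).injective, testAlg_residueFieldMap_surjective h⟩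

theorem testAlg_finite_residueField [IsLocalRing 𝒪] [Finite (ResidueField 𝒪)]
    (h : IsArtinianTestAlgebra 𝒪 A) : Finite (ResidueField A) :=
  haveI := h.isLocalHom
  Finite.of_surjective _ (testAlg_residueFieldMap_surjective h)

/-- (a) An Artinian test algebra over `𝒪` with finite residue field is a finite ring. -/
theorem testAlg_finite [IsLocalRing 𝒪] [Finite (ResidueField 𝒪)]
    (h : IsArtinianTestAlgebra 𝒪 A) : Finite A := by
  haveI := testAlg_finite_residueField h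
  exact finite_of_isFiniteLength (A := A) ((isArtinianRing_iff_isFiniteLength A).mp h.isArtinian)

/-- (a) The maximal ideal of an Artinian test algebra is nilpotent. -/
theorem testAlg_isNilpotent_maximalIdeal (h : IsArtinianTestAlgebra 𝒪 A) :
    IsNilpotent (maximalIdeal A) := by
  haveI := h.isArtinian
  exact (isArtinianRing_iff_isNilpotent_maximalIdeal A).mp h.isArtinian

/-- Every element of a test algebra is congruent to a scalar modulo the maximal ideal. -/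
theorem testAlg_exists_sub_mem (h : IsArtinianTestAlgebra 𝒪 A) (a : A) :
    ∃ c : 𝒪, a - algebraMap 𝒪 A c ∈ maximalIdeal A := by
  obtain ⟨c, hc⟩ := h.residue_surjective (residue A a)
  refine ⟨c, ?_⟩
  rw [← residue_eq_zero_iff, map_sub, sub_eq_zero]
  exact hc.symm

/-- The residue field of `𝒪` is an Artinian test algebra. -/
theorem testAlg_residueField [IsLocalRing 𝒪] : IsArtinianTestAlgebra 𝒪 (ResidueField 𝒪) where
  isLocalHom := by
    rw [ResidueField.algebraMap_eq]; infer_instance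
  residue_surjective := by
    rw [ResidueField.algebraMap_eq]
    exact (residue_surjective (R := ResidueField 𝒪)).comp (residue_surjective (R := 𝒪))
  isArtinian := inferInstance

/-- (b) A local `𝒪`-algebra which is a surjective image of a test algebra is a test algebra. -/
theorem testAlg_of_surjective {B : Type} [CommRing B] [IsLocalRing B] [Algebra 𝒪 B]
    (h : IsArtinianTestAlgebra 𝒪 A) (f : A →ₐ[𝒪] B) (hf : Function.Surjective f) :
    IsArtinianTestAlgebra 𝒪 B where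
  isLocalHom := by
    haveI := h.isLocalHom
    haveI : IsLocalHom (f : A →+* B) := IsLocalHom.of_surjective _ hf
    have e : algebraMap 𝒪 B = (f : A →+* B).comp (algebraMap 𝒪 A) := by
      ext c; simp
    rw [e]; exact RingHom.isLocalHom_comp _ _
  residue_surjective := by
    haveI : IsLocalHom (f : A →+* B) := IsLocalHom.of_surjective _ hf
    intro y
    obtain ⟨b, rfl⟩ := residue_surjective y
    obtain ⟨a, rfl⟩ := hf b
    obtain ⟨c, hc⟩ := testAlg_exists_sub_mem h a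
    refine ⟨c, ?_⟩
    simp only [Function.comp]
    rw [← sub_eq_zero, ← map_sub, residue_eq_zero_iff]
    have e : algebraMap 𝒪 B c - f a = - (f : A →+* B) (a - algebraMap 𝒪 A c) := by simp
    rw [e]
    exact neg_mem (map_nonunit (f : A →+* B) _ hc)
  isArtinian := by
    haveI := h.isArtinian
    exact hf.isArtinianRing

/-- (b) Quotients of test algebras are test algebras. -/
theorem testAlg_quotient (h : IsArtinianTestAlgebra 𝒪 A) (I : Ideal A) [IsLocalRing (A ⧸ I)] :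
    IsArtinianTestAlgebra 𝒪 (A ⧸ I) :=
  testAlg_of_surjective h (Ideal.Quotient.mkₐ 𝒪 I) (Ideal.Quotient.mkₐ_surjective 𝒪 I)

/-- (b) A commutative ring which embeds into a finite local ring is local. -/
theorem isLocalRing_of_injective_of_finite {B : Type*} [CommRing B] {A : Type*} [CommRing A]
    [IsLocalRing A] [Finite A] (j : B →+* A) (hj : Function.Injective j) : IsLocalRing B := by
  haveI : Nontrivial B := ⟨⟨0, 1, fun h => zero_ne_one (α := A) (by rw [← map_zero j, h, map_one])⟩⟩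
  refine IsLocalRing.of_isUnit_or_isUnit_one_sub_self fun b => ?_
  rcases IsLocalRing.isUnit_or_isUnit_one_sub_self (j b) with hb | hb
  · exact Or.inl (isUnit_of_isUnit_map_of_finite j hj b hb)
  · refine Or.inr (isUnit_of_isUnit_map_of_finite j hj (1 - b) ?_)
    rwa [map_sub, map_one]

/-- (b) An injective ring hom into a finite local ring is a local hom. -/
theorem isLocalHom_of_injective_of_finite {B : Type*} [CommRing B] {A : Type*} [CommRing A]
    [Finite A] (j : B →+* A) (hj : Function.Injective j) : IsLocalHom j :=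
  ⟨fun b hb => isUnit_of_isUnit_map_of_finite j hj b hb⟩

/-- (b) A local `𝒪`-algebra embedding into a test algebra is a test algebra. -/
theorem testAlg_of_injective [IsLocalRing 𝒪] [Finite (ResidueField 𝒪)]
    {B : Type} [CommRing B] [IsLocalRing B] [Algebra 𝒪 B]
    (h : IsArtinianTestAlgebra 𝒪 A) (j : B →ₐ[𝒪] A) (hj : Function.Injective j) :
    IsArtinianTestAlgebra 𝒪 B := by
  haveI : Finite A := testAlg_finite h
  haveI : Finite B := Finite.of_injective j hj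
  haveI : IsLocalHom (j : B →+* A) := isLocalHom_of_injective_of_finite _ hj
  refine ⟨?_, ?_, inferInstance⟩
  · haveI := h.isLocalHom
    have e : algebraMap 𝒪 A = (j : B →+* A).comp (algebraMap 𝒪 B) := by
      ext c; simp
    haveI : IsLocalHom ((j : B →+* A).comp (algebraMap 𝒪 B)) := e ▸ h.isLocalHom
    exact isLocalHom_of_comp (algebraMap 𝒪 B) (j : B →+* A)
  · intro y
    obtain ⟨b, rfl⟩ := residue_surjective y
    obtain ⟨c, hc⟩ := testAlg_exists_sub_mem h (j b)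
    refine ⟨c, ?_⟩
    simp only [Function.comp]
    rw [← sub_eq_zero, ← map_sub, residue_eq_zero_iff]
    by_contra hu
    have hu' : IsUnit (algebraMap 𝒪 B c - b) := by
      by_contra hn; exact hu ((mem_maximalIdeal _).mpr hn)
    have : IsUnit ((j : B →+* A) (algebraMap 𝒪 B c - b)) := hu'.map _
    have e : (j : B →+* A) (algebraMap 𝒪 B c - b) = - (j b - algebraMap 𝒪 A c) := by simp
    rw [e, IsUnit.neg_iff] at this
    exact (mem_maximalIdeal _).mp hc this

end TestAlgebra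

section FibreProduct

variable (𝒪 : Type) [CommRing 𝒪]
variable (A₁ : Type) [CommRing A₁] [IsLocalRing A₁] [Algebra 𝒪 A₁]
variable (A₂ : Type) [CommRing A₂] [IsLocalRing A₂] [Algebra 𝒪 A₂]

/-- (c) The fibre product of two local `𝒪`-algebras over the residue field `k` of `𝒪`:
pairs `(a, b)` which are congruent to the same scalar `c : 𝒪` modulo the maximal ideals. -/
def fibProd : Subalgebra 𝒪 (A₁ × A₂) where
  carrier := {x | ∃ c : 𝒪, x.1 - algebraMap 𝒪 A₁ c ∈ maximalIdeal A₁ ∧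
    x.2 - algebraMap 𝒪 A₂ c ∈ maximalIdeal A₂}
  mul_mem' := by
    rintro x y ⟨c, hc1, hc2⟩ ⟨d, hd1, hd2⟩
    refine ⟨c * d, ?_, ?_⟩
    · have e : (x * y).1 - algebraMap 𝒪 A₁ (c * d) =
          x.1 * (y.1 - algebraMap 𝒪 A₁ d) + (x.1 - algebraMap 𝒪 A₁ c) * algebraMap 𝒪 A₁ d := by
        rw [map_mul, Prod.fst_mul]; ring
      rw [e]
      exact add_mem (Ideal.mul_mem_left _ _ hd1) (Ideal.mul_mem_right _ _ hc1)
    · have e : (x * y).2 - algebraMap 𝒪 A₂ (c * d) =
          x.2 * (y.2 - algebraMap 𝒪 A₂ d) + (x.2 - algebraMap 𝒪 A₂ c) * algebraMap 𝒪 A₂ d := by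
        rw [map_mul, Prod.snd_mul]; ring
      rw [e]
      exact add_mem (Ideal.mul_mem_left _ _ hd2) (Ideal.mul_mem_right _ _ hc2)
  add_mem' := by
    rintro x y ⟨c, hc1, hc2⟩ ⟨d, hd1, hd2⟩
    refine ⟨c + d, ?_, ?_⟩
    · have e : (x + y).1 - algebraMap 𝒪 A₁ (c + d) =
          (x.1 - algebraMap 𝒪 A₁ c) + (y.1 - algebraMap 𝒪 A₁ d) := by
        rw [map_add, Prod.fst_add]; ring
      rw [e]; exact add_mem hc1 hd1
    · have e : (x + y).2 - algebraMap 𝒪 A₂ (c + d) =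
          (x.2 - algebraMap 𝒪 A₂ c) + (y.2 - algebraMap 𝒪 A₂ d) := by
        rw [map_add, Prod.snd_add]; ring
      rw [e]; exact add_mem hc2 hd2
  algebraMap_mem' := by
    intro c
    refine ⟨c, ?_, ?_⟩
    · rw [Prod.algebraMap_apply]; simp
    · rw [Prod.algebraMap_apply]; simp

variable {𝒪 A₁ A₂}

theorem mem_fibProd {x : A₁ × A₂} : x ∈ fibProd 𝒪 A₁ A₂ ↔
    ∃ c : 𝒪, x.1 - algebraMap 𝒪 A₁ c ∈ maximalIdeal A₁ ∧
      x.2 - algebraMap 𝒪 A₂ c ∈ maximalIdeal A₂ := Iff.rfl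

/-- Pairs of elements of the maximal ideals lie in the fibre product. -/
theorem mk_mem_fibProd_of_mem {a : A₁} {b : A₂} (ha : a ∈ maximalIdeal A₁)
    (hb : b ∈ maximalIdeal A₂) : (a, b) ∈ fibProd 𝒪 A₁ A₂ :=
  ⟨0, by simpa using ha, by simpa using hb⟩

variable (𝒪 A₁ A₂) in
/-- First projection of the fibre product. -/
def fibProdFst : fibProd 𝒪 A₁ A₂ →ₐ[𝒪] A₁ := (AlgHom.fst 𝒪 A₁ A₂).comp (fibProd 𝒪 A₁ A₂).val

variable (𝒪 A₁ A₂) in
/-- Second projection of the fibre product. -/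
def fibProdSnd : fibProd 𝒪 A₁ A₂ →ₐ[𝒪] A₂ := (AlgHom.snd 𝒪 A₁ A₂).comp (fibProd 𝒪 A₁ A₂).val

@[simp] theorem fibProdFst_apply (x : fibProd 𝒪 A₁ A₂) : fibProdFst 𝒪 A₁ A₂ x = x.1.1 := rfl

@[simp] theorem fibProdSnd_apply (x : fibProd 𝒪 A₁ A₂) : fibProdSnd 𝒪 A₁ A₂ x = x.1.2 := rfl

theorem fibProd_ext {x y : fibProd 𝒪 A₁ A₂} (h1 : x.1.1 = y.1.1) (h2 : x.1.2 = y.1.2) : x = y :=
  Subtype.ext (Prod.ext h1 h2)

theorem fibProd_injective :
    Function.Injective (fun x : fibProd 𝒪 A₁ A₂ => (fibProdFst 𝒪 A₁ A₂ x, fibProdSnd 𝒪 A₁ A₂ x)) := by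
  intro x y h
  simp only [fibProdFst_apply, fibProdSnd_apply, Prod.mk.injEq] at h
  exact fibProd_ext h.1 h.2

section Local

variable [h₁ : IsLocalHom (algebraMap 𝒪 A₁)] [h₂ : IsLocalHom (algebraMap 𝒪 A₂)]

/-- In the fibre product, an element is a unit as soon as its first component is. -/
theorem fibProd_isUnit_of_fst (x : fibProd 𝒪 A₁ A₂) (hx : IsUnit x.1.1) : IsUnit x := by
  obtain ⟨c, hc1, hc2⟩ := x.2
  -- `c` is a unit of `𝒪`
  have hcA : IsUnit (algebraMap 𝒪 A₁ c) := by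
    by_contra hn
    have : x.1.1 ∈ maximalIdeal A₁ := by
      have := add_mem hc1 ((mem_maximalIdeal _).mpr hn)
      simpa using this
    exact (mem_maximalIdeal _).mp this hx
  have hc : IsUnit c := isUnit_of_map_unit (algebraMap 𝒪 A₁) c hcA
  have hy : IsUnit x.1.2 := by
    by_contra hn
    have : algebraMap 𝒪 A₂ c ∈ maximalIdeal A₂ := by
      have := sub_mem ((mem_maximalIdeal _).mpr hn) hc2
      simpa using this
    exact (mem_maximalIdeal _).mp this (hc.map _)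
  obtain ⟨u, hu⟩ := hx
  obtain ⟨v, hv⟩ := hy
  obtain ⟨w, hw⟩ := hc
  have hmem : ((↑u⁻¹ : A₁), (↑v⁻¹ : A₂)) ∈ fibProd 𝒪 A₁ A₂ := by
    refine ⟨(↑w⁻¹ : 𝒪), ?_, ?_⟩
    · have e : (↑u⁻¹ : A₁) - algebraMap 𝒪 A₁ (↑w⁻¹ : 𝒪) =
          - (↑u⁻¹ * algebraMap 𝒪 A₁ (↑w⁻¹ : 𝒪)) * (x.1.1 - algebraMap 𝒪 A₁ c) := by
        have h1 : (↑u⁻¹ : A₁) * x.1.1 = 1 := by rw [← hu]; exact u.inv_mul
        have h2 : algebraMap 𝒪 A₁ (↑w⁻¹ : 𝒪) * algebraMap 𝒪 A₁ c = 1 := by
          rw [← map_mul, ← hw, Units.inv_mul, map_one]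
        linear_combination (algebraMap 𝒪 A₁ (↑w⁻¹ : 𝒪)) * h1 - (↑u⁻¹ : A₁) * h2
      rw [e]; exact Ideal.mul_mem_left _ _ hc1
    · have e : (↑v⁻¹ : A₂) - algebraMap 𝒪 A₂ (↑w⁻¹ : 𝒪) =
          - (↑v⁻¹ * algebraMap 𝒪 A₂ (↑w⁻¹ : 𝒪)) * (x.1.2 - algebraMap 𝒪 A₂ c) := by
        have h1 : (↑v⁻¹ : A₂) * x.1.2 = 1 := by rw [← hv]; exact v.inv_mul
        have h2 : algebraMap 𝒪 A₂ (↑w⁻¹ : 𝒪) * algebraMap 𝒪 A₂ c = 1 := by
          rw [← map_mul, ← hw, Units.inv_mul, map_one]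
        linear_combination (algebraMap 𝒪 A₂ (↑w⁻¹ : 𝒪)) * h1 - (↑v⁻¹ : A₂) * h2
      rw [e]; exact Ideal.mul_mem_left _ _ hc2
  refine IsUnit.of_mul_eq_one (⟨_, hmem⟩ : fibProd 𝒪 A₁ A₂) ?_
  apply fibProd_ext
  · show x.1.1 * ↑u⁻¹ = 1
    rw [← hu]; exact u.mul_inv
  · show x.1.2 * ↑v⁻¹ = 1
    rw [← hv]; exact v.mul_inv

instance fibProd_isLocalRing : IsLocalRing (fibProd 𝒪 A₁ A₂) := by
  haveI : Nontrivial (fibProd 𝒪 A₁ A₂) :=
    ⟨⟨0, 1, fun h => zero_ne_one (α := A₁) (congrArg (fun x : fibProd 𝒪 A₁ A₂ => x.1.1) h)⟩⟩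
  refine IsLocalRing.of_isUnit_or_isUnit_one_sub_self fun x => ?_
  rcases IsLocalRing.isUnit_or_isUnit_one_sub_self x.1.1 with hx | hx
  · exact Or.inl (fibProd_isUnit_of_fst x hx)
  · exact Or.inr (fibProd_isUnit_of_fst (1 - x) hx)

instance fibProdFst_isLocalHom : IsLocalHom (fibProdFst 𝒪 A₁ A₂ : fibProd 𝒪 A₁ A₂ →+* A₁) :=
  ⟨fun x hx => fibProd_isUnit_of_fst x hx⟩

theorem fibProd_isUnit_iff_snd (x : fibProd 𝒪 A₁ A₂) : IsUnit x ↔ IsUnit x.1.2 := by
  constructor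
  · intro h; exact h.map (fibProdSnd 𝒪 A₁ A₂)
  · intro hx
    apply fibProd_isUnit_of_fst
    obtain ⟨c, hc1, hc2⟩ := x.2
    have hcA : IsUnit (algebraMap 𝒪 A₂ c) := by
      by_contra hn
      have : x.1.2 ∈ maximalIdeal A₂ := by
        have := add_mem hc2 ((mem_maximalIdeal _).mpr hn)
        simpa using this
      exact (mem_maximalIdeal _).mp this hx
    have hc : IsUnit c := isUnit_of_map_unit (algebraMap 𝒪 A₂) c hcA
    by_contra hn
    have : algebraMap 𝒪 A₁ c ∈ maximalIdeal A₁ := by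
      have := sub_mem ((mem_maximalIdeal _).mpr hn) hc1
      simpa using this
    exact (mem_maximalIdeal _).mp this (hc.map _)

instance fibProdSnd_isLocalHom : IsLocalHom (fibProdSnd 𝒪 A₁ A₂ : fibProd 𝒪 A₁ A₂ →+* A₂) :=
  ⟨fun x hx => (fibProd_isUnit_iff_snd x).mpr hx⟩

theorem mem_maximalIdeal_fibProd (x : fibProd 𝒪 A₁ A₂) :
    x ∈ maximalIdeal (fibProd 𝒪 A₁ A₂) ↔ x.1.1 ∈ maximalIdeal A₁ := by
  rw [mem_maximalIdeal, mem_maximalIdeal, mem_nonunits_iff, mem_nonunits_iff, not_iff_not]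
  exact ⟨fun h => h.map (fibProdFst 𝒪 A₁ A₂), fibProd_isUnit_of_fst x⟩

theorem mem_maximalIdeal_fibProd' (x : fibProd 𝒪 A₁ A₂) :
    x ∈ maximalIdeal (fibProd 𝒪 A₁ A₂) ↔ x.1.2 ∈ maximalIdeal A₂ := by
  rw [mem_maximalIdeal, mem_maximalIdeal, mem_nonunits_iff, mem_nonunits_iff, not_iff_not]
  exact fibProd_isUnit_iff_snd x

/-- Characterisation of powers of the maximal ideal of the fibre product (one direction). -/
theorem mem_maximalIdeal_pow_fibProd (n : ℕ) (x : fibProd 𝒪 A₁ A₂)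
    (h1 : x.1.1 ∈ maximalIdeal A₁ ^ n) (h2 : x.1.2 ∈ maximalIdeal A₂ ^ n) :
    x ∈ maximalIdeal (fibProd 𝒪 A₁ A₂) ^ n := by
  rcases Nat.eq_zero_or_pos n with rfl | hn
  · simp
  -- the two "coordinate" pieces
  have key1 : ∀ m : ℕ, ∀ a ∈ maximalIdeal A₁ ^ (m + 1), ∀ ha : (a, (0 : A₂)) ∈ fibProd 𝒪 A₁ A₂,
      (⟨(a, 0), ha⟩ : fibProd 𝒪 A₁ A₂) ∈ maximalIdeal (fibProd 𝒪 A₁ A₂) ^ (m + 1) := by
    intro m
    induction m with
    | zero =>
      intro a ha ha'
      rw [zero_add, pow_one] at ha ⊢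
      exact (mem_maximalIdeal_fibProd _).mpr ha
    | succ m ih =>
      intro a ha ha'
      rw [pow_succ'] at ha
      have hgen : ∀ a ∈ maximalIdeal A₁ * maximalIdeal A₁ ^ (m + 1),
          ∃ ha : (a, (0 : A₂)) ∈ fibProd 𝒪 A₁ A₂,
            (⟨(a, 0), ha⟩ : fibProd 𝒪 A₁ A₂) ∈ maximalIdeal (fibProd 𝒪 A₁ A₂) ^ (m + 1 + 1) := by
        intro a ha
        refine Submodule.mul_induction_on ha ?_ ?_
        · intro b hb c hc
          have hb' : (b, (0 : A₂)) ∈ fibProd 𝒪 A₁ A₂ := mk_mem_fibProd_of_mem hb (zero_mem _)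
          have hc' : (c, (0 : A₂)) ∈ fibProd 𝒪 A₁ A₂ :=
            mk_mem_fibProd_of_mem (Ideal.pow_le_self (Nat.succ_ne_zero m) hc) (zero_mem _)
          have hbc : (b * c, (0 : A₂)) ∈ fibProd 𝒪 A₁ A₂ :=
            mk_mem_fibProd_of_mem (Ideal.mul_mem_right _ _ hb) (zero_mem _)
          refine ⟨hbc, ?_⟩
          have e : (⟨(b * c, 0), hbc⟩ : fibProd 𝒪 A₁ A₂) = ⟨(b, 0), hb'⟩ * ⟨(c, 0), hc'⟩ := by
            apply fibProd_ext
            · rfl
            · show (0 : A₂) = 0 * 0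
              rw [mul_zero]
          rw [e, pow_succ']
          exact Ideal.mul_mem_mul ((mem_maximalIdeal_fibProd _).mpr hb) (ih c hc hc')
        · rintro y z ⟨hy, hy'⟩ ⟨hz, hz'⟩
          have hyz : (y + z, (0 : A₂)) ∈ fibProd 𝒪 A₁ A₂ := by
            have := add_mem hy hz
            simpa using this
          refine ⟨hyz, ?_⟩
          have e : (⟨(y + z, 0), hyz⟩ : fibProd 𝒪 A₁ A₂) = ⟨(y, 0), hy⟩ + ⟨(z, 0), hz⟩ := by
            apply fibProd_ext
            · rfl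
            · show (0 : A₂) = 0 + 0
              rw [add_zero]
          rw [e]
          exact add_mem hy' hz'
      obtain ⟨_, h⟩ := hgen a ha
      exact h
  have key2 : ∀ m : ℕ, ∀ b ∈ maximalIdeal A₂ ^ (m + 1), ∀ hb : ((0 : A₁), b) ∈ fibProd 𝒪 A₁ A₂,
      (⟨(0, b), hb⟩ : fibProd 𝒪 A₁ A₂) ∈ maximalIdeal (fibProd 𝒪 A₁ A₂) ^ (m + 1) := by
    intro m
    induction m with
    | zero =>
      intro a ha ha'
      rw [zero_add, pow_one] at ha ⊢
      exact (mem_maximalIdeal_fibProd' _).mpr ha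
    | succ m ih =>
      intro a ha ha'
      rw [pow_succ'] at ha
      have hgen : ∀ a ∈ maximalIdeal A₂ * maximalIdeal A₂ ^ (m + 1),
          ∃ ha : ((0 : A₁), a) ∈ fibProd 𝒪 A₁ A₂,
            (⟨(0, a), ha⟩ : fibProd 𝒪 A₁ A₂) ∈ maximalIdeal (fibProd 𝒪 A₁ A₂) ^ (m + 1 + 1) := by
        intro a ha
        refine Submodule.mul_induction_on ha ?_ ?_
        · intro b hb c hc
          have hb' : ((0 : A₁), b) ∈ fibProd 𝒪 A₁ A₂ := mk_mem_fibProd_of_mem (zero_mem _) hb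
          have hc' : ((0 : A₁), c) ∈ fibProd 𝒪 A₁ A₂ :=
            mk_mem_fibProd_of_mem (zero_mem _) (Ideal.pow_le_self (Nat.succ_ne_zero m) hc)
          have hbc : ((0 : A₁), b * c) ∈ fibProd 𝒪 A₁ A₂ :=
            mk_mem_fibProd_of_mem (zero_mem _) (Ideal.mul_mem_right _ _ hb)
          refine ⟨hbc, ?_⟩
          have e : (⟨(0, b * c), hbc⟩ : fibProd 𝒪 A₁ A₂) = ⟨(0, b), hb'⟩ * ⟨(0, c), hc'⟩ := by
            apply fibProd_ext
            · show (0 : A₁) = 0 * 0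
              rw [mul_zero]
            · rfl
          rw [e, pow_succ']
          exact Ideal.mul_mem_mul ((mem_maximalIdeal_fibProd' _).mpr hb) (ih c hc hc')
        · rintro y z ⟨hy, hy'⟩ ⟨hz, hz'⟩
          have hyz : ((0 : A₁), y + z) ∈ fibProd 𝒪 A₁ A₂ := by
            have := add_mem hy hz
            simpa using this
          refine ⟨hyz, ?_⟩
          have e : (⟨(0, y + z), hyz⟩ : fibProd 𝒪 A₁ A₂) = ⟨(0, y), hy⟩ + ⟨(0, z), hz⟩ := by
            apply fibProd_ext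
            · show (0 : A₁) = 0 + 0
              rw [add_zero]
            · rfl
          rw [e]
          exact add_mem hy' hz'
      obtain ⟨_, h⟩ := hgen a ha
      exact h
  obtain ⟨m, rfl⟩ : ∃ m, n = m + 1 := ⟨n - 1, by omega⟩
  have hx1 : x.1.1 ∈ maximalIdeal A₁ := Ideal.pow_le_self (Nat.succ_ne_zero m) h1
  have hx2 : x.1.2 ∈ maximalIdeal A₂ := Ideal.pow_le_self (Nat.succ_ne_zero m) h2
  have ha : (x.1.1, (0 : A₂)) ∈ fibProd 𝒪 A₁ A₂ := mk_mem_fibProd_of_mem hx1 (zero_mem _)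
  have hb : ((0 : A₁), x.1.2) ∈ fibProd 𝒪 A₁ A₂ := mk_mem_fibProd_of_mem (zero_mem _) hx2
  have e : x = ⟨(x.1.1, 0), ha⟩ + ⟨(0, x.1.2), hb⟩ := by
    apply fibProd_ext
    · show x.1.1 = x.1.1 + 0
      rw [add_zero]
    · show x.1.2 = 0 + x.1.2
      rw [zero_add]
  rw [e]
  exact add_mem (key1 m _ h1 ha) (key2 m _ h2 hb)

end Local

section TestAlg

/-- (c) The fibre product of two Artinian test algebras is an Artinian test algebra. -/
theorem testAlg_fibProd [IsLocalRing 𝒪] [Finite (ResidueField 𝒪)]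
    (h₁ : IsArtinianTestAlgebra 𝒪 A₁) (h₂ : IsArtinianTestAlgebra 𝒪 A₂) :
    haveI := h₁.isLocalHom
    haveI := h₂.isLocalHom
    IsArtinianTestAlgebra 𝒪 (fibProd 𝒪 A₁ A₂) := by
  haveI := h₁.isLocalHom
  haveI := h₂.isLocalHom
  haveI : Finite A₁ := testAlg_finite h₁
  haveI : Finite A₂ := testAlg_finite h₂
  haveI : Finite (fibProd 𝒪 A₁ A₂) := Finite.of_injective _ Subtype.val_injective
  refine ⟨?_, ?_, inferInstance⟩
  · refine ⟨fun c hc => ?_⟩
    have : IsUnit (fibProdFst 𝒪 A₁ A₂ (algebraMap 𝒪 (fibProd 𝒪 A₁ A₂) c)) := hc.map _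
    rw [AlgHom.commutes] at this
    exact isUnit_of_map_unit (algebraMap 𝒪 A₁) c this
  · intro y
    obtain ⟨x, rfl⟩ := residue_surjective y
    obtain ⟨c, hc1, hc2⟩ := x.2
    refine ⟨c, ?_⟩
    simp only [Function.comp]
    rw [← sub_eq_zero, ← map_sub, residue_eq_zero_iff, mem_maximalIdeal_fibProd]
    show algebraMap 𝒪 A₁ c - x.1.1 ∈ maximalIdeal A₁
    have := neg_mem hc1
    simpa using this

/-- The canonical `𝒪`-algebra map from a test algebra to the residue field `k` of `𝒪`. -/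
noncomputable def toResidue [IsLocalRing 𝒪] {A : Type} [CommRing A] [IsLocalRing A] [Algebra 𝒪 A]
    (h : IsArtinianTestAlgebra 𝒪 A) : A →ₐ[𝒪] ResidueField 𝒪 :=
  haveI := h.isLocalHom
  { ((RingEquiv.ofBijective (ResidueField.map (algebraMap 𝒪 A))
        (testAlg_residueFieldMap_bijective h)).symm : ResidueField A →+* ResidueField 𝒪).comp
      (residue A) with
    commutes' := by
      intro c
      haveI := h.isLocalHom
      show (RingEquiv.ofBijective (ResidueField.map (algebraMap 𝒪 A))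
        (testAlg_residueFieldMap_bijective h)).symm (residue A (algebraMap 𝒪 A c)) = _
      rw [RingEquiv.symm_apply_eq, ResidueField.algebraMap_eq]
      exact (ResidueField.map_residue (algebraMap 𝒪 A) c).symm }

theorem map_toResidue [IsLocalRing 𝒪] {A : Type} [CommRing A] [IsLocalRing A] [Algebra 𝒪 A]
    (h : IsArtinianTestAlgebra 𝒪 A) (a : A) :
    haveI := h.isLocalHom
    ResidueField.map (algebraMap 𝒪 A) (toResidue h a) = residue A a := by
  haveI := h.isLocalHom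
  exact (RingEquiv.ofBijective (ResidueField.map (algebraMap 𝒪 A))
    (testAlg_residueFieldMap_bijective h)).apply_symm_apply (residue A a)

theorem toResidue_eq_residue_iff [IsLocalRing 𝒪] {A : Type} [CommRing A] [IsLocalRing A]
    [Algebra 𝒪 A] (h : IsArtinianTestAlgebra 𝒪 A) (a : A) (c : 𝒪) :
    toResidue h a = residue 𝒪 c ↔ a - algebraMap 𝒪 A c ∈ maximalIdeal A := by
  haveI := h.isLocalHom
  rw [← residue_eq_zero_iff, map_sub, sub_eq_zero, ← map_toResidue h a,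
    ← ResidueField.map_residue (algebraMap 𝒪 A) c]
  exact ⟨fun e => by rw [e], fun e => (ResidueField.map (algebraMap 𝒪 A)).injective e⟩

theorem toResidue_surjective [IsLocalRing 𝒪] {A : Type} [CommRing A] [IsLocalRing A]
    [Algebra 𝒪 A] (h : IsArtinianTestAlgebra 𝒪 A) : Function.Surjective (toResidue h) := by
  intro y
  obtain ⟨c, rfl⟩ := residue_surjective y
  exact ⟨algebraMap 𝒪 A c, by rw [AlgHom.commutes, ResidueField.algebraMap_eq]⟩

/-- (c) `fibProd` is the fibre product of `A₁` and `A₂` over `k`. -/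
theorem toResidue_eq_iff_mem_fibProd [IsLocalRing 𝒪]
    (h₁ : IsArtinianTestAlgebra 𝒪 A₁) (h₂ : IsArtinianTestAlgebra 𝒪 A₂) (a : A₁) (b : A₂) :
    toResidue h₁ a = toResidue h₂ b ↔ (a, b) ∈ fibProd 𝒪 A₁ A₂ := by
  constructor
  · intro e
    obtain ⟨c, hc⟩ := residue_surjective (toResidue h₁ a)
    exact ⟨c, (toResidue_eq_residue_iff h₁ a c).mp hc.symm,
      (toResidue_eq_residue_iff h₂ b c).mp (e ▸ hc.symm)⟩
  · rintro ⟨c, hc1, hc2⟩
    rw [(toResidue_eq_residue_iff h₁ a c).mpr hc1, (toResidue_eq_residue_iff h₂ b c).mpr hc2]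

theorem toResidue_comp_fibProdFst [IsLocalRing 𝒪]
    (h₁ : IsArtinianTestAlgebra 𝒪 A₁) (h₂ : IsArtinianTestAlgebra 𝒪 A₂) :
    (toResidue h₁).comp (fibProdFst 𝒪 A₁ A₂) = (toResidue h₂).comp (fibProdSnd 𝒪 A₁ A₂) := by
  ext x
  exact (toResidue_eq_iff_mem_fibProd h₁ h₂ x.1.1 x.1.2).mpr x.2

theorem exists_fibProd_of_toResidue_eq [IsLocalRing 𝒪]
    (h₁ : IsArtinianTestAlgebra 𝒪 A₁) (h₂ : IsArtinianTestAlgebra 𝒪 A₂) (a : A₁) (b : A₂)
    (e : toResidue h₁ a = toResidue h₂ b) :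
    ∃ x : fibProd 𝒪 A₁ A₂, fibProdFst 𝒪 A₁ A₂ x = a ∧ fibProdSnd 𝒪 A₁ A₂ x = b :=
  ⟨⟨(a, b), (toResidue_eq_iff_mem_fibProd h₁ h₂ a b).mp e⟩, rfl, rfl⟩

end TestAlg

section Rep

variable {Γ : Type} [Monoid Γ]

theorem m2_fibProd_ext {M N : M2 (fibProd 𝒪 A₁ A₂)}
    (h1 : M.map (fibProdFst 𝒪 A₁ A₂) = N.map (fibProdFst 𝒪 A₁ A₂))
    (h2 : M.map (fibProdSnd 𝒪 A₁ A₂) = N.map (fibProdSnd 𝒪 A₁ A₂)) : M = N := by
  ext i j
  · exact congrFun (congrFun h1 i) j
  · exact congrFun (congrFun h2 i) j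

/-- The type `Γ →* M2 A`, with all instances derived from `[CommRing A]` exactly as in
`Basic.lean` (this makes unification with `AdicCont`, `ofMat`, ... syntactic and hence fast). -/
abbrev TAMatRep (Γ A : Type) [Monoid Γ] [CommRing A] : Type := Γ →* M2 A

/-- (d) The product of two matrix representations whose entries are pairwise congruent to a
common scalar, as a matrix representation over the fibre product. -/
def fibProdRep (r₁ : Γ →* M2 A₁) (r₂ : Γ →* M2 A₂)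
    (hmem : ∀ σ i j, (r₁ σ i j, r₂ σ i j) ∈ fibProd 𝒪 A₁ A₂) :
    TAMatRep Γ (fibProd 𝒪 A₁ A₂) where
  toFun σ := Matrix.of fun i j => ⟨(r₁ σ i j, r₂ σ i j), hmem σ i j⟩
  map_one' := by
    apply m2_fibProd_ext
    · rw [Matrix.map_one _ (map_zero _) (map_one _)]
      ext i j
      show r₁ 1 i j = _
      rw [map_one]
    · rw [Matrix.map_one _ (map_zero _) (map_one _)]
      ext i j
      show r₂ 1 i j = _
      rw [map_one]
  map_mul' σ τ := by
    apply m2_fibProd_ext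
    · have e : ∀ ρ : Γ, (Matrix.of fun i j => (⟨(r₁ ρ i j, r₂ ρ i j), hmem ρ i j⟩ :
          fibProd 𝒪 A₁ A₂)).map (fibProdFst 𝒪 A₁ A₂) = r₁ ρ := fun ρ => by ext i j; rfl
      rw [Matrix.map_mul, e, e, e, map_mul]
    · have e : ∀ ρ : Γ, (Matrix.of fun i j => (⟨(r₁ ρ i j, r₂ ρ i j), hmem ρ i j⟩ :
          fibProd 𝒪 A₁ A₂)).map (fibProdSnd 𝒪 A₁ A₂) = r₂ ρ := fun ρ => by ext i j; rfl
      rw [Matrix.map_mul, e, e, e, map_mul]

@[simp] theorem fibProdRep_apply_fst (r₁ : Γ →* M2 A₁) (r₂ : Γ →* M2 A₂)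
    (hmem : ∀ σ i j, (r₁ σ i j, r₂ σ i j) ∈ fibProd 𝒪 A₁ A₂) (σ : Γ) (i j : Fin 2) :
    (fibProdRep r₁ r₂ hmem σ i j).1.1 = r₁ σ i j := rfl

@[simp] theorem fibProdRep_apply_snd (r₁ : Γ →* M2 A₁) (r₂ : Γ →* M2 A₂)
    (hmem : ∀ σ i j, (r₁ σ i j, r₂ σ i j) ∈ fibProd 𝒪 A₁ A₂) (σ : Γ) (i j : Fin 2) :
    (fibProdRep r₁ r₂ hmem σ i j).1.2 = r₂ σ i j := rfl

theorem mapRep_fibProdFst (r₁ : Γ →* M2 A₁) (r₂ : Γ →* M2 A₂)
    (hmem : ∀ σ i j, (r₁ σ i j, r₂ σ i j) ∈ fibProd 𝒪 A₁ A₂) :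
    mapRep (fibProdFst 𝒪 A₁ A₂ : fibProd 𝒪 A₁ A₂ →+* A₁) (fibProdRep r₁ r₂ hmem) = r₁ := by
  ext σ i j; rfl

theorem mapRep_fibProdSnd (r₁ : Γ →* M2 A₁) (r₂ : Γ →* M2 A₂)
    (hmem : ∀ σ i j, (r₁ σ i j, r₂ σ i j) ∈ fibProd 𝒪 A₁ A₂) :
    mapRep (fibProdSnd 𝒪 A₁ A₂ : fibProd 𝒪 A₁ A₂ →+* A₂) (fibProdRep r₁ r₂ hmem) = r₂ := by
  ext σ i j; rfl

/-- (d) Two strict lifts of the same residual matrix representation satisfy the membership
condition needed for `fibProdRep`. -/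
theorem fibProd_mem_of_strict [IsLocalRing 𝒪]
    [IsLocalHom (algebraMap 𝒪 A₁)] [IsLocalHom (algebraMap 𝒪 A₂)]
    (rbar : Γ →* M2 (ResidueField 𝒪)) (r₁ : Γ →* M2 A₁) (r₂ : Γ →* M2 A₂)
    (hs₁ : ∀ σ, (r₁ σ).map (residue A₁) = (rbar σ).map (ResidueField.map (algebraMap 𝒪 A₁)))
    (hs₂ : ∀ σ, (r₂ σ).map (residue A₂) = (rbar σ).map (ResidueField.map (algebraMap 𝒪 A₂)))
    (σ : Γ) (i j : Fin 2) : (r₁ σ i j, r₂ σ i j) ∈ fibProd 𝒪 A₁ A₂ := by
  obtain ⟨c, hc⟩ := residue_surjective (rbar σ i j)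
  refine ⟨c, ?_, ?_⟩
  · rw [← residue_eq_zero_iff, map_sub, sub_eq_zero,
      ← ResidueField.map_residue (algebraMap 𝒪 A₁) c, hc]
    exact congrFun (congrFun (hs₁ σ) i) j
  · rw [← residue_eq_zero_iff, map_sub, sub_eq_zero,
      ← ResidueField.map_residue (algebraMap 𝒪 A₂) c, hc]
    exact congrFun (congrFun (hs₂ σ) i) j

/-- (d) The product of two strict lifts is a strict lift. -/
theorem fibProdRep_strict [IsLocalRing 𝒪]
    [IsLocalHom (algebraMap 𝒪 A₁)] [IsLocalHom (algebraMap 𝒪 A₂)]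
    [IsLocalHom (algebraMap 𝒪 (fibProd 𝒪 A₁ A₂))]
    (rbar : Γ →* M2 (ResidueField 𝒪)) (r₁ : Γ →* M2 A₁) (r₂ : Γ →* M2 A₂)
    (hmem : ∀ σ i j, (r₁ σ i j, r₂ σ i j) ∈ fibProd 𝒪 A₁ A₂)
    (hs₁ : ∀ σ, (r₁ σ).map (residue A₁) = (rbar σ).map (ResidueField.map (algebraMap 𝒪 A₁)))
    (σ : Γ) :
    (fibProdRep r₁ r₂ hmem σ).map (residue (fibProd 𝒪 A₁ A₂)) =
      (rbar σ).map (ResidueField.map (algebraMap 𝒪 (fibProd 𝒪 A₁ A₂))) := by
  ext i j
  obtain ⟨c, hc⟩ := residue_surjective (rbar σ i j)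
  rw [Matrix.map_apply, Matrix.map_apply, ← hc, ResidueField.map_residue, ← sub_eq_zero,
    ← map_sub, residue_eq_zero_iff, mem_maximalIdeal_fibProd]
  show r₁ σ i j - algebraMap 𝒪 A₁ c ∈ maximalIdeal A₁
  rw [← residue_eq_zero_iff, map_sub, sub_eq_zero,
    ← ResidueField.map_residue (algebraMap 𝒪 A₁) c, hc]
  exact congrFun (congrFun (hs₁ σ) i) j

end Rep

section Cont

/-- (d) Adic continuity of the product representation. -/
theorem fibProdRep_adicCont
    [IsLocalHom (algebraMap 𝒪 A₁)] [IsLocalHom (algebraMap 𝒪 A₂)]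
    (r₁ : GQ →* M2 A₁) (r₂ : GQ →* M2 A₂)
    (hmem : ∀ σ i j, (r₁ σ i j, r₂ σ i j) ∈ fibProd 𝒪 A₁ A₂)
    (hr₁ : AdicCont r₁) (hr₂ : AdicCont r₂) : AdicCont (fibProdRep r₁ r₂ hmem) := by
  intro n
  obtain ⟨L₁, hL₁, h1⟩ := hr₁ n
  obtain ⟨L₂, hL₂, h2⟩ := hr₂ n
  refine ⟨L₁ ⊔ L₂, IntermediateField.finiteDimensional_sup L₁ L₂, fun σ hσ i j => ?_⟩
  apply mem_maximalIdeal_pow_fibProd
  · have := h1 σ (fun x hx => hσ x ((le_sup_left : L₁ ≤ L₁ ⊔ L₂) hx)) i j
    have e : ((fibProdRep r₁ r₂ hmem σ - 1) i j).1.1 = (r₁ σ - 1) i j := by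
      rw [Matrix.sub_apply, Matrix.sub_apply]
      by_cases hij : i = j
      · subst hij; simp
      · simp [Matrix.one_apply_ne hij]
    rw [e]; exact this
  · have := h2 σ (fun x hx => hσ x ((le_sup_right : L₂ ≤ L₁ ⊔ L₂) hx)) i j
    have e : ((fibProdRep r₁ r₂ hmem σ - 1) i j).1.2 = (r₂ σ - 1) i j := by
      rw [Matrix.sub_apply, Matrix.sub_apply]
      by_cases hij : i = j
      · subst hij; simp
      · simp [Matrix.one_apply_ne hij]
    rw [e]; exact this

end Cont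

end FibreProduct

section BaseChange

open TensorProduct

/-- Pushing forward along a local hom preserves adic continuity. -/
theorem ta_adicCont_mapRep {A B : Type} [CommRing A] [IsLocalRing A] [CommRing B] [IsLocalRing B]
    (φ : A →+* B) (hφ : IsLocalHom φ) (r : GQ →* M2 A) (hr : AdicCont r) :
    AdicCont (mapRep φ r) := by
  intro n
  obtain ⟨L, hL, h⟩ := hr n
  refine ⟨L, hL, fun σ hσ i j => ?_⟩
  have hmap : (maximalIdeal A ^ n).map φ ≤ maximalIdeal B ^ n := by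
    rw [Ideal.map_pow]
    exact Ideal.pow_right_mono (Ideal.map_le_iff_le_comap.mpr fun a ha =>
      Ideal.mem_comap.mpr (haveI := hφ; map_nonunit φ a ha)) n
  have e : (mapRep φ r σ - 1) i j = φ ((r σ - 1) i j) := by
    rw [mapRep_apply, Matrix.sub_apply, Matrix.sub_apply, Matrix.map_apply, map_sub]
    by_cases hij : i = j
    · subst hij; simp
    · simp [Matrix.one_apply_ne hij]
  rw [e]
  exact hmap (Ideal.mem_map_of_mem φ (h σ hσ i j))

theorem ta_piScalarRight_baseChange {A B : Type} [CommRing A] [CommRing B] [Algebra A B]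
    (M : M2 A) (x : B ⊗[A] (Fin 2 → A)) :
    TensorProduct.piScalarRight A B B (Fin 2) ((Matrix.toLin' M).baseChange B x) =
      (M.map (algebraMap A B)).mulVec (TensorProduct.piScalarRight A B B (Fin 2) x) := by
  induction x using TensorProduct.induction_on with
  | zero => simp only [map_zero, Matrix.mulVec_zero]
  | tmul b v =>
    rw [LinearMap.baseChange_tmul, TensorProduct.piScalarRight_apply,
      TensorProduct.piScalarRightHom_tmul, TensorProduct.piScalarRight_apply,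
      TensorProduct.piScalarRightHom_tmul, Matrix.toLin'_apply]
    ext i
    simp only [Matrix.mulVec, dotProduct, Matrix.map_apply, Algebra.smul_def]
    rw [map_sum, Finset.sum_mul]
    refine Finset.sum_congr rfl fun j _ => ?_
    rw [map_mul, mul_assoc]
  | add x y hx hy =>
    rw [map_add, map_add, hx, hy, map_add, Matrix.mulVec_add]

/-- The base change of `ofMat r` along `φ` is equivalent to `ofMat (mapRep φ r)`. -/
noncomputable def ta_baseChangeAlong_ofMat_equiv {A B : Type} [CommRing A] [IsLocalRing A]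
    [CommRing B] [IsLocalRing B] (φ : A →+* B) (hφ : IsLocalHom φ) (r : GQ →* M2 A)
    (hr : AdicCont r) (hr' : AdicCont (mapRep φ r)) :
    GaloisRepAdic.Equiv ((ofMat r hr).baseChangeAlong φ hφ) (ofMat (mapRep φ r) hr') :=
  letI : Algebra A B := φ.toAlgebra
  { toLinearEquiv := TensorProduct.piScalarRight A B B (Fin 2)
    map_apply := fun σ x => ta_piScalarRight_baseChange (r σ) x }

theorem ta_baseChangeAlong_ofMat_isEquiv {A B : Type} [CommRing A] [IsLocalRing A]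
    [CommRing B] [IsLocalRing B] (φ : A →+* B) (hφ : IsLocalHom φ) (r : GQ →* M2 A)
    (hr : AdicCont r) (hr' : AdicCont (mapRep φ r)) :
    ((ofMat r hr).baseChangeAlong φ hφ).IsEquiv (ofMat (mapRep φ r) hr') :=
  ⟨ta_baseChangeAlong_ofMat_equiv φ hφ r hr hr'⟩

end BaseChange

end Fermat.Agent.S53x
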