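import Fermat.Agent.S53x.GramBasis

/-!
# S53 module M2 (backup copy B): Carayol descent T2

If the traces of `r : Γ →* M2 A` lie in a local subring `B ↪ A` with nilpotent maximal ideal and
the same residue field, and some Gram determinant is a unit, then `r` is conjugate, by a matrix
`X ≡ 1` modulo the maximal ideal, to a representation defined over `B`.
All declarations here carry the prefix `tdb`.
-/

set_option autoImplicit false

namespace Fermat.Agent.S53x

open Matrix IsLocalRing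

section TraceDescentB

variable {Γ A B : Type} [Monoid Γ] [CommRing A] [CommRing B]

/-- The standing hypotheses of the descent theorem (without the local-ring parts). -/
structure TDBData (j : B →+* A) (r : Γ →* M2 A) (g : Fin 4 → Γ) : Prop where
  inj : Function.Injective j
  loc : IsLocalHom j
  tr_mem : ∀ γ, (r γ).trace ∈ j.range
  unit : IsUnit (gram r g).det

variable (j : B →+* A) (r : Γ →* M2 A) (g : Fin 4 → Γ)

/-- `ι c = ∑ i, j (c i) • r (g i)`. -/
noncomputable def tdbIota (c : Fin 4 → B) : M2 A := ∑ i, j (c i) • r (g i)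

lemma tdbIota_zero : tdbIota j r g 0 = 0 := by simp [tdbIota]

lemma tdbIota_add (c d : Fin 4 → B) : tdbIota j r g (c + d) = tdbIota j r g c + tdbIota j r g d := by
  simp [tdbIota, add_smul, Finset.sum_add_distrib]

lemma tdbIota_neg (c : Fin 4 → B) : tdbIota j r g (-c) = -tdbIota j r g c := by
  simp [tdbIota]

lemma tdbIota_smul (b : B) (c : Fin 4 → B) : tdbIota j r g (b • c) = j b • tdbIota j r g c := by
  simp [tdbIota, Finset.smul_sum, mul_smul]

lemma tdbIota_sum {ι' : Type} (s : Finset ι') (c : ι' → Fin 4 → B) :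
    tdbIota j r g (∑ i ∈ s, c i) = ∑ i ∈ s, tdbIota j r g (c i) := by
  classical
  induction s using Finset.induction_on with
  | empty => simp [tdbIota_zero]
  | insert a s ha ih => rw [Finset.sum_insert ha, Finset.sum_insert ha, tdbIota_add, ih]

variable {j r g}

/-- A matrix over `B` mapping to the Gram matrix. -/
noncomputable def tdbGB (h : TDBData j r g) : Matrix (Fin 4) (Fin 4) B :=
  Matrix.of fun i l => (h.tr_mem (g i * g l)).choose

lemma tdbGB_map (h : TDBData j r g) : (tdbGB h).map j = gram r g := by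
  ext i l
  simp only [Matrix.map_apply, tdbGB, Matrix.of_apply, gram]
  exact (h.tr_mem (g i * g l)).choose_spec

lemma tdbGB_isUnit (h : TDBData j r g) : IsUnit (tdbGB h).det := by
  have h1 : j (tdbGB h).det = (gram r g).det := by
    rw [RingHom.map_det, RingHom.mapMatrix_apply, tdbGB_map]
  have := h.loc
  exact isUnit_of_map_unit j _ (h1 ▸ h.unit)

lemma tdbGB_inv_map (h : TDBData j r g) : (tdbGB h)⁻¹.map j = (gram r g)⁻¹ := by
  symm
  apply Matrix.inv_eq_right_inv
  rw [← tdbGB_map h, ← Matrix.map_mul, Matrix.mul_nonsing_inv _ (tdbGB_isUnit h)]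
  simp

/-- Coefficient extraction: a matrix whose traces against the `r (g l)` come from `B`
is `ι` of an explicit vector. -/
lemma tdb_coeff (h : TDBData j r g) (y : M2 A) (t : Fin 4 → B)
    (ht : ∀ l, j (t l) = (y * r (g l)).trace) :
    y = tdbIota j r g ((tdbGB h)⁻¹.mulVec t) := by
  conv_lhs => rw [gram_span r g h.unit y]
  unfold tdbIota
  refine Finset.sum_congr rfl fun i _ => ?_
  congr 1
  rw [RingHom.map_mulVec, tdbGB_inv_map h]
  congr 1
  funext l
  exact (ht l).symm

/-- Every `r γ` is in the image of `ι`. -/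
lemma tdb_rep_mem (h : TDBData j r g) (γ : Γ) : ∃ c, r γ = tdbIota j r g c := by
  refine ⟨_, tdb_coeff h (r γ) (fun l => (h.tr_mem (γ * g l)).choose) fun l => ?_⟩
  rw [(h.tr_mem (γ * g l)).choose_spec, map_mul]

/-- Structure constants. -/
noncomputable def tdbSigma (h : TDBData j r g) (i l : Fin 4) : Fin 4 → B :=
  (tdb_rep_mem h (g i * g l)).choose

lemma tdbSigma_spec (h : TDBData j r g) (i l : Fin 4) :
    r (g i) * r (g l) = tdbIota j r g (tdbSigma h i l) := by
  rw [← map_mul]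
  exact (tdb_rep_mem h (g i * g l)).choose_spec

/-- The product on coefficient vectors. -/
noncomputable def tdbStar (h : TDBData j r g) (c d : Fin 4 → B) : Fin 4 → B :=
  ∑ i, ∑ l, (c i * d l) • tdbSigma h i l

lemma tdbIota_mul (h : TDBData j r g) (c d : Fin 4 → B) :
    tdbIota j r g c * tdbIota j r g d = tdbIota j r g (tdbStar h c d) := by
  unfold tdbStar
  rw [tdbIota_sum]
  conv_lhs => rw [tdbIota, Finset.sum_mul]
  refine Finset.sum_congr rfl fun i _ => ?_
  rw [tdbIota_sum]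
  conv_lhs => rw [tdbIota, Finset.mul_sum]
  refine Finset.sum_congr rfl fun l _ => ?_
  rw [tdbIota_smul, ← tdbSigma_spec h, Matrix.smul_mul, Matrix.mul_smul, smul_smul, map_mul]

lemma tdbStar_mem (h : TDBData j r g) (I J : Ideal B) (c d : Fin 4 → B)
    (hc : ∀ i, c i ∈ I) (hd : ∀ l, d l ∈ J) (m : Fin 4) : tdbStar h c d m ∈ I * J := by
  unfold tdbStar
  rw [Finset.sum_apply]
  refine Ideal.sum_mem _ fun i _ => ?_
  rw [Finset.sum_apply]
  refine Ideal.sum_mem _ fun l _ => ?_
  rw [Pi.smul_apply, smul_eq_mul]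
  exact Ideal.mul_mem_right _ _ (Ideal.mul_mem_mul (hc i) (hd l))

/-- Traces of `ι c` against the basis, computed over `B`. -/
lemma tdbIota_trace (h : TDBData j r g) (c : Fin 4 → B) (l : Fin 4) :
    (tdbIota j r g c * r (g l)).trace = j (∑ i, c i * tdbGB h i l) := by
  rw [tdbIota, Finset.sum_mul, Matrix.trace_sum, map_sum]
  refine Finset.sum_congr rfl fun i _ => ?_
  rw [Matrix.smul_mul, Matrix.trace_smul, smul_eq_mul, map_mul, ← gram_apply, ← tdbGB_map h,
    Matrix.map_apply]

/-! ### The kernel of reduction -/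

section Local

variable [IsLocalRing A] [IsLocalRing B]

/-- If all entries of `ι c` lie in the maximal ideal of `A` then all `c i` lie in the maximal ideal
of `B`. -/
lemma tdb_coeff_mem_max (h : TDBData j r g) (c : Fin 4 → B)
    (hy : ∀ a b, tdbIota j r g c a b ∈ maximalIdeal A) (i : Fin 4) : c i ∈ maximalIdeal B := by
  set t : Fin 4 → B := fun l => ∑ i, c i * tdbGB h i l with ht
  have htm : ∀ l, t l ∈ maximalIdeal B := by
    intro l
    have h1 : j (t l) ∈ maximalIdeal A := by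
      rw [← tdbIota_trace h c l, Matrix.trace]
      refine Ideal.sum_mem _ fun a _ => ?_
      rw [Matrix.diag_apply, Matrix.mul_apply]
      exact Ideal.sum_mem _ fun b _ => Ideal.mul_mem_right _ _ (hy a b)
    rw [IsLocalRing.mem_maximalIdeal, mem_nonunits_iff] at h1 ⊢
    exact fun hu => h1 (hu.map j)
  have hvm : t = Matrix.vecMul c (tdbGB h) := by
    funext l
    simp [ht, Matrix.vecMul, dotProduct]
  have hc : c = Matrix.vecMul t (tdbGB h)⁻¹ := by
    rw [hvm, Matrix.vecMul_vecMul, Matrix.mul_nonsing_inv _ (tdbGB_isUnit h), Matrix.vecMul_one]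
  rw [hc, Matrix.vecMul, dotProduct]
  exact Ideal.sum_mem _ fun l _ => Ideal.mul_mem_right _ _ (htm l)

/-- Conversely, coefficients in the maximal ideal of `B` give entries in the maximal ideal of
`A`. -/
lemma tdbIota_mem_max (h : TDBData j r g) (c : Fin 4 → B)
    (hc : ∀ i, c i ∈ maximalIdeal B) (a b : Fin 2) :
    tdbIota j r g c a b ∈ maximalIdeal A := by
  have := h.loc
  rw [tdbIota, Matrix.sum_apply]
  refine Ideal.sum_mem _ fun i _ => ?_
  rw [Matrix.smul_apply, smul_eq_mul]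
  refine Ideal.mul_mem_right _ _ ?_
  have h1 := hc i
  rw [IsLocalRing.mem_maximalIdeal, mem_nonunits_iff] at h1 ⊢
  exact fun hu => h1 (isUnit_of_map_unit j _ hu)

omit [IsLocalRing A] in
/-- Powers of an element of the kernel have coefficients in powers of the maximal ideal. -/
lemma tdb_pow_mem (h : TDBData j r g) (c : Fin 4 → B) (hc : ∀ i, c i ∈ maximalIdeal B) (s : ℕ) :
    ∃ d : Fin 4 → B, (∀ i, d i ∈ maximalIdeal B ^ (s + 1)) ∧
      tdbIota j r g c ^ (s + 1) = tdbIota j r g d := by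
  induction s with
  | zero => exact ⟨c, by simpa using hc, by simp⟩
  | succ s ih =>
    obtain ⟨d, hd, hpow⟩ := ih
    refine ⟨tdbStar h d c, fun m => ?_, ?_⟩
    · have := tdbStar_mem h _ _ d c hd hc m
      rwa [← pow_succ] at this
    · rw [pow_succ, hpow, tdbIota_mul h]

omit [IsLocalRing A] in
lemma tdb_nilpotent (h : TDBData j r g) (hnil : IsNilpotent (maximalIdeal B)) (c : Fin 4 → B)
    (hc : ∀ i, c i ∈ maximalIdeal B) : IsNilpotent (tdbIota j r g c) := by
  obtain ⟨n, hn⟩ := hnil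
  obtain ⟨d, hd, hpow⟩ := tdb_pow_mem h c hc n
  refine ⟨n + 1, ?_⟩
  rw [hpow]
  have hz : d = 0 := by
    funext i
    have := hd i
    rw [pow_succ, hn, Ideal.zero_eq_bot, Ideal.bot_mul] at this
    simpa using this
  rw [hz, tdbIota_zero]

end Local

/-! ### The subring `𝓔` -/

/-- The `j(B)`-span of the `r (g i)`, as a subring of `M2 A`. -/
noncomputable def tdbE (h : TDBData j r g) : Subring (M2 A) where
  carrier := Set.range (tdbIota j r g)
  mul_mem' := by
    rintro _ _ ⟨c, rfl⟩ ⟨d, rfl⟩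
    exact ⟨_, (tdbIota_mul h c d).symm⟩
  one_mem' := by
    obtain ⟨c, hc⟩ := tdb_rep_mem h 1
    exact ⟨c, by rw [← hc, map_one]⟩
  add_mem' := by
    rintro _ _ ⟨c, rfl⟩ ⟨d, rfl⟩
    exact ⟨_, tdbIota_add j r g c d⟩
  zero_mem' := ⟨0, tdbIota_zero j r g⟩
  neg_mem' := by
    rintro _ ⟨c, rfl⟩
    exact ⟨_, tdbIota_neg j r g c⟩

lemma mem_tdbE (h : TDBData j r g) (y : M2 A) : y ∈ tdbE h ↔ ∃ c, tdbIota j r g c = y := Iff.rfl

lemma rep_mem_tdbE (h : TDBData j r g) (γ : Γ) : r γ ∈ tdbE h := by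
  obtain ⟨c, hc⟩ := tdb_rep_mem h γ
  exact ⟨c, hc.symm⟩

lemma smul_mem_tdbE (h : TDBData j r g) (b : B) {y : M2 A} (hy : y ∈ tdbE h) : j b • y ∈ tdbE h := by
  obtain ⟨c, rfl⟩ := hy
  exact ⟨b • c, tdbIota_smul j r g b c⟩

/-! ### Reduction modulo the maximal ideal -/

section Reduction

variable [IsLocalRing A] [IsLocalRing B]

/-- Entrywise reduction `M2 A → M2 (ResidueField A)`. -/
noncomputable def tdbRed (A : Type) [CommRing A] [IsLocalRing A] :
    M2 A →+* M2 (ResidueField A) := (IsLocalRing.residue A).mapMatrix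

omit [CommRing B] [IsLocalRing B] in
lemma tdbRed_eq_zero_iff (y : M2 A) : tdbRed A y = 0 ↔ ∀ a b, y a b ∈ maximalIdeal A := by
  constructor
  · intro hy a b
    have := congrFun (congrFun hy a) b
    simpa [tdbRed, IsLocalRing.residue_eq_zero_iff] using this
  · intro hy
    ext a b
    simpa [tdbRed, IsLocalRing.residue_eq_zero_iff] using hy a b

omit [CommRing B] [IsLocalRing B] in
lemma tdbRed_apply (y : M2 A) (a b : Fin 2) : tdbRed A y a b = IsLocalRing.residue A (y a b) := rfl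

omit [IsLocalRing B] in
/-- Every matrix is congruent modulo the maximal ideal to an element of `𝓔`. -/
lemma tdb_exists_lift (h : TDBData j r g) (hres : ∀ a : A, ∃ b : B, a - j b ∈ maximalIdeal A)
    (Z : M2 A) : ∃ y ∈ tdbE h, tdbRed A y = tdbRed A Z := by
  set α : Fin 4 → A := (gram r g)⁻¹.mulVec (fun l => (Z * r (g l)).trace) with hα
  have hZ : Z = ∑ i, α i • r (g i) := gram_span r g h.unit Z
  choose β hβ using fun i => hres (α i)
  refine ⟨tdbIota j r g β, ⟨β, rfl⟩, ?_⟩
  rw [← sub_eq_zero, ← map_sub, tdbRed_eq_zero_iff]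
  intro a b
  have : tdbIota j r g β - Z = ∑ i, (j (β i) - α i) • r (g i) := by
    conv_lhs => rw [hZ, tdbIota, ← Finset.sum_sub_distrib]
    exact Finset.sum_congr rfl fun i _ => (sub_smul _ _ _).symm
  rw [this, Matrix.sum_apply]
  refine Ideal.sum_mem _ fun i _ => ?_
  rw [Matrix.smul_apply, smul_eq_mul]
  refine Ideal.mul_mem_right _ _ ?_
  have := hβ i
  rwa [← neg_sub, Ideal.neg_mem_iff]

/-- Elements of `𝓔` reducing to zero are `ι` of a vector with entries in the maximal ideal. -/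
lemma tdb_ker_coeff (h : TDBData j r g) {y : M2 A} (hy : y ∈ tdbE h) (hred : tdbRed A y = 0) :
    ∃ c : Fin 4 → B, (∀ i, c i ∈ maximalIdeal B) ∧ tdbIota j r g c = y := by
  obtain ⟨c, rfl⟩ := hy
  exact ⟨c, tdb_coeff_mem_max h c ((tdbRed_eq_zero_iff _).mp hred), rfl⟩

/-- The reduction map restricted to `𝓔`. -/
noncomputable def tdbF (h : TDBData j r g) : tdbE h →+* M2 (ResidueField A) :=
  (tdbRed A).comp (tdbE h).subtype

lemma tdbF_ker_nilpotent (h : TDBData j r g) (hnil : IsNilpotent (maximalIdeal B))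
    (x : tdbE h) (hx : x ∈ RingHom.ker (tdbF h)) : IsNilpotent x := by
  rw [RingHom.mem_ker] at hx
  obtain ⟨c, hc, hcx⟩ := tdb_ker_coeff h x.2 hx
  obtain ⟨n, hn⟩ := tdb_nilpotent h hnil c hc
  refine ⟨n, Subtype.ext ?_⟩
  have h1 : ((x ^ n : tdbE h) : M2 A) = (x : M2 A) ^ n := by
    exact map_pow (tdbE h).subtype x n
  rw [h1, ← hcx, hn]
  rfl

/-- There is an idempotent of `𝓔` lifting `E₀₀`. -/
lemma tdb_exists_idem (h : TDBData j r g) (hnil : IsNilpotent (maximalIdeal B))
    (hres : ∀ a : A, ∃ b : B, a - j b ∈ maximalIdeal A) :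
    ∃ e ∈ tdbE h, e * e = e ∧ tdbRed A e = Matrix.single 0 0 1 := by
  have hrange : (Matrix.single 0 0 1 : M2 (ResidueField A)) ∈ (tdbF h).range := by
    obtain ⟨y, hy, hyZ⟩ := tdb_exists_lift h hres (Matrix.single 0 0 1)
    refine ⟨⟨y, hy⟩, ?_⟩
    show tdbRed A y = _
    rw [hyZ]
    simp [tdbRed]
  have hidem : IsIdempotentElem (Matrix.single 0 0 1 : M2 (ResidueField A)) := by
    unfold IsIdempotentElem
    rw [Matrix.single_mul_single_same, mul_one]
  obtain ⟨e', he', hfe'⟩ := exists_isIdempotentElem_eq_of_ker_isNilpotent (tdbF h)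
    (tdbF_ker_nilpotent h hnil) _ hrange hidem
  refine ⟨e'.1, e'.2, ?_, hfe'⟩
  have := congrArg Subtype.val he'.eq
  simpa using this

end Reduction

/-! ### The frame `w₁, w₂` and the Nakayama induction -/

section Frame

variable [IsLocalRing A] [IsLocalRing B]

/-- An idempotent `e ∈ 𝓔` lifting `E₀₀` and an element `f ∈ 𝓔` lifting `E₁₀`. -/
structure TDBFrame (h : TDBData j r g) (e f : M2 A) : Prop where
  e_mem : e ∈ tdbE h
  e_idem : e * e = e
  e_red : tdbRed A e = Matrix.single 0 0 1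
  f_mem : f ∈ tdbE h
  f_red : tdbRed A f = Matrix.single 1 0 1

/-- First frame vector: the first column of `e`. -/
def tdbW1 (e : M2 A) : Fin 2 → A := e.mulVec (Pi.single 0 1)

/-- Second frame vector. -/
def tdbW2 (e f : M2 A) : Fin 2 → A := f.mulVec (tdbW1 e)

omit [IsLocalRing A] in
lemma tdbW1_apply (e : M2 A) (a : Fin 2) : tdbW1 e a = e a 0 := by
  simp [tdbW1]

omit [IsLocalRing A] in
lemma tdb_e_mulVec_W1 {e : M2 A} (he : e * e = e) : e.mulVec (tdbW1 e) = tdbW1 e := by
  rw [tdbW1, Matrix.mulVec_mulVec, he]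

omit [CommRing B] [IsLocalRing B] in
lemma tdbRed_smul (c : A) (M : M2 A) : tdbRed A (c • M) = IsLocalRing.residue A c • tdbRed A M := by
  ext a b
  simp [tdbRed]

lemma tdb_decomp (h : TDBData j r g) (hres : ∀ a : A, ∃ b : B, a - j b ∈ maximalIdeal A)
    {e f : M2 A} (hF : TDBFrame h e f) {y : M2 A} (hy : y ∈ tdbE h) :
    ∃ (a b : B) (c : Fin 4 → B), (∀ i, c i ∈ maximalIdeal B) ∧
      y.mulVec (tdbW1 e) = j a • tdbW1 e + j b • tdbW2 e f + (tdbIota j r g c).mulVec (tdbW1 e) := by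
  set z : M2 A := y * e with hz
  have hz_mem : z ∈ tdbE h := (tdbE h).mul_mem hy hF.e_mem
  obtain ⟨a, ha⟩ := hres (z 0 0)
  obtain ⟨b, hb⟩ := hres (z 1 0)
  set n : M2 A := z - j a • e - j b • (f * e) with hn
  have hn_mem : n ∈ tdbE h :=
    (tdbE h).sub_mem ((tdbE h).sub_mem hz_mem (smul_mem_tdbE h a hF.e_mem))
      (smul_mem_tdbE h b ((tdbE h).mul_mem hF.f_mem hF.e_mem))
  have hz_red : tdbRed A z = tdbRed A y * Matrix.single 0 0 1 := by rw [hz, map_mul, hF.e_red]
  have hfe_red : tdbRed A (f * e) = Matrix.single 1 0 1 := by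
    rw [map_mul, hF.f_red, hF.e_red, Matrix.single_mul_single_same, mul_one]
  have ha' : tdbRed A y 0 0 = IsLocalRing.residue A (j a) := by
    have h1 : IsLocalRing.residue A (z 0 0) = IsLocalRing.residue A (j a) := by
      rw [← sub_eq_zero, ← map_sub]; exact (IsLocalRing.residue_eq_zero_iff _).mpr ha
    rw [← h1, ← tdbRed_apply, hz_red, Matrix.mul_single_apply_same, mul_one]
  have hb' : tdbRed A y 1 0 = IsLocalRing.residue A (j b) := by
    have h1 : IsLocalRing.residue A (z 1 0) = IsLocalRing.residue A (j b) := by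
      rw [← sub_eq_zero, ← map_sub]; exact (IsLocalRing.residue_eq_zero_iff _).mpr hb
    rw [← h1, ← tdbRed_apply, hz_red, Matrix.mul_single_apply_same, mul_one]
  have hn_red : tdbRed A n = 0 := by
    rw [hn, map_sub, map_sub, tdbRed_smul, tdbRed_smul, hz_red, hfe_red, hF.e_red]
    ext a' b'
    fin_cases a' <;> fin_cases b' <;>
      simp [Matrix.mul_apply, Matrix.single, ha', hb']
  obtain ⟨c, hc, hcn⟩ := tdb_ker_coeff h hn_mem hn_red
  refine ⟨a, b, c, hc, ?_⟩
  have hzdec : z = j a • e + j b • (f * e) + n := by rw [hn]; abel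
  have h1 : y.mulVec (tdbW1 e) = z.mulVec (tdbW1 e) := by
    rw [hz, ← Matrix.mulVec_mulVec, tdb_e_mulVec_W1 hF.e_idem]
  rw [h1, hzdec, Matrix.add_mulVec, Matrix.add_mulVec, Matrix.smul_mulVec, Matrix.smul_mulVec,
    ← Matrix.mulVec_mulVec, tdb_e_mulVec_W1 hF.e_idem, hcn]
  rfl

/-- The statement proved by downward induction on `s`. -/
def TDBSpanAt (j : B →+* A) (r : Γ →* M2 A) (g : Fin 4 → Γ) (e f : M2 A) (s : ℕ) : Prop :=
  ∀ c : Fin 4 → B, (∀ i, c i ∈ maximalIdeal B ^ s) →
    ∃ a b : B, (tdbIota j r g c).mulVec (tdbW1 e) = j a • tdbW1 e + j b • tdbW2 e f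

lemma tdb_span_step (h : TDBData j r g) (hres : ∀ a : A, ∃ b : B, a - j b ∈ maximalIdeal A)
    {e f : M2 A} (hF : TDBFrame h e f) (s : ℕ) (hs : TDBSpanAt j r g e f (s + 1)) :
    TDBSpanAt j r g e f s := by
  intro c hc
  choose a b d hd hdec using fun i : Fin 4 => tdb_decomp h hres hF (rep_mem_tdbE h (g i))
  set c' : Fin 4 → B := ∑ i, c i • d i with hc'
  have hc'mem : ∀ m, c' m ∈ maximalIdeal B ^ (s + 1) := by
    intro m
    rw [hc', Finset.sum_apply, pow_succ]
    refine Ideal.sum_mem _ fun i _ => ?_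
    rw [Pi.smul_apply, smul_eq_mul]
    exact Ideal.mul_mem_mul (hc i) (hd i m)
  obtain ⟨a', b', hab'⟩ := hs c' hc'mem
  refine ⟨∑ i, c i * a i + a', ∑ i, c i * b i + b', ?_⟩
  have hc'iota : tdbIota j r g c' = ∑ i, j (c i) • tdbIota j r g (d i) := by
    rw [hc', tdbIota_sum]
    exact Finset.sum_congr rfl fun i _ => tdbIota_smul j r g _ _
  have h1 : (tdbIota j r g c).mulVec (tdbW1 e)
      = ∑ i, j (c i) • (j (a i) • tdbW1 e + j (b i) • tdbW2 e f
          + (tdbIota j r g (d i)).mulVec (tdbW1 e)) := by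
    rw [tdbIota, Matrix.sum_mulVec]
    refine Finset.sum_congr rfl fun i _ => ?_
    rw [Matrix.smul_mulVec, hdec i]
  have h2 : (tdbIota j r g c').mulVec (tdbW1 e)
      = ∑ i, j (c i) • (tdbIota j r g (d i)).mulVec (tdbW1 e) := by
    rw [hc'iota, Matrix.sum_mulVec]
    exact Finset.sum_congr rfl fun i _ => Matrix.smul_mulVec _ _ _
  rw [h1]
  have key : ∑ i, j (c i) • (j (a i) • tdbW1 e + j (b i) • tdbW2 e f
        + (tdbIota j r g (d i)).mulVec (tdbW1 e))
      = j (∑ i, c i * a i) • tdbW1 e + j (∑ i, c i * b i) • tdbW2 e f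
        + (tdbIota j r g c').mulVec (tdbW1 e) := by
    rw [h2, map_sum, map_sum, Finset.sum_smul, Finset.sum_smul, ← Finset.sum_add_distrib,
      ← Finset.sum_add_distrib]
    refine Finset.sum_congr rfl fun i _ => ?_
    rw [smul_add, smul_add, smul_smul, smul_smul, map_mul, map_mul]
  rw [key, hab', map_add, map_add, add_smul, add_smul]
  abel

lemma tdb_span_all (h : TDBData j r g) (hnil : IsNilpotent (maximalIdeal B))
    (hres : ∀ a : A, ∃ b : B, a - j b ∈ maximalIdeal A)
    {e f : M2 A} (hF : TDBFrame h e f) {y : M2 A} (hy : y ∈ tdbE h) :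
    ∃ a b : B, y.mulVec (tdbW1 e) = j a • tdbW1 e + j b • tdbW2 e f := by
  obtain ⟨n, hn⟩ := hnil
  have hbase : TDBSpanAt j r g e f n := by
    intro c hc
    refine ⟨0, 0, ?_⟩
    have hz : c = 0 := by
      funext i
      have := hc i
      rw [hn, Ideal.zero_eq_bot] at this
      simpa using this
    rw [hz, tdbIota_zero]
    simp
  have hall : ∀ k s : ℕ, s + k = n → TDBSpanAt j r g e f s := by
    intro k
    induction k with
    | zero => intro s hs; rw [add_zero] at hs; subst hs; exact hbase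
    | succ k ih =>
      intro s hs
      exact tdb_span_step h hres hF s (ih (s + 1) (by omega))
  obtain ⟨c, rfl⟩ := hy
  exact hall n 0 (by omega) c (fun i => by simp)

/-- The conjugating matrix with columns `w₁, w₂`. -/
def tdbX (e f : M2 A) : M2 A := Matrix.of fun a b => (![tdbW1 e, tdbW2 e f] b) a

omit [IsLocalRing A] in
lemma tdb_mul_X (e f M Y : M2 A)
    (h1 : M.mulVec (tdbW1 e) = Y 0 0 • tdbW1 e + Y 1 0 • tdbW2 e f)
    (h2 : M.mulVec (tdbW2 e f) = Y 0 1 • tdbW1 e + Y 1 1 • tdbW2 e f) :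
    M * tdbX e f = tdbX e f * Y := by
  ext a b
  have h1a := congrFun h1 a
  have h2a := congrFun h2 a
  simp only [Matrix.mulVec, dotProduct, Fin.sum_univ_two, Pi.add_apply, Pi.smul_apply,
    smul_eq_mul] at h1a h2a
  fin_cases b
  · simp only [tdbX, Matrix.mul_apply, Fin.sum_univ_two, Matrix.of_apply, Fin.zero_eta,
      Matrix.cons_val_zero, Matrix.cons_val_one]
    rw [h1a]; ring
  · simp only [tdbX, Matrix.mul_apply, Fin.sum_univ_two, Matrix.of_apply, Fin.mk_one,
      Matrix.cons_val_zero, Matrix.cons_val_one]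
    rw [h2a]; ring

omit [CommRing B] [IsLocalRing B] in
lemma tdbRed_X {e f : M2 A} (he : tdbRed A e = Matrix.single 0 0 1)
    (hf : tdbRed A f = Matrix.single 1 0 1) : tdbRed A (tdbX e f) = 1 := by
  have he' : ∀ a b, IsLocalRing.residue A (e a b) = (Matrix.single 0 0 1 : M2 (ResidueField A)) a b :=
    fun a b => by rw [← he]; rfl
  have hf' : ∀ a b, IsLocalRing.residue A (f a b) = (Matrix.single 1 0 1 : M2 (ResidueField A)) a b :=
    fun a b => by rw [← hf]; rfl
  ext a b
  rw [tdbRed_apply]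
  fin_cases a <;> fin_cases b <;>
    simp [tdbX, tdbW2, tdbW1_apply, he', hf', Matrix.single]

end Frame

end TraceDescentB

/-- **Carayol descent T2** (backup copy B). -/
theorem exists_descent_B {Γ A B : Type} [Monoid Γ] [CommRing A] [IsLocalRing A] [CommRing B]
    [IsLocalRing B] (j : B →+* A) (hj : Function.Injective j) (hloc : IsLocalHom j)
    (hnil : IsNilpotent (IsLocalRing.maximalIdeal B))
    (hres : ∀ a : A, ∃ b : B, a - j b ∈ IsLocalRing.maximalIdeal A)
    (r : Γ →* M2 A) (htr : ∀ γ, (r γ).trace ∈ j.range)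
    (g : Fin 4 → Γ) (hg : IsUnit (gram r g).det) :
    ∃ (r₀ : Γ →* M2 B) (X : M2 A), IsUnit X.det ∧
      (∀ i l, (X - 1) i l ∈ IsLocalRing.maximalIdeal A) ∧
      ∀ γ, X * (r₀ γ).map j = r γ * X := by
  have h : TDBData j r g := ⟨hj, hloc, htr, hg⟩
  obtain ⟨e, he_mem, he_idem, he_red⟩ := tdb_exists_idem h hnil hres
  obtain ⟨f, hf_mem, hf_red⟩ := tdb_exists_lift h hres (Matrix.single 1 0 1)
  have hf_red' : tdbRed A f = Matrix.single 1 0 1 := by
    rw [hf_red]; simp [tdbRed]
  have hF : TDBFrame h e f := ⟨he_mem, he_idem, he_red, hf_mem, hf_red'⟩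
  have hXred : tdbRed A (tdbX e f) = 1 := tdbRed_X he_red hf_red'
  have hXdet : IsUnit (tdbX e f).det := by
    have h1 : IsLocalRing.residue A (tdbX e f).det = 1 := by
      rw [RingHom.map_det]
      show (tdbRed A (tdbX e f)).det = 1
      rw [hXred, Matrix.det_one]
    apply isUnit_of_map_unit (IsLocalRing.residue A)
    rw [h1]
    exact isUnit_one
  have hXsub : ∀ i l, (tdbX e f - 1) i l ∈ maximalIdeal A := by
    rw [← tdbRed_eq_zero_iff, map_sub, hXred, map_one, sub_self]
  have hY : ∀ γ, ∃ Y : M2 B, r γ * tdbX e f = tdbX e f * Y.map j := by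
    intro γ
    obtain ⟨a1, b1, h1⟩ := tdb_span_all h hnil hres hF (rep_mem_tdbE h γ)
    obtain ⟨a2, b2, h2⟩ :=
      tdb_span_all h hnil hres hF ((tdbE h).mul_mem (rep_mem_tdbE h γ) hf_mem)
    refine ⟨!![a1, a2; b1, b2], ?_⟩
    have e00 : (!![a1, a2; b1, b2].map j : M2 A) 0 0 = j a1 := rfl
    have e01 : (!![a1, a2; b1, b2].map j : M2 A) 0 1 = j a2 := rfl
    have e10 : (!![a1, a2; b1, b2].map j : M2 A) 1 0 = j b1 := rfl
    have e11 : (!![a1, a2; b1, b2].map j : M2 A) 1 1 = j b2 := rfl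
    apply tdb_mul_X
    · rw [e00, e10]; exact h1
    · have h3 : (r γ).mulVec (tdbW2 e f) = (r γ * f).mulVec (tdbW1 e) := by
        rw [tdbW2, Matrix.mulVec_mulVec]
      rw [h3, e01, e11]; exact h2
  have huniq : ∀ Y Y' : M2 B, tdbX e f * Y.map j = tdbX e f * Y'.map j → Y = Y' := by
    intro Y Y' hYY
    have hinv : (tdbX e f)⁻¹ * tdbX e f = 1 := Matrix.nonsing_inv_mul _ hXdet
    have h1 : Y.map j = Y'.map j := by
      have h2 := congrArg (fun M => (tdbX e f)⁻¹ * M) hYY
      simpa [← Matrix.mul_assoc, hinv] using h2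
    exact Matrix.map_injective hj h1
  choose Y hYspec using hY
  refine ⟨{ toFun := Y, map_one' := ?_, map_mul' := ?_ }, tdbX e f, hXdet, hXsub,
    fun γ => (hYspec γ).symm⟩
  · apply huniq
    rw [← hYspec, map_one, Matrix.one_mul]
    simp
  · intro γ δ
    apply huniq
    rw [← hYspec, map_mul, Matrix.mul_assoc, hYspec δ, ← Matrix.mul_assoc, hYspec γ,
      Matrix.mul_assoc, ← Matrix.map_mul]

end Fermat.Agent.S53x
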