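import Fermat.Agent.S53x.AdmissibleInf

/-!
# S53: auxiliary lemmas for the assembly (strictness descends, type `𝒟` under conjugation)
-/

set_option autoImplicit false

namespace Fermat.Agent.S53x

open IsLocalRing

section strict

variable {𝒪 : Type} [CommRing 𝒪] [IsLocalRing 𝒪]
variable {A B : Type} [CommRing A] [IsLocalRing A] [Algebra 𝒪 A] [IsLocalHom (algebraMap 𝒪 A)]
  [CommRing B] [IsLocalRing B] [Algebra 𝒪 B] [IsLocalHom (algebraMap 𝒪 B)]

lemma residueFieldMap_comp_algebraMap (φ : A →ₐ[𝒪] B) [IsLocalHom (φ : A →+* B)]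
    (x : ResidueField 𝒪) :
    ResidueField.map (φ : A →+* B) (ResidueField.map (algebraMap 𝒪 A) x) =
      ResidueField.map (algebraMap 𝒪 B) x := by
  obtain ⟨c, rfl⟩ := residue_surjective x
  rw [ResidueField.map_residue, ResidueField.map_residue, ResidueField.map_residue]
  congr 1
  exact φ.commutes c

/-- Strictness descends along local `𝒪`-algebra homs. -/
theorem strict_of_strict_mapRep (rbar : GQ →* M2 (ResidueField 𝒪)) (φ : A →ₐ[𝒪] B)
    [IsLocalHom (φ : A →+* B)] (r : GQ →* M2 A)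
    (h : ∀ σ, (mapRep (φ : A →+* B) r σ).map (residue B) =
      (rbar σ).map (ResidueField.map (algebraMap 𝒪 B))) :
    ∀ σ, (r σ).map (residue A) = (rbar σ).map (ResidueField.map (algebraMap 𝒪 A)) := by
  intro σ
  ext i j
  have h1 := congrFun (congrFun (h σ) i) j
  simp only [Matrix.map_apply, mapRep_apply] at h1 ⊢
  apply (ResidueField.map (φ : A →+* B)).injective
  rw [residueFieldMap_comp_algebraMap φ, ← h1, ResidueField.map_residue]

end strict

section

variable {𝒪 : Type} [CommRing 𝒪] [IsLocalRing 𝒪]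
variable {𝒟 : ∀ ⦃A : Type⦄ [CommRing A] [IsLocalRing A] [Algebra 𝒪 A], GaloisRepAdic A → Prop}

/-- Conjugating over a test algebra keeps type `𝒟`. -/
theorem isD_of_conj (h𝒟 : GaloisRep.IsDeformationCondition 𝒪 𝒟)
    {A : Type} [CommRing A] [IsLocalRing A] [Algebra 𝒪 A]
    (hA : GaloisRep.IsArtinianTestAlgebra 𝒪 A) {r r' : GQ →* M2 A} (hr : AdicCont r)
    (hr' : AdicCont r') (X : M2 A) (hX : IsUnit X.det) (hconj : ∀ σ, X * r σ = r' σ * X)
    (hD : 𝒟 (ofMat r hr)) : 𝒟 (ofMat r' hr') :=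
  h𝒟.of_isEquiv hA (ofMat_isEquiv_of_conj hr hr' X hX hconj) hD

end

end Fermat.Agent.S53x
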