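import Fermat.Agent.S53x.UnivAux
import Fermat.Agent.S53x.ClassifyingMap
import Fermat.Agent.S53x.LimitRepStrong
import Fermat.Agent.S53x.Admissible

/-!
# S53 assembly, part 2: the tower `Jn`, the ring `R = S ⧸ ⨅ Jn`, the universal lift
-/

set_option autoImplicit false
set_option linter.unusedSectionVars false
set_option linter.style.haveILetI false

namespace Fermat.Agent.S53x

open IsLocalRing MvPowerSeries

section

variable {𝒪 : Type} [CommRing 𝒪] [IsDomain 𝒪] [IsDiscreteValuationRing 𝒪]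
  [IsAdicComplete (maximalIdeal 𝒪) 𝒪] [Finite (ResidueField 𝒪)]
variable {𝒟 : ∀ ⦃A : Type⦄ [CommRing A] [IsLocalRing A] [Algebra 𝒪 A], GaloisRepAdic A → Prop}
variable {rbar : GQ →* M2 (ResidueField 𝒪)} (G : GenData 𝒪 rbar)

lemma GenData.IsAdm.ne_top {J : Ideal G.S} (h : G.IsAdm 𝒟 J) : J ≠ ⊤ := by
  obtain ⟨h1, -⟩ := h
  exact Ideal.Quotient.nontrivial_iff.mp h1.toNontrivial

/-- (B3) two witnesses for the same admissible ideal are conjugate. -/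
def GenData.HasB3 (𝒟 : ∀ ⦃A : Type⦄ [CommRing A] [IsLocalRing A] [Algebra 𝒪 A],
    GaloisRepAdic A → Prop) : Prop :=
  ∀ {J : Ideal G.S} (h1 : IsLocalRing (G.S ⧸ J))
    (h2 : IsLocalHom (algebraMap 𝒪 (G.S ⧸ J)))
    (_ : ∃ N, G.XX ^ N ≤ J) (_ : (MvPowerSeries.X none - MvPowerSeries.C G.ϖ : G.S) ∈ J)
    (r r' : GQ →* M2 (G.S ⧸ J))
    (_ : IsDLift 𝒪 𝒟 rbar (G.S ⧸ J) r) (_ : IsDLift 𝒪 𝒟 rbar (G.S ⧸ J) r')
    (_ : G.IsClassifying (Ideal.Quotient.mkₐ 𝒪 J) r)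
    (_ : G.IsClassifying (Ideal.Quotient.mkₐ 𝒪 J) r'),
    ∃ X : M2 (G.S ⧸ J), IsUnit X.det ∧ ∀ σ, X * r σ = r' σ * X

/-- (B4) every strict type-`𝒟` lift over an Artinian test algebra descends to a witness over the
image of its classifying map. -/
def GenData.HasB4 (𝒟 : ∀ ⦃A : Type⦄ [CommRing A] [IsLocalRing A] [Algebra 𝒪 A],
    GaloisRepAdic A → Prop) : Prop :=
  ∀ {A : Type} [CommRing A] [IsLocalRing A] [Algebra 𝒪 A]
    (hA : GaloisRep.IsArtinianTestAlgebra 𝒪 A) (r : GQ →* M2 A)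
    (_ : haveI := hA.isLocalHom; IsDLift 𝒪 𝒟 rbar A r)
    (θ : G.S →ₐ[𝒪] A) (_ : G.IsClassifying θ r),
    ∃ (h1 : IsLocalRing (G.S ⧸ RingHom.ker (θ : G.S →+* A)))
      (h2 : IsLocalHom (algebraMap 𝒪 (G.S ⧸ RingHom.ker (θ : G.S →+* A))))
      (r' : GQ →* M2 (G.S ⧸ RingHom.ker (θ : G.S →+* A))),
      IsDLift 𝒪 𝒟 rbar (G.S ⧸ RingHom.ker (θ : G.S →+* A)) r' ∧
      G.IsClassifying (Ideal.Quotient.mkₐ 𝒪 (RingHom.ker (θ : G.S →+* A))) r' ∧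
      ∃ X : M2 A, IsUnit X.det ∧
        ∀ σ, X * (r' σ).map (RingHom.kerLift (θ : G.S →+* A)) = r σ * X

/-- `S ⧸ J` is an Artinian test algebra when `(X)^N ≤ J ≠ ⊤` and `X_none - ϖ ∈ J`. -/
theorem GenData.testAlgebra_quotient {J : Ideal G.S} [IsLocalRing (G.S ⧸ J)] (hJ : J ≠ ⊤) {N : ℕ}
    (hN : G.XX ^ N ≤ J) (hϖ : (MvPowerSeries.X none - MvPowerSeries.C G.ϖ : G.S) ∈ J) :
    GaloisRep.IsArtinianTestAlgebra 𝒪 (G.S ⧸ J) :=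
  G.isArtinianTestAlgebra_quotient J (isLocalHom_algebraMap_quotient J hJ) hN hϖ

/-- The data of the tower of minimal admissible ideals (output of M8-C applied to `IsAdm`). -/
structure GenData.Tower (𝒟 : ∀ ⦃A : Type⦄ [CommRing A] [IsLocalRing A] [Algebra 𝒪 A],
    GaloisRepAdic A → Prop) (Jn : ℕ → Ideal G.S) : Prop where
  zero : Jn 0 = ⊤
  pow : ∀ n, G.XX ^ n ≤ Jn n
  adm : ∀ n, 1 ≤ n → G.IsAdm 𝒟 (Jn n)
  step : ∀ n, Jn n = Jn (n + 1) ⊔ G.XX ^ n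
  min : ∀ n J, G.IsAdm 𝒟 J → G.XX ^ n ≤ J → Jn n ≤ J

variable {G} {Jn : ℕ → Ideal G.S}

lemma GenData.Tower.ne_top (T : G.Tower 𝒟 Jn) {n : ℕ} (hn : 1 ≤ n) : Jn n ≠ ⊤ :=
  (T.adm n hn).ne_top

lemma GenData.Tower.iInf_ne_top (T : G.Tower 𝒟 Jn) : (⨅ m, Jn m) ≠ ⊤ := by
  intro h
  exact T.ne_top le_rfl (top_le_iff.mp (h ▸ iInf_le Jn 1))

lemma GenData.Tower.X_sub_C_mem (T : G.Tower 𝒟 Jn) (n : ℕ) :
    (MvPowerSeries.X none - MvPowerSeries.C G.ϖ : G.S) ∈ Jn n := by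
  rcases Nat.eq_zero_or_pos n with rfl | hn
  · rw [T.zero]; exact Submodule.mem_top
  · obtain ⟨_, _, _, _, h, _⟩ := T.adm n hn
    exact h

lemma GenData.Tower.X_sub_C_mem_iInf (T : G.Tower 𝒟 Jn) :
    (MvPowerSeries.X none - MvPowerSeries.C G.ϖ : G.S) ∈ ⨅ m, Jn m :=
  (Ideal.mem_iInf).2 fun n => T.X_sub_C_mem n

lemma GenData.Tower.sup_pow (T : G.Tower 𝒟 Jn) (n : ℕ) : (⨅ m, Jn m) ⊔ G.XX ^ n = Jn n :=
  mittagLeffler_sup_pow G.XX Jn T.pow T.step n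

/-- The factor map between two proper quotients of `S` is a local homomorphism. -/
lemma isLocalHom_factor {J J' : Ideal G.S} (hle : J' ≤ J) [IsLocalRing (G.S ⧸ J)]
    [IsLocalRing (G.S ⧸ J')] :
    IsLocalHom ((Ideal.Quotient.factorₐ 𝒪 hle : G.S ⧸ J' →ₐ[𝒪] G.S ⧸ J) : G.S ⧸ J' →+* G.S ⧸ J) :=
  IsLocalHom.of_surjective _ (Ideal.Quotient.factor_surjective hle)

/-- Pushing a witness for `J'` forward to a bigger proper ideal `J` gives a witness for `J`. -/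
theorem witness_factor (h𝒟 : GaloisRep.IsDeformationCondition 𝒪 𝒟) {J J' : Ideal G.S}
    (hle : J' ≤ J) [IsLocalRing (G.S ⧸ J)] [IsLocalRing (G.S ⧸ J')]
    [IsLocalHom (algebraMap 𝒪 (G.S ⧸ J))] [IsLocalHom (algebraMap 𝒪 (G.S ⧸ J'))]
    (hJ : J ≠ ⊤) (hJ' : J' ≠ ⊤) {N : ℕ} (hN : G.XX ^ N ≤ J')
    (hϖ : (MvPowerSeries.X none - MvPowerSeries.C G.ϖ : G.S) ∈ J')
    (r' : GQ →* M2 (G.S ⧸ J')) (hr' : IsDLift 𝒪 𝒟 rbar (G.S ⧸ J') r')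
    (hc' : G.IsClassifying (Ideal.Quotient.mkₐ 𝒪 J') r') :
    IsDLift 𝒪 𝒟 rbar (G.S ⧸ J)
        (mapRep ((Ideal.Quotient.factorₐ 𝒪 hle : G.S ⧸ J' →ₐ[𝒪] G.S ⧸ J) : G.S ⧸ J' →+* G.S ⧸ J) r') ∧
      G.IsClassifying (Ideal.Quotient.mkₐ 𝒪 J)
        (mapRep ((Ideal.Quotient.factorₐ 𝒪 hle : G.S ⧸ J' →ₐ[𝒪] G.S ⧸ J) : G.S ⧸ J' →+* G.S ⧸ J) r') := by
  have hloc := isLocalHom_factor (𝒪 := 𝒪) (G := G) hle
  have hA' := G.testAlgebra_quotient hJ' hN hϖ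
  have hA := G.testAlgebra_quotient hJ (hN.trans hle) (hle hϖ)
  refine ⟨IsDLift.mapRep h𝒟 hA' hA (Ideal.Quotient.factorₐ 𝒪 hle) hloc hr', ?_⟩
  have := classifying_comp G (Ideal.Quotient.factorₐ 𝒪 hle) r' _ hc'
  rwa [Ideal.Quotient.factorₐ_comp_mk] at this

/-- (LIM) the universal lift together with its level-wise description. -/
theorem GenData.Tower.exists_univ (h𝒟 : GaloisRep.IsDeformationCondition 𝒪 𝒟)
    (hB3 : G.HasB3 𝒟) (T : G.Tower 𝒟 Jn) :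
    ∃ ru : GQ →* M2 (G.S ⧸ ⨅ m, Jn m), ∀ n (hn : 1 ≤ n),
      haveI := isLocalRing_quotient (Jn n) (T.ne_top hn)
      haveI := isLocalHom_algebraMap_quotient (Jn n) (T.ne_top hn)
      ∃ rn : GQ →* M2 (G.S ⧸ Jn n), IsDLift 𝒪 𝒟 rbar (G.S ⧸ Jn n) rn ∧
        G.IsClassifying (Ideal.Quotient.mkₐ 𝒪 (Jn n)) rn ∧
        (n = 1 → ∀ σ, (ru σ).map (Ideal.Quotient.factor (iInf_le Jn n)) = rn σ) ∧
        ∃ X : M2 (G.S ⧸ Jn n), IsUnit X.det ∧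
          ∀ σ, X * (ru σ).map (Ideal.Quotient.factor (iInf_le Jn n)) = rn σ * X := by
  classical
  -- witnesses at every level
  have hw : ∀ n, ∃ rn : GQ →* M2 (G.S ⧸ Jn n), ∀ hn : 1 ≤ n,
      haveI := isLocalRing_quotient (Jn n) (T.ne_top hn)
      haveI := isLocalHom_algebraMap_quotient (Jn n) (T.ne_top hn)
      IsDLift 𝒪 𝒟 rbar (G.S ⧸ Jn n) rn ∧ G.IsClassifying (Ideal.Quotient.mkₐ 𝒪 (Jn n)) rn := by
    intro n
    by_cases hn : 1 ≤ n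
    · obtain ⟨h1, h2, N, hN, hϖ, r, hr, hc⟩ := T.adm n hn
      exact ⟨r, fun _ => ⟨hr, hc⟩⟩
    · exact ⟨1, fun h => absurd h hn⟩
  choose rfam hrfam using hw
  have hanti := antitone_of_eq_succ_sup_pow G.XX Jn T.step
  have hconj : ∀ n, 1 ≤ n → ∃ X : M2 (G.S ⧸ Jn n), IsUnit X.det ∧ ∀ γ,
      X * (rfam (n + 1) γ).map (Ideal.Quotient.factor (hanti (Nat.le_succ n))) = rfam n γ * X := by
    intro n hn
    have hn1 : 1 ≤ n + 1 := Nat.le_succ_of_le hn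
    haveI := isLocalRing_quotient (Jn n) (T.ne_top hn)
    haveI := isLocalHom_algebraMap_quotient (Jn n) (T.ne_top hn)
    haveI := isLocalRing_quotient (Jn (n + 1)) (T.ne_top hn1)
    haveI := isLocalHom_algebraMap_quotient (Jn (n + 1)) (T.ne_top hn1)
    obtain ⟨hr, hc⟩ := hrfam n hn
    obtain ⟨hr', hc'⟩ := hrfam (n + 1) hn1
    obtain ⟨hr'', hc''⟩ := witness_factor h𝒟 (hanti (Nat.le_succ n)) (T.ne_top hn) (T.ne_top hn1)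
      (T.pow (n + 1)) (T.X_sub_C_mem (n + 1)) (rfam (n + 1)) hr' hc'
    exact hB3 inferInstance inferInstance ⟨n, T.pow n⟩
      (T.X_sub_C_mem n) _ _ hr'' hr hc'' hc
  obtain ⟨ru, hru1, hrun⟩ := exists_limit_rep_strong G.XX Jn T.pow T.step
    (fun n hn => isLocalRing_quotient (Jn n) (T.ne_top hn)) rfam hconj
  refine ⟨ru, fun n hn => ?_⟩
  obtain ⟨hr, hc⟩ := hrfam n hn
  refine ⟨rfam n, hr, hc, ?_, hrun n hn⟩
  rintro rfl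
  exact hru1

end

end Fermat.Agent.S53x
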