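import Fermat.Agent.S53x.Universal2
import Fermat.Agent.S53x.RingR
import Fermat.Agent.S53x.LimitRep
import Fermat.Agent.S53x.Bridge

/-!
# S53 assembly, part 3: the universal lift is a D-lift over `R` and satisfies `UA`
-/

set_option autoImplicit false
set_option linter.unusedSectionVars false
set_option linter.style.haveILetI false

namespace Fermat.Agent.S53x

open IsLocalRing MvPowerSeries

section mat

variable {A B : Type} [CommRing A] [CommRing B]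

lemma uv_trace_eq_of_conj {X a b : M2 A} (hX : IsUnit X.det) (h : X * a = b * X) :
    a.trace = b.trace := by
  have hXu : IsUnit X := (Matrix.isUnit_iff_isUnit_det X).mpr hX
  obtain ⟨u, rfl⟩ := hXu
  have : a = (↑u⁻¹ : M2 A) * (b * (u : M2 A)) := by
    rw [← h, ← mul_assoc, Units.inv_mul, one_mul]
  rw [this, Matrix.trace_mul_comm, mul_assoc, Units.mul_inv, mul_one]

lemma uv_map_conj (f : A →+* B) {X a b : M2 A} (h : X * a = b * X) :
    X.map f * a.map f = b.map f * X.map f := by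
  rw [← Matrix.map_mul, ← Matrix.map_mul, h]

lemma uv_isUnit_det_map (f : A →+* B) {X : M2 A} (hX : IsUnit X.det) : IsUnit (X.map f).det := by
  have : (X.map f).det = f X.det := by
    rw [RingHom.map_det]; rfl
  rw [this]; exact hX.map f

lemma uv_eq_one_of_conj_one {X a : M2 A} (hX : IsUnit X.det) (h : X * a = 1 * X) : a = 1 := by
  have hXu : IsUnit X := (Matrix.isUnit_iff_isUnit_det X).mpr hX
  obtain ⟨u, rfl⟩ := hXu
  rw [one_mul] at h
  calc a = (↑u⁻¹ : M2 A) * ((u : M2 A) * a) := by rw [← mul_assoc, Units.inv_mul, one_mul]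
    _ = 1 := by rw [h, Units.inv_mul]

end mat

end Fermat.Agent.S53x

namespace Fermat.Agent.S53x

open IsLocalRing MvPowerSeries

section

variable {𝒪 : Type} [CommRing 𝒪] [IsDomain 𝒪] [IsDiscreteValuationRing 𝒪]
  [IsAdicComplete (maximalIdeal 𝒪) 𝒪] [Finite (ResidueField 𝒪)]
variable {𝒟 : ∀ ⦃A : Type⦄ [CommRing A] [IsLocalRing A] [Algebra 𝒪 A], GaloisRepAdic A → Prop}
variable {rbar : GQ →* M2 (ResidueField 𝒪)} {G : GenData 𝒪 rbar} {Jn : ℕ → Ideal G.S}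

lemma GenData.Tower.isTower (T : G.Tower 𝒟 Jn) : G.IsTower Jn :=
  ⟨T.pow, T.step, fun n _ => T.X_sub_C_mem n, T.ne_top le_rfl⟩

/-- The level-wise description of a lift `ru` over `R = S ⧸ ⨅ Jn`. -/
def GenData.Tower.Levelwise (T : G.Tower 𝒟 Jn) (ru : GQ →* M2 (G.S ⧸ ⨅ m, Jn m)) : Prop :=
  ∀ n (hn : 1 ≤ n),
    haveI := isLocalRing_quotient (Jn n) (T.ne_top hn)
    haveI := isLocalHom_algebraMap_quotient (Jn n) (T.ne_top hn)
    ∃ rn : GQ →* M2 (G.S ⧸ Jn n), IsDLift 𝒪 𝒟 rbar (G.S ⧸ Jn n) rn ∧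
      G.IsClassifying (Ideal.Quotient.mkₐ 𝒪 (Jn n)) rn ∧
      (n = 1 → ∀ σ, (ru σ).map (Ideal.Quotient.factor (iInf_le Jn n)) = rn σ) ∧
      ∃ X : M2 (G.S ⧸ Jn n), IsUnit X.det ∧
        ∀ σ, X * (ru σ).map (Ideal.Quotient.factor (iInf_le Jn n)) = rn σ * X

variable (T : G.Tower 𝒟 Jn) {ru : GQ →* M2 (G.S ⧸ ⨅ m, Jn m)}

/-- (U1) adic continuity -/
theorem GenData.Tower.adicCont_of_levelwise [IsLocalRing (G.S ⧸ ⨅ m, Jn m)]
    (hru : T.Levelwise ru) : AdicCont ru := by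
  have hT := T.isTower
  refine LR.adicCont_of_finLevelMod_ker
    (fun n => ((G.projR Jn n : (G.S ⧸ ⨅ m, Jn m) →ₐ[𝒪] G.S ⧸ Jn n) :
      (G.S ⧸ ⨅ m, Jn m) →+* G.S ⧸ Jn n))
    (fun n => le_of_eq (hT.ker_projR n)) ?_
  intro n
  rcases Nat.eq_zero_or_pos n with rfl | hn
  · -- the level-0 quotient is the zero ring
    haveI : Subsingleton (G.S ⧸ Jn 0) := by
      rw [T.zero]; exact Ideal.Quotient.subsingleton_iff.mpr rfl
    refine ⟨⊥, inferInstance, fun σ _ i j => ?_⟩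
    rw [Ideal.mem_bot]; exact Subsingleton.elim _ _
  · haveI := isLocalRing_quotient (Jn n) (T.ne_top hn)
    haveI := isLocalHom_algebraMap_quotient (Jn n) (T.ne_top hn)
    obtain ⟨rn, hrn, -, -, X, hX, hconj⟩ := hru n hn
    have hfin : FinLevelMod rn ⊥ :=
      finLevelMod_bot_of_adicCont (hT.maximalIdeal_level_pow_eq_bot hn) hrn.cont
    obtain ⟨L, hL, hLr⟩ := hfin
    refine ⟨L, hL, fun σ hσ i j => ?_⟩
    have h1 : rn σ = 1 := mf_eq_one_of_finLevelMod_bot (hLr σ hσ)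
    have h2 : mapRep ((G.projR Jn n : (G.S ⧸ ⨅ m, Jn m) →ₐ[𝒪] G.S ⧸ Jn n) :
        (G.S ⧸ ⨅ m, Jn m) →+* G.S ⧸ Jn n) ru σ = 1 := by
      apply uv_eq_one_of_conj_one hX
      rw [← h1]
      exact hconj σ
    rw [h2, sub_self]
    exact Ideal.zero_mem _

end

end Fermat.Agent.S53x

namespace Fermat.Agent.S53x

open IsLocalRing MvPowerSeries

section

variable {𝒪 : Type} [CommRing 𝒪] [IsDomain 𝒪] [IsDiscreteValuationRing 𝒪]
  [IsAdicComplete (maximalIdeal 𝒪) 𝒪] [Finite (ResidueField 𝒪)]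
variable {𝒟 : ∀ ⦃A : Type⦄ [CommRing A] [IsLocalRing A] [Algebra 𝒪 A], GaloisRepAdic A → Prop}
variable {rbar : GQ →* M2 (ResidueField 𝒪)} {G : GenData 𝒪 rbar} {Jn : ℕ → Ideal G.S}
variable (T : G.Tower 𝒟 Jn) {ru : GQ →* M2 (G.S ⧸ ⨅ m, Jn m)}

/-- (U2) strictness -/
theorem GenData.Tower.strict_of_levelwise [IsLocalRing (G.S ⧸ ⨅ m, Jn m)]
    [IsLocalHom (algebraMap 𝒪 (G.S ⧸ ⨅ m, Jn m))] (hru : T.Levelwise ru) :
    ∀ σ, (ru σ).map (residue (G.S ⧸ ⨅ m, Jn m)) =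
      (rbar σ).map (ResidueField.map (algebraMap 𝒪 (G.S ⧸ ⨅ m, Jn m))) := by
  have hT := T.isTower
  haveI := isLocalRing_quotient (Jn 1) (T.ne_top le_rfl)
  haveI := isLocalHom_algebraMap_quotient (Jn 1) (T.ne_top le_rfl)
  obtain ⟨r1, hr1, -, hex, -⟩ := hru 1 le_rfl
  haveI : IsLocalHom ((G.projR Jn 1 : (G.S ⧸ ⨅ m, Jn m) →ₐ[𝒪] G.S ⧸ Jn 1) :
      (G.S ⧸ ⨅ m, Jn m) →+* G.S ⧸ Jn 1) := hT.isLocalHom_projR le_rfl
  apply strict_of_strict_mapRep rbar (G.projR Jn 1) ru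
  intro σ
  have : mapRep ((G.projR Jn 1 : (G.S ⧸ ⨅ m, Jn m) →ₐ[𝒪] G.S ⧸ Jn 1) :
      (G.S ⧸ ⨅ m, Jn m) →+* G.S ⧸ Jn 1) ru σ = r1 σ := hex rfl σ
  rw [this]
  exact hr1.strict σ

/-- (U4) the quotient map is the classifying map of the universal lift -/
theorem GenData.Tower.classifying_of_levelwise (hru : T.Levelwise ru) :
    G.IsClassifying (Ideal.Quotient.mkₐ 𝒪 (⨅ m, Jn m)) ru := by
  have hT := T.isTower
  constructor
  · have h := T.X_sub_C_mem_iInf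
    have : (Ideal.Quotient.mk (⨅ m, Jn m)) (MvPowerSeries.X none) =
        (Ideal.Quotient.mk (⨅ m, Jn m)) (MvPowerSeries.C G.ϖ) := (Ideal.Quotient.eq).mpr h
    exact this
  · intro i
    apply G.projR_ext Jn
    intro n
    rcases Nat.eq_zero_or_pos n with rfl | hn
    · haveI : Subsingleton (G.S ⧸ Jn 0) := by
        rw [T.zero]; exact Ideal.Quotient.subsingleton_iff.mpr rfl
      exact Subsingleton.elim _ _
    · haveI := isLocalRing_quotient (Jn n) (T.ne_top hn)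
      haveI := isLocalHom_algebraMap_quotient (Jn n) (T.ne_top hn)
      obtain ⟨rn, -, hcn, -, X, hX, hconj⟩ := hru n hn
      have h1 : G.projR Jn n ((Ideal.Quotient.mkₐ 𝒪 (⨅ m, Jn m)) (MvPowerSeries.X (some i))) =
          (Ideal.Quotient.mkₐ 𝒪 (Jn n)) (MvPowerSeries.X (some i)) := rfl
      rw [h1, hcn.2 i, map_sub, AlgHom.commutes]
      congr 1
      have h2 : G.projR Jn n (ru (G.g i)).trace =
          ((ru (G.g i)).map (Ideal.Quotient.factor (iInf_le Jn n))).trace := by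
        simp only [Matrix.trace, Matrix.diag, Matrix.map_apply, map_sum]
        rfl
      rw [h2]
      exact (uv_trace_eq_of_conj hX (hconj (G.g i))).symm

end

end Fermat.Agent.S53x

namespace Fermat.Agent.S53x

open IsLocalRing MvPowerSeries

section

variable {𝒪 : Type} [CommRing 𝒪] [IsDomain 𝒪] [IsDiscreteValuationRing 𝒪]
  [IsAdicComplete (maximalIdeal 𝒪) 𝒪] [Finite (ResidueField 𝒪)]
variable {𝒟 : ∀ ⦃A : Type⦄ [CommRing A] [IsLocalRing A] [Algebra 𝒪 A], GaloisRepAdic A → Prop}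
variable {rbar : GQ →* M2 (ResidueField 𝒪)} {G : GenData 𝒪 rbar} {Jn : ℕ → Ideal G.S}
variable (T : G.Tower 𝒟 Jn) {ru : GQ →* M2 (G.S ⧸ ⨅ m, Jn m)}

/-- (U3) type `𝒟` of the universal lift, via `iff_forall_surjective`. -/
theorem GenData.Tower.isD_of_levelwise (h𝒟 : GaloisRep.IsDeformationCondition 𝒪 𝒟)
    [IsLocalRing (G.S ⧸ ⨅ m, Jn m)] [IsAdicComplete (maximalIdeal (G.S ⧸ ⨅ m, Jn m)) (G.S ⧸ ⨅ m, Jn m)]
    (hloc : IsLocalHom (algebraMap 𝒪 (G.S ⧸ ⨅ m, Jn m)))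
    (hru : T.Levelwise ru) (hcont : AdicCont ru) : 𝒟 (ofMat ru hcont) := by
  have hT := T.isTower
  refine (h𝒟.iff_forall_surjective (A := G.S ⧸ ⨅ m, Jn m) hloc
    (residue_comp_algebraMap_quotient_surjective _) (ofMat ru hcont)).mpr ?_
  intro B _ _ _ hB q hq _
  haveI : IsArtinianRing B := hB.isArtinian
  obtain ⟨N, hN⟩ : ∃ N : ℕ, maximalIdeal B ^ N = ⊥ := by
    obtain ⟨N, hN⟩ := IsArtinianRing.isNilpotent_jacobson_bot (R := B)
    rw [IsLocalRing.jacobson_eq_maximalIdeal ⊥ bot_ne_top] at hN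
    exact ⟨N, hN⟩
  set n := N + 1 with hn_def
  have hn : 1 ≤ n := Nat.le_add_left 1 N
  haveI := isLocalRing_quotient (Jn n) (T.ne_top hn)
  haveI := isLocalHom_algebraMap_quotient (Jn n) (T.ne_top hn)
  have hAn : GaloisRep.IsArtinianTestAlgebra 𝒪 (G.S ⧸ Jn n) := hT.isArtinianTestAlgebra_level hn
  obtain ⟨rn, hrn, -, -, X, hX, hconj⟩ := hru n hn
  -- `q` kills the kernel of the projection
  have hqmax : ∀ x ∈ maximalIdeal (G.S ⧸ ⨅ m, Jn m), q x ∈ maximalIdeal B := by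
    intro x hx
    exact haveI := hq; map_nonunit (q : (G.S ⧸ ⨅ m, Jn m) →+* B) x hx
  have hker : ∀ x, G.projR Jn n x = 0 → q x = 0 := by
    intro x hx
    have hx' : x ∈ maximalIdeal (G.S ⧸ ⨅ m, Jn m) ^ n := (hT.projR_eq_zero_iff n x).mp hx
    have h1 : (maximalIdeal (G.S ⧸ ⨅ m, Jn m) ^ n).map (q : (G.S ⧸ ⨅ m, Jn m) →+* B) ≤
        maximalIdeal B ^ n := by
      rw [Ideal.map_pow]
      exact Ideal.pow_right_mono (Ideal.map_le_iff_le_comap.mpr fun a ha =>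
        Ideal.mem_comap.mpr (hqmax a ha)) n
    have h2 : q x ∈ maximalIdeal B ^ n := h1 (Ideal.mem_map_of_mem _ hx')
    rw [hn_def, pow_succ, hN, Ideal.bot_mul] at h2
    exact h2
  -- the induced map from the level
  let q' : (G.S ⧸ Jn n) →ₐ[𝒪] B :=
    Ideal.Quotient.liftₐ (Jn n) (q.comp (Ideal.Quotient.mkₐ 𝒪 (⨅ m, Jn m))) (fun a ha => by
      apply hker
      show (Ideal.Quotient.mk (Jn n)) a = 0
      exact Ideal.Quotient.eq_zero_iff_mem.mpr ha)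
  have hq'proj : ∀ x, q' (G.projR Jn n x) = q x := by
    intro x
    obtain ⟨s, rfl⟩ := Ideal.Quotient.mk_surjective x
    rfl
  have hq' : IsLocalHom (q' : (G.S ⧸ Jn n) →+* B) := by
    constructor
    intro y hy
    obtain ⟨x, rfl⟩ := G.projR_surjective Jn n y
    have hy' : IsUnit (q x) := by rw [← hq'proj x]; exact hy
    have hxu : IsUnit x := haveI := hq; isUnit_of_map_unit (q : (G.S ⧸ ⨅ m, Jn m) →+* B) x hy'
    exact hxu.map _
  -- the level-`n` reduction of `ru`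
  have hprojloc : IsLocalHom ((G.projR Jn n : (G.S ⧸ ⨅ m, Jn m) →ₐ[𝒪] G.S ⧸ Jn n) :
      (G.S ⧸ ⨅ m, Jn m) →+* G.S ⧸ Jn n) := hT.isLocalHom_projR hn
  set r'n := mapRep ((G.projR Jn n : (G.S ⧸ ⨅ m, Jn m) →ₐ[𝒪] G.S ⧸ Jn n) :
      (G.S ⧸ ⨅ m, Jn m) →+* G.S ⧸ Jn n) ru with hr'n
  have hr'ncont : AdicCont r'n := adicCont_mapRep _ hprojloc hcont
  have hDr'n : 𝒟 (ofMat r'n hr'ncont) :=
    h𝒟.of_isEquiv hAn
      (mf_isEquiv_symm (ofMat_isEquiv_of_conj hr'ncont hrn.cont X hX hconj)) hrn.isD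
  have hD1 : 𝒟 ((ofMat r'n hr'ncont).baseChangeAlong (q' : (G.S ⧸ Jn n) →+* B) hq') :=
    h𝒟.baseChangeAlong hAn hB q' hq' hDr'n
  -- compare
  have e1 : ((ofMat r'n hr'ncont).baseChangeAlong (q' : (G.S ⧸ Jn n) →+* B) hq').IsEquiv
      (ofMat (mapRep (q' : (G.S ⧸ Jn n) →+* B) r'n) (adicCont_mapRep _ hq' hr'ncont)) :=
    baseChangeAlong_ofMat _ hq' r'n hr'ncont
  have e2 : ((ofMat ru hcont).baseChangeAlong (q : (G.S ⧸ ⨅ m, Jn m) →+* B) hq).IsEquiv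
      (ofMat (mapRep (q : (G.S ⧸ ⨅ m, Jn m) →+* B) ru) (adicCont_mapRep _ hq hcont)) :=
    baseChangeAlong_ofMat _ hq ru hcont
  have e3 : (ofMat (mapRep (q' : (G.S ⧸ Jn n) →+* B) r'n) (adicCont_mapRep _ hq' hr'ncont)).IsEquiv
      (ofMat (mapRep (q : (G.S ⧸ ⨅ m, Jn m) →+* B) ru) (adicCont_mapRep _ hq hcont)) := by
    apply ofMat_isEquiv_of_eq
    intro σ
    ext i j
    simp only [mapRep_apply, Matrix.map_apply, hr'n]
    exact hq'proj _
  exact h𝒟.of_isEquiv hB (mf_isEquiv_trans e1 (mf_isEquiv_trans e3 (mf_isEquiv_symm e2))) hD1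

end

end Fermat.Agent.S53x
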